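import Fermat.Prelude.Def_GoodReductionJacobian_RelativeGroupLawKernel
import Mathlib.AlgebraicGeometry.ResidueField
import Mathlib.AlgebraicGeometry.AffineScheme
import Mathlib.Algebra.TrivSqZeroExt.Basic
import Mathlib.RingTheory.Unramified.Basic
import Mathlib.RingTheory.Kaehler.Basic
import Mathlib.LinearAlgebra.Dual.Lemmas

/-!
# Points over square-zero extensions of a field

For a commutative relative group law, the kernel of reduction on dual-number points has no
`n`-torsion when `n` is invertible.  Consequently the residue field of a point is formally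
unramified over the residue field of its `n`-th multiple.
-/

set_option autoImplicit false

universe u

open CategoryTheory AlgebraicGeometry NeronModelInfra GoodReductionJacobian

namespace Fermat.Agent.AVTorsion

variable {K : Type u} [CommRing K] {A : Scheme.{u}} {f : A ⟶ Spec (CommRingCat.of K)}

/-- The structure morphism of the spectrum of a `K`-algebra. -/
noncomputable abbrev specStr (K R : Type u) [CommRing K] [CommRing R] [Algebra K R] :
    Spec (CommRingCat.of R) ⟶ Spec (CommRingCat.of K) :=
  Spec.map (CommRingCat.ofHom (algebraMap K R))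

/-- Points of `A` with values in a `K`-algebra. -/
abbrev Pts (f : A ⟶ Spec (CommRingCat.of K)) (R : Type u) [CommRing R] [Algebra K R] :=
  SchemeHomOver (specStr K R) f

/-- Functoriality of points. -/
noncomputable def pullPt {R S : Type u} [CommRing R] [CommRing S] [Algebra K R] [Algebra K S]
    (φ : R →ₐ[K] S) (x : Pts f R) : Pts f S :=
  schemeHomOverComp (Spec.map (CommRingCat.ofHom φ.toRingHom))
    (by rw [← Spec.map_comp, ← CommRingCat.ofHom_comp, φ.toRingHom_eq_coe, φ.comp_algebraMap]) x

section functoriality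

variable {R S T : Type u} [CommRing R] [CommRing S] [CommRing T] [Algebra K R] [Algebra K S]
  [Algebra K T] (G : RelativeGroupLaw K f)

@[simp]
theorem pullPt_coe (φ : R →ₐ[K] S) (x : Pts f R) :
    (pullPt φ x).1 = Spec.map (CommRingCat.ofHom φ.toRingHom) ≫ x.1 := rfl

/-- Pullback along the identity. -/
theorem pullPt_id (x : Pts f R) : pullPt (AlgHom.id K R) x = x :=
  Subtype.ext (by
    rw [pullPt_coe]
    exact (congrArg (· ≫ x.1) (Spec.map_id _)).trans (Category.id_comp _))

/-- Pullback of points is functorial. -/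
theorem pullPt_pullPt (φ : R →ₐ[K] S) (ψ : S →ₐ[K] T) (x : Pts f R) :
    pullPt ψ (pullPt φ x) = pullPt (ψ.comp φ) x :=
  Subtype.ext (by
    simp only [pullPt_coe]
    rw [← Category.assoc, ← Spec.map_comp, ← CommRingCat.ofHom_comp]
    rfl)

/-- Pullback respects the group law. -/
theorem pullPt_mul (φ : R →ₐ[K] S) (x y : Pts f R) :
    pullPt φ (G.mul _ x y) = G.mul _ (pullPt φ x) (pullPt φ y) :=
  G.mul_natural _ _ _ _ x y

/-- Pullback respects the origin. -/
theorem pullPt_one (φ : R →ₐ[K] S) : pullPt φ (G.one (specStr K R)) = G.one (specStr K S) :=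
  G.one_natural _ _ _ _

/-- Pullback respects multiples. -/
theorem pullPt_nsmul (φ : R →ₐ[K] S) (n : ℕ) (x : Pts f R) :
    pullPt φ (G.nsmul _ n x) = G.nsmul _ n (pullPt φ x) :=
  G.nsmul_natural _ _ _ _ n x

theorem pullPt_inv (φ : R →ₐ[K] S) (x : Pts f R) :
    pullPt φ (G.inv _ x) = G.inv _ (pullPt φ x) := by
  let : Group (Pts f S) := G.pointGroup _
  refine eq_inv_of_mul_eq_one_left (a := pullPt φ (G.inv _ x)) (b := pullPt φ x) ?_
  show G.mul _ _ _ = G.one _
  rw [← pullPt_mul, G.inv_mul_cancel, pullPt_one]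

/-- A monomorphic point determines the map it is pulled back along. -/
theorem pullPt_injective_of_mono {x : Pts f R} [Mono x.1] {φ ψ : R →ₐ[K] S}
    (h : pullPt φ x = pullPt ψ x) : φ = ψ := by
  have h1 := congrArg Subtype.val h
  simp only [pullPt_coe, cancel_mono] at h1
  exact AlgHom.coe_ringHom_injective
    (congrArg CommRingCat.Hom.hom (Spec.map_injective h1))

end functoriality

/-- Morphisms out of a one-point affine scheme are determined by their composites with a jointly
injective family of ring maps. -/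
theorem eq_of_forall_specMap_comp_eq {X : Scheme.{u}} {R : Type u} [CommRing R]
    [Subsingleton (PrimeSpectrum R)] {ι : Type*} {S : ι → Type u} [∀ i, CommRing (S i)]
    [∀ i, Nontrivial (S i)] (i₀ : ι) (π : ∀ i, R →+* S i)
    (hπ : ∀ r r' : R, (∀ i, π i r = π i r') → r = r')
    (x y : Spec (CommRingCat.of R) ⟶ X)
    (h : ∀ i, Spec.map (CommRingCat.ofHom (π i)) ≫ x = Spec.map (CommRingCat.ofHom (π i)) ≫ y) :
    x = y := by
  have hs : Subsingleton ↥(Spec (CommRingCat.of R)) :=
    inferInstanceAs (Subsingleton (PrimeSpectrum R))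
  have hne : Nonempty ↥(Spec (CommRingCat.of (S i₀))) :=
    inferInstanceAs (Nonempty (PrimeSpectrum (S i₀)))
  obtain ⟨q⟩ := hne
  set p := Spec.map (CommRingCat.ofHom (π i₀)) q with hp
  have hxy : x p = y p := by
    simpa [hp] using congrArg (fun g => g.base q) (h i₀)
  obtain ⟨U, hU, hpU, -⟩ :=
    exists_isAffineOpen_mem_and_subset (x := x p) (U := ⊤) trivial
  have hmem : ∀ z : Spec (CommRingCat.of R) ⟶ X, z p = x p →
      Set.range z ⊆ Set.range hU.fromSpec := by
    rintro z hz _ ⟨w, rfl⟩
    rw [hU.range_fromSpec, Subsingleton.elim w p, hz]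
    exact hpU
  have hx := IsOpenImmersion.lift_fac hU.fromSpec x (hmem x rfl)
  have hy := IsOpenImmersion.lift_fac hU.fromSpec y (hmem y hxy.symm)
  obtain ⟨a, ha⟩ := Spec.map_surjective (IsOpenImmersion.lift hU.fromSpec x (hmem x rfl))
  obtain ⟨b, hb⟩ := Spec.map_surjective (IsOpenImmersion.lift hU.fromSpec y (hmem y hxy.symm))
  rw [← ha] at hx
  rw [← hb] at hy
  have hab : a = b := by
    ext r
    refine hπ _ _ fun i => ?_
    have h1 : Spec.map (CommRingCat.ofHom (π i)) ≫ Spec.map a =
        Spec.map (CommRingCat.ofHom (π i)) ≫ Spec.map b := by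
      rw [← cancel_mono hU.fromSpec, Category.assoc, Category.assoc, hx, hy, h i]
    rw [← Spec.map_comp, ← Spec.map_comp] at h1
    exact DFunLike.congr_fun (congrArg CommRingCat.Hom.hom (Spec.map_injective h1)) r
  rw [← hx, ← hy, hab]

/-- Points over a field inject into those over a nontrivial algebra over it. -/
theorem pullPt_injective_of_injective {R S : Type u} [Field R] [CommRing S] [Nontrivial S]
    [Algebra K R] [Algebra K S] (φ : R →ₐ[K] S) :
    Function.Injective (pullPt (f := f) φ) := fun x y h =>
  Subtype.ext (eq_of_forall_specMap_comp_eq (S := fun _ : Unit => S) ()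
    (fun _ => φ.toRingHom) (fun _ _ h' => φ.toRingHom.injective (h' ())) x.1 y.1
    fun _ => congrArg Subtype.val h)

section SquareZero

open TrivSqZeroExt

variable {L : Type u} [Field L] [Algebra K L]

instance subsingleton_primeSpectrum_tsze (M : Type u) [AddCommGroup M] [Module L M]
    [Module Lᵐᵒᵖ M] [IsCentralScalar L M] :
    Subsingleton (PrimeSpectrum (TrivSqZeroExt L M)) := by
  have key : ∀ (p : PrimeSpectrum (TrivSqZeroExt L M)) (z : TrivSqZeroExt L M),
      z ∈ p.asIdeal ↔ z.fst = 0 := by
    intro p z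
    refine ⟨fun hz => by_contra fun hne => p.isPrime.ne_top
      (Ideal.eq_top_of_isUnit_mem _ hz (isUnit_iff_isUnit_fst.2 (Ne.isUnit hne))), fun hz => ?_⟩
    have hzz : z * z = 0 := by ext <;> simp [hz]
    exact (p.isPrime.mem_or_mem (hzz ▸ p.asIdeal.zero_mem : z * z ∈ p.asIdeal)).elim id id
  exact ⟨fun p q => PrimeSpectrum.ext (Ideal.ext fun z => (key p z).trans (key q z).symm)⟩

variable {M N : Type u} [AddCommGroup M] [Module L M] [Module Lᵐᵒᵖ M] [IsCentralScalar L M]
  [Module K M] [IsScalarTower K L M] [IsScalarTower K Lᵐᵒᵖ M]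
  [AddCommGroup N] [Module L N] [Module Lᵐᵒᵖ N] [IsCentralScalar L N]
  [Module K N] [IsScalarTower K L N] [IsScalarTower K Lᵐᵒᵖ N]

/-- The map of square-zero extensions induced by a linear map, over `K`. -/
noncomputable def sqMap (l : M →ₗ[L] N) : TrivSqZeroExt L M →ₐ[K] TrivSqZeroExt L N :=
  AlgHom.restrictScalars K (TrivSqZeroExt.map l)

theorem sqMap_zero :
    sqMap (K := K) (0 : M →ₗ[L] N) = (inlAlgHom K L N).comp (fstHom K L M) := by
  refine AlgHom.ext fun z => ?_
  ext <;> simp [sqMap]

theorem sqMap_comp_sqMap {P : Type u} [AddCommGroup P] [Module L P] [Module Lᵐᵒᵖ P]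
    [IsCentralScalar L P] [Module K P] [IsScalarTower K L P] [IsScalarTower K Lᵐᵒᵖ P] (l : M →ₗ[L] N) (m : N →ₗ[L] P) :
    (sqMap (K := K) m).comp (sqMap l) = sqMap (m ∘ₗ l) := by
  refine AlgHom.ext fun z => ?_
  ext <;> simp [sqMap]

theorem sqMap_id : sqMap (K := K) (LinearMap.id : M →ₗ[L] M) = AlgHom.id K _ := by
  refine AlgHom.ext fun z => ?_
  ext <;> simp [sqMap]

variable (G : RelativeGroupLaw K f)

theorem pullPt_sqMap_zero {v : Pts f (TrivSqZeroExt L M)}
    (hv : pullPt (fstHom K L M) v = G.one _) :
    pullPt (sqMap (0 : M →ₗ[L] N)) v = G.one _ := by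
  rw [sqMap_zero, ← pullPt_pullPt, hv, pullPt_one]

/-- On the kernel of reduction the group law is vector addition. -/
theorem pullPt_sqMap_natCast {v : Pts f (TrivSqZeroExt L L)}
    (hv : pullPt (fstHom K L L) v = G.one _) (n : ℕ) :
    pullPt (sqMap ((n : L) • (LinearMap.id : L →ₗ[L] L))) v = G.nsmul _ n v := by
  induction n with
  | zero => rw [Nat.cast_zero, zero_smul, pullPt_sqMap_zero G hv]; rfl
  | succ n ih =>
    set l : L →ₗ[L] L := (n : L) • LinearMap.id with hl
    set z := pullPt (sqMap (l.prod LinearMap.id)) v with hz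
    set z' := G.mul _ (pullPt (sqMap (LinearMap.inl L L L)) (G.nsmul _ n v))
      (pullPt (sqMap (LinearMap.inr L L L)) v) with hz'
    have hzz : z = z' := by
      apply Subtype.ext
      refine eq_of_forall_specMap_comp_eq (S := fun _ : Bool => TrivSqZeroExt L L) true
        (fun b => bif b then (sqMap (K := K) (LinearMap.fst L L L)).toRingHom
          else (sqMap (K := K) (LinearMap.snd L L L)).toRingHom) ?_ z.1 z'.1 ?_
      · intro r r' h
        have h1 := h true
        have h2 := h false
        simp [sqMap, TrivSqZeroExt.ext_iff] at h1 h2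
        ext
        · exact h1.1
        · exact h1.2
        · exact h2.2
      · intro b
        cases b
        · refine congrArg Subtype.val (?_ : pullPt (sqMap (LinearMap.snd L L L)) z =
            pullPt (sqMap (LinearMap.snd L L L)) z')
          simp only [hz, hz', pullPt_mul, pullPt_pullPt, sqMap_comp_sqMap,
            LinearMap.snd_prod, sqMap_id, pullPt_id, LinearMap.snd_comp_inl,
            LinearMap.snd_comp_inr]
          rw [← ih, pullPt_pullPt, sqMap_comp_sqMap, LinearMap.zero_comp,
            pullPt_sqMap_zero G hv, G.one_mul]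
        · refine congrArg Subtype.val (?_ : pullPt (sqMap (LinearMap.fst L L L)) z =
            pullPt (sqMap (LinearMap.fst L L L)) z')
          simp only [hz, hz', pullPt_mul, pullPt_pullPt, sqMap_comp_sqMap,
            LinearMap.fst_prod, sqMap_id, pullPt_id, LinearMap.fst_comp_inl,
            LinearMap.fst_comp_inr]
          rw [pullPt_sqMap_zero G hv, G.mul_one, hl, ih]
    have h := congrArg (pullPt (sqMap (LinearMap.fst L L L + LinearMap.snd L L L))) hzz
    have e : (LinearMap.fst L L L + LinearMap.snd L L L) ∘ₗ l.prod LinearMap.id =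
        ((n + 1 : ℕ) : L) • LinearMap.id := by
      refine LinearMap.ext fun t => ?_
      simp [hl, add_mul]
    have e1 : (LinearMap.fst L L L + LinearMap.snd L L L) ∘ₗ LinearMap.inl L L L = LinearMap.id :=
      LinearMap.ext fun t => by simp
    have e2 : (LinearMap.fst L L L + LinearMap.snd L L L) ∘ₗ LinearMap.inr L L L = LinearMap.id :=
      LinearMap.ext fun t => by simp
    simpa only [hz, hz', pullPt_mul, pullPt_pullPt, sqMap_comp_sqMap, e, e1, e2, sqMap_id,
      pullPt_id, RelativeGroupLaw.nsmul_succ] using h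

/-- The kernel of reduction on dual-number points has no `n`-torsion for invertible `n`. -/
theorem eq_one_of_nsmul_eq_one {v : Pts f (TrivSqZeroExt L L)}
    (hv : pullPt (fstHom K L L) v = G.one _) {n : ℕ} (hn : (n : L) ≠ 0)
    (h : G.nsmul _ n v = G.one _) : v = G.one _ := by
  rw [← pullPt_sqMap_natCast G hv] at h
  have h' := congrArg (pullPt (sqMap ((n : L)⁻¹ • (LinearMap.id : L →ₗ[L] L)))) h
  rw [pullPt_pullPt, sqMap_comp_sqMap, pullPt_one] at h'
  simpa [LinearMap.smul_comp, LinearMap.comp_smul, smul_smul, hn, sqMap_id, pullPt_id] using h'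

variable {κ : Type u} [Field κ] [Algebra K κ] [Algebra κ L] [IsScalarTower K κ L]

/-- A mono point is determined infinitesimally by its `n`-th multiple. -/
theorem derivation_eq_zero (hc : G.IsCommutative) (Q : Pts f L) [Mono Q.1] {n : ℕ}
    (hn : (n : L) ≠ 0) (P : Pts f κ)
    (hP : pullPt (IsScalarTower.toAlgHom K κ L) P = G.nsmul _ n Q)
    (D : Derivation κ L L) : D = 0 := by
  let φ : L →ₐ[K] TrivSqZeroExt L L :=
    AlgHom.ofLinearMap
      { toFun := fun a => inl a + inr (D a)
        map_add' := fun a b => by ext <;> simp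
        map_smul' := fun c a => by
          ext <;> simp [Derivation.map_smul_of_tower] }
      (by ext <;> simp)
      (fun a b => by ext <;> simp [Derivation.leibniz, mul_comm])
  have hφ : φ.comp (IsScalarTower.toAlgHom K κ L) =
      (inlAlgHom K L L).comp (IsScalarTower.toAlgHom K κ L) := by
    refine AlgHom.ext fun c => ?_
    ext <;> simp [φ]
  let : CommGroup (Pts f (TrivSqZeroExt L L)) :=
    { G.pointGroup _ with mul_comm := hc.mul_comm _ }
  have hpow : ∀ (x : Pts f (TrivSqZeroExt L L)) (m : ℕ), G.nsmul _ m x = x ^ m := by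
    intro x m
    induction m with
    | zero => exact (pow_zero x).symm
    | succ m ih => rw [pow_succ, RelativeGroupLaw.nsmul_succ, ih]; rfl
  set a := pullPt φ Q with ha
  set b := pullPt (inlAlgHom K L L) Q with hb
  have hab : a ^ n = b ^ n := by
    rw [← hpow, ← hpow, ha, hb, ← pullPt_nsmul, ← pullPt_nsmul, ← hP, pullPt_pullPt,
      pullPt_pullPt, hφ]
  have hfst : pullPt (fstHom K L L) (a * b⁻¹) = G.one _ := by
    show pullPt _ (G.mul _ a (G.inv _ b)) = _
    rw [pullPt_mul, pullPt_inv, ha, hb, pullPt_pullPt, pullPt_pullPt]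
    have e : (fstHom K L L).comp φ = (fstHom K L L).comp (inlAlgHom K L L) :=
      AlgHom.ext fun x => by simp [φ]
    rw [e, G.mul_inv_cancel]
  have h1 : a * b⁻¹ = 1 := eq_one_of_nsmul_eq_one G hfst hn (by
    show G.nsmul _ n (a * b⁻¹) = (1 : Pts f (TrivSqZeroExt L L))
    rw [hpow, mul_pow, inv_pow, hab, mul_inv_cancel])
  have h2 : φ = inlAlgHom K L L := pullPt_injective_of_mono (mul_inv_eq_one.1 h1)
  refine Derivation.ext fun x => ?_
  have := congrArg TrivSqZeroExt.snd (DFunLike.congr_fun h2 x)
  simpa [φ] using this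

/-- The residue field of a point is formally unramified over that of its `n`-th multiple. -/
theorem formallyUnramified_of_nsmul (hc : G.IsCommutative) (Q : Pts f L) [Mono Q.1] {n : ℕ}
    (hn : (n : L) ≠ 0) (P : Pts f κ)
    (hP : pullPt (IsScalarTower.toAlgHom K κ L) P = G.nsmul _ n Q) :
    Algebra.FormallyUnramified κ L := by
  refine ⟨subsingleton_of_forall_eq 0 fun ω => ?_⟩
  refine (Module.forall_dual_apply_eq_zero_iff L ω).1 fun l => ?_
  have h0 : l.compDer (KaehlerDifferential.D κ L) = 0 := derivation_eq_zero G hc Q hn P hP _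
  have hω : ω ∈ Submodule.span L (Set.range (KaehlerDifferential.D κ L)) := by
    rw [KaehlerDifferential.span_range_derivation]; exact Submodule.mem_top
  induction hω using Submodule.span_induction with
  | mem y hy => obtain ⟨a, rfl⟩ := hy; exact DFunLike.congr_fun h0 a
  | zero => exact map_zero l
  | add y z _ _ hy hz => rw [map_add, hy, hz, add_zero]
  | smul c y _ hy => rw [map_smul, hy, smul_zero]

end SquareZero

end Fermat.Agent.AVTorsion
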