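import Fermat.Prelude.Def_JacJ1Iface
import Fermat.Prelude.Def_GoodReductionJacobian_RelativeGroupLawKernel
import Fermat.Agent.AVTorsion.TangentKernel

set_option autoImplicit false

/-!
# Abelian varieties and their groups of points

An abelian variety over a field `k`, packaged with a commutative relative group law and its
dimension, and the functorial groups of its points with values in `k`-algebras.
-/

universe u

noncomputable section

open CategoryTheory AlgebraicGeometry NeronModelInfra GoodReductionJacobian

namespace Fermat.Agent.AVTorsion

/-- An abelian variety of dimension `dim` over `k`, with a chosen commutative group law. -/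
structure AbVar (k : Type u) [Field k] where
  /-- the underlying scheme -/
  carrier : Scheme.{u}
  /-- the structure morphism -/
  toBase : carrier ⟶ Spec (CommRingCat.of k)
  /-- the group law -/
  law : RelativeGroupLaw k toBase
  comm : law.IsCommutative
  bundle : AbelianSchemePropertyBundle k toBase
  /-- the relative dimension -/
  dim : ℕ
  smoothDim : SmoothOfRelativeDimension dim toBase

namespace AbVar

variable {k : Type u} [Field k] (X : AbVar k)

instance : Smooth X.toBase := X.bundle.smooth
instance : IsProper X.toBase := X.bundle.proper
instance : SmoothOfRelativeDimension X.dim X.toBase := X.smoothDim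

/-- Points with values in a `k`-algebra. -/
def Pt (R : Type u) [CommRing R] [Algebra k R] : Type u := Pts X.toBase R

variable {X} {R S T : Type u} [CommRing R] [CommRing S] [CommRing T] [Algebra k R] [Algebra k S]
  [Algebra k T]

instance : Add (X.Pt R) := ⟨fun x y => X.law.mul _ x y⟩
instance : Zero (X.Pt R) := ⟨X.law.one _⟩
instance : Neg (X.Pt R) := ⟨fun x => X.law.inv _ x⟩

instance : AddCommGroup (X.Pt R) where
  add_assoc := X.law.mul_assoc _
  zero_add := X.law.one_mul _
  add_zero := X.law.mul_one _
  neg_add_cancel := X.law.inv_mul_cancel _
  add_comm := X.comm _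
  nsmul n x := X.law.nsmul _ n x
  nsmul_zero x := rfl
  nsmul_succ n x := rfl
  zsmul := zsmulRec (nsmul := fun n x => X.law.nsmul _ n x)

/-- The morphism underlying a point. -/
def Pt.hom (x : X.Pt R) : Spec (CommRingCat.of R) ⟶ X.carrier := x.1

/-- A point is a morphism over the base. -/
theorem Pt.hom_comp (x : X.Pt R) : x.hom ≫ X.toBase = specStr k R := x.2

/-- Points with the same underlying morphism are equal. -/
@[ext]
theorem Pt.ext {x y : X.Pt R} (h : x.hom = y.hom) : x = y := Subtype.ext h

/-- A morphism over the base as a point. -/
def Pt.mk (m : Spec (CommRingCat.of R) ⟶ X.carrier) (h : m ≫ X.toBase = specStr k R) : X.Pt R :=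
  ⟨m, h⟩

/-- The morphism underlying a constructed point. -/
@[simp]
theorem Pt.hom_mk (m : Spec (CommRingCat.of R) ⟶ X.carrier) (h : m ≫ X.toBase = specStr k R) :
    (Pt.mk m h : X.Pt R).hom = m := rfl

/-- Functoriality of points, as a homomorphism. -/
def Pt.map (φ : R →ₐ[k] S) : X.Pt R →+ X.Pt S where
  toFun x := pullPt φ x
  map_zero' := pullPt_one X.law φ
  map_add' := pullPt_mul X.law φ

/-- The morphism underlying the image of a point under a map of algebras. -/
theorem Pt.hom_map (φ : R →ₐ[k] S) (x : X.Pt R) :
    (Pt.map φ x).hom = Spec.map (CommRingCat.ofHom φ.toRingHom) ≫ x.hom := rfl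

/-- Pushing a point along the identity does nothing. -/
@[simp]
theorem Pt.map_id (x : X.Pt R) : Pt.map (AlgHom.id k R) x = x := pullPt_id x

/-- Pushing points along algebra maps is functorial. -/
theorem Pt.map_map (φ : R →ₐ[k] S) (ψ : S →ₐ[k] T) (x : X.Pt R) :
    Pt.map ψ (Pt.map φ x) = Pt.map (ψ.comp φ) x := pullPt_pullPt φ ψ x

/-- Pushing points along a map out of a field is injective. -/
theorem Pt.map_injective {L : Type u} [Field L] [Algebra k L] [Nontrivial S] (φ : L →ₐ[k] S) :
    Function.Injective (Pt.map (X := X) φ) := pullPt_injective_of_injective φ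

end AbVar

end Fermat.Agent.AVTorsion
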