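import Fermat.Agent.AVTorsion.LocalRing

set_option autoImplicit false

/-!
# Affine charts of an abelian variety

The function field has transcendence degree `dim X`, local rings are factorial, and the values of
functions at a point generate a field whose transcendence degree drops along the regular functions
vanishing at that point.
-/

universe u

noncomputable section

open CategoryTheory AlgebraicGeometry IsLocalRing

namespace Fermat.Agent.AVTorsion

/-- Dropping dimension along a non-injective surjection of domains. -/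
theorem trdeg_succ_le_of_surjective {k S D : Type u} [Field k] [CommRing S] [IsDomain S]
    [Algebra k S] [CommRing D] [IsDomain D] [Algebra k D] (f : S →ₐ[k] D)
    (hf : Function.Surjective f) {a : S} (ha : a ≠ 0) (hfa : f a = 0) :
    Algebra.trdeg k D + 1 ≤ Algebra.trdeg k S := by
  obtain ⟨t, ht⟩ := exists_isTranscendenceBasis k D
  choose v hv using fun i : t => hf i.1
  have hcard : Cardinal.mk t = Algebra.trdeg k D := ht.cardinalMk_eq_trdeg
  suffices h : AlgebraicIndependent k (fun o : Option t => o.elim a v) by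
    have := h.cardinalMk_le_trdeg
    rwa [Cardinal.mk_option, hcard] at this
  rw [algebraicIndependent_iff]
  intro G hG
  by_contra hG0
  let P := MvPolynomial.optionEquivLeft k t G
  have hP : P ≠ 0 := by simpa [P] using hG0
  obtain ⟨P₁, hP₁, hc⟩ := P.exists_eq_pow_rootMultiplicity_mul_and_not_dvd hP 0
  rw [map_zero, sub_zero] at hP₁ hc
  let ev : Polynomial (MvPolynomial t k) →ₐ[k] S :=
    { Polynomial.eval₂RingHom (MvPolynomial.aeval v).toRingHom a with
      commutes' := fun r => by simp [Polynomial.algebraMap_apply] }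
  have hev : MvPolynomial.aeval (fun o : Option t => o.elim a v) =
      ev.comp (MvPolynomial.optionEquivLeft k t).toAlgHom := by
    refine MvPolynomial.algHom_ext fun i => ?_
    cases i <;> simp [ev]
  have h1 : ev P = 0 := (AlgHom.congr_fun hev G).symm.trans hG
  have hX : ev Polynomial.X = a := by simp [ev]
  rw [hP₁, map_mul, map_pow, hX] at h1
  have h2 : ev P₁ = 0 := (mul_eq_zero.mp h1).resolve_left (pow_ne_zero _ ha)
  have h3 : f (ev P₁) = MvPolynomial.aeval (fun i : t => (i : D)) (P₁.coeff 0) := by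
    have hcomp : f.comp ev = (MvPolynomial.aeval (fun i : t => (i : D))).comp
        ((Polynomial.aeval (0 : MvPolynomial t k)).restrictScalars k) := by
      refine Polynomial.algHom_ext' (MvPolynomial.algHom_ext fun i => ?_) ?_
      · simp [ev, hv]
      · simp [ev, hfa]
    rw [Polynomial.coeff_zero_eq_eval_zero]
    exact AlgHom.congr_fun hcomp P₁
  rw [h2, map_zero] at h3
  exact hc (Polynomial.X_dvd_iff.mpr (ht.1.eq_zero_of_aeval_eq_zero _ h3.symm))

/-- The fractions of a subalgebra inside a field have the same transcendence degree. -/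
theorem trdeg_eq_of_fractions {k L : Type u} [Field k] [Field L] [Algebra k L]
    {D E : Subalgebra k L} (hDE : D ≤ E)
    (h : ∀ e ∈ E, ∃ d ∈ D, d ≠ 0 ∧ e * d ∈ D) : Algebra.trdeg k E = Algebra.trdeg k D := by
  algebraize [(Subalgebra.inclusion hDE).toRingHom]
  have : IsScalarTower k D E := .of_algHom (Subalgebra.inclusion hDE)
  have : FaithfulSMul D E := (faithfulSMul_iff_algebraMap_injective _ _).mpr
    (Subalgebra.inclusion_injective hDE)
  have halg : Algebra.IsAlgebraic D E := ⟨fun e => by
    obtain ⟨d, hd, hd0, hed⟩ := h e e.2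
    refine ⟨Polynomial.C (⟨d, hd⟩ : D) * Polynomial.X - Polynomial.C ⟨_, hed⟩, fun h0 => ?_, ?_⟩
    · have := congrArg (fun q => Polynomial.coeff q 1) h0
      simp [Subtype.ext_iff, hd0] at this
    · rw [map_sub, map_mul, Polynomial.aeval_C, Polynomial.aeval_X, Polynomial.aeval_C, sub_eq_zero]
      exact Subtype.ext (mul_comm d (e : L))⟩
  rw [← trdeg_add_eq k D (A := E), trdeg_eq_zero_iff.mpr halg, add_zero]

namespace AbVar

variable {k : Type u} [Field k] [IsAlgClosed k] (X : AbVar k)

set_option backward.isDefEq.respectTransparency false in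
/-- Germs as a `k`-algebra map. -/
def germAlg (V : X.carrier.Opens) (p : X.carrier) (hp : p ∈ V) :
    Γ(X.carrier, V) →ₐ[k] X.carrier.presheaf.stalk p where
  __ := (X.carrier.presheaf.germ V p hp).hom
  commutes' c := by
    show (X.carrier.presheaf.germ V p hp).hom (X.sectionHom V c) = (X.stalkK p).hom c
    have h : (Scheme.ΓSpecIso (CommRingCat.of k)).inv ≫ X.toBase.appLE ⊤ V le_top ≫
        X.carrier.presheaf.germ V p hp = X.stalkK p := by
      apply Spec.map_injective
      rw [stalkK, Spec.map_preimage]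
      obtain ⟨W, hW, hpW, hWV⟩ := X.carrier.isBasis_affineOpens.exists_subset_of_mem_open
        hp V.isOpen
      obtain ⟨W, hW', rfl⟩ := hW
      rw [← hW'.fromSpecStalk_eq_fromSpecStalk hpW]
      delta IsAffineOpen.fromSpecStalk
      rw [Category.assoc, ← X.carrier.presheaf.germ_res (homOfLE hWV) p hpW]
      rw [← IsAffineOpen.SpecMap_appLE_fromSpec X.toBase (isAffineOpen_top _) hW' le_top,
        Scheme.Hom.appLE_map_assoc, Spec.map_comp, Spec.map_comp, Category.assoc,
        IsAffineOpen.fromSpec_top, Scheme.isoSpec_Spec_inv]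
    exact congrArg (fun χ : CommRingCat.of k ⟶ _ => χ.hom c) h

/-- A nonempty section ring inside the function field. -/
def secFF (V : X.carrier.Opens) (p : X.carrier) (hp : p ∈ V) : Γ(X.carrier, V) →ₐ[k] X.FF :=
  (X.stalkToFF p).comp (X.germAlg V p hp)

theorem secFF_injective (V : X.carrier.Opens) (p : X.carrier) (hp : p ∈ V) :
    Function.Injective (X.secFF V p hp) :=
  (X.stalkToFF_injective p).comp (germ_injective_of_isIntegral X.carrier p hp)

theorem isFractionRing_secFF {V : X.carrier.Opens} (hV : IsAffineOpen V) (p : X.carrier)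
    (hp : p ∈ V) (u : X.FF) :
    ∃ a b, b ≠ 0 ∧ u * X.secFF V p hp b = X.secFF V p hp a := by
  have : Nonempty V := ⟨⟨p, hp⟩⟩
  have := functionField_isFractionRing_of_isAffineOpen X.carrier V hV
  obtain ⟨⟨a, b⟩, h⟩ := IsLocalization.surj (nonZeroDivisors Γ(X.carrier, V)) u
  refine ⟨a, b, nonZeroDivisors.ne_zero b.2, ?_⟩
  have key : ∀ s, X.secFF V p hp s = algebraMap Γ(X.carrier, V) X.FF s := fun s =>
    Scheme.algebraMap_germ_eq_germToFunctionField (X := X.carrier) hp s
  rw [key, key]
  exact h

omit [IsAlgClosed k] in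
/-- Germs are fractions of sections. -/
theorem exists_germ_mul {V : X.carrier.Opens} (hV : IsAffineOpen V) (p : X.carrier) (hp : p ∈ V)
    (o : X.carrier.presheaf.stalk p) :
    ∃ a b, IsUnit (X.germAlg V p hp b) ∧ o * X.germAlg V p hp b = X.germAlg V p hp a := by
  let _ : Algebra Γ(X.carrier, V) (X.carrier.presheaf.stalk p) :=
    X.carrier.presheaf.algebra_section_stalk ⟨p, hp⟩
  have := hV.isLocalization_stalk ⟨p, hp⟩
  obtain ⟨⟨a, b⟩, h⟩ := IsLocalization.surj (hV.primeIdealOf ⟨p, hp⟩).asIdeal.primeCompl o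
  exact ⟨a, b, IsLocalization.map_units _ b, h⟩

/-- The function field has transcendence degree `dim X`. -/
theorem trdeg_FF : Algebra.trdeg k X.FF = X.dim := by
  obtain ⟨V, hV, hp, _, _, _⟩ := X.exists_chart X.gp
  let S := Γ(X.carrier, V)
  have : IsDomain S := Function.Injective.isDomain (X.secFF V _ hp).toRingHom
    (X.secFF_injective V _ hp)
  have := Module.Flat.isTorsionFree (R := MvPolynomial (Fin X.dim) k) (M := S)
  have : FaithfulSMul (MvPolynomial (Fin X.dim) k) S := by
    rw [faithfulSMul_iff_algebraMap_injective, injective_iff_map_eq_zero]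
    intro f hf
    by_contra hne
    have := smul_eq_zero.mp (show f • (1 : S) = 0 by rw [Algebra.smul_def, hf, zero_mul])
    simp [hne] at this
  rw [← trdeg_eq_of_etale (S := S) (k := k) (g := X.dim)]
  let D : Subalgebra k X.FF := (X.secFF V X.gp hp).range
  have h1 := trdeg_eq_of_fractions (D := D) (E := ⊤) le_top fun e _ => by
    obtain ⟨a, b, hb, h⟩ := X.isFractionRing_secFF hV X.gp hp e
    exact ⟨_, ⟨b, rfl⟩, fun h0 => hb (X.secFF_injective V _ hp (h0.trans (map_zero _).symm)),
      ⟨a, h.symm⟩⟩
  rw [← Subalgebra.topEquiv.trdeg_eq, h1]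
  exact ((AlgEquiv.ofInjective _ (X.secFF_injective V _ hp)).trdeg_eq).symm

/-- Every nonempty affine section ring is a domain. -/
theorem isDomain_sections (V : X.carrier.Opens) (p : X.carrier) (hp : p ∈ V) :
    IsDomain Γ(X.carrier, V) :=
  Function.Injective.isDomain (X.secFF V p hp).toRingHom (X.secFF_injective V p hp)

/-- Section rings of affine opens have transcendence degree `dim X`. -/
theorem trdeg_sections {V : X.carrier.Opens} (hV : IsAffineOpen V) (p : X.carrier) (hp : p ∈ V) :
    Algebra.trdeg k Γ(X.carrier, V) = X.dim := by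
  let D : Subalgebra k X.FF := (X.secFF V p hp).range
  have h1 := trdeg_eq_of_fractions (D := D) (E := ⊤) le_top fun e _ => by
    obtain ⟨a, b, hb, h⟩ := X.isFractionRing_secFF hV p hp e
    exact ⟨_, ⟨b, rfl⟩, fun h0 => hb (X.secFF_injective V p hp (h0.trans (map_zero _).symm)),
      ⟨a, h.symm⟩⟩
  exact ((AlgEquiv.ofInjective _ (X.secFF_injective V p hp)).trdeg_eq.trans
    (h1.symm.trans (Subalgebra.topEquiv (R := k) (A := X.FF)).trdeg_eq)).trans X.trdeg_FF

/-- Local rings are factorial. -/
theorem uniqueFactorizationMonoid_localRing (p : X.carrier) :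
    UniqueFactorizationMonoid (X.localRing p) := by
  suffices UniqueFactorizationMonoid (X.carrier.presheaf.stalk p) from
    (X.stalkEquiv p).toMulEquiv.uniqueFactorizationMonoid this
  obtain ⟨V, hV, hp, _, _, _⟩ := X.exists_chart p
  let S := Γ(X.carrier, V)
  have := X.finiteType_chart (V := V)
  have := X.isDomain_sections V p hp
  have : IsNoetherianRing S := Algebra.FiniteType.isNoetherianRing k S
  have := Module.Flat.isTorsionFree (R := MvPolynomial (Fin X.dim) k) (M := S)
  have : FaithfulSMul (MvPolynomial (Fin X.dim) k) S := by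
    rw [faithfulSMul_iff_algebraMap_injective, injective_iff_map_eq_zero]
    intro f hf
    by_contra hne
    have := smul_eq_zero.mp (show f • (1 : S) = 0 by rw [Algebra.smul_def, hf, zero_mul])
    simp [hne] at this
  let P := (hV.primeIdealOf ⟨p, hp⟩).asIdeal
  obtain ⟨M, hM, hPM⟩ := Ideal.exists_le_maximal P (Ideal.IsPrime.ne_top inferInstance)
  obtain ⟨x, rfl⟩ := exists_point_of_isMaximal (k := k) M
  have hufd := uniqueFactorizationMonoid_pointRing (g := X.dim) x
  have hle : (RingHom.ker x).primeCompl ≤ P.primeCompl := fun s hs hs' => hs (hPM hs')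
  let _ : Algebra S (X.carrier.presheaf.stalk p) :=
    X.carrier.presheaf.algebra_section_stalk ⟨p, hp⟩
  have := hV.isLocalization_stalk ⟨p, hp⟩
  let _ : Algebra (PointRing x) (X.carrier.presheaf.stalk p) :=
    IsLocalization.localizationAlgebraOfSubmonoidLe (PointRing x) _
      (RingHom.ker x).primeCompl P.primeCompl hle
  have := IsLocalization.localization_isScalarTower_of_submonoid_le (PointRing x)
    (X.carrier.presheaf.stalk p) (RingHom.ker x).primeCompl P.primeCompl hle
  have := IsLocalization.isLocalization_of_submonoid_le (PointRing x)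
    (X.carrier.presheaf.stalk p) (RingHom.ker x).primeCompl P.primeCompl hle
  refine uniqueFactorizationMonoid_of_isLocalization (R := PointRing x)
    (P.primeCompl.map (algebraMap S (PointRing x))) ?_ _
  rintro _ ⟨s, hs, rfl⟩
  refine mem_nonZeroDivisors_of_ne_zero fun h0 => hs ?_
  have hinj := IsLocalization.injective (PointRing x)
    (M := (RingHom.ker x).primeCompl) fun t ht => mem_nonZeroDivisors_of_ne_zero fun h => ht (by simp [h])
  rw [hinj (h0.trans (map_zero _).symm)]
  exact P.zero_mem

variable {X} {L : Type u} [Field L] [Algebra k L]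

/-- Basic bound: values at a point, the drop along vanishing regular functions. -/
theorem Pt.trdeg_range_le (x : X.Pt L) :
    ∃ (S : Type u) (_ : CommRing S) (_ : Algebra k S) (_ : IsDomain S)
      (φ : S →ₐ[k] X.localRing x.point),
      Algebra.trdeg k S = X.dim ∧ Function.Injective φ ∧
      Algebra.trdeg k x.eval.range = Algebra.trdeg k (x.eval.comp φ).range ∧
      ∀ o, ∃ a b, IsUnit (φ b) ∧ o * φ b = φ a := by
  obtain ⟨V, hV, hp, -⟩ := X.exists_chart x.point
  have hdom := X.isDomain_sections V _ hp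
  refine ⟨Γ(X.carrier, V), inferInstance, inferInstance, hdom,
    (X.stalkEquiv x.point).toAlgHom.comp (X.germAlg V _ hp), X.trdeg_sections hV _ hp,
    (X.stalkEquiv x.point).injective.comp (germ_injective_of_isIntegral X.carrier x.point hp), ?_, ?_⟩
  · refine trdeg_eq_of_fractions (AlgHom.range_comp_le_range _ _) ?_
    rintro _ ⟨u, rfl⟩
    obtain ⟨o, rfl⟩ := (X.stalkEquiv x.point).surjective u
    obtain ⟨a, b, hb, h⟩ := X.exists_germ_mul hV _ hp o
    refine ⟨_, ⟨b, rfl⟩, ((hb.map (X.stalkEquiv x.point)).map x.eval).ne_zero, a, ?_⟩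
    show x.eval (X.stalkEquiv _ (X.germAlg V _ hp a)) =
      x.eval (X.stalkEquiv _ o) * x.eval (X.stalkEquiv _ (X.germAlg V _ hp b))
    rw [← map_mul, ← map_mul, h]
  · intro u
    obtain ⟨o, rfl⟩ := (X.stalkEquiv x.point).surjective u
    obtain ⟨a, b, hb, h⟩ := X.exists_germ_mul hV _ hp o
    refine ⟨a, b, hb.map (X.stalkEquiv x.point), ?_⟩
    show X.stalkEquiv _ o * X.stalkEquiv _ (X.germAlg V _ hp b) = X.stalkEquiv _ _
    rw [← map_mul, h]
    rfl

/-- A nonzero function vanishing at `x` lowers the transcendence degree of the values. -/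
theorem Pt.trdeg_range_succ_le (x : X.Pt L) {a : X.localRing x.point} (ha : a ≠ 0)
    (hxa : x.eval a = 0) : Algebra.trdeg k x.eval.range + 1 ≤ X.dim := by
  obtain ⟨S, _, _, _, φ, hS, hinj, hr, hfr⟩ := x.trdeg_range_le
  obtain ⟨a', b, hb, h⟩ := hfr a
  rw [hr, ← hS]
  refine trdeg_succ_le_of_surjective (x.eval.comp φ).rangeRestrict
    (AlgHom.rangeRestrict_surjective _) (a := a') (fun h0 => ?_) (Subtype.ext ?_)
  · rw [h0, map_zero] at h
    exact ha ((hb.mul_left_eq_zero).mp h)
  · show x.eval (φ a') = 0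
    rw [← h, map_mul, hxa, zero_mul]

/-- Two coprime functions vanishing at `x` lower the transcendence degree by two. -/
theorem Pt.trdeg_range_add_two_le (x : X.Pt L) {a b : X.localRing x.point} (ha : a ≠ 0)
    (hxa : x.eval a = 0) (hxb : x.eval b = 0) (hab : IsRelPrime a b) :
    Algebra.trdeg k x.eval.range + 2 ≤ X.dim := by
  obtain ⟨S, _, _, _, φ, hS, hinj, hr, hfr⟩ := x.trdeg_range_le
  have hufd := X.uniqueFactorizationMonoid_localRing x.point
  obtain ⟨π, hπ, hπa⟩ := WfDvdMonoid.exists_irreducible_factor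
    (fun hu => (hu.map x.eval).ne_zero hxa) ha
  have hπ' : Prime π := UniqueFactorizationMonoid.irreducible_iff_prime.mp hπ
  have hxπ : x.eval π = 0 := by
    by_contra h
    exact hπ.not_isUnit ((x.isUnit_eval_iff π).mp (isUnit_iff_ne_zero.mpr h))
  have hbπ : ¬ π ∣ b := fun h => hπ.not_isUnit (hab hπa h)
  let Q : Ideal S := (Ideal.span {π}).comap φ
  have hπprime : (Ideal.span {π}).IsPrime := (Ideal.span_singleton_prime hπ'.ne_zero).mpr hπ'
  have hQ : Q.IsPrime := Ideal.IsPrime.comap φ
  obtain ⟨aπ, bπ, hbπu, hπ2⟩ := hfr π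
  have haπ : aπ ∈ Q := by
    rw [Ideal.mem_comap, ← hπ2]
    exact Ideal.mul_mem_right _ _ (Ideal.mem_span_singleton_self π)
  have haπ0 : aπ ≠ 0 := fun h0 => hπ.ne_zero (by
    rw [h0, map_zero] at hπ2; exact (hbπu.mul_left_eq_zero).mp hπ2)
  have h1 := trdeg_succ_le_of_surjective (Ideal.Quotient.mkₐ k Q)
    Ideal.Quotient.mk_surjective haπ0 (Ideal.Quotient.eq_zero_iff_mem.mpr haπ)
  have hker : ∀ s ∈ Q, (x.eval.comp φ).rangeRestrict s = 0 := fun s hs => by
    obtain ⟨c, hc⟩ := Ideal.mem_span_singleton.mp (show φ s ∈ Ideal.span {π} from hs)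
    refine Subtype.ext ?_
    show x.eval (φ s) = 0
    rw [hc, map_mul, hxπ, zero_mul]
  obtain ⟨b', bb, hbb, hb2⟩ := hfr b
  have h2 := trdeg_succ_le_of_surjective (Ideal.Quotient.liftₐ Q (x.eval.comp φ).rangeRestrict hker)
    (fun d => by
      obtain ⟨s, rfl⟩ := AlgHom.rangeRestrict_surjective (x.eval.comp φ) d
      exact ⟨Ideal.Quotient.mk Q s, rfl⟩)
    (a := Ideal.Quotient.mk Q b') (fun h0 => by
      have h3 : π ∣ φ b' :=
        Ideal.mem_span_singleton.mp (show φ b' ∈ Ideal.span {π} from
          (Ideal.Quotient.eq_zero_iff_mem (I := Q)).mp h0)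
      rw [← hb2] at h3
      exact hbπ (hbb.dvd_mul_right.mp h3))
    (Subtype.ext (by
      show x.eval (φ b') = 0
      rw [← hb2, map_mul, hxb, zero_mul]))
  rw [hr, ← hS]
  calc _ = Algebra.trdeg k (x.eval.comp φ).range + 1 + 1 := by rw [add_assoc]; norm_num
    _ ≤ Algebra.trdeg k (S ⧸ Q) + 1 := by gcongr
    _ ≤ _ := h1

/-- A point with a full set of independent values is generic. -/
theorem Pt.point_eq_gp (x : X.Pt L) (h : (X.dim : Cardinal) ≤ Algebra.trdeg k x.eval.range) :
    x.point = X.gp := by
  by_contra hne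
  have hmax : ∃ a : X.localRing x.point, a ≠ 0 ∧ x.eval a = 0 := by
    by_contra hall
    push Not at hall
    refine hne ?_
    have hunit : ∀ o : X.carrier.presheaf.stalk x.point, o ≠ 0 → IsUnit o := fun o ho => by
      have h0 : X.stalkEquiv x.point o ≠ 0 := by simpa using ho
      have := (x.isUnit_eval_iff _).mp (isUnit_iff_ne_zero.mpr (hall _ h0))
      simpa using this.map (X.stalkEquiv x.point).symm
    have hz : ∀ I : Ideal (X.carrier.presheaf.stalk x.point), I.IsPrime → I = ⊥ := fun I hI =>
      (Submodule.eq_bot_iff I).mpr fun o ho => by_contra fun hne =>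
        hI.ne_top (Ideal.eq_top_of_isUnit_mem I ho (hunit o hne))
    have hsub : Subsingleton (PrimeSpectrum (X.carrier.presheaf.stalk x.point)) :=
      ⟨fun a b => PrimeSpectrum.ext ((hz _ a.isPrime).trans (hz _ b.isPrime).symm)⟩
    obtain ⟨q, hq⟩ : X.gp ∈ Set.range (X.carrier.fromSpecStalk x.point) := by
      rw [Scheme.range_fromSpecStalk]; exact X.specializes_gp _
    rw [← hq, Subsingleton.elim (α := PrimeSpectrum (X.carrier.presheaf.stalk x.point)) q
      (closedPoint _)]
    exact Scheme.fromSpecStalk_closedPoint.symm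
  obtain ⟨a, ha, hxa⟩ := hmax
  have h1 := x.trdeg_range_succ_le ha hxa
  have : (X.dim : Cardinal.{u}) + 1 ≤ X.dim := le_trans (by gcongr) h1
  have : X.dim + 1 ≤ X.dim := by exact_mod_cast this
  omega

end AbVar

end Fermat.Agent.AVTorsion
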