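import Mathlib.FieldTheory.Relrank
import Mathlib.FieldTheory.LinearDisjoint
import Mathlib.FieldTheory.IntermediateField.Adjoin.Basic
import Mathlib.FieldTheory.IntermediateField.Adjoin.Algebra

/-!
# Degrees over `k(t)` under algebraic extension of the constants

If `E` is a subfield of `M` containing two elements `t, t'` transcendental over `k`, and `F` is an
algebraic extension of `k`, the degrees `[E : k(t)]` and `[EF : F(t)]` are proportional.
-/

set_option autoImplicit false

open IntermediateField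

namespace Fermat.Agent.AVTorsion

variable {k M : Type*} [Field k] [Field M] [Algebra k M]

/-- A finite set spanning a field over a subfield keeps spanning after taking composites. -/
theorem extendScalars_sup_eq_span {P Q : IntermediateField k M} (hPQ : P ≤ Q)
    (Y : IntermediateField k M) {s : Finset M} (hs : (s : Set M) ⊆ Q)
    (hQ : (Q : Set M) ⊆ Submodule.span P (s : Set M)) :
    (extendScalars (sup_le_sup_right hPQ Y)).toSubalgebra.toSubmodule =
      Submodule.span ↥(P ⊔ Y) (s : Set M) := by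
  set X := P ⊔ Y with hX
  have hPX : ∀ x ∈ Submodule.span P (s : Set M), x ∈ Submodule.span X (s : Set M) := by
    intro x hx
    induction hx using Submodule.span_induction with
    | mem y hy => exact Submodule.subset_span hy
    | zero => exact zero_mem _
    | add y z _ _ hy hz => exact add_mem hy hz
    | smul c y _ hy =>
      exact Submodule.smul_mem _ (⟨c, (le_sup_left : P ≤ X) c.2⟩ : X) hy
  set V := Submodule.span X (s : Set M) with hV
  have h1 : (1 : M) ∈ V := hPX _ (hQ Q.one_mem)
  have hmul : ∀ x y, x ∈ V → y ∈ V → x * y ∈ V := by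
    intro x y hx hy
    induction hx using Submodule.span_induction with
    | mem a ha =>
      induction hy using Submodule.span_induction with
      | mem b hb => exact hPX _ (hQ (Q.mul_mem (hs ha) (hs hb)))
      | zero => simp
      | add b c _ _ hb hc => rw [mul_add]; exact add_mem hb hc
      | smul c b _ hb => rw [mul_smul_comm]; exact V.smul_mem c hb
    | zero => simp
    | add a b _ _ ha hb => rw [add_mul]; exact add_mem ha hb
    | smul c a _ ha => rw [smul_mul_assoc]; exact V.smul_mem c ha
  let S : Subalgebra X M := V.toSubalgebra h1 hmul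
  have : Module.Finite X V := Module.Finite.span_of_finite _ s.finite_toSet
  have : FiniteDimensional X S := this
  let W : IntermediateField X M := S.toIntermediateField' (fieldOfFiniteDimensional X S).toIsField
  have hW : (Q ⊔ Y : IntermediateField k M) ≤ W.restrictScalars k := by
    refine sup_le (fun x hx => show x ∈ V from hPX _ (hQ hx)) (fun y hy => ?_)
    exact W.algebraMap_mem ⟨y, (le_sup_right : Y ≤ X) hy⟩
  apply le_antisymm
  · intro x hx
    exact (show x ∈ V from hW hx)
  · rw [hV, Submodule.span_le]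
    intro x hx
    exact (le_sup_left : Q ≤ Q ⊔ Y) (hs hx)

/-- A relative degree after adjoining `Y` is the dimension of the span of the same generators. -/
theorem relfinrank_sup_eq_finrank_span {P Q : IntermediateField k M} (hPQ : P ≤ Q)
    (Y : IntermediateField k M) {s : Finset M} (hs : (s : Set M) ⊆ Q)
    (hQ : (Q : Set M) ⊆ Submodule.span P (s : Set M)) :
    relfinrank (P ⊔ Y) (Q ⊔ Y) = Module.finrank ↥(P ⊔ Y) (Submodule.span ↥(P ⊔ Y) (s : Set M)) := by
  rw [relfinrank_eq_finrank_of_le (sup_le_sup_right hPQ Y),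
    ← extendScalars_sup_eq_span hPQ Y hs hQ]
  rfl

/-- A finite set spans a space of the same dimension over a sufficiently large subfield. -/
theorem exists_finrank_span_eq (P F : IntermediateField k M) [Algebra.IsAlgebraic k F]
    (s : Finset M) :
    ∃ F₁ ≤ F, FiniteDimensional k F₁ ∧ ∀ F₂, F₁ ≤ F₂ → F₂ ≤ F →
      Module.finrank ↥(P ⊔ F₂) (Submodule.span ↥(P ⊔ F₂) (s : Set M)) =
        Module.finrank ↥(P ⊔ F) (Submodule.span ↥(P ⊔ F) (s : Set M)) := by
  classical
  obtain ⟨b, hbs, hspan, hli⟩ := exists_linearIndependent ↥(P ⊔ F) (s : Set M)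
  have hbfin : b.Finite := s.finite_toSet.subset hbs
  -- coefficients of `s` in terms of `b`
  have hco : ∀ x : s, ∃ c : M →₀ ↥(P ⊔ F), (c.support : Set M) ⊆ b ∧
      c.sum (fun m a => a • m) = (x : M) := by
    intro x
    have hx : (x : M) ∈ Submodule.span ↥(P ⊔ F) b := hspan ▸ Submodule.subset_span x.2
    obtain ⟨c, hc, hcx⟩ := Submodule.mem_span_set.1 hx
    exact ⟨c, hc, hcx⟩
  choose c hc hcx using hco
  -- a finite subset of `F` over which everything is defined
  have hfin : ∀ z : ↥(P ⊔ F), ∃ T : Finset M, (T : Set M) ⊆ F ∧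
      (z : M) ∈ P ⊔ adjoin k (T : Set M) := by
    rintro ⟨z, hz⟩
    have hz' : z ∈ adjoin k ((P : Set M) ∪ F) := by
      rw [adjoin_union, adjoin_self, adjoin_self]
      exact hz
    obtain ⟨T, hT, hzT⟩ := exists_finset_of_mem_adjoin hz'
    refine ⟨T.filter (· ∈ F), fun x hx => (Finset.mem_filter.1 hx).2, ?_⟩
    refine (adjoin_le_iff.2 fun x hx => ?_ : adjoin k (T : Set M) ≤ _) hzT
    by_cases hxF : x ∈ F
    · exact (le_sup_right : _ ≤ P ⊔ adjoin k _)
        (subset_adjoin k _ (Finset.mem_filter.2 ⟨hx, hxF⟩))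
    · exact (le_sup_left : P ≤ P ⊔ adjoin k _) ((hT hx).resolve_right hxF)
  choose T hTF hT using hfin
  let U : Finset M := (Finset.univ : Finset s).biUnion fun x =>
    (c x).support.biUnion fun m => T (c x m)
  have hUF : (U : Set M) ⊆ F := by
    intro u hu
    simp only [U, Finset.mem_coe, Finset.mem_biUnion] at hu
    obtain ⟨x, -, m, -, hu⟩ := hu
    exact hTF _ hu
  refine ⟨adjoin k (U : Set M), adjoin_le_iff.2 hUF,
    finiteDimensional_adjoin fun u hu => ?_, fun F₂ h₁ h₂ => ?_⟩
  · exact (isIntegral_algHom_iff F.val Subtype.val_injective).2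
      (Algebra.IsIntegral.isIntegral (⟨u, hUF hu⟩ : F))
  · have hsub : P ⊔ F₂ ≤ P ⊔ F := sup_le_sup_left h₂ P
    have hmem : ∀ x : s, (x : M) ∈ Submodule.span ↥(P ⊔ F₂) b := by
      intro x
      rw [← hcx x]
      refine Submodule.sum_mem _ fun m hm => ?_
      have hcm : ((c x m : ↥(P ⊔ F)) : M) ∈ P ⊔ F₂ := by
        refine (sup_le le_sup_left ((adjoin.mono k _ _ ?_).trans (h₁.trans le_sup_right)) :
          P ⊔ adjoin k _ ≤ P ⊔ F₂) (hT (c x m))
        intro u hu
        simp only [U, Finset.mem_coe, Finset.mem_biUnion]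
        exact ⟨x, Finset.mem_univ _, m, hm, hu⟩
      exact Submodule.smul_mem (Submodule.span ↥(P ⊔ F₂) b) (⟨_, hcm⟩ : ↥(P ⊔ F₂))
        (Submodule.subset_span (hc x hm))
    have heq : Submodule.span ↥(P ⊔ F₂) (s : Set M) = Submodule.span ↥(P ⊔ F₂) b :=
      le_antisymm (Submodule.span_le.2 fun x hx => hmem ⟨x, hx⟩) (Submodule.span_mono hbs)
    have hli₂ : LinearIndependent ↥(P ⊔ F₂) ((↑) : b → M) := by
      let i : ↥(P ⊔ F₂) →+* ↥(P ⊔ F) := (inclusion hsub).toRingHom
      let : Algebra ↥(P ⊔ F₂) ↥(P ⊔ F) := i.toAlgebra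
      have : IsScalarTower ↥(P ⊔ F₂) ↥(P ⊔ F) M := IsScalarTower.of_algebraMap_eq' rfl
      exact hli.restrict_scalars
        fun x y h => i.injective (by simpa [Algebra.smul_def, i, RingHom.algebraMap_toAlgebra] using h)
    have : Fintype b := hbfin.fintype
    rw [heq, ← hspan, finrank_span_set_eq_card hli₂, finrank_span_set_eq_card hli]

/-- A transcendental element stays of the same degree under finite extension of constants. -/
theorem relfinrank_adjoin_sup {t : M} (ht : Transcendental k t) (F₁ : IntermediateField k M)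
    [FiniteDimensional k F₁] :
    relfinrank k⟮t⟯ (k⟮t⟯ ⊔ F₁) = Module.finrank k F₁ := by
  classical
  have hld : F₁.LinearDisjoint k⟮t⟯ := by
    let a := Module.finBasis k F₁
    refine LinearDisjoint.of_basis_left a ?_
    rw [Fintype.linearIndependent_iff]
    intro g hg
    have hg' : ∀ i, ∃ r s : Polynomial k, (g i : M) = Polynomial.aeval t r / Polynomial.aeval t s :=
      fun i => (mem_adjoin_simple_iff k _).1 (g i).2
    choose r q hrq using hg'
    by_contra hne
    simp only [not_forall] at hne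
    obtain ⟨i₀, hi₀⟩ := hne
    let J := Finset.univ.filter fun i => g i ≠ 0
    have hq : ∀ i ∈ J, q i ≠ 0 := by
      intro i hi h
      refine (Finset.mem_filter.1 hi).2 (Subtype.ext ?_)
      rw [hrq i, h]
      simp
    have htr : ∀ p : Polynomial k, p ≠ 0 → Polynomial.aeval t p ≠ 0 := fun p hp h => ht ⟨p, hp, h⟩
    -- numerators over a common denominator
    let p : Fin (Module.finrank k F₁) → Polynomial k := fun i =>
      if i ∈ J then r i * ∏ j ∈ J.erase i, q j else 0
    have hp : ∀ i, (g i : M) * ∏ j ∈ J, Polynomial.aeval t (q j) = Polynomial.aeval t (p i) := by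
      intro i
      by_cases hi : i ∈ J
      · simp only [p, if_pos hi, map_mul, map_prod]
        rw [← Finset.mul_prod_erase J _ hi, ← mul_assoc, hrq i,
          div_mul_cancel₀ _ (htr _ (hq i hi))]
      · simp only [p, if_neg hi, map_zero]
        rw [show g i = 0 by simpa [J] using hi]
        simp
    have hsum : ∑ i, (a i : M) * Polynomial.aeval t (p i) = 0 := by
      simp_rw [← hp, ← mul_assoc]
      rw [← Finset.sum_mul]
      have : ∑ i, (g i) • ((a i : F₁) : M) = 0 := hg
      simp only [IntermediateField.smul_def, smul_eq_mul] at this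
      simp_rw [mul_comm ((a _ : F₁) : M)]
      rw [this, zero_mul]
    let Pol : Polynomial F₁ := ∑ i, Polynomial.C (a i) * (p i).map (algebraMap k F₁)
    have hPol : Pol = 0 := by
      by_contra h
      have ht' : Transcendental F₁ t := fun halg =>
        ht (halg.restrictScalars k)
      refine ht' ⟨Pol, h, ?_⟩
      simp only [Pol, map_sum, map_mul, Polynomial.aeval_C, Polynomial.aeval_map_algebraMap]
      exact hsum
    have hi₀J : i₀ ∈ J := Finset.mem_filter.2 ⟨Finset.mem_univ _, hi₀⟩
    have hp0 : p i₀ = 0 := by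
      ext m
      have := congrArg (fun P => P.coeff m) hPol
      simp only [Pol, Polynomial.finsetSum_coeff, Polynomial.coeff_C_mul, Polynomial.coeff_map,
        Polynomial.coeff_zero] at this
      have h := Fintype.linearIndependent_iff.1 a.linearIndependent (fun i => (p i).coeff m)
        (by simpa [Algebra.smul_def, mul_comm] using this) i₀
      simpa using h
    apply hi₀
    apply Subtype.ext
    have := hp i₀
    rw [hp0, map_zero, mul_eq_zero, Finset.prod_eq_zero_iff] at this
    rcases this with h | ⟨j, hj, h⟩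
    · exact h
    · exact (htr _ (hq j hj) h).elim
  rw [relfinrank_eq_finrank_of_le le_sup_left, Module.finrank, Module.finrank,
    ← hld.adjoin_rank_eq_rank_left_of_isAlgebraic_left]
  have e : extendScalars (le_sup_left : k⟮t⟯ ≤ k⟮t⟯ ⊔ F₁) = adjoin k⟮t⟯ (F₁ : Set M) := by
    refine restrictScalars_injective k ?_
    rw [restrictScalars_adjoin_eq_sup, adjoin_self]
    exact SetLike.coe_injective rfl
  rw [e]

/-- Degrees over `k(t)` and over `F(t)` are proportional. -/
theorem relfinrank_mul_relfinrank_comm {E F : IntermediateField k M} [Algebra.IsAlgebraic k F]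
    {t t' : M} (ht : Transcendental k t) (ht' : Transcendental k t') (htE : t ∈ E) (htE' : t' ∈ E)
    (hfin : relfinrank k⟮t⟯ E ≠ 0) (hfin' : relfinrank k⟮t'⟯ E ≠ 0) :
    relfinrank k⟮t⟯ E * relfinrank (k⟮t'⟯ ⊔ F) (E ⊔ F) =
      relfinrank k⟮t'⟯ E * relfinrank (k⟮t⟯ ⊔ F) (E ⊔ F) := by
  classical
  have spanning : ∀ {u : M}, u ∈ E → relfinrank k⟮u⟯ E ≠ 0 →
      ∃ s : Finset M, (s : Set M) ⊆ E ∧ (E : Set M) ⊆ Submodule.span k⟮u⟯ (s : Set M) := by
    intro u hu hne
    have hle : k⟮u⟯ ≤ E := adjoin_simple_le_iff.2 hu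
    rw [relfinrank_eq_finrank_of_le hle] at hne
    have : Module.Finite k⟮u⟯ (extendScalars hle) := Module.finite_of_finrank_pos (pos_of_ne_zero hne)
    let V : Submodule k⟮u⟯ M := (extendScalars hle).toSubalgebra.toSubmodule
    obtain ⟨s, hs⟩ := (Module.Finite.iff_fg (N := V)).1 this
    refine ⟨s, fun x hx => ?_, fun x hx => ?_⟩
    · exact (hs ▸ Submodule.subset_span hx : x ∈ V)
    · show x ∈ Submodule.span k⟮u⟯ (s : Set M)
      rw [hs]
      exact hx
  obtain ⟨s, hsE, hEs⟩ := spanning htE hfin
  obtain ⟨s', hsE', hEs'⟩ := spanning htE' hfin'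
  obtain ⟨F₁, hF₁, hfd, hst⟩ := exists_finrank_span_eq k⟮t⟯ F s
  obtain ⟨F₁', hF₁', hfd', hst'⟩ := exists_finrank_span_eq k⟮t'⟯ F s'
  set G := F₁ ⊔ F₁' with hG
  have hGF : G ≤ F := sup_le hF₁ hF₁'
  have hd := (relfinrank_sup_eq_finrank_span (adjoin_simple_le_iff.2 htE) G hsE hEs).trans
    (hst G le_sup_left hGF)
  rw [← relfinrank_sup_eq_finrank_span (adjoin_simple_le_iff.2 htE) F hsE hEs] at hd
  have hd' := (relfinrank_sup_eq_finrank_span (adjoin_simple_le_iff.2 htE') G hsE' hEs').trans
    (hst' G le_sup_right hGF)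
  rw [← relfinrank_sup_eq_finrank_span (adjoin_simple_le_iff.2 htE') F hsE' hEs'] at hd'
  rw [← hd, ← hd']
  have tower : ∀ {u : M}, u ∈ E → Transcendental k u →
      relfinrank k⟮u⟯ E * relfinrank E (E ⊔ G) =
        Module.finrank k G * relfinrank (k⟮u⟯ ⊔ G) (E ⊔ G) := by
    intro u hu hutr
    rw [relfinrank_mul_relfinrank (adjoin_simple_le_iff.2 hu) le_sup_left,
      ← relfinrank_adjoin_sup hutr G,
      relfinrank_mul_relfinrank le_sup_left (sup_le_sup_right (adjoin_simple_le_iff.2 hu) G)]
  have e := tower htE ht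
  have e' := tower htE' ht'
  have hc : Module.finrank k G ≠ 0 := Module.finrank_pos.ne'
  refine mul_left_cancel₀ hc ?_
  calc Module.finrank k G * (relfinrank k⟮t⟯ E * relfinrank (k⟮t'⟯ ⊔ G) (E ⊔ G))
      = relfinrank k⟮t⟯ E * (Module.finrank k G * relfinrank (k⟮t'⟯ ⊔ G) (E ⊔ G)) := by ring
    _ = relfinrank k⟮t'⟯ E * (relfinrank k⟮t⟯ E * relfinrank E (E ⊔ G)) := by rw [← e']; ring
    _ = Module.finrank k G * (relfinrank k⟮t'⟯ E * relfinrank (k⟮t⟯ ⊔ G) (E ⊔ G)) := by
      rw [e]; ring

end Fermat.Agent.AVTorsion
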