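import Fermat.Agent.AVTorsion.Disjoint
import Mathlib.RingTheory.Flat.TorsionFree

/-!
# Maps and independence on composites of linearly disjoint fields
-/

set_option autoImplicit false

universe u

open scoped TensorProduct
open IntermediateField

namespace Fermat.Agent.AVTorsion

variable {k U : Type u} [Field k] [Field U] [Algebra k U]

/-- The algebraic closure of a subfield inside the ambient field, over the base. -/
noncomputable def algClos (S : IntermediateField k U) : IntermediateField k U :=
  (algebraicClosure S U).restrictScalars k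

/-- The algebraic closure in `U` consists of the algebraic elements. -/
theorem mem_algClos {S : IntermediateField k U} {x : U} :
    x ∈ algClos S ↔ IsAlgebraic S x := mem_algebraicClosure_iff

/-- A field is contained in its algebraic closure. -/
theorem le_algClos (S : IntermediateField k U) : S ≤ algClos S :=
  fun x hx => mem_algClos.2 (isAlgebraic_algebraMap (⟨x, hx⟩ : S))

/-- The algebraic closure is algebraic. -/
theorem algClos_isAlgebraic (S : IntermediateField k U) : ∀ x ∈ algClos S, IsAlgebraic S x :=
  fun _ hx => mem_algClos.1 hx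

instance isAlgClosed_algClos [IsAlgClosed U] (S : IntermediateField k U) :
    IsAlgClosed ↥(algClos S) :=
  (IsAlgClosure.isAlgClosed (R := S) (K := algebraicClosure S U) : IsAlgClosed (algebraicClosure S U))

/-- Elements algebraic over the algebraic closure are in it. -/
theorem mem_algClos_of_isAlgebraic {S T : IntermediateField k U} (hT : T ≤ algClos S) {x : U}
    (hx : IsAlgebraic T x) : x ∈ algClos S := by
  obtain ⟨p, hp, hpx⟩ := hx
  let j : T →+* algebraicClosure S U :=
    (algebraMap T U).codRestrict (algebraicClosure S U).toSubfield fun z => hT z.2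
  have hx' : IsAlgebraic (algebraicClosure S U) x := by
    refine ⟨p.map j, (Polynomial.map_ne_zero_iff fun a b h => ?_).2 hp, ?_⟩
    · exact Subtype.ext (congrArg (fun z : algebraicClosure S U => (z : U)) h)
    · rw [Polynomial.aeval_def, Polynomial.eval₂_map]
      exact hpx
  exact mem_algClos.2 (IsAlgebraic.restrictScalars S hx')

/-- Algebraic closure is monotone. -/
theorem algClos_mono {S T : IntermediateField k U} (h : S ≤ T) : algClos S ≤ algClos T :=
  fun _ hx => mem_algClos_of_isAlgebraic (h.trans (le_algClos T)) (mem_algClos.1 hx)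

/-- Disjointness of algebraic closures. -/
theorem linearDisjoint_algClos [IsAlgClosed k] {S T : IntermediateField k U}
    (h : S.LinearDisjoint T) : (algClos S).LinearDisjoint (algClos T) :=
  ((linearDisjoint_of_algebraic (linearDisjoint_of_algebraic h (le_algClos S)
    (algClos_isAlgebraic S)).symm (le_algClos T) (algClos_isAlgebraic T))).symm

/-- Homomorphisms on subalgebras of linearly disjoint fields glue. -/
theorem exists_hom_sup {A B : IntermediateField k U} (hAB : A.LinearDisjoint B)
    {R S : Subalgebra k U} (hR : R ≤ A.toSubalgebra) (hS : S ≤ B.toSubalgebra)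
    {C : Type u} [CommRing C] [Algebra k C] (πR : R →ₐ[k] C) (πS : S →ₐ[k] C) :
    ∃ π : ↥(R ⊔ S) →ₐ[k] C, (∀ (r : R) (h : (r : U) ∈ R ⊔ S), π ⟨r, h⟩ = πR r) ∧
      ∀ (s : S) (h : (s : U) ∈ R ⊔ S), π ⟨s, h⟩ = πS s := by
  rw [linearDisjoint_iff', Subalgebra.linearDisjoint_iff_injective] at hAB
  let m : R ⊗[k] S →ₐ[k] U := Algebra.TensorProduct.productMap R.val S.val
  have hm : Function.Injective m := by
    let i : R ⊗[k] S →ₐ[k] A.toSubalgebra ⊗[k] B.toSubalgebra :=
      Algebra.TensorProduct.map (Subalgebra.inclusion hR) (Subalgebra.inclusion hS)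
    have hi : Function.Injective i := by
      have : i = (Algebra.TensorProduct.map (AlgHom.id k A.toSubalgebra)
          (Subalgebra.inclusion hS)).comp
          (Algebra.TensorProduct.map (Subalgebra.inclusion hR) (AlgHom.id k S)) :=
        Algebra.TensorProduct.ext' fun a b => by simp [i]
      rw [this]
      exact (Module.Flat.lTensor_preserves_injective_linearMap
          (Subalgebra.inclusion hS).toLinearMap (Subalgebra.inclusion_injective hS)).comp
        (Module.Flat.rTensor_preserves_injective_linearMap
          (Subalgebra.inclusion hR).toLinearMap (Subalgebra.inclusion_injective hR))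
    have hmi : m = (A.toSubalgebra.mulMap B.toSubalgebra).comp i :=
      Algebra.TensorProduct.ext' fun a b => by simp [m, i, Subalgebra.mulMap]; rfl
    rw [hmi]
    exact hAB.comp hi
  have hrange : m.range = R ⊔ S := by
    rw [Algebra.TensorProduct.productMap_range, Subalgebra.range_val, Subalgebra.range_val]
  let e : R ⊗[k] S ≃ₐ[k] ↥(R ⊔ S) :=
    (AlgEquiv.ofInjective m hm).trans (Subalgebra.equivOfEq _ _ hrange)
  let π₀ : R ⊗[k] S →ₐ[k] C := Algebra.TensorProduct.productMap πR πS
  refine ⟨π₀.comp e.symm.toAlgHom, fun r h => ?_, fun s h => ?_⟩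
  · have : e (r ⊗ₜ 1) = ⟨r, h⟩ := Subtype.ext (by simp [e, m])
    simp [← this, π₀]
  · have : e (1 ⊗ₜ s) = ⟨s, h⟩ := Subtype.ext (by simp [e, m])
    simp [← this, π₀]

/-- An algebraically independent family of `X` stays independent over a disjoint field. -/
theorem algebraicIndependent_of_linearDisjoint {M X : IntermediateField k U}
    (h : M.LinearDisjoint X) {ι : Type*} {y : ι → U} (hyX : ∀ i, y i ∈ X)
    (hy : AlgebraicIndependent k y) : AlgebraicIndependent M y := by
  have hU : LinearIndependent k fun d : ι →₀ ℕ => d.prod fun i e => y i ^ e := by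
    have := (MvPolynomial.basisMonomials ι k).linearIndependent.map'
      (MvPolynomial.aeval y).toLinearMap
      (LinearMap.ker_eq_bot.2 (algebraicIndependent_iff_injective_aeval.1 hy))
    have e : (MvPolynomial.aeval y).toLinearMap ∘ (MvPolynomial.basisMonomials ι k) =
        fun d : ι →₀ ℕ => d.prod fun i e => y i ^ e := funext fun d => by
      simp [MvPolynomial.aeval_monomial]
    rw [e] at this
    exact this
  have hli : LinearIndependent k fun d : ι →₀ ℕ => d.prod fun i e => (⟨y i, hyX i⟩ : X) ^ e := by
    refine LinearIndependent.of_comp X.val.toLinearMap ?_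
    convert hU using 1
    funext d
    simp [Finsupp.prod]
  have hM := h.linearIndependent_right hli
  rw [algebraicIndependent_iff]
  intro p hp
  refine MvPolynomial.ext _ _ fun d => ?_
  rw [MvPolynomial.coeff_zero]
  by_cases hd : d ∈ p.support
  · refine linearIndependent_iff'.1 hM p.support (fun d => p.coeff d) ?_ d hd
    rw [MvPolynomial.aeval_def, MvPolynomial.eval₂_eq] at hp
    rw [← hp]
    refine Finset.sum_congr rfl fun d' _ => ?_
    rw [Algebra.smul_def]
    simp [Finsupp.prod]
  · exact MvPolynomial.notMem_support_iff.1 hd

end Fermat.Agent.AVTorsion
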