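import Fermat.Agent.AVTorsion.GenericPoints
import Fermat.Agent.AVTorsion.JoinFields
import Fermat.Agent.AVTorsion.DegreeProportional
import Fermat.Agent.FunctionField.Curve

/-!
# Auxiliary facts on degrees of composites

Finite relative degree means algebraic, transcendence bases generate up to algebraic elements, and
the degree of an element of a function field is a relative degree of subfields.
-/

set_option autoImplicit false

universe u

noncomputable section

open IntermediateField

namespace Fermat.Agent.AVTorsion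

variable {k U : Type u} [Field k] [Field U] [Algebra k U]

theorem isAlgebraic_of_relfinrank_ne_zero {P Q : IntermediateField k U} (h : P ≤ Q)
    (hne : relfinrank P Q ≠ 0) {z : U} (hz : z ∈ Q) : IsAlgebraic P z := by
  rw [relfinrank_eq_finrank_of_le h] at hne
  have : Module.Finite P (extendScalars h) := Module.finite_of_finrank_pos (Nat.pos_of_ne_zero hne)
  exact (Algebra.IsAlgebraic.isAlgebraic (R := P) (⟨z, hz⟩ : extendScalars h)).algHom
    (extendScalars h).val

/-- A nonzero relative degree forces algebraicity. -/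
theorem le_algClos_of_relfinrank_ne_zero {P Q : IntermediateField k U} (h : P ≤ Q)
    (hne : relfinrank P Q ≠ 0) : Q ≤ algClos P :=
  fun _ hz => mem_algClos.2 (isAlgebraic_of_relfinrank_ne_zero h hne hz)

/-- A finitely generated algebraic extension has nonzero relative degree. -/
theorem relfinrank_ne_zero_of_algebraic {P Q : IntermediateField k U} (h : P ≤ Q) {S : Set U}
    (hS : S.Finite) (hQ : Q = P ⊔ adjoin k S) (halg : Q ≤ algClos P) : relfinrank P Q ≠ 0 := by
  have hS' : ∀ z ∈ S, IsIntegral P z := fun z hz => (mem_algClos.1 (halg (hQ ▸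
    (le_sup_right : adjoin k S ≤ P ⊔ adjoin k S) (subset_adjoin k S hz)))).isIntegral
  have : Finite S := hS
  have : FiniteDimensional P (adjoin P S) := finiteDimensional_adjoin hS'
  have e : extendScalars h = adjoin P S := by
    refine restrictScalars_injective k ?_
    rw [restrictScalars_adjoin_eq_sup, extendScalars_restrictScalars]
    exact hQ
  rw [relfinrank_eq_finrank_of_le h, e]
  exact (Module.finrank_pos (R := P) (M := adjoin P S)).ne'

/-- An algebra generated by `S` has transcendence degree at most `#S`. -/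
theorem trdeg_adjoin_le (S : Set U) : Algebra.trdeg k (Algebra.adjoin k S) ≤ Cardinal.mk S := by
  let D := Algebra.adjoin k S
  let S' : Set D := {z | (z : U) ∈ S}
  have hinj : Cardinal.mk S' ≤ Cardinal.mk S :=
    Cardinal.mk_le_of_injective (f := fun z : S' => (⟨(z : D), z.2⟩ : S))
      (fun a b hab => Subtype.ext (Subtype.ext (congrArg (fun z : S => (z : U)) hab)))
  have hall : ∀ z : D, z ∈ Algebra.adjoin k S' := by
    rintro ⟨z, hz⟩
    have hz' : z ∈ (Algebra.adjoin k S').map D.val := by
      rw [AlgHom.map_adjoin]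
      refine (Algebra.adjoin_mono ?_ : Algebra.adjoin k S ≤ _) hz
      intro x hx
      exact ⟨⟨x, Algebra.subset_adjoin hx⟩, hx, rfl⟩
    obtain ⟨w, hw, hwz⟩ := hz'
    exact (Subtype.ext hwz : w = ⟨z, hz⟩) ▸ hw
  have : Algebra.IsAlgebraic (Algebra.adjoin k S') D :=
    ⟨fun z => isAlgebraic_algebraMap (⟨z, hall z⟩ : Algebra.adjoin k S')⟩
  exact (Algebra.IsAlgebraic.trdeg_le_cardinalMk k S').trans hinj

/-- A transcendence basis generates, up to algebraic elements, the image of its field. -/
theorem fieldRange_le_algClos_adjoin {L : Type u} [Field L] [Algebra k L] (e : L →ₐ[k] U)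
    {ι : Type*} {y : ι → L} (hy : IsTranscendenceBasis k y) :
    e.fieldRange ≤ algClos (adjoin k (Set.range (e ∘ y))) := by
  rintro _ ⟨z, rfl⟩
  obtain ⟨p, hp, hpz⟩ := hy.isAlgebraic_field.isAlgebraic z
  let j : adjoin k (Set.range y) →+* adjoin k (Set.range (e ∘ y)) :=
    (e.toRingHom.comp (algebraMap _ L)).codRestrict (adjoin k (Set.range (e ∘ y))).toSubfield
      fun a => by
        have : e (a : L) ∈ (adjoin k (Set.range y)).map e := ⟨a, a.2, rfl⟩
        rw [adjoin_map, ← Set.range_comp] at this
        exact this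
  refine mem_algClos.2 ⟨p.map j, (Polynomial.map_ne_zero_iff j.injective).2 hp, ?_⟩
  rw [Polynomial.aeval_def, Polynomial.eval₂_map]
  show p.eval₂ (e.toRingHom.comp (algebraMap _ L)) (e.toRingHom z) = 0
  rw [← Polynomial.hom_eval₂]
  exact (congrArg e.toRingHom hpz).trans (map_zero _)

/-- The image of a finitely generated field has finitely many generators. -/
theorem exists_finite_generators {L : Type u} [Field L] [Algebra k L] [Algebra.EssFiniteType k L]
    (e : L →ₐ[k] U) : ∃ S : Set U, S.Finite ∧ e.fieldRange = adjoin k S := by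
  obtain ⟨σ, hσ⟩ := (Algebra.essFiniteType_iff k L).1 inferInstance
  refine ⟨e '' σ, σ.finite_toSet.image e, le_antisymm ?_ (adjoin_le_iff.2 ?_)⟩
  · rintro _ ⟨z, rfl⟩
    obtain ⟨t, ht, htu, hzt⟩ := hσ z
    have hmem : ∀ w ∈ Algebra.adjoin k (σ : Set L), e w ∈ adjoin k (e '' σ) := fun w hw => by
      have : e w ∈ (Algebra.adjoin k (σ : Set L)).map e := ⟨w, hw, rfl⟩
      rw [AlgHom.map_adjoin] at this
      exact algebra_adjoin_le_adjoin k _ this
    have ht0 : t ≠ 0 := htu.ne_zero
    show e z ∈ _
    rw [show z = z * t / t from (mul_div_cancel_right₀ z ht0).symm, map_div₀]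
    exact div_mem (hmem _ hzt) (hmem _ ht)
  · rintro _ ⟨w, -, rfl⟩
    exact ⟨w, rfl⟩

/-- Degree of an element inside a subfield of the ambient field. -/
theorem degFun_eq_relfinrank {F : IntermediateField k U} (L : IntermediateField F U) (x : L) :
    FunctionField.degFun F x = relfinrank F⟮(x : U)⟯ L := by
  have h1 : relfinrank F⟮x⟯ ⊤ = Module.finrank F⟮x⟯ L := relfinrank_top_right _
  rw [FunctionField.degFun, ← h1, ← relfinrank_map_map _ _ L.val, adjoin_map, Set.image_singleton,
    ← AlgHom.fieldRange_eq_map, fieldRange_val]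
  rfl

end Fermat.Agent.AVTorsion
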