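import Fermat.Agent.RelJac.DomainTensor
import Mathlib.FieldTheory.LinearDisjoint
import Mathlib.FieldTheory.IsAlgClosed.AlgebraicClosure
import Mathlib.FieldTheory.IntermediateField.Adjoin.Algebra
import Mathlib.RingTheory.Ideal.GoingUp
import Mathlib.RingTheory.Localization.Module
import Mathlib.RingTheory.Flat.Basic

/-!
# Linearly disjoint copies of a field over an algebraically closed field

Over an algebraically closed base, any two fields are linearly disjoint in a suitable common
extension; disjointness passes to algebraic closures and can be exchanged along composites.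
Consequently there are arbitrarily many independent copies of a given field.
-/

set_option autoImplicit false

universe u v w

open scoped TensorProduct
open IntermediateField

namespace Fermat.Agent.AVTorsion

variable {K : Type u} [Field K]

/-- Over an algebraically closed field the tensor product of two field extensions is a domain. -/
theorem isDomain_tensor_field [IsAlgClosed K] (M : Type v) [Field M] [Algebra K M] (L : Type w)
    [Field L] [Algebra K L] : IsDomain (M ⊗[K] L) := by
  classical
  let ι : ∀ S : Subalgebra K L, M ⊗[K] S →ₐ[K] M ⊗[K] L := fun S =>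
    Algebra.TensorProduct.map (AlgHom.id K M) S.val
  have hι : ∀ S : Subalgebra K L, Function.Injective (ι S) := fun S =>
    Module.Flat.lTensor_preserves_injective_linearMap (M := M) S.val.toLinearMap
      Subtype.val_injective
  have mono : ∀ {S T : Subalgebra K L}, S ≤ T → ∀ z, z ∈ (ι S).range → z ∈ (ι T).range := by
    rintro S T hST z ⟨y, rfl⟩
    refine ⟨Algebra.TensorProduct.map (AlgHom.id K M) (Subalgebra.inclusion hST) y, ?_⟩
    have e : (ι T).comp (Algebra.TensorProduct.map (AlgHom.id K M) (Subalgebra.inclusion hST)) =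
        ι S := Algebra.TensorProduct.ext' fun m l => by simp [ι]
    exact DFunLike.congr_fun e y
  have cover : ∀ z : M ⊗[K] L, ∃ S : Subalgebra K L, S.FG ∧ z ∈ (ι S).range := by
    intro z
    induction z using TensorProduct.induction_on with
    | zero => exact ⟨⊥, Subalgebra.fg_bot, zero_mem _⟩
    | tmul m l =>
      refine ⟨Algebra.adjoin K ↑({l} : Finset L), Subalgebra.fg_adjoin_finset _,
        m ⊗ₜ ⟨l, Algebra.subset_adjoin (by simp)⟩, ?_⟩
      simp [ι]
    | add y z hy hz =>
      obtain ⟨S, hS, hy⟩ := hy
      obtain ⟨T, hT, hz⟩ := hz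
      exact ⟨S ⊔ T, hS.sup hT, add_mem (mono le_sup_left _ hy) (mono le_sup_right _ hz)⟩
  have : Nontrivial (M ⊗[K] L) :=
    Algebra.TensorProduct.nontrivial_of_algebraMap_injective_of_isDomain K M L
      (FaithfulSMul.algebraMap_injective K M) (FaithfulSMul.algebraMap_injective K L)
  have : NoZeroDivisors (M ⊗[K] L) := by
    refine ⟨fun {a b} hab => ?_⟩
    obtain ⟨S, hS, ha⟩ := cover a
    obtain ⟨T, hT, hb⟩ := cover b
    obtain ⟨a', rfl⟩ := mono (le_sup_left : S ≤ S ⊔ T) _ ha
    obtain ⟨b', rfl⟩ := mono (le_sup_right : T ≤ S ⊔ T) _ hb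
    have : Algebra.FiniteType K ↥(S ⊔ T) := ⟨(Subalgebra.fg_top _).2 (hS.sup hT)⟩
    have := Fermat.Agent.RelJac.isDomain_tensorProduct (k := K) (A := ↥(S ⊔ T)) M
    have h0 : a' * b' = 0 := hι _ (by simpa using hab)
    rcases mul_eq_zero.1 h0 with h | h <;> simp [h]
  exact NoZeroDivisors.to_isDomain _

/-- A map out of an integral extension domain is injective if it is injective on the base. -/
theorem injective_of_isIntegralElem {A B C : Type*} [CommRing A] [CommRing B] [CommRing C]
    [Nontrivial A] [IsDomain B] (f : A →+* B) (φ : B →+* C) (S : Set B)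
    (hgen : ∀ z, z ∈ Subring.closure (S ∪ Set.range f)) (hS : ∀ x ∈ S, f.IsIntegralElem x)
    (hinj : Function.Injective (φ ∘ f)) : Function.Injective φ := by
  have hf : ∀ z, f.IsIntegralElem z := fun z => by
    have hz := hgen z
    induction hz using Subring.closure_induction with
    | mem x hx =>
      rcases hx with hx | ⟨a, rfl⟩
      · exact hS x hx
      · exact f.isIntegralElem_map
    | zero => exact f.isIntegralElem_zero
    | one => exact f.isIntegralElem_one
    | add x y _ _ hx hy => exact hx.add f hy
    | mul x y _ _ hx hy => exact hx.mul f hy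
    | neg x _ hx => exact hx.neg f
  let : Algebra A B := f.toAlgebra
  have : Algebra.IsIntegral A B := ⟨hf⟩
  refine (RingHom.injective_iff_ker_eq_bot _).2 (Ideal.eq_bot_of_comap_eq_bot (R := A) ?_)
  rw [eq_bot_iff]
  intro x hx
  rw [Ideal.mem_comap, RingHom.mem_ker, RingHom.algebraMap_toAlgebra] at hx
  exact hinj (show φ (f x) = φ (f 0) by rw [map_zero, map_zero, hx])

variable {Ω : Type v} [Field Ω] [Algebra K Ω]

/-- Linear disjointness passes to algebraic extensions of one of the fields. -/
theorem linearDisjoint_of_algebraic [IsAlgClosed K] {M M' L : IntermediateField K Ω}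
    (h : M.LinearDisjoint L) (hle : M ≤ M') (halg : ∀ x ∈ M', IsAlgebraic M x) :
    M'.LinearDisjoint L := by
  rw [linearDisjoint_iff', Subalgebra.linearDisjoint_iff_injective] at h ⊢
  have := isDomain_tensor_field (K := K) M L
  have := isDomain_tensor_field (K := K) M' L
  let incl : M ⊗[K] L →ₐ[K] M' ⊗[K] L :=
    Algebra.TensorProduct.map (inclusion hle) (AlgHom.id K L)
  let φ : M' ⊗[K] L →ₐ[K] Ω := Algebra.TensorProduct.productMap M'.val L.val
  let φ₀ : M ⊗[K] L →ₐ[K] Ω := Algebra.TensorProduct.productMap M.val L.val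
  have hφ : φ.comp incl = φ₀ := by
    refine Algebra.TensorProduct.ext' fun m l => ?_
    simp [φ, φ₀, incl]
  have h₀ : Function.Injective φ₀ := h
  let iL : L →+* M ⊗[K] L := (Algebra.TensorProduct.includeRight (R := K) (A := M) (B := L)).toRingHom
  let iM : M →+* M ⊗[K] L :=
    (Algebra.TensorProduct.includeLeft (R := K) (S := K) (A := M) (B := L)).toRingHom
  let jM : M' →+* M' ⊗[K] L :=
    (Algebra.TensorProduct.includeLeft (R := K) (S := K) (A := M') (B := L)).toRingHom
  refine injective_of_isIntegralElem (A := M ⊗[K] L) (B := M' ⊗[K] L) incl.toRingHom φ.toRingHom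
    (Set.range jM) (fun z => ?_) ?_ (fun x y hxy => h₀ ?_)
  · induction z using TensorProduct.induction_on with
    | zero => exact zero_mem _
    | tmul m l =>
      have e : m ⊗ₜ[K] l = jM m * incl.toRingHom (iL l) := by simp [jM, iL, incl]
      rw [e]
      exact mul_mem (Subring.subset_closure (Or.inl ⟨m, rfl⟩))
        (Subring.subset_closure (Or.inr ⟨iL l, rfl⟩))
    | add y z hy hz => exact add_mem hy hz
  · rintro _ ⟨m, rfl⟩
    let : Algebra M M' := (inclusion hle).toRingHom.toAlgebra
    have : IsScalarTower M M' Ω := IsScalarTower.of_algebraMap_eq' rfl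
    have hm : IsIntegral M m :=
      (isIntegral_algHom_iff (IsScalarTower.toAlgHom M M' Ω) Subtype.val_injective).1
        (halg _ m.2).isIntegral
    obtain ⟨p, hp, hpm⟩ := hm
    refine ⟨p.map iM, hp.map _, ?_⟩
    rw [Polynomial.eval₂_map]
    have hj : incl.toRingHom.comp iM = jM.comp (algebraMap M M') := by
      ext x
      simp [incl, iM, jM]
      rfl
    rw [hj, ← Polynomial.hom_eval₂, hpm, map_zero]
  · exact (DFunLike.congr_fun hφ x).symm.trans (Eq.trans hxy (DFunLike.congr_fun hφ y))

/-- A family from `M ⊔ X` independent over `M` stays independent over `M ⊔ Y` if `Y` is linearly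
disjoint from `M ⊔ X`. -/
theorem linearIndependent_sup_right {M X Y : IntermediateField K Ω}
    (hY : (M ⊔ X).LinearDisjoint Y) {ι : Type*} {b : ι → Ω} (hbX : ∀ i, b i ∈ M ⊔ X)
    (hb : LinearIndependent M b) : LinearIndependent ↥(M ⊔ Y) b := by
  classical
  let l := Module.Free.chooseBasis K Y
  let R : Subalgebra K Ω := Algebra.adjoin K ((M : Set Ω) ∪ Y)
  have hMY : M ⊔ Y = adjoin K ((M : Set Ω) ∪ Y) := by rw [adjoin_union, adjoin_self, adjoin_self]
  -- elements of `R` in coordinates along a basis of `Y`
  have hR : ∀ r ∈ R, ∃ c : Module.Free.ChooseBasisIndex K Y →₀ M,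
      r = c.sum fun j m => (m : Ω) * (l j : Ω) := by
    intro r hr
    suffices h : r ∈ Submodule.span M (Set.range fun j => (l j : Ω)) by
      rw [Finsupp.mem_span_range_iff_exists_finsupp] at h
      obtain ⟨c, rfl⟩ := h
      exact ⟨c, rfl⟩
    have hYspan : ∀ y ∈ Y, y ∈ Submodule.span M (Set.range fun j => (l j : Ω)) := by
      intro y hy
      have := congrArg (Y.val.toLinearMap) (l.linearCombination_repr ⟨y, hy⟩)
      rw [Finsupp.apply_linearCombination] at this
      change _ = y at this
      rw [← this, Finsupp.linearCombination_apply]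
      refine Submodule.sum_mem _ fun j _ => ?_
      show l.repr _ j • ((l j : Y) : Ω) ∈ _
      rw [← algebraMap_smul M]
      exact Submodule.smul_mem _ _ (Submodule.subset_span ⟨j, rfl⟩)
    have hmul : ∀ x ∈ Submodule.span M (Set.range fun j => (l j : Ω)),
        ∀ y ∈ Submodule.span M (Set.range fun j => (l j : Ω)),
        x * y ∈ Submodule.span M (Set.range fun j => (l j : Ω)) := by
      intro x hx y hy
      induction hx using Submodule.span_induction with
      | mem a ha =>
        induction hy using Submodule.span_induction with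
        | mem c hc =>
          obtain ⟨i, rfl⟩ := ha
          obtain ⟨j, rfl⟩ := hc
          exact hYspan _ (Y.mul_mem (l i).2 (l j).2)
        | zero => simp
        | add c d _ _ hc hd => rw [mul_add]; exact add_mem hc hd
        | smul m c _ hc => rw [mul_smul_comm]; exact Submodule.smul_mem _ m hc
      | zero => simp
      | add a c _ _ ha hc => rw [add_mul]; exact add_mem ha hc
      | smul m a _ ha => rw [smul_mul_assoc]; exact Submodule.smul_mem _ m ha
    induction hr using Algebra.adjoin_induction with
    | mem x hx =>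
      rcases hx with hx | hx
      · have := Submodule.smul_mem _ (⟨x, hx⟩ : M) (hYspan 1 Y.one_mem)
        simpa [IntermediateField.smul_def] using this
      · exact hYspan x hx
    | algebraMap c => exact hYspan _ (Y.algebraMap_mem c)
    | add x y _ _ hx hy => exact add_mem hx hy
    | mul x y _ _ hx hy => exact hmul x hx y hy
  rw [linearIndependent_iff']
  intro s g hg i hi
  -- clear denominators
  have hden : ∀ j, ∃ p ∈ R, ∃ q ∈ R, q ≠ 0 ∧ (g j : Ω) * q = p := by
    intro j
    have hj : (g j : Ω) ∈ adjoin K ((M : Set Ω) ∪ Y) := hMY ▸ (g j).2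
    obtain ⟨p, hp, q, hq, hpq⟩ := mem_adjoin_iff_div.1 hj
    by_cases hq0 : q = 0
    · refine ⟨0, zero_mem _, 1, one_mem _, one_ne_zero, ?_⟩
      rw [hpq, hq0]; simp
    · exact ⟨p, hp, q, hq, hq0, by rw [hpq, div_mul_cancel₀ _ hq0]⟩
  choose p hp q hq hq0 hpq using hden
  let r : _ → Ω := fun j => p j * ∏ k ∈ s.erase j, q k
  have hrR : ∀ j, r j ∈ R := fun j => mul_mem (hp j) (prod_mem fun k _ => hq k)
  have hr : ∀ j ∈ s, r j = (g j : Ω) * ∏ k ∈ s, q k := by
    intro j hj
    simp only [r]
    rw [← hpq j, ← Finset.mul_prod_erase s q hj, mul_assoc]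
  choose c hc using fun j => hR _ (hrR j)
  have hsum : ∑ j ∈ s, r j * (b j) = 0 := by
    have h1 : ∑ j ∈ s, g j • (b j) = 0 := hg
    simp only [IntermediateField.smul_def, smul_eq_mul] at h1
    rw [Finset.sum_congr rfl fun j hj => by rw [hr j hj, mul_right_comm], ← Finset.sum_mul, h1,
      zero_mul]
  let J := s.biUnion fun j => (c j).support
  let d : Module.Free.ChooseBasisIndex K Y → ↥(M ⊔ X) := fun k =>
    ⟨∑ j ∈ s, (c j k : Ω) * (b j), sum_mem fun j _ =>
      mul_mem ((le_sup_left : M ≤ M ⊔ X) (c j k).2) (hbX j)⟩
  have hd : ∑ k ∈ J, d k • (l k : Ω) = 0 := by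
    rw [← hsum]
    simp only [IntermediateField.smul_def, smul_eq_mul, d, Finset.sum_mul]
    rw [Finset.sum_comm]
    refine Finset.sum_congr rfl fun j hj => ?_
    rw [hc j, Finsupp.sum_of_support_subset _ (Finset.subset_biUnion_of_mem (fun j => (c j).support) hj)
      _ (fun _ _ => by simp), Finset.sum_mul]
    exact Finset.sum_congr rfl fun k _ => by ring
  have hl := hY.linearIndependent_right l.linearIndependent
  have hcoef : ∀ k ∈ J, ∀ j ∈ s, c j k = 0 := by
    intro k hk
    have h0 := linearIndependent_iff'.1 hl J d hd k hk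
    refine linearIndependent_iff'.1 hb s
      (fun j => c j k) ?_
    simpa [d, Subtype.ext_iff, IntermediateField.smul_def] using congrArg Subtype.val h0
  have hci : c i = 0 := by
    ext k
    by_cases hk : k ∈ J
    · simp [hcoef k hk i hi]
    · have : k ∉ (c i).support := fun h => hk (Finset.mem_biUnion.2 ⟨i, hi, h⟩)
      simp [Finsupp.notMem_support_iff.1 this]
  have := hc i
  rw [hci, Finsupp.sum_zero_index, hr i hi, mul_eq_zero, Finset.prod_eq_zero_iff] at this
  rcases this with h | ⟨k, _, h⟩
  · exact Subtype.ext h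
  · exact (hq0 k h).elim

/-- Exchange of linear disjointness along composites. -/
theorem linearDisjoint_exchange {M X Y : IntermediateField K Ω} (hX : M.LinearDisjoint X)
    (hY : (M ⊔ X).LinearDisjoint Y) : (M ⊔ Y).LinearDisjoint X :=
  LinearDisjoint.of_basis_right (Module.Free.chooseBasis K X)
    (linearIndependent_sup_right hY (fun _ => (le_sup_right : X ≤ M ⊔ X) (Subtype.mem _))
      (hX.linearIndependent_right (Module.Free.chooseBasis K X).linearIndependent))

/-- A family of subfields, each linearly disjoint from the composite of all the others. -/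
def IndepFamily {ι : Type*} (F : ι → IntermediateField K Ω) : Prop :=
  ∀ i, (⨆ j ∈ {j | j ≠ i}, F j).LinearDisjoint (F i)

/-- Adjoining to an independent family a field disjoint from all of them. -/
theorem IndepFamily.optionExtend {ι : Type*} {F : ι → IntermediateField K Ω} (hF : IndepFamily F)
    {Y : IntermediateField K Ω} (hY : (⨆ j, F j).LinearDisjoint Y) :
    IndepFamily (fun o : Option ι => o.elim Y F) := by
  rintro (_ | i)
  · exact hY.of_le_left (iSup₂_le fun o ho => by
      rcases o with _ | j
      · exact absurd rfl ho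
      · exact le_iSup F j)
  · have hsplit : (⨆ j ∈ {j | j ≠ i}, F j) ⊔ F i = ⨆ j, F j := by
      refine le_antisymm (sup_le (iSup₂_le fun j _ => le_iSup F j) (le_iSup F i)) (iSup_le fun j => ?_)
      by_cases hj : j = i
      · exact hj ▸ le_sup_right
      · exact le_sup_of_le_left (le_iSup₂_of_le j hj le_rfl)
    refine (linearDisjoint_exchange (hF i) (hsplit ▸ hY)).of_le_left (iSup₂_le fun o ho => ?_)
    rcases o with _ | j
    · exact le_sup_right
    · exact le_sup_of_le_left (le_iSup₂_of_le j (fun h => ho (congrArg some h)) le_rfl)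

end Fermat.Agent.AVTorsion

namespace Fermat.Agent.AVTorsion

variable (K : Type u) [Field K] [IsAlgClosed K] (L : Type u) [Field L] [Algebra K L]

/-- There are arbitrarily many independent copies of `L` in an algebraically closed field. -/
theorem exists_indepFamily_copies (m : ℕ) :
    ∃ (Ω : Type u) (_ : Field Ω) (_ : Algebra K Ω) (_ : IsAlgClosed Ω)
      (ψ : Fin m → L →ₐ[K] Ω), IndepFamily (fun i => (ψ i).fieldRange) := by
  induction m with
  | zero => exact ⟨K, inferInstance, inferInstance, inferInstance, Fin.elim0, fun i => i.elim0⟩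
  | succ m ih =>
    obtain ⟨Ω, _, _, _, ψ, hψ⟩ := ih
    have := isDomain_tensor_field (K := K) Ω L
    obtain ⟨Ω', _, _, fa, fb, hd⟩ := IntermediateField.LinearDisjoint.exists_field_of_isDomain K Ω L
    let j : Ω' →ₐ[K] AlgebraicClosure Ω' := IsScalarTower.toAlgHom K Ω' (AlgebraicClosure Ω')
    let ψ' : Option (Fin m) → L →ₐ[K] AlgebraicClosure Ω' := fun o =>
      o.elim (j.comp fb) fun i => (j.comp fa).comp (ψ i)
    refine ⟨AlgebraicClosure Ω', inferInstance, inferInstance, inferInstance,
      fun i => ψ' (finSuccEquiv m i), ?_⟩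
    have h₁ : IndepFamily (fun i => ((j.comp fa).comp (ψ i)).fieldRange) := by
      intro i
      have := (hψ i).map (j.comp fa)
      simp only [IntermediateField.map_iSup, AlgHom.map_fieldRange] at this
      rw [AlgHom.map_fieldRange] at this
      exact this
    have h₂ := h₁.optionExtend (Y := (j.comp fb).fieldRange) (by
      have := hd.map j
      rw [AlgHom.map_fieldRange fb j] at this
      refine this.of_le_left (iSup_le fun i => ?_)
      rintro x ⟨a, rfl⟩
      exact ⟨fa (ψ i a), ⟨_, rfl⟩, rfl⟩)
    have h₃ : IndepFamily (fun o => (ψ' o).fieldRange) := by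
      convert h₂ using 2 with o
      rcases o with _ | i <;> rfl
    intro i
    refine (h₃ (finSuccEquiv m i)).of_le_left (iSup₂_le fun i' hi' => ?_)
    exact le_iSup₂_of_le (finSuccEquiv m i') (fun h => hi' ((finSuccEquiv m).injective h)) le_rfl

end Fermat.Agent.AVTorsion
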