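import Fermat.Agent.AVTorsion.Reduce
import Fermat.Agent.AVTorsion.Disjoint

set_option autoImplicit false

/-!
# Generic points and their specialisations

The generic point over an extension of the base field specialises to every point with values in
that extension.
-/

universe u

noncomputable section

open CategoryTheory AlgebraicGeometry Fermat.Agent.ConstReduction
open scoped TensorProduct

namespace Fermat.Agent.AVTorsion

/-- A transcendental element may be specialised to any value. -/
theorem exists_ratVal_transcendental {Ω F : Type u} [Field Ω] [Field F] [Algebra Ω F]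
    [IsAlgClosed Ω] {s : F} (hs : Transcendental Ω s) (c : Ω) :
    ∃ B : RatVal Ω F, B.HasValue s c := by
  let Φ : Polynomial Ω →ₐ[Ω] F := Polynomial.aeval s
  let e := AlgEquiv.ofInjective Φ (transcendental_iff_injective.mp hs)
  obtain ⟨B, hB⟩ := exists_ratVal Φ.range ((Polynomial.aeval c).comp e.symm.toAlgHom)
  refine ⟨B, ?_⟩
  have he : ((e Polynomial.X : Φ.range) : F) = s := by simp [e, Φ]
  have h := hB (e Polynomial.X)
  rw [he] at h
  simpa using h

namespace AbVar

variable {k : Type u} [Field k] [IsAlgClosed k] {X : AbVar k}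

theorem hasValue_ptOfStalk {R : Type u} [CommRing R] [Algebra k R] [IsLocalRing R]
    (p : X.carrier) (φ : X.carrier.presheaf.stalk p →ₐ[k] R) [IsLocalHom φ.toRingHom]
    (s : X.carrier.presheaf.stalk p) :
    (ptOfStalk p φ).HasValue (X.stalkToFF p s) (φ s) := by
  have h : (ptOfStalk p φ).point ⤳ p := specializes_of_eq (point_ptOfStalk p φ)
  have h' := X.stalkToFF_comp h s
  refine ⟨X.localRing_mono h ⟨s, rfl⟩, ?_⟩
  have e : (⟨X.stalkToFF p s, X.localRing_mono h ⟨s, rfl⟩⟩ : X.localRing (ptOfStalk p φ).point) =
      X.stalkEquiv _ ((X.carrier.presheaf.stalkSpecializes h).hom s) := Subtype.ext h'.symm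
  rw [e, Pt.eval_stalkEquiv]
  exact Pt.eval_unique _ h φ rfl s

variable (X)

/-- The tautological point takes the tautological values. -/
theorem hasValue_taut {p : X.carrier} (v : X.localRing p) :
    (X.taut p).HasValue (v : X.FF) v := by
  obtain ⟨s, rfl⟩ := (X.stalkEquiv p).surjective v
  have : IsLocalHom (X.stalkEquiv p).toAlgHom.toRingHom :=
    ⟨fun s hs => (isUnit_map_iff (X.stalkEquiv p) s).mp hs⟩
  exact hasValue_ptOfStalk p (X.stalkEquiv p).toAlgHom s

/-- The generic point takes the tautological values. -/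
theorem hasValue_η (v : X.FF) : X.η.HasValue v v := by
  have h := (X.hasValue_taut (p := X.gp) ⟨v, X.localRing_gp ▸ Algebra.mem_top⟩).map
    (X.localRing X.gp).val
  rwa [X.map_val_taut] at h

variable {X}

/-- At the point of an embedding every function has its image as value. -/
theorem hasValue_map_η {R : Type u} [CommRing R] [Algebra k R] [IsLocalRing R]
    (e : X.FF →ₐ[k] R) (v : X.FF) : (Pt.map e X.η).HasValue v (e v) :=
  (X.hasValue_η v).map e

/-- A point over a field given by an embedding of the function field is generic. -/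
theorem point_map_η {L : Type u} [Field L] [Algebra k L] (e : X.FF →ₐ[k] L) :
    (Pt.map e X.η).point = X.gp := by
  have : IsLocalHom e.toRingHom :=
    ⟨fun x hx => isUnit_iff_ne_zero.mpr fun h0 => hx.ne_zero (by simp [h0])⟩
  rw [Pt.point_map_of_isLocalHom, X.point_η]

/-- An embedding of the function field is determined by its point. -/
theorem eq_of_map_η {L : Type u} [Field L] [Algebra k L] {e e' : X.FF →ₐ[k] L}
    (h : Pt.map e X.η = Pt.map e' X.η) : e = e' :=
  AlgHom.ext fun v => (h ▸ hasValue_map_η e v).unique (hasValue_map_η e' v)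

variable (X)

/-- The inversion acts trivially on `u`. -/
def IsEven (u : X.FF) : Prop :=
  ∀ e : X.FF →ₐ[k] X.FF, Pt.map e X.η = -X.η → e u = u

variable {X}

/-- A point is generic over `Ω` if it is given by an embedding of the function field with values
of full transcendence degree over `Ω`. -/
def IsGenericOver (Ω : Type u) [Field Ω] {F : Type u} [Field F] [Algebra k F] [Algebra Ω F]
    (a : X.Pt F) : Prop :=
  ∃ e : X.FF →ₐ[k] F, Pt.map e X.η = a ∧
    ∃ y : Fin X.dim → X.FF, AlgebraicIndependent Ω (e ∘ y)

variable (X) (Ω : Type u) [Field Ω] [Algebra k Ω]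

instance : IsDomain (Ω ⊗[k] X.FF) := isDomain_tensor_field Ω X.FF

/-- An algebraically closed field containing `Ω` and an independent copy of the function
field. -/
abbrev GenField : Type u := AlgebraicClosure (FractionRing (Ω ⊗[k] X.FF))

/-- The tautological map to the generic field. -/
def genTensor : Ω ⊗[k] X.FF →ₐ[Ω] X.GenField Ω :=
  IsScalarTower.toAlgHom Ω (Ω ⊗[k] X.FF) (X.GenField Ω)

theorem genTensor_injective : Function.Injective (X.genTensor Ω) := by
  show Function.Injective (algebraMap (Ω ⊗[k] X.FF) (X.GenField Ω))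
  rw [IsScalarTower.algebraMap_eq _ (FractionRing (Ω ⊗[k] X.FF))]
  exact (RingHom.injective (algebraMap (FractionRing (Ω ⊗[k] X.FF)) (X.GenField Ω))).comp
    (IsFractionRing.injective (Ω ⊗[k] X.FF) (FractionRing (Ω ⊗[k] X.FF)))

/-- The embedding of the function field in the generic field. -/
def genEmb : X.FF →ₐ[k] X.GenField Ω :=
  ((X.genTensor Ω).restrictScalars k).comp Algebra.TensorProduct.includeRight

/-- The generic point over `Ω`. -/
def genPt : X.Pt (X.GenField Ω) := Pt.map (X.genEmb Ω) X.η

variable [IsAlgClosed Ω]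

/-- The generic point specialises to every point. -/
theorem exists_ratVal_genPt (a₀ : X.Pt Ω) :
    ∃ B : RatVal Ω (X.GenField Ω), Pt.reduce B (X.genPt Ω) = a₀ := by
  let O := X.localRing a₀.point
  let Φ : Ω ⊗[k] O →ₐ[Ω] X.GenField Ω :=
    (X.genTensor Ω).comp (Algebra.TensorProduct.map (AlgHom.id Ω Ω) O.val)
  have hinj : Function.Injective Φ := (X.genTensor_injective Ω).comp
    (Module.Flat.lTensor_preserves_injective_linearMap (M := Ω) O.val.toLinearMap
      Subtype.val_injective)
  let e := AlgEquiv.ofInjective Φ hinj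
  let π : Ω ⊗[k] O →ₐ[Ω] Ω := Algebra.TensorProduct.lift (AlgHom.id Ω Ω) a₀.eval fun _ _ =>
    Commute.all _ _
  obtain ⟨B, hB⟩ := exists_ratVal Φ.range (π.comp e.symm.toAlgHom)
  refine ⟨B, ?_⟩
  have key : ∀ v : O, B.HasValue (X.genEmb Ω v) (a₀.eval v) := fun v => by
    have he : ((e (1 ⊗ₜ v) : Φ.range) : X.GenField Ω) = X.genEmb Ω v := by
      simp [e, Φ, genEmb]
    have h := hB (e (1 ⊗ₜ v))
    rw [he] at h
    simpa [π] using h
  let χ : O →ₐ[k] B.ring :=
    { ((X.genEmb Ω).toRingHom.comp O.val.toRingHom).codRestrict B.ring.toSubring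
        fun v => (key v).mem with
      commutes' := fun c => Subtype.ext (by
        show X.genEmb Ω (O.val (algebraMap k O c)) =
          ratValIncl (k := k) B (algebraMap k B.ring c)
        rw [AlgHom.commutes, AlgHom.commutes, AlgHom.commutes]) }
  have h1 : (ratValIncl B).comp χ = (X.genEmb Ω).comp O.val := AlgHom.ext fun _ => rfl
  have h2 : (ratValRed B).comp χ = a₀.eval := AlgHom.ext fun v => by
    obtain ⟨_, hv⟩ := key v
    exact hv
  rw [Pt.reduce_eq (y := Pt.map χ (X.taut a₀.point))
    (by rw [Pt.map_map, h1, ← Pt.map_map, X.map_val_taut]; rfl),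
    Pt.map_map, h2, Pt.map_eval_taut]

end AbVar

end Fermat.Agent.AVTorsion
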