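import Fermat.Agent.AVTorsion.Independence
import Fermat.Agent.AVTorsion.FieldDegrees
import Fermat.Agent.AVTorsion.Generic
import Fermat.Agent.ConstReduction.Gauss

/-!
# Applying the scaling of heights to the curves of the degree recursion

The `η`-coordinates sweep out a curve over the field generated by all but one of the values; scaling
of heights on it multiplies a relative degree by `n ^ 2`.
-/

set_option autoImplicit false

universe u

noncomputable section

open CategoryTheory AlgebraicGeometry IntermediateField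
open Fermat.Agent.ConstReduction Fermat.Agent.FunctionField

namespace Fermat.Agent.AVTorsion

section degrees

variable {k U : Type u} [Field k] [Field U] [Algebra k U]

theorem relfinrank_restrictScalars {F : IntermediateField k U} (P Q : IntermediateField F U) :
    relfinrank (P.restrictScalars k) (Q.restrictScalars k) = relfinrank P Q := rfl

theorem restrictScalars_adjoin_extend (F : IntermediateField k U) (S : Set U) :
    (adjoin F S).restrictScalars k = F ⊔ adjoin k S :=
  restrictScalars_adjoin_eq_sup k F S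

/-- Proportionality of degrees, in terms of subfields over the bottom field. -/
theorem relfinrank_mul_comm_of_algebraic {F₀ E F : IntermediateField k U} (hE : F₀ ≤ E)
    (hF : F₀ ≤ F) (halg : ∀ x ∈ F, IsAlgebraic F₀ x) {t t' : U} (ht : Transcendental F₀ t)
    (ht' : Transcendental F₀ t') (htE : t ∈ E) (htE' : t' ∈ E)
    (hfin : relfinrank (F₀ ⊔ adjoin k {t}) E ≠ 0)
    (hfin' : relfinrank (F₀ ⊔ adjoin k {t'}) E ≠ 0) :
    relfinrank (F₀ ⊔ adjoin k {t}) E * relfinrank (F ⊔ adjoin k {t'}) (E ⊔ F) =
      relfinrank (F₀ ⊔ adjoin k {t'}) E * relfinrank (F ⊔ adjoin k {t}) (E ⊔ F) := by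
  have : Algebra.IsAlgebraic F₀ (extendScalars hF) :=
    ⟨fun x => (isAlgebraic_algHom_iff (extendScalars hF).val Subtype.val_injective).1 (halg x x.2)⟩
  have e1 : ∀ u : U, relfinrank (F₀ ⊔ adjoin k {u}) E = relfinrank F₀⟮u⟯ (extendScalars hE) := by
    intro u
    rw [← restrictScalars_adjoin_extend F₀ {u}, ← relfinrank_restrictScalars,
      extendScalars_restrictScalars]
  have e2 : ∀ u : U, relfinrank (F ⊔ adjoin k {u}) (E ⊔ F) =
      relfinrank (F₀⟮u⟯ ⊔ extendScalars hF) (extendScalars hE ⊔ extendScalars hF) := by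
    intro u
    rw [← relfinrank_restrictScalars, ← restrictScalars_sup, ← restrictScalars_sup,
      restrictScalars_adjoin_extend, extendScalars_restrictScalars, extendScalars_restrictScalars,
      sup_comm F₀, sup_assoc, sup_eq_right.2 hF, sup_comm F]
  simp only [e1, e2] at hfin hfin' ⊢
  exact relfinrank_mul_relfinrank_comm ht ht' htE htE' hfin hfin'

/-- Algebraicity over the field generated by an element, inside a bigger field. -/
theorem isAlgebraic_adjoin_of_val {F : Type u} [Field F] [Algebra F U] {L : IntermediateField F U}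
    {t : L} (h : ∀ x ∈ L, IsAlgebraic F⟮(t : U)⟯ x) : Algebra.IsAlgebraic F⟮t⟯ L := ⟨fun x => by
  obtain ⟨p, hp, hpx⟩ := h x x.2
  have hmem' : ∀ z : F⟮(t : U)⟯, ∃ w : F⟮t⟯, ((w : L) : U) = z := by
    intro z
    have hz : (z : U) ∈ F⟮t⟯.map L.val := by
      rw [adjoin_map, Set.image_singleton]; exact z.2
    obtain ⟨w, hw, hwz⟩ := hz
    exact ⟨⟨w, hw⟩, hwz⟩
  choose w hw using hmem'
  let emb : F⟮t⟯ →+* U := (algebraMap L U).comp (algebraMap _ L)
  let r : F⟮(t : U)⟯ →+* F⟮t⟯ :=
    { toFun := w
      map_one' := emb.injective ((hw 1).trans (map_one emb).symm)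
      map_mul' := fun a b => emb.injective ((hw (a * b)).trans
        ((congrArg₂ (· * ·) (hw a) (hw b)).symm.trans (map_mul emb _ _).symm))
      map_zero' := emb.injective ((hw 0).trans (map_zero emb).symm)
      map_add' := fun a b => emb.injective ((hw (a + b)).trans
        ((congrArg₂ (· + ·) (hw a) (hw b)).symm.trans (map_add emb _ _).symm)) }
  refine ⟨p.map r, (Polynomial.map_ne_zero_iff r.injective).2 hp, ?_⟩
  apply L.val.injective
  rw [map_zero, Polynomial.aeval_def, Polynomial.eval₂_map]
  show L.val.toRingHom _ = 0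
  rw [Polynomial.hom_eval₂]
  refine Eq.trans ?_ hpx
  rw [Polynomial.aeval_def]
  congr 1
  exact RingHom.ext hw⟩

/-- A non-algebraic field linearly disjoint from `F`, inside a field of transcendence degree one
over `F`, has transcendence degree one. -/
theorem trdeg_eq_one_of_linearDisjoint {O F : IntermediateField k U} (hOF : O ≤ F)
    {KO : IntermediateField O U} {L : IntermediateField F U}
    (hd : (extendScalars hOF).LinearDisjoint KO) (hKL : ∀ x ∈ KO, x ∈ L)
    (hone : Algebra.trdeg F L = 1) (hne : ¬ Algebra.IsAlgebraic O KO) :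
    Algebra.trdeg O KO = 1 := by
  refine le_antisymm ?_ ?_
  · obtain ⟨s, hs⟩ := exists_isTranscendenceBasis O KO
    have h := algebraicIndependent_of_linearDisjoint (k := O) hd
      (y := fun j : s => ((j : KO) : U)) (fun j => (j : KO).2)
      (hs.1.map' (f := KO.val) Subtype.val_injective)
    have h' : AlgebraicIndependent F fun j : s => (⟨((j : KO) : U), hKL _ (j : KO).2⟩ : L) :=
      AlgebraicIndependent.of_comp L.val h
    rw [← hs.cardinalMk_eq_trdeg, ← hone]
    exact h'.cardinalMk_le_trdeg
  · rw [Cardinal.one_le_iff_ne_zero, Ne, trdeg_eq_zero_iff]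
    exact hne

end degrees

namespace AbVar

variable {k : Type u} [Field k] [IsAlgClosed k]

/-- Heights on curves scale quadratically under multiplication. -/
def HeightScaling (X : AbVar k) : Prop :=
  ∀ (Om K F L : Type u) [Field Om] [Field K] [Field F] [Field L] [IsAlgClosed Om] [IsAlgClosed F]
    [Algebra k Om] [Algebra k K] [Algebra k F] [Algebra k L] [Algebra Om K] [Algebra Om F]
    [Algebra Om L] [Algebra F L] [Algebra K L] [IsScalarTower k Om K] [IsScalarTower k Om F]
    [IsScalarTower k Om L] [IsScalarTower k K L] [IsScalarTower k F L] [IsScalarTower Om K L]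
    [IsScalarTower Om F L] [IsFunctionField Om K] [IsConstExt Om K F L]
    (φ : X.Pt K) (a : X.Pt F), IsGenericOver Om a → ∀ u : X.FF, X.IsEven u → ∀ n : ℕ, 0 < n →
    ∀ e1 en : X.FF →ₐ[k] L,
      Pt.map e1 X.η = Pt.map (IsScalarTower.toAlgHom k K L) φ +
        Pt.map (IsScalarTower.toAlgHom k F L) a →
      Pt.map en X.η = n • Pt.map (IsScalarTower.toAlgHom k K L) φ +
        Pt.map (IsScalarTower.toAlgHom k F L) a →
      Transcendental F (e1 u) →
      Transcendental F (en u) ∧ degFun F (en u) = n ^ 2 * degFun F (e1 u)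

variable {X : AbVar k} {U : Type u} [Field U] [Algebra k U] [IsAlgClosed U]

namespace Copies

variable (c : Copies X U) {i : Fin X.dim} {O F : IntermediateField k U}

omit [IsAlgClosed U] in
/-- Independence over `O` is kept over `F`. -/
theorem linearDisjoint_curve [IsAlgClosed O] (hO : O ≤ algClos (c.others i ⊔ c.eη.fieldRange))
    (hOF : O ≤ F) (haF : (c.ea i).fieldRange ≤ F) (hFalg : F ≤ algClos (O ⊔ (c.ea i).fieldRange))
    (KO : IntermediateField O U) (hKO : KO.restrictScalars k = O ⊔ c.eη.fieldRange) :
    (extendScalars hOF).LinearDisjoint KO := by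
  have hdis : (O ⊔ KO.restrictScalars k).LinearDisjoint (c.ea i).fieldRange := by
    have h := linearDisjoint_of_algebraic (c.others_disjoint i) (le_algClos _)
      (algClos_isAlgebraic _)
    refine h.of_le_left (sup_le hO ?_)
    rw [hKO]
    exact sup_le hO ((c.eη_le_others i).trans (le_algClos _))
  let b := Module.Basis.ofVectorSpace O KO
  have hb : LinearIndependent O fun j => (b j : U) :=
    b.linearIndependent.map' KO.val.toLinearMap (LinearMap.ker_eq_bot.2 Subtype.val_injective)
  have hb' := linearIndependent_sup_right hdis (b := fun j => (b j : U))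
    (fun j => (le_sup_right : KO.restrictScalars k ≤ O ⊔ KO.restrictScalars k) (b j).2) hb
  let M : IntermediateField O U := extendScalars (le_sup_left : O ≤ O ⊔ (c.ea i).fieldRange)
  have h1 : M.LinearDisjoint KO := LinearDisjoint.of_basis_right b hb'
  have hMF : M ≤ extendScalars hOF := by
    intro x hx
    exact (sup_le hOF haF : O ⊔ (c.ea i).fieldRange ≤ F) hx
  exact linearDisjoint_of_algebraic h1 hMF fun x hx => mem_algClos.1 (hFalg hx)

omit [IsAlgClosed U] in
/-- A translation is generic over a field algebraic over the other coordinates. -/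
theorem isGenericOver_ea [Algebra O F] [IsScalarTower k O F] [IsScalarTower O F U]
    (hO : O ≤ algClos (c.others i ⊔ c.eη.fieldRange)) (haF : (c.ea i).fieldRange ≤ F) :
    IsGenericOver O
      (Pt.map (show X.FF →ₐ[k] F from (c.ea i).codRestrict F.toSubalgebra fun v => haF ⟨v, rfl⟩)
        X.η) := by
  obtain ⟨y, hy⟩ := X.exists_transcendenceBasis_FF
  let eF : X.FF →ₐ[k] F := (c.ea i).codRestrict F.toSubalgebra fun v => haF ⟨v, rfl⟩
  refine ⟨eF, rfl, y, ?_⟩
  have hdis : O.LinearDisjoint (c.ea i).fieldRange :=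
    (linearDisjoint_of_algebraic (c.others_disjoint i) (le_algClos _)
      (algClos_isAlgebraic _)).of_le_left hO
  have h := algebraicIndependent_of_linearDisjoint hdis (y := c.ea i ∘ y)
    (fun j => ⟨y j, rfl⟩) (hy.1.map' (c.ea i).injective)
  exact AlgebraicIndependent.of_comp
    (IsScalarTower.toAlgHom O F U : F →ₐ[O] U) (x := eF ∘ y)
    (by exact h)

omit [IsAlgClosed U] in
/-- The scaling of heights, applied to the curve swept out by `η` over `O`. -/
theorem scaling_step [IsAlgClosed O] [IsAlgClosed F] (hH : HeightScaling X)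
    (hO : O ≤ algClos (c.others i ⊔ c.eη.fieldRange)) (hOF : O ≤ F)
    (haF : (c.ea i).fieldRange ≤ F) (hFalg : F ≤ algClos (O ⊔ (c.ea i).fieldRange))
    {u : X.FF} (hu : X.IsEven u) {n : ℕ} (hn : 0 < n)
    (ht : Transcendental F (c.ev 1 i u))
    (halg : c.eη.fieldRange ≤ algClos (F ⊔ adjoin k {c.ev 1 i u})) :
    Transcendental F (c.ev n i u) ∧
      relfinrank (F ⊔ adjoin k {c.ev 1 i u}) (F ⊔ c.eη.fieldRange) ≠ 0 ∧
      relfinrank (F ⊔ adjoin k {c.ev n i u}) (F ⊔ c.eη.fieldRange) =
        n ^ 2 * relfinrank (F ⊔ adjoin k {c.ev 1 i u}) (F ⊔ c.eη.fieldRange) := by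
  have := X.essFiniteType_FF
  obtain ⟨S, hSfin, hS⟩ := exists_finite_generators c.eη
  let KO : IntermediateField O U := adjoin O S
  let L : IntermediateField F U := adjoin F S
  have hKO : KO.restrictScalars k = O ⊔ c.eη.fieldRange := by
    rw [restrictScalars_adjoin_extend, hS]
  have hL : L.restrictScalars k = F ⊔ c.eη.fieldRange := by
    rw [restrictScalars_adjoin_extend, hS]
  have hKL : ∀ x ∈ KO, x ∈ L := fun x hx => by
    have hx' : x ∈ KO.restrictScalars k := hx
    rw [hKO] at hx'
    have : x ∈ L.restrictScalars k := by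
      rw [hL]; exact sup_le_sup_right hOF _ hx'
    exact this
  let : Algebra O F := (inclusion hOF).toRingHom.toAlgebra
  let : Algebra KO L := ((algebraMap KO U).codRestrict L.toSubfield fun x => hKL x x.2).toAlgebra
  let : Algebra O L := ((algebraMap F L).comp (inclusion hOF).toRingHom).toAlgebra
  have : IsScalarTower k O F := IsScalarTower.of_algebraMap_eq' rfl
  have : IsScalarTower k O L := IsScalarTower.of_algebraMap_eq' rfl
  have : IsScalarTower k KO L := IsScalarTower.of_algebraMap_eq' rfl
  have : IsScalarTower O KO L := IsScalarTower.of_algebraMap_eq' rfl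
  have : IsScalarTower O F L := IsScalarTower.of_algebraMap_eq' rfl
  have : IsScalarTower O F U := IsScalarTower.of_algebraMap_eq' rfl
  have hd := c.linearDisjoint_curve hO hOF haF hFalg KO hKO
  -- `t` as an element of `L`
  have hmem : ∀ m v, c.ev m i v ∈ L := fun m v => by
    have : c.ev m i v ∈ L.restrictScalars k := by
      rw [hL]
      exact (sup_le (le_sup_right) (le_sup_of_le_left haF) :
        c.eη.fieldRange ⊔ (c.ea i).fieldRange ≤ F ⊔ c.eη.fieldRange) (c.ev_mem m i ⟨v, rfl⟩)
    exact this
  let e : ℕ → X.FF →ₐ[k] L := fun m =>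
    { ((c.ev m i).toRingHom.codRestrict L.toSubfield fun v => hmem m v) with
      commutes' := fun a => Subtype.ext ((c.ev m i).commutes a) }
  let eK : X.FF →ₐ[k] KO :=
    { (c.eη.toRingHom.codRestrict KO.toSubfield fun v => by
        have : c.eη v ∈ KO.restrictScalars k := by
          rw [hKO]; exact (le_sup_right : c.eη.fieldRange ≤ O ⊔ c.eη.fieldRange) ⟨v, rfl⟩
        exact this) with
      commutes' := fun a => Subtype.ext (c.eη.commutes a) }
  let eF : X.FF →ₐ[k] F := (c.ea i).codRestrict F.toSubalgebra fun v => haF ⟨v, rfl⟩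
  let iK := IsScalarTower.toAlgHom k KO L
  let iF := IsScalarTower.toAlgHom k F L
  have he : ∀ m : ℕ, Pt.map (e m) X.η =
      m • Pt.map iK (Pt.map eK X.η) + Pt.map iF (Pt.map eF X.η) := by
    intro m
    apply Pt.map_injective (X := X) (L.val.restrictScalars k)
    rw [map_add, map_nsmul, Pt.map_map, Pt.map_map, Pt.map_map, Pt.map_map, Pt.map_map]
    exact c.map_ev m i
  have hgen : IsGenericOver O (Pt.map eF X.η) := c.isGenericOver_ea hO haF
  have htL : Transcendental F (e 1 u) := fun h => ht (h.algHom L.val)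
  -- `L` has transcendence degree one over `F`
  have hFt : ∀ x ∈ L, IsAlgebraic F⟮c.ev 1 i u⟯ x := fun x hx => by
    have hx' : x ∈ L.restrictScalars k := hx
    rw [hL] at hx'
    have hle : F ⊔ c.eη.fieldRange ≤ algClos (F ⊔ adjoin k {c.ev 1 i u}) :=
      sup_le (le_sup_left.trans (le_algClos _)) halg
    have h2 := mem_algClos.1 (hle hx')
    rw [← restrictScalars_adjoin_extend] at h2
    exact h2
  have hSfin' : Finite S := hSfin
  have hEKO : Algebra.EssFiniteType O KO :=
    IntermediateField.essFiniteType_iff.2 (fg_adjoin_of_finite hSfin)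
  have hEL : Algebra.EssFiniteType F L :=
    IntermediateField.essFiniteType_iff.2 (fg_adjoin_of_finite hSfin)
  have : Algebra.IsAlgebraic F⟮e 1 u⟯ L := isAlgebraic_adjoin_of_val hFt
  have hone : Algebra.trdeg F L = 1 := trdeg_eq_one_of_isAlgebraic htL
  have : IsFunctionField F L := isFunctionField_of_trdeg_one hone
  have hKOone : Algebra.trdeg O KO = 1 := by
    refine trdeg_eq_one_of_linearDisjoint hOF hd hKL hone fun hall => ht ?_
    have hKF : KO.restrictScalars k ≤ algClos O := fun x hx => mem_algClos.2
      ((hall.isAlgebraic ⟨x, hx⟩).algHom KO.val)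
    have hF : algClos O ≤ algClos F := algClos_mono hOF
    have : L.restrictScalars k ≤ algClos F := by
      rw [hL]
      exact sup_le (le_algClos F) ((le_sup_right.trans (hKO ▸ hKF)).trans hF)
    exact mem_algClos.1 (this (hmem 1 u))
  have : IsFunctionField O KO := isFunctionField_of_trdeg_one hKOone
  have : IsConstExt O KO F L :=
    { linearIndependent := fun m v hv =>
        LinearIndependent.of_comp L.val.toLinearMap (hd.linearIndependent_right hv)
      adjoin_eq_top := by
        apply IntermediateField.map_injective L.val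
        rw [adjoin_map, ← AlgHom.fieldRange_eq_map, fieldRange_val]
        refine le_antisymm (adjoin_le_iff.2 ?_) (adjoin_le_iff.2 fun x hx => ?_)
        · rintro _ ⟨x, -, rfl⟩; exact x.2
        · exact subset_adjoin F _
            ⟨algebraMap KO L ⟨x, subset_adjoin O S hx⟩, ⟨_, rfl⟩, rfl⟩ }
  obtain ⟨h1, h2⟩ := hH O KO F L (Pt.map eK X.η) (Pt.map eF X.η) hgen u hu n hn (e 1) (e n)
    (by rw [he 1, one_smul]) (he n) htL
  have hdeg : ∀ m, degFun F (e m u) =
      relfinrank (F ⊔ adjoin k {c.ev m i u}) (F ⊔ c.eη.fieldRange) := fun m => by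
    rw [degFun_eq_relfinrank, ← relfinrank_restrictScalars, hL, restrictScalars_adjoin_extend]
    rfl
  refine ⟨fun h => h1 ((isAlgebraic_algHom_iff L.val Subtype.val_injective).1 h), ?_, ?_⟩
  · rw [← hdeg]
    exact (degFun_pos htL).ne'
  · rw [← hdeg, ← hdeg, h2]

end Copies

end AbVar

end Fermat.Agent.AVTorsion
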