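import Fermat.Agent.AVTorsion.Pullback

set_option autoImplicit false

/-!
# The inversion on the function field

The inversion acts on the function field, and the height of an even function is invariant under
inversion of the point.
-/

universe u

noncomputable section

open CategoryTheory AlgebraicGeometry AlgebraicCurve Fermat.Agent.ConstReduction
open Fermat.Agent.FunctionField

namespace Fermat.Agent.AVTorsion.AbVar

variable {k : Type u} [Field k] [IsAlgClosed k] (X : AbVar k)

variable {X} in
theorem Pt.hasValue_eval {R : Type u} [CommRing R] [Algebra k R] [IsLocalRing R] (x : X.Pt R)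
    {v : X.FF} (h : v ∈ X.localRing x.point) : x.HasValue v (x.eval ⟨v, h⟩) := ⟨h, rfl⟩

theorem point_neg_η : (-X.η).point = X.gp := by
  refine (-X.η).point_eq_gp ?_
  set p := (-X.η).point
  set t := -X.taut p
  have ht : Pt.map (-X.η).eval t = X.η := by
    rw [map_neg, Pt.map_eval_taut, neg_neg]
  have hle : X.localRing t.point ≤ (-X.η).eval.range := by
    intro v hv
    have h := (t.hasValue_eval hv).map (-X.η).eval
    rw [ht] at h
    exact ⟨t.eval ⟨v, hv⟩, h.unique (X.hasValue_η v)⟩
  have := X.isFractionRing_localRing t.point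
  rw [← X.trdeg_FF, ← (Subalgebra.topEquiv (R := k) (A := X.FF)).trdeg_eq,
    trdeg_eq_of_fractions (D := (-X.η).eval.range) le_top fun v _ => ?_]
  obtain ⟨a, b, hb, h⟩ := IsFractionRing.div_surjective (A := X.localRing t.point) v
  refine ⟨b, hle b.2, fun h0 => nonZeroDivisors.ne_zero hb (Subtype.ext h0), ?_⟩
  rw [← h]
  show (a : X.FF) / b * b ∈ _
  rw [div_mul_cancel₀ _ fun h0 => nonZeroDivisors.ne_zero hb (Subtype.ext h0)]
  exact hle a.2

/-- The inversion on the function field. -/
def invEmb : X.FF →ₐ[k] X.FF := (-X.η).evalGen X.point_neg_η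

/-- The involution sends the generic point to its negative. -/
theorem map_invEmb_η : Pt.map X.invEmb X.η = -X.η :=
  Pt.eq_of_eval ((point_map_η _).trans X.point_neg_η.symm) fun v r h => by
    rw [h.unique (hasValue_map_η X.invEmb v)]
    exact (-X.η).hasValue_evalGen X.point_neg_η v

/-- `invEmb` is an involution. -/
theorem invEmb_invEmb (v : X.FF) : X.invEmb (X.invEmb v) = v := by
  have h : X.invEmb.comp X.invEmb = AlgHom.id k X.FF := eq_of_map_η (by
    rw [← Pt.map_map, X.map_invEmb_η, map_neg, X.map_invEmb_η, neg_neg, Pt.map_id])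
  exact DFunLike.congr_fun h v

variable {X}

theorem IsEven.invEmb_eq {u : X.FF} (hu : X.IsEven u) : X.invEmb u = u := hu _ X.map_invEmb_η

theorem Pt.hasValue_invEmb {L : Type u} [Field L] [Algebra k L] {x : X.Pt L} {v : X.FF} {r : L}
    (h : (-x).HasValue v r) : x.HasValue (X.invEmb v) r := by
  set t := -X.taut x.point with ht
  have : IsLocalHom x.eval.toRingHom := ⟨fun v hv => (x.isUnit_eval_iff v).mp hv⟩
  have h1 : Pt.map x.eval t = -x := by rw [map_neg, Pt.map_eval_taut]
  have hpt : (-x).point = t.point := by
    rw [← h1, Pt.point_map_of_isLocalHom]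
  have hv : v ∈ X.localRing t.point := hpt ▸ h.1
  have h2 := (t.hasValue_eval hv).map (X.localRing x.point).val
  rw [map_neg, X.map_val_taut, ← X.map_invEmb_η] at h2
  have h3 : X.invEmb v = ((t.eval ⟨v, hv⟩ : X.localRing x.point) : X.FF) :=
    (hasValue_map_η X.invEmb v).unique h2
  have h4 := (t.hasValue_eval hv).map x.eval
  rw [h1] at h4
  exact ⟨h3 ▸ Subtype.coe_prop _, (congrArg x.eval (Subtype.ext h3)).trans (h4.unique h)⟩

theorem invEmb_mem {L : Type u} [Field L] [Algebra k L] {x : X.Pt L} {v : X.FF}
    (h : v ∈ X.localRing (-x).point) : X.invEmb v ∈ X.localRing x.point :=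
  (Pt.hasValue_invEmb ((-x).hasValue_val h)).1

/-- For an even function, inversion carries denominators at `-x` to denominators at `x`. -/
theorem IsDen.invEmb {L : Type u} [Field L] [Algebra k L] {x : X.Pt L} {u w : X.FF}
    (hu : X.IsEven u) (hw : IsDen u (-x).point w) : IsDen u x.point (X.invEmb w) := by
  refine ⟨invEmb_mem hw.mem, ?_, by simpa using hw.ne_zero, fun d hd hud => ?_⟩
  · have := invEmb_mem hw.mem_mul
    rwa [map_mul, hu.invEmb_eq] at this
  · have h1 : X.invEmb d ∈ X.localRing (-x).point := invEmb_mem (by rwa [neg_neg])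
    have h2 : u * X.invEmb d ∈ X.localRing (-x).point := by
      have := invEmb_mem (x := -x) (v := u * d) (by rwa [neg_neg])
      rwa [map_mul, hu.invEmb_eq] at this
    have := invEmb_mem (hw.dvd _ h1 h2)
    rwa [map_div₀, invEmb_invEmb] at this

variable {F L : Type u} [Field F] [Field L] [Algebra k F] [Algebra k L] [Algebra F L]
  [IsScalarTower k F L] [IsAlgClosed F] [IsFunctionField F L]

/-- Inversion does not change the degree for even functions. -/
theorem height_neg {u : X.FF} (hu : X.IsEven u) (T : X.Pt L) :
    height F u (-T) = height F u T := by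
  set z := den u (-T).point
  have hz : IsDen u T.point (X.invEmb z) := (isDen_den u (-T).point).invEmb hu
  suffices h : (pull F u T + divFun F (T.val (den u T.point / X.invEmb z)) : Divisor F L) =
      pull F u (-T) by
    rw [height, height, ← h, map_add, degree_divFun, add_zero]
  ext P
  have hv : valPt (-T) P = -valPt T P := map_neg _ _
  set w := den u (valPt (-T) P).point
  have hw : IsDen u (valPt (-T) P).point w := isDen_den u _
  rw [exists_pull_eq_of_den T hz P (X.invEmb w) (IsDen.invEmb hu (hv ▸ hw)), pull_apply, pullFun,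
    ← map_div₀,
    (Pt.hasValue_invEmb ((-T).hasValue_val ((isDen_den u (-T).point).div_mem hw.of_valPt))).val_eq]

end Fermat.Agent.AVTorsion.AbVar
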