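import Fermat.Agent.AVTorsion.GenericPoints
import Fermat.Agent.AVTorsion.Involution

/-!
# An even transcendence basis of the function field

The function field is algebraic over the field of even functions, so it has a transcendence basis
of functions invariant under the inversion.
-/

set_option autoImplicit false

universe u

noncomputable section

open CategoryTheory AlgebraicGeometry

namespace Fermat.Agent.AVTorsion.AbVar

variable {k : Type u} [Field k] [IsAlgClosed k] (X : AbVar k)

theorem isEven_of_fixed {u : X.FF} (h : X.invEmb u = u) : X.IsEven u := fun e he => by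
  rw [map_η_injective (he.trans X.map_invEmb_η.symm), h]

/-- There is a transcendence basis of even functions. -/
theorem exists_even_transcendenceBasis :
    ∃ f : Fin X.dim → X.FF, IsTranscendenceBasis k f ∧ ∀ i, X.IsEven (f i) := by
  obtain ⟨y, hy⟩ := X.exists_transcendenceBasis_FF
  let S : Set X.FF := (Set.range fun i => y i + X.invEmb (y i)) ∪
    Set.range fun i => y i * X.invEmb (y i)
  have hfix : ∀ u ∈ S, X.invEmb u = u := by
    rintro _ (⟨i, rfl⟩ | ⟨i, rfl⟩)
    · simp only [map_add, invEmb_invEmb, add_comm]
    · simp only [map_mul, invEmb_invEmb, mul_comm]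
  have halg : Algebra.IsAlgebraic (Algebra.adjoin k S) X.FF := by
    have hy' := hy.isAlgebraic
    refine ⟨fun x => (hy'.isAlgebraic x).adjoin_of_forall_isAlgebraic ?_⟩
    rintro _ ⟨⟨i, rfl⟩, -⟩
    let R := Algebra.adjoin k S
    let s : R := ⟨_, Algebra.subset_adjoin (Or.inl ⟨i, rfl⟩)⟩
    let p : R := ⟨_, Algebra.subset_adjoin (Or.inr ⟨i, rfl⟩)⟩
    refine ⟨Polynomial.X ^ 2 - (Polynomial.C s * Polynomial.X - Polynomial.C p), ?_, ?_⟩
    · intro h0
      have := congrArg (fun q : Polynomial R => q.coeff 2) h0
      simp at this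
    · simp [s, p]
      ring
  obtain ⟨t, htS, ht⟩ := exists_isTranscendenceBasis_subset (R := k) S
  have hcard : Cardinal.mk t = (X.dim : Cardinal.{u}) := ht.cardinalMk_eq_trdeg.trans X.trdeg_FF
  have : Finite t := Cardinal.mk_lt_aleph0_iff.1 (hcard ▸ Cardinal.natCast_lt_aleph0)
  have h : Nat.card t = X.dim := by rw [Nat.card, hcard, Cardinal.toNat_natCast]
  exact ⟨_, ht.comp_equiv (Finite.equivFinOfCardEq h).symm,
    fun i => X.isEven_of_fixed (hfix _ (htS (Subtype.coe_prop _)))⟩

end Fermat.Agent.AVTorsion.AbVar
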