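import Fermat.Agent.AVTorsion.Independence
import Fermat.Agent.AVTorsion.FieldDegrees

/-!
# Degrees before and after multiplication by `n`

With `T m = k(a, f_j(m η + a_j))` and `E = k(a, η)`, one has `[E : T n] = δ · [E : T 1]` where `δ`
is the degree of multiplication by `n` on the function field.
-/

set_option autoImplicit false

universe u

noncomputable section

open CategoryTheory AlgebraicGeometry IntermediateField
open scoped TensorProduct

namespace Fermat.Agent.AVTorsion.AbVar

/-- Two embeddings of a domain extend to its field of fractions. -/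
theorem exists_fraction_lifts {k U D : Type u} [Field k] [Field U] [Algebra k U] [CommRing D]
    [IsDomain D] [Algebra k D] (φ φ' : D →ₐ[k] U) (h : Function.Injective φ)
    (h' : Function.Injective φ') :
    ∃ (Q : Type u) (_ : Field Q) (_ : Algebra k Q) (ι : D →ₐ[k] Q) (Φ Φ' : Q →ₐ[k] U),
      Φ.comp ι = φ ∧ Φ'.comp ι = φ' ∧ ∀ q, ∃ a b, ι a / ι b = q := by
  refine ⟨FractionRing D, inferInstance, inferInstance,
    IsScalarTower.toAlgHom k D (FractionRing D),
    IsFractionRing.liftAlgHom (K := FractionRing D) h,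
    IsFractionRing.liftAlgHom (K := FractionRing D) h',
    AlgHom.ext fun z => IsFractionRing.lift_algebraMap h z,
    AlgHom.ext fun z => IsFractionRing.lift_algebraMap h' z, fun q => ?_⟩
  obtain ⟨a, b, -, hq⟩ := IsFractionRing.div_surjective (A := D) q
  exact ⟨a, b, hq⟩

/-- Two embeddings of the field of fractions of `A ⊗ L`. -/
theorem exists_generic_composite {k U L : Type u} [Field k] [IsAlgClosed k] [Field U] [Algebra k U]
    [Field L] [Algebra k L] (A : IntermediateField k U) (e e' : L →ₐ[k] U)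
    (he : Function.Injective (Algebra.TensorProduct.productMap A.val e))
    (he' : Function.Injective (Algebra.TensorProduct.productMap A.val e')) :
    ∃ (Q : Type u) (_ : Field Q) (_ : Algebra k Q) (iA : A →ₐ[k] Q) (iF : L →ₐ[k] Q)
      (Φ Φ' : Q →ₐ[k] U), Φ.comp iA = A.val ∧ Φ'.comp iA = A.val ∧ Φ.comp iF = e ∧
        Φ'.comp iF = e' ∧ (⊤ : IntermediateField k Q).map Φ = A ⊔ e.fieldRange ∧
        (⊤ : IntermediateField k Q).map Φ' = A ⊔ e'.fieldRange := by
  have := isDomain_tensor_field (K := k) A L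
  obtain ⟨Q, _, _, ι, Φ, Φ', h, h', hdiv⟩ := exists_fraction_lifts (D := A ⊗[k] L)
    (Algebra.TensorProduct.productMap A.val e) (Algebra.TensorProduct.productMap A.val e') he he'
  have key : ∀ (x : L →ₐ[k] U) (Ψ : Q →ₐ[k] U),
      Ψ.comp ι = Algebra.TensorProduct.productMap A.val x →
      Ψ.comp (ι.comp Algebra.TensorProduct.includeLeft) = A.val ∧
      Ψ.comp (ι.comp Algebra.TensorProduct.includeRight) = x ∧
      (⊤ : IntermediateField k Q).map Ψ = A ⊔ x.fieldRange := by
    intro x Ψ hx
    have hx' : ∀ z, Ψ (ι z) = Algebra.TensorProduct.productMap A.val x z := DFunLike.congr_fun hx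
    have h1 : ∀ a : A, Ψ (ι (a ⊗ₜ 1)) = a := fun a => by rw [hx']; simp
    have h2 : ∀ u, Ψ (ι (1 ⊗ₜ u)) = x u := fun u => by rw [hx']; simp
    refine ⟨AlgHom.ext h1, AlgHom.ext h2, ?_⟩
    rw [← AlgHom.fieldRange_eq_map]
    refine le_antisymm ?_ (sup_le (fun a ha => ⟨_, h1 ⟨a, ha⟩⟩) ?_)
    · rintro _ ⟨q, rfl⟩
      obtain ⟨a, b, rfl⟩ := hdiv q
      show Ψ (ι a / ι b) ∈ _
      rw [map_div₀, hx', hx']
      have hmem : ∀ w, Algebra.TensorProduct.productMap A.val x w ∈ A ⊔ x.fieldRange := fun w => by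
        induction w using TensorProduct.induction_on with
        | zero => rw [map_zero]; exact zero_mem _
        | tmul a u =>
          rw [Algebra.TensorProduct.productMap_apply_tmul]
          exact mul_mem ((le_sup_left : A ≤ A ⊔ x.fieldRange) a.2)
            ((le_sup_right : x.fieldRange ≤ A ⊔ x.fieldRange) ⟨u, rfl⟩)
        | add y w hy hw => rw [map_add]; exact add_mem hy hw
      exact div_mem (hmem a) (hmem b)
    · rintro _ ⟨u, rfl⟩
      exact ⟨_, h2 u⟩
  obtain ⟨k1, k2, k3⟩ := key e Φ h
  obtain ⟨k1', k2', k3'⟩ := key e' Φ' h'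
  exact ⟨Q, inferInstance, inferInstance, _, _, Φ, Φ', k1, k1', k2, k2', k3, k3'⟩

variable {k : Type u} [Field k] [IsAlgClosed k] {X : AbVar k}
variable {U : Type u} [Field U] [Algebra k U]

namespace Copies

variable (c : Copies X U) (f : Fin X.dim → X.FF)

/-- The value `f_j(m_j η + a_j)`. -/
def val (m : Fin X.dim → ℕ) (j : Fin X.dim) : U := c.ev (m j) j (f j)

/-- The field generated by the translations and all values. -/
def valField (m : Fin X.dim → ℕ) : IntermediateField k U :=
  c.A ⊔ adjoin k (Set.range (c.val f m))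

/-- The field generated by the translations and the generic point. -/
def E : IntermediateField k U := c.A ⊔ c.eη.fieldRange

/-- The values lie in the field `E`. -/
theorem val_mem_E (m : Fin X.dim → ℕ) (j : Fin X.dim) : c.val f m j ∈ c.E := by
  refine (sup_le le_sup_right (le_sup_of_le_left ?_) :
    c.eη.fieldRange ⊔ (c.ea j).fieldRange ≤ c.E) (c.ev_mem (m j) j ⟨f j, rfl⟩)
  exact le_iSup (fun j => (c.ea j).fieldRange) j

/-- The field of the values is contained in `E`. -/
theorem valField_le (m : Fin X.dim → ℕ) : c.valField f m ≤ c.E :=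
  sup_le le_sup_left (adjoin_le_iff.2 (Set.range_subset_iff.2 (c.val_mem_E f m)))

/-- Adjoining the translations does not change the degree of a multiplication map. -/
theorem finrank_eq_relfinrank_sup (ν : X.FF →ₐ[k] X.FF) (hfin : Module.Finite ν.fieldRange X.FF) :
    relfinrank (c.A ⊔ (c.eη.comp ν).fieldRange) c.E = Module.finrank ν.fieldRange X.FF := by
  classical
  have hνη : (c.eη.comp ν).fieldRange ≤ c.eη.fieldRange := by
    rintro _ ⟨u, rfl⟩; exact ⟨ν u, rfl⟩
  set P : IntermediateField k U := (c.eη.comp ν).fieldRange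
  let b := Module.finBasis ν.fieldRange X.FF
  have hb : LinearIndependent P fun i => c.eη (b i) := by
    rw [linearIndependent_iff']
    intro s g hg i hi
    have hg' : ∀ i, ∃ a : ν.fieldRange, c.eη a = g i := fun i => by
      obtain ⟨u, hu⟩ := (g i).2
      exact ⟨⟨ν u, u, rfl⟩, hu⟩
    choose a ha using hg'
    have h0 : ∑ j ∈ s, a j • b j = 0 := by
      apply c.eη.injective
      rw [map_sum, map_zero, ← hg]
      refine Finset.sum_congr rfl fun j _ => ?_
      rw [Algebra.smul_def, map_mul]
      show c.eη (a j : X.FF) * _ = _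
      rw [ha j]
      rfl
    have := linearIndependent_iff'.1 b.linearIndependent s a h0 i hi
    apply Subtype.ext
    rw [← ha i, this]
    exact map_zero c.eη
  let sB : Finset U := Finset.univ.image fun i => c.eη (b i)
  have hQ : (c.eη.fieldRange : Set U) ⊆ Submodule.span P (sB : Set U) := by
    rintro _ ⟨z, rfl⟩
    show c.eη z ∈ Submodule.span P (sB : Set U)
    rw [← b.sum_repr z, map_sum]
    refine Submodule.sum_mem _ fun i _ => ?_
    rw [Algebra.smul_def, map_mul]
    obtain ⟨u, hu⟩ := (b.repr z i).2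
    refine Submodule.smul_mem _ (⟨c.eη (b.repr z i : X.FF), u, ?_⟩ : P)
      (Submodule.subset_span (by simp [sB]))
    exact congrArg c.eη hu
  have hsB : (sB : Set U) ⊆ c.eη.fieldRange := by
    intro x hx
    obtain ⟨i, -, rfl⟩ := Finset.mem_image.1 hx
    exact ⟨b i, rfl⟩
  have hdis : (P ⊔ c.eη.fieldRange).LinearDisjoint c.A := by
    rw [sup_eq_right.2 hνη]
    exact c.A_disjoint.symm
  have hli := linearIndependent_sup_right hdis (b := fun i => c.eη (b i))
    (fun i => (le_sup_right : c.eη.fieldRange ≤ P ⊔ c.eη.fieldRange) ⟨b i, rfl⟩) hb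
  symm
  rw [E, sup_comm c.A, sup_comm c.A, relfinrank_sup_eq_finrank_span hνη c.A hsB hQ]
  have hrange : (sB : Set U) = Set.range fun i => c.eη (b i) := by simp [sB]
  rw [hrange, finrank_span_eq_card hli, Fintype.card_fin, Module.finrank_eq_card_basis b,
    Fintype.card_fin]

/-- The two maps of the generic composite are injective. -/
theorem productMap_injective (ν : X.FF →ₐ[k] X.FF) :
    Function.Injective (Algebra.TensorProduct.productMap c.A.val c.eη) ∧
      Function.Injective (Algebra.TensorProduct.productMap c.A.val (c.eη.comp ν)) := by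
  have h := c.A_disjoint
  rw [linearDisjoint_iff', Subalgebra.linearDisjoint_iff_injective] at h
  let r : X.FF ≃ₐ[k] c.eη.fieldRange := AlgEquiv.ofInjectiveField c.eη
  have e : Algebra.TensorProduct.productMap c.A.val c.eη =
      (c.A.toSubalgebra.mulMap c.eη.fieldRange.toSubalgebra).comp
        (Algebra.TensorProduct.congr AlgEquiv.refl r).toAlgHom :=
    Algebra.TensorProduct.ext' fun a u => by
      simp [r, Subalgebra.mulMap]
      rfl
  have hφ : Function.Injective (Algebra.TensorProduct.productMap c.A.val c.eη) := by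
    rw [e]
    exact h.comp (Algebra.TensorProduct.congr AlgEquiv.refl r).injective
  have e' : Algebra.TensorProduct.productMap c.A.val (c.eη.comp ν) =
      (Algebra.TensorProduct.productMap c.A.val c.eη).comp
        (Algebra.TensorProduct.map (AlgHom.id k c.A) ν) :=
    Algebra.TensorProduct.ext' fun a u => by simp
  refine ⟨hφ, ?_⟩
  rw [e']
  exact hφ.comp (Module.Flat.lTensor_preserves_injective_linearMap (M := c.A)
    ν.toLinearMap ν.injective)

/-- Below `k(a, n η)` the degree is the same as below `k(a, η)`. -/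
theorem relfinrank_valField_comp (n : ℕ) (ν : X.FF →ₐ[k] X.FF) (hν : Pt.map ν X.η = n • X.η) :
    relfinrank (c.valField f fun _ => n) (c.A ⊔ (c.eη.comp ν).fieldRange) =
      relfinrank (c.valField f fun _ => 1) c.E := by
  obtain ⟨hφ, hφν⟩ := c.productMap_injective ν
  obtain ⟨Q, _, _, iA, iF, Φ, Φν, hA, hAν, hF, hFν, hR, hRν⟩ :=
    exists_generic_composite c.A c.eη (c.eη.comp ν) hφ hφν
  let qa : ∀ j, X.FF →ₐ[k] c.A := fun j => (c.ea j).codRestrict c.A.toSubalgebra fun u =>
    (le_iSup (fun j => (c.ea j).fieldRange) j : _ ≤ c.A) ⟨u, rfl⟩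
  let z : ∀ j, X.Pt Q := fun j => Pt.map iF X.η + Pt.map iA (Pt.map (qa j) X.η)
  have hz : ∀ (e : X.FF →ₐ[k] U) (χ : Q →ₐ[k] U), χ.comp iA = c.A.val → χ.comp iF = e →
      ∀ j, Pt.map χ (z j) = Pt.map e X.η + c.pa j := by
    intro e χ h1 h2 j
    rw [map_add, Pt.map_map, Pt.map_map, h1, h2, Pt.map_map]
    rfl
  have hzp : ∀ j, (z j).point = X.gp := fun j => by
    have : IsLocalHom Φ.toRingHom :=
      ⟨fun a ha => isUnit_iff_ne_zero.2 fun h => ha.ne_zero (by simp [h])⟩
    rw [← Pt.point_map_of_isLocalHom Φ (z j), hz _ _ hA hF]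
    have := c.point_moved 1 j
    rwa [moved, one_smul] at this
  let S : IntermediateField k Q :=
    adjoin k (Set.range iA ∪ Set.range fun j => (z j).evalGen (hzp j) (f j))
  have hS : ∀ (e : X.FF →ₐ[k] U) (χ : Q →ₐ[k] U), χ.comp iA = c.A.val → χ.comp iF = e →
      ∀ m : ℕ, Pt.map e X.η = m • c.pη → S.map χ = c.valField f fun _ => m := by
    intro e χ h1 h2 m hm
    rw [adjoin_map, Set.image_union, ← Set.range_comp, ← Set.range_comp, adjoin_union]
    refine congrArg₂ (· ⊔ ·) ?_ ?_
    · rw [show (χ : Q → U) ∘ iA = Subtype.val from funext fun a => DFunLike.congr_fun h1 a,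
        Subtype.range_coe_subtype]
      exact adjoin_self k c.A
    · refine congrArg (adjoin k) (congrArg Set.range (funext fun j => ?_))
      refine DFunLike.congr_fun (f := χ.comp ((z j).evalGen (hzp j)))
        (map_η_injective (X := X) ?_) (f j)
      rw [← Pt.map_map, map_evalGen_η, hz _ _ h1 h2, c.map_ev, hm]
  have hn1 : Pt.map (c.eη.comp ν) X.η = n • c.pη := by
    rw [← Pt.map_map, hν, map_nsmul]
    rfl
  have h1 := relfinrank_map_map S ⊤ Φ
  have h2 := relfinrank_map_map S ⊤ Φν
  rw [hS _ _ hA hF 1 (one_smul ℕ c.pη).symm, hR] at h1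
  rw [hS _ _ hAν hFν n hn1, hRν] at h2
  exact h2.trans h1.symm

/-- `[E : T n] = δ [E : T 1]`. -/
theorem relfinrank_nsmul (n : ℕ) (ν : X.FF →ₐ[k] X.FF) (hν : Pt.map ν X.η = n • X.η)
    (hfin : Module.Finite ν.fieldRange X.FF) :
    relfinrank (c.valField f fun _ => n) c.E =
      Module.finrank ν.fieldRange X.FF * relfinrank (c.valField f fun _ => 1) c.E := by
  set E' : IntermediateField k U := c.A ⊔ (c.eη.comp ν).fieldRange with hE'
  have hTE' : c.valField f (fun _ => n) ≤ E' := by
    refine sup_le le_sup_left (adjoin_le_iff.2 ?_)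
    rintro _ ⟨j, rfl⟩
    refine (fieldRange_le_of_defOver (S := E') ?_) ⟨f j, rfl⟩
    rw [c.map_ev, pη, ← map_nsmul, ← hν, Pt.map_map]
    exact ((defOver_fieldRange _).mono le_sup_right).add
      ((defOver_fieldRange (c.ea j)).mono
        (le_sup_of_le_left (le_iSup (fun j => (c.ea j).fieldRange) j)))
  have hE'E : E' ≤ c.E := sup_le le_sup_left (le_sup_of_le_right (by
    rintro _ ⟨u, rfl⟩; exact ⟨ν u, rfl⟩))
  rw [← relfinrank_mul_relfinrank hTE' hE'E, mul_comm, c.finrank_eq_relfinrank_sup ν hfin,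
    c.relfinrank_valField_comp f n ν hν]

end Copies

end Fermat.Agent.AVTorsion.AbVar
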