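import Fermat.Agent.AVTorsion.CurveStep
import Fermat.Agent.AVTorsion.Isogeny
import Fermat.Agent.AVTorsion.EvenBasis

/-!
# The degree recursion

Replacing the multipliers `1` by `n` one at a time multiplies the degree `[k(a, η) : k(a, values)]`
by `n ^ 2`; hence the degree of multiplication by `n` is `n ^ (2 g)`.
-/

set_option autoImplicit false

universe u

noncomputable section

open CategoryTheory AlgebraicGeometry IntermediateField

namespace Fermat.Agent.AVTorsion.AbVar

variable {k : Type u} [Field k] [IsAlgClosed k] {X : AbVar k}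
variable {U : Type u} [Field U] [Algebra k U]

namespace Copies

variable (c : Copies X U) {f : Fin X.dim → X.FF}

theorem E_le_algClos (hf : IsTranscendenceBasis k f) :
    c.E ≤ algClos (c.A ⊔ adjoin k (Set.range (c.eη ∘ f))) :=
  sup_le ((le_sup_left).trans (le_algClos _))
    ((fieldRange_le_algClos_adjoin c.eη hf).trans (algClos_mono le_sup_right))

theorem independent_eη (hf : AlgebraicIndependent k f) :
    AlgebraicIndependent c.A (c.eη ∘ f) :=
  algebraicIndependent_of_linearDisjoint c.A_disjoint (fun j => ⟨f j, rfl⟩)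
    (hf.map' c.eη.injective)

/-- The generic point is algebraic over the field generated by independent values. -/
theorem eη_le_algClos_of_indep (hf : IsTranscendenceBasis k f) {v : Fin X.dim → U}
    (hvE : ∀ j, v j ∈ c.E) (hv : AlgebraicIndependent c.A v) :
    c.E ≤ algClos (c.A ⊔ adjoin k (Set.range v)) := by
  intro z hz
  by_contra hne
  have htr : Transcendental (Algebra.adjoin c.A (Set.range v)) z := by
    intro hal
    refine hne (mem_algClos.2 ?_)
    obtain ⟨p, hp, hpz⟩ := hal
    have hmem : ∀ a : Algebra.adjoin c.A (Set.range v),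
        (a : U) ∈ c.A ⊔ adjoin k (Set.range v) := by
      rintro ⟨a, ha⟩
      show a ∈ c.A ⊔ adjoin k (Set.range v)
      induction ha using Algebra.adjoin_induction with
      | mem x hx => exact (le_sup_right : adjoin k (Set.range v) ≤ _) (subset_adjoin k _ hx)
      | algebraMap r => exact (le_sup_left : c.A ≤ c.A ⊔ adjoin k (Set.range v)) r.2
      | add x y _ _ hx hy => exact add_mem hx hy
      | mul x y _ _ hx hy => exact mul_mem hx hy
    let j : Algebra.adjoin c.A (Set.range v) →+* ↥(c.A ⊔ adjoin k (Set.range v)) :=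
      (algebraMap (Algebra.adjoin c.A (Set.range v)) U).codRestrict
        (c.A ⊔ adjoin k (Set.range v)).toSubfield hmem
    refine ⟨p.map j, (Polynomial.map_ne_zero_iff fun a b h => ?_).2 hp, ?_⟩
    · exact Subtype.ext (congrArg (fun w : ↥(c.A ⊔ adjoin k (Set.range v)) => (w : U)) h)
    · rw [Polynomial.aeval_def, Polynomial.eval₂_map]
      exact hpz
  have hopt : AlgebraicIndependent c.A (fun o : Option (Fin X.dim) => o.elim z v) :=
    (AlgebraicIndependent.option_iff_transcendental hv z).2 htr
  have h := natCard_le_trdeg c.A (Algebra.adjoin k (Set.range (c.eη ∘ f))) (g := X.dim + 1)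
    (y := fun i => (finSuccEquiv X.dim i).elim z v)
    (hopt.comp _ (finSuccEquiv X.dim).injective) (fun i => ?_)
  · have h2 := h.trans (trdeg_adjoin_le _)
    have h4 : Cardinal.mk (Set.range (c.eη ∘ f)) ≤ (X.dim : Cardinal.{u}) := by
      simpa using Cardinal.mk_range_le_lift (f := c.eη ∘ f)
    have h5 : ((X.dim + 1 : ℕ) : Cardinal.{u}) ≤ (X.dim : Cardinal.{u}) := h2.trans h4
    rw [Nat.cast_le] at h5
    omega
  · have hle : c.A ⊔ adjoin k (Set.range (c.eη ∘ f)) ≤
        c.A ⊔ adjoin k (Algebra.adjoin k (Set.range (c.eη ∘ f)) : Set U) :=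
      sup_le_sup_left (adjoin.mono k _ _ Algebra.subset_adjoin) _
    refine mem_algClos.1 (algClos_mono hle (c.E_le_algClos hf ?_))
    cases finSuccEquiv X.dim i with
    | none => exact hz
    | some j => exact hvE j

variable [IsAlgClosed U]

theorem base_ne_zero (hf : IsTranscendenceBasis k f) :
    relfinrank (c.valField f fun _ => 1) c.E ≠ 0 := by
  have := X.essFiniteType_FF
  obtain ⟨S, hS, hgen⟩ := exists_finite_generators c.eη
  refine relfinrank_ne_zero_of_algebraic (c.valField_le f _) hS ?_
    (c.eη_le_algClos_of_indep hf (c.val_mem_E f fun _ => 1) (c.algebraicIndependent_values hf.1))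
  refine le_antisymm (sup_le (le_sup_of_le_left le_sup_left) ?_)
    (sup_le (c.valField_le f _) (hgen ▸ le_sup_right))
  rw [hgen]
  exact le_sup_right

omit [IsAlgClosed U] in
theorem valField_eq (m : Fin X.dim → ℕ) (i : Fin X.dim) :
    c.valField f m = (c.others i ⊔ adjoin k (c.val f m '' {j | j ≠ i})) ⊔ (c.ea i).fieldRange ⊔
      adjoin k {c.val f m i} := by
  have hr : Set.range (c.val f m) = c.val f m '' {j | j ≠ i} ∪ {c.val f m i} := by
    ext x
    constructor
    · rintro ⟨j, rfl⟩
      by_cases h : j = i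
      · exact Or.inr (by rw [h]; rfl)
      · exact Or.inl ⟨j, h, rfl⟩
    · rintro (⟨j, -, rfl⟩ | rfl) <;> exact ⟨_, rfl⟩
  rw [valField, hr, adjoin_union, ← c.others_sup i]
  simp only [sup_comm, sup_left_comm, sup_assoc]

omit [IsAlgClosed U] in
/-- The other values do not exhaust the transcendence degree. -/
theorem not_le_algClos_others (hf : IsTranscendenceBasis k f) (i : Fin X.dim)
    (m : Fin X.dim → ℕ) :
    ¬ c.eη.fieldRange ≤ algClos (c.A ⊔ adjoin k (c.val f m '' {j | j ≠ i})) := by
  intro hle
  set D := Algebra.adjoin k (c.val f m '' {j | j ≠ i})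
  have h := natCard_le_trdeg c.A D (c.independent_eη hf.1) fun j => by
    refine mem_algClos.1 (algClos_mono (sup_le_sup_left (adjoin.mono k _ _ ?_) _)
      (hle ⟨f j, rfl⟩))
    exact Algebra.subset_adjoin
  have h2 : Cardinal.mk ↥(c.val f m '' {j | j ≠ i}) ≤ ((X.dim - 1 : ℕ) : Cardinal.{u}) := by
    classical
    have hfin : (c.val f m '' {j | j ≠ i}).Finite := Set.toFinite _
    rw [← Cardinal.cast_toNat_of_lt_aleph0 (Cardinal.mk_lt_aleph0_iff.2 hfin), Nat.cast_le]
    show (c.val f m '' {j | j ≠ i}).ncard ≤ _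
    refine (Set.ncard_image_le (Set.toFinite _)).trans ?_
    rw [show {j : Fin X.dim | j ≠ i} = {i}ᶜ from rfl, Set.ncard_compl, Set.ncard_singleton,
      Nat.card_fin]
  have h3 : (X.dim : Cardinal.{u}) ≤ ((X.dim - 1 : ℕ) : Cardinal.{u}) :=
    h.trans ((trdeg_adjoin_le _).trans h2)
  rw [Nat.cast_le] at h3
  have := i.pos
  omega

/-- One step of the recursion. -/
theorem step (hH : HeightScaling X) (hf : IsTranscendenceBasis k f) (heven : ∀ j, X.IsEven (f j))
    {n : ℕ} (hn : 0 < n) (m : Fin X.dim → ℕ) (i : Fin X.dim) (hm : m i = 1)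
    (hN : relfinrank (c.valField f m) c.E ≠ 0) :
    relfinrank (c.valField f (Function.update m i n)) c.E ≠ 0 ∧
      relfinrank (c.valField f (Function.update m i n)) c.E =
        n ^ 2 * relfinrank (c.valField f m) c.E := by
  classical
  have := X.essFiniteType_FF
  obtain ⟨S, hSfin, hS⟩ := exists_finite_generators c.eη
  set B₀ := c.others i ⊔ adjoin k (c.val f m '' {j | j ≠ i}) with hB₀
  set F₀ := B₀ ⊔ (c.ea i).fieldRange with hF₀
  set O := algClos B₀
  set F := algClos F₀
  set t := c.ev 1 i (f i)
  set t' := c.ev n i (f i)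
  have hT : c.valField f m = F₀ ⊔ adjoin k {t} := by
    rw [c.valField_eq m i]
    show _ ⊔ adjoin k {c.ev (m i) i (f i)} = _
    rw [hm]
  have himg : c.val f (Function.update m i n) '' {j | j ≠ i} = c.val f m '' {j | j ≠ i} := by
    refine Set.image_congr fun j hj => ?_
    show c.ev (Function.update m i n j) j (f j) = c.ev (m j) j (f j)
    rw [Function.update_of_ne hj]
  have hT' : c.valField f (Function.update m i n) = F₀ ⊔ adjoin k {t'} := by
    rw [c.valField_eq _ i, himg]
    show _ ⊔ adjoin k {c.ev (Function.update m i n i) i (f i)} = _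
    rw [Function.update_self]
  have hF₀E : F₀ ≤ c.E :=
    le_trans (le_sup_left) (hT ▸ c.valField_le f m)
  have hA : c.A ≤ F₀ := by
    rw [← c.others_sup i]
    exact sup_le_sup_right le_sup_left _
  have hEF : c.E ⊔ F = F ⊔ c.eη.fieldRange := by
    refine le_antisymm (sup_le (sup_le ?_ le_sup_right) le_sup_left)
      (sup_le le_sup_right (le_sup_of_le_left le_sup_right))
    exact le_sup_of_le_left (hA.trans (le_algClos F₀))
  have hB₀C : B₀ ≤ c.others i ⊔ c.eη.fieldRange := by
    refine sup_le le_sup_left (adjoin_le_iff.2 ?_)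
    rintro _ ⟨j, hj, rfl⟩
    refine (sup_le le_sup_right (le_sup_of_le_left ?_) :
      c.eη.fieldRange ⊔ (c.ea j).fieldRange ≤ c.others i ⊔ c.eη.fieldRange)
      (c.ev_mem (m j) j ⟨f j, rfl⟩)
    exact le_iSup₂ (f := fun j (_ : j ∈ {j | j ≠ i}) => (c.ea j).fieldRange) j hj
  have hOF : O ≤ F := algClos_mono le_sup_left
  have haF : (c.ea i).fieldRange ≤ F := le_sup_right.trans (le_algClos F₀)
  have hFalg : F ≤ algClos (O ⊔ (c.ea i).fieldRange) :=
    algClos_mono (sup_le_sup_right (le_algClos B₀) _)
  -- `t` is transcendental over `F₀`, and so over `F`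
  have hEalg : c.E ≤ algClos (F₀ ⊔ adjoin k {t}) :=
    le_algClos_of_relfinrank_ne_zero (hT ▸ c.valField_le f m) (hT ▸ hN)
  have hnotF : ¬ c.eη.fieldRange ≤ F := fun h => c.not_le_algClos_others hf i m
    (h.trans (algClos_mono (sup_le (sup_le (le_sup_of_le_left ?_) le_sup_right)
      (le_sup_of_le_left ?_))))
  rotate_left
  · exact le_trans (le_sup_left) (c.others_sup i).le
  · exact le_trans (le_sup_right) (c.others_sup i).le
  have htF₀ : Transcendental F₀ t := fun h => hnotF fun z hz =>
    mem_algClos_of_isAlgebraic (sup_le (le_algClos F₀) (adjoin_simple_le_iff.2 (mem_algClos.2 h)))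
      (mem_algClos.1 (hEalg ((le_sup_right : c.eη.fieldRange ≤ c.E) hz)))
  have htF : Transcendental F t := fun h =>
    htF₀ (mem_algClos.1 (mem_algClos_of_isAlgebraic le_rfl h))
  have halg : c.eη.fieldRange ≤ algClos (F ⊔ adjoin k {t}) :=
    (le_sup_right.trans hEalg).trans (algClos_mono (sup_le_sup_right (le_algClos F₀) _))
  obtain ⟨ht'F, hpos, hdeg⟩ := c.scaling_step hH (O := O) (F := F)
    (algClos_mono hB₀C) hOF haF hFalg (heven i) hn htF halg
  have ht'F₀ : Transcendental F₀ t' := fun h => ht'F
    (isAlgebraic_algebraMap (⟨t', mem_algClos.2 h⟩ : F))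
  have ht'E : t' ∈ c.E := by
    have := c.val_mem_E f (Function.update m i n) i
    rwa [show c.val f (Function.update m i n) i = t' by simp [val, t']] at this
  have hpos' : relfinrank (F ⊔ adjoin k {t'}) (F ⊔ c.eη.fieldRange) ≠ 0 := by
    rw [hdeg]; positivity
  have hne' : relfinrank (F₀ ⊔ adjoin k {t'}) c.E ≠ 0 := by
    refine relfinrank_ne_zero_of_algebraic (sup_le hF₀E (adjoin_simple_le_iff.2 ht'E)) hSfin ?_ ?_
    · rw [← hS]
      exact le_antisymm (sup_le (le_sup_of_le_left (le_sup_of_le_left hA)) le_sup_right)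
        (sup_le (sup_le hF₀E (adjoin_simple_le_iff.2 ht'E)) le_sup_right)
    · have hL := le_algClos_of_relfinrank_ne_zero
        (sup_le le_sup_left (adjoin_simple_le_iff.2 (by rw [← hEF]; exact (le_sup_left : c.E ≤ _) ht'E)))
        hpos'
      intro z hz
      refine mem_algClos_of_isAlgebraic (sup_le (algClos_mono le_sup_left)
        (le_sup_right.trans (le_algClos _))) (mem_algClos.1 (hL ?_))
      rw [← hEF]
      exact (le_sup_left : c.E ≤ c.E ⊔ F) hz
  rw [hT'] 
  refine ⟨hne', ?_⟩
  have hprop := relfinrank_mul_comm_of_algebraic hF₀E (le_algClos F₀) (algClos_isAlgebraic F₀)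
    htF₀ ht'F₀ (c.val_mem_E f m i |> fun h => by simpa [val, hm] using h) ht'E (hT ▸ hN) hne'
  rw [hEF, hdeg] at hprop
  rw [hT]
  refine mul_right_cancel₀ hpos ?_
  rw [← hprop]
  ring

/-- The degree below the values at `n η + a_j` is `n ^ (2 dim X)` times the degree below those at
`η + a_j`. -/
theorem recursion (hH : HeightScaling X) (hf : IsTranscendenceBasis k f)
    (heven : ∀ j, X.IsEven (f j)) {n : ℕ} (hn : 0 < n) :
    relfinrank (c.valField f fun _ => n) c.E =
      n ^ (2 * X.dim) * relfinrank (c.valField f fun _ => 1) c.E := by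
  classical
  suffices h : ∀ J : Finset (Fin X.dim),
      relfinrank (c.valField f fun j => if j ∈ J then n else 1) c.E ≠ 0 ∧
      relfinrank (c.valField f fun j => if j ∈ J then n else 1) c.E =
        n ^ (2 * J.card) * relfinrank (c.valField f fun _ => 1) c.E by
    simpa using (h Finset.univ).2
  intro J
  induction J using Finset.induction_on with
  | empty => simpa using c.base_ne_zero hf
  | @insert i J hi ih =>
    have hupd : (fun j => if j ∈ insert i J then n else 1) =
        Function.update (fun j => if j ∈ J then n else 1) i n := by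
      funext j
      by_cases h : j = i
      · subst h; simp
      · simp [h]
    obtain ⟨h1, h2⟩ := c.step hH hf heven hn (fun j => if j ∈ J then n else 1) i (by simp [hi]) ih.1
    rw [hupd, Finset.card_insert_of_notMem hi]
    refine ⟨h1, ?_⟩
    rw [h2, ih.2]
    ring

end Copies

/-- The number of `n`-torsion points, given the scaling of heights. -/
theorem natCard_torsion_eq_pow (X : AbVar k) (hH : HeightScaling X) {n : ℕ} (hn : (n : k) ≠ 0) :
    Nat.card {T : X.Pt k // n • T = 0} = n ^ (2 * X.dim) := by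
  obtain ⟨U, _, _, _, ⟨c⟩⟩ := exists_copies X
  obtain ⟨f, hf, heven⟩ := X.exists_even_transcendenceBasis
  have hn0 : 0 < n := Nat.pos_of_ne_zero fun h => hn (by simp [h])
  let ν := (n • X.η).evalGen (point_nsmul_η hn)
  have hν : Pt.map ν X.η = n • X.η := map_evalGen_η _ _
  obtain ⟨hfin, -, hcard⟩ := natCard_torsion_eq_finrank hn ν hν
  rw [hcard]
  refine mul_right_cancel₀ (c.base_ne_zero hf) ?_
  rw [← c.relfinrank_nsmul f n ν hν hfin]
  exact c.recursion hH hf heven hn0

end Fermat.Agent.AVTorsion.AbVar

namespace Fermat.Agent.AVTorsion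

open GoodReductionJacobian NeronModelInfra

/-- The torsion count of an abelian scheme over an algebraically closed field, given the scaling of
heights for all abelian varieties over that field. -/
theorem natCard_isTorsionPoint_eq_pow_of_heightScaling (K : Type u) [Field K] [IsAlgClosed K]
    {A : Scheme.{u}} (f : A ⟶ Spec (CommRingCat.of K)) (L : RelativeGroupLaw K f)
    (hc : L.IsCommutative) (hA : AbelianSchemePropertyBundle K f) (g : ℕ)
    [hg : SmoothOfRelativeDimension g f] (n : ℕ) (hn : (n : K) ≠ 0)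
    (hH : ∀ X : AbVar K, AbVar.HeightScaling X) :
    Nat.card {x : SchemeHomOver (𝟙 (Spec (CommRingCat.of K))) f //
        L.IsTorsionPoint (𝟙 (Spec (CommRingCat.of K))) n x} = n ^ (2 * g) :=
  let X : AbVar K := ⟨A, f, L, hc, hA, g, hg⟩
  (AbVar.natCard_isTorsionPoint (X := X) n).trans (AbVar.natCard_torsion_eq_pow X (hH X) hn)

end Fermat.Agent.AVTorsion
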