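import Fermat.Agent.AVTorsion.Generic

set_option autoImplicit false

/-!
# Denominators of rational functions

At each point a rational function has an ideal of denominators generated by one element, since
local rings are factorial. Values of functions at points with values in fields.
-/

universe u

noncomputable section

open CategoryTheory AlgebraicGeometry

namespace Fermat.Agent.AVTorsion.AbVar

variable {k : Type u} [Field k] [IsAlgClosed k] {X : AbVar k}

/-- The function of a section does not depend on the point used to define it. -/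
theorem secFF_eq_secFF {V : X.carrier.Opens} {p q : X.carrier} (hp : p ∈ V) (hq : q ∈ V)
    (s : Γ(X.carrier, V)) : X.secFF V p hp s = X.secFF V q hq s := by
  have key : ∀ (x : X.carrier) (hx : x ∈ V), X.secFF V x hx s =
      (X.carrier.presheaf.germ V (genericPoint X.carrier)
        ((X.specializes_gp x).mem_open V.isOpen hx)).hom s := by
    intro x hx
    show ((X.carrier.presheaf.germ V x hx) ≫
      X.carrier.presheaf.stalkSpecializes (X.specializes_gp x)).hom s = _
    rw [TopCat.Presheaf.germ_stalkSpecializes]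
  rw [key, key]

/-- Local rings at generalisations are localisations. -/
theorem exists_mul_mem_localRing {p q : X.carrier} (h : q ⤳ p) {x : X.FF}
    (hx : x ∈ X.localRing q) :
    ∃ s ∈ X.localRing p, s ≠ 0 ∧ s⁻¹ ∈ X.localRing q ∧ x * s ∈ X.localRing p := by
  obtain ⟨V, hV, hp, -⟩ := X.exists_chart p
  have hq : q ∈ V := h.mem_open V.isOpen hp
  obtain ⟨o, rfl⟩ := hx
  obtain ⟨a, b, hb, hab⟩ := X.exists_germ_mul hV q hq o
  have hb' := hb.map (X.stalkToFF q)
  refine ⟨X.secFF V q hq b, ⟨_, (secFF_eq_secFF hq hp b).symm⟩, hb'.ne_zero, ?_, ?_⟩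
  · obtain ⟨c, hc⟩ := hb.exists_right_inv
    refine ⟨c, (inv_eq_of_mul_eq_one_right ?_).symm⟩
    show X.stalkToFF q (X.germAlg V q hq b) * X.stalkToFF q c = 1
    rw [← map_mul, hc, map_one]
  · refine ⟨X.germAlg V p hp a, ?_⟩
    show X.secFF V p hp a = X.stalkToFF q o * X.secFF V q hq b
    rw [secFF_eq_secFF hp hq a]
    show X.stalkToFF q _ = X.stalkToFF q o * X.stalkToFF q _
    rw [← map_mul]
    exact congrArg (X.stalkToFF q) hab.symm

/-- `w` generates the ideal of denominators of `u` at `p`. -/
structure IsDen (u : X.FF) (p : X.carrier) (w : X.FF) : Prop where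
  mem : w ∈ X.localRing p
  mem_mul : u * w ∈ X.localRing p
  ne_zero : w ≠ 0
  dvd : ∀ d ∈ X.localRing p, u * d ∈ X.localRing p → d / w ∈ X.localRing p

theorem exists_isDen (u : X.FF) (p : X.carrier) : ∃ w, IsDen u p w := by
  have := X.uniqueFactorizationMonoid_localRing p
  have := X.isFractionRing_localRing p
  obtain ⟨a, b, hab, h⟩ := IsFractionRing.exists_reduced_fraction (A := X.localRing p) u
  have hb0 : ((b : X.localRing p) : X.FF) ≠ 0 := fun h0 =>
    nonZeroDivisors.ne_zero b.2 (Subtype.ext h0)
  have hu : u * ((b : X.localRing p) : X.FF) = (a : X.FF) := by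
    rw [← h]; exact IsLocalization.mk'_spec X.FF a b
  refine ⟨_, (b : X.localRing p).2, hu ▸ a.2, hb0, fun d hd hud => ?_⟩
  have e : (⟨d, hd⟩ : X.localRing p) * a = ⟨_, hud⟩ * b := Subtype.ext (by
    show d * (a : X.FF) = u * d * _
    rw [← hu]; ring)
  obtain ⟨c, hc⟩ := hab.symm.dvd_of_dvd_mul_right (Dvd.intro_left _ e.symm)
  have hc' : d = ((b : X.localRing p) : X.FF) * c := congrArg Subtype.val hc
  rw [hc', mul_div_cancel_left₀ _ hb0]
  exact c.2

/-- A denominator at a point is one at every generisation. -/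
theorem IsDen.mono {u w : X.FF} {p q : X.carrier} (hw : IsDen u p w) (h : q ⤳ p) :
    IsDen u q w := by
  refine ⟨X.localRing_mono h hw.mem, X.localRing_mono h hw.mem_mul, hw.ne_zero,
    fun d hd hud => ?_⟩
  obtain ⟨s, hs, hs0, hs', hds⟩ := exists_mul_mem_localRing h hd
  obtain ⟨t, ht, ht0, ht', hudt⟩ := exists_mul_mem_localRing h hud
  have h1 := hw.dvd (d * s * t) (mul_mem hds ht)
    (by simpa [mul_comm, mul_assoc, mul_left_comm] using mul_mem hudt hs)
  have h2 := mul_mem (mul_mem (X.localRing_mono h h1) hs') ht'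
  convert h2 using 1
  field_simp

/-- The quotient of two denominators at a point is regular there. -/
theorem IsDen.div_mem {u w w' : X.FF} {p : X.carrier} (hw : IsDen u p w) (hw' : IsDen u p w') :
    w' / w ∈ X.localRing p :=
  hw.dvd w' hw'.mem hw'.mem_mul

/-- At the generic point `1` is a denominator. -/
theorem isDen_one (u : X.FF) : IsDen u X.gp 1 :=
  ⟨one_mem _, by rw [X.localRing_gp]; trivial, one_ne_zero,
    fun d hd _ => by rwa [div_one]⟩

/-- A denominator is prime to the numerator it defines. -/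
theorem IsDen.isRelPrime {u w : X.FF} {p : X.carrier} (hw : IsDen u p w) :
    IsRelPrime (⟨w, hw.mem⟩ : X.localRing p) ⟨u * w, hw.mem_mul⟩ := by
  rintro d ⟨c, hc⟩ ⟨c', hc'⟩
  have hc1 : w = (d : X.FF) * c := congrArg Subtype.val hc
  have hc2 : u * w = (d : X.FF) * c' := congrArg Subtype.val hc'
  have hd0 : (d : X.FF) ≠ 0 := fun h => hw.ne_zero (by rw [hc1, h, zero_mul])
  have hc0 : (c : X.FF) ≠ 0 := fun h => hw.ne_zero (by rw [hc1, h, mul_zero])
  have h : u * (c : X.FF) = c' := by
    have : u * w = (d : X.FF) * (u * c) := by rw [hc1]; ring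
    exact mul_left_cancel₀ hd0 (this.symm.trans hc2)
  have h2 := hw.dvd c c.2 (h ▸ c'.2)
  refine isUnit_iff_exists_inv.mpr ⟨⟨_, h2⟩, Subtype.ext ?_⟩
  show (d : X.FF) * ((c : X.FF) / w) = 1
  rw [hc1]
  field_simp

/-- A chosen generator of the ideal of denominators. -/
def den (u : X.FF) (p : X.carrier) : X.FF := (exists_isDen u p).choose

/-- The chosen denominator is a denominator. -/
theorem isDen_den (u : X.FF) (p : X.carrier) : IsDen u p (den u p) :=
  (exists_isDen u p).choose_spec

variable {L : Type u} [Field L] [Algebra k L]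

open Classical in
/-- The value of a function at a point, zero if it is not regular there. -/
def Pt.val (x : X.Pt L) (v : X.FF) : L :=
  if h : v ∈ X.localRing x.point then x.eval ⟨v, h⟩ else 0

/-- A regular function at a point has value `val` there. -/
theorem Pt.hasValue_val (x : X.Pt L) {v : X.FF} (h : v ∈ X.localRing x.point) :
    x.HasValue v (x.val v) := ⟨h, by rw [Pt.val, dif_pos h]⟩

/-- `val` computes the value of a function at a point. -/
theorem Pt.HasValue.val_eq {x : X.Pt L} {v : X.FF} {r : L} (h : x.HasValue v r) : x.val v = r :=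
  (x.hasValue_val h.1).unique h

/-- Values are multiplicative on regular functions. -/
theorem Pt.val_mul (x : X.Pt L) {v w : X.FF} (hv : v ∈ X.localRing x.point)
    (hw : w ∈ X.localRing x.point) : x.val (v * w) = x.val v * x.val w := by
  rw [Pt.val, Pt.val, Pt.val, dif_pos (mul_mem hv hw), dif_pos hv, dif_pos hw, ← map_mul]
  rfl

/-- The value of `1` is `1`. -/
@[simp]
theorem Pt.val_one (x : X.Pt L) : x.val 1 = 1 := by
  rw [Pt.val, dif_pos (one_mem _)]
  exact map_one x.eval

/-- A unit at a point has nonzero value there. -/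
theorem Pt.val_ne_zero (x : X.Pt L) {v : X.FF} (h0 : v ≠ 0) (hv : v ∈ X.localRing x.point)
    (hv' : v⁻¹ ∈ X.localRing x.point) : x.val v ≠ 0 := by
  intro h
  have := x.val_mul hv hv'
  rw [mul_inv_cancel₀ h0, h, zero_mul, Pt.val_one] at this
  exact one_ne_zero this

/-- A regular function with nonzero value at a point is a unit there. -/
theorem Pt.inv_mem_of_val_ne_zero (x : X.Pt L) {v : X.FF} (hv : v ∈ X.localRing x.point)
    (h : x.val v ≠ 0) : v⁻¹ ∈ X.localRing x.point := by
  rw [Pt.val, dif_pos hv] at h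
  obtain ⟨c, hc⟩ := ((x.isUnit_eval_iff _).mp (isUnit_iff_ne_zero.mpr h)).exists_right_inv
  rw [inv_eq_of_mul_eq_one_right (congrArg Subtype.val hc)]
  exact c.2

/-- The value at the point of an embedding is the embedding. -/
theorem Pt.val_map_η (e : X.FF →ₐ[k] L) (v : X.FF) : (Pt.map e X.η).val v = e v :=
  (hasValue_map_η e v).val_eq

/-- The quotient of two denominators at a point has nonzero value there. -/
theorem IsDen.val_div_ne_zero {u w w' : X.FF} (x : X.Pt L) (hw : IsDen u x.point w)
    (hw' : IsDen u x.point w') : x.val (w / w') ≠ 0 :=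
  x.val_ne_zero (div_ne_zero hw.ne_zero hw'.ne_zero) (hw'.div_mem hw)
    (by rw [inv_div]; exact hw.div_mem hw')

/-- Cocycle relation for the values of quotients of denominators. -/
theorem Pt.val_div_mul_div {u w₁ w₂ w₃ : X.FF} (x : X.Pt L) (h₁ : IsDen u x.point w₁)
    (h₂ : IsDen u x.point w₂) (h₃ : IsDen u x.point w₃) :
    x.val (w₁ / w₃) = x.val (w₁ / w₂) * x.val (w₂ / w₃) := by
  rw [← x.val_mul (h₂.div_mem h₁) (h₃.div_mem h₂), div_mul_div_cancel₀ h₂.ne_zero]

end Fermat.Agent.AVTorsion.AbVar
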