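import Fermat.Agent.AVTorsion.TangentKernel
import Mathlib.AlgebraicGeometry.Morphisms.FiniteType
import Mathlib.FieldTheory.IsAlgClosed.AlgebraicClosure
import Mathlib.FieldTheory.SeparableDegree
import Mathlib.RingTheory.Unramified.Field

/-!
# `#A[n]` is the degree of multiplication by `n`

Over an algebraically closed field, for `n` invertible, the torsion points do not change under
field extension, and their number is the (finite, separable) degree of the function field over the
residue field of the `n`-th multiple of the generic point.
-/

set_option autoImplicit false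

universe u

open CategoryTheory AlgebraicGeometry NeronModelInfra GoodReductionJacobian

namespace Fermat.Agent.AVTorsion

variable {K : Type u} [Field K] {A : Scheme.{u}} {f : A ⟶ Spec (CommRingCat.of K)}

/-- The residue field of a point as a `K`-algebra. -/
@[reducible] noncomputable def residueAlgebra (f : A ⟶ Spec (CommRingCat.of K)) (y : A) :
    Algebra K (A.residueField y) :=
  (Spec.preimage (A.fromSpecResidueField y ≫ f)).hom.toAlgebra

/-- The residue field of a point, as a type with a `K`-algebra structure. -/
abbrev ResF (_f : A ⟶ Spec (CommRingCat.of K)) (y : A) : Type u := A.residueField y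

noncomputable instance instAlgebraResF (y : A) : Algebra K (ResF f y) := residueAlgebra f y

theorem specStr_resF (y : A) :
    specStr K (ResF f y) = A.fromSpecResidueField y ≫ f :=
  Spec.map_preimage _

/-- The tautological point at `y`. -/
noncomputable def resPt (f : A ⟶ Spec (CommRingCat.of K)) (y : A) : Pts f (ResF f y) :=
  ⟨A.fromSpecResidueField y, (specStr_resF y).symm⟩

instance mono_resPt (y : A) : Mono (resPt f y).1 := by
  show Mono (A.fromSpecResidueField y)
  infer_instance

/-- The image of a field-valued point. -/
noncomputable def imgPt {R : Type u} [Field R] [Algebra K R] (x : Pts f R) : A :=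
  x.1 (IsLocalRing.closedPoint R)

theorem exists_pullPt_resPt {R : Type u} [Field R] [Algebra K R] (x : Pts f R) {y : A}
    (hy : imgPt x = y) : ∃ φ : ResF f y →ₐ[K] R, pullPt φ (resPt f y) = x := by
  subst hy
  set φ := Scheme.descResidueField (Scheme.stalkClosedPointTo x.1) with hφ
  have hx : Spec.map φ ≫ A.fromSpecResidueField _ = x.1 :=
    Scheme.descResidueField_stalkClosedPointTo_fromSpecResidueField R A x.1
  have h : CommRingCat.ofHom (algebraMap K (ResF f (imgPt x))) ≫ φ =
      CommRingCat.ofHom (algebraMap K R) := by
    apply Spec.map_injective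
    refine (Spec.map_comp _ _).trans ?_
    have := x.2
    rw [← hx, Category.assoc, ← specStr_resF] at this
    exact this
  exact ⟨{ φ.hom with
      commutes' := fun r => DFunLike.congr_fun (congrArg CommRingCat.Hom.hom h) r },
    Subtype.ext hx⟩

theorem essFiniteType_resF [LocallyOfFiniteType f] (y : A) :
    Algebra.EssFiniteType K (ResF f y) := by
  rw [← RingHom.essFiniteType_algebraMap]
  have e : CommRingCat.ofHom (algebraMap K (ResF f y)) =
      (StructureSheaf.toStalk K (f y) ≫ f.stalkMap y) ≫ A.residue y := by
    apply Spec.map_injective
    rw [show Spec.map (CommRingCat.ofHom (algebraMap K (ResF f y))) = A.fromSpecResidueField y ≫ f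
      from specStr_resF y, Spec.map_comp, Scheme.fromSpecResidueField,
      Category.assoc, ← Scheme.SpecMap_stalkMap_fromSpecStalk, Spec.fromSpecStalk_eq]
    exact congrArg (Spec.map (A.residue y) ≫ ·) (Spec.map_comp _ _).symm
  have h1 : (StructureSheaf.toStalk K (f y)).hom.EssFiniteType := by
    let p : PrimeSpectrum K := f y
    show (algebraMap K ((Spec.structureSheaf K).presheaf.stalk p)).EssFiniteType
    rw [RingHom.essFiniteType_algebraMap]
    exact .of_isLocalization _ p.asIdeal.primeCompl
  have h2 := (h1.comp (LocallyOfFiniteType.stalkMap f y)).comp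
    (RingHom.FiniteType.of_surjective (A.residue y).hom
      (IsLocalRing.residue_surjective)).essFiniteType
  rw [show algebraMap K (ResF f y) =
    ((StructureSheaf.toStalk K (f y) ≫ f.stalkMap y) ≫ A.residue y).hom from
      congrArg CommRingCat.Hom.hom e]
  exact h2

/-- A natural number nonzero in `K` is nonzero in every extension. -/
theorem natCast_ne_zero_of_algebra {n : ℕ} (hn : (n : K) ≠ 0) (R : Type u) [Field R]
    [Algebra K R] : (n : R) ≠ 0 := by
  rw [← map_natCast (algebraMap K R) n]
  exact (map_ne_zero _).2 hn

variable (G : RelativeGroupLaw K f)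

section extension

variable [IsAlgClosed K] [LocallyOfFiniteType f]

/-- A torsion point prime to the characteristic is rational over an algebraically closed base. -/
theorem exists_pullPt_ofId_of_torsion (hc : G.IsCommutative) {n : ℕ} (hn : (n : K) ≠ 0)
    {Ω : Type u} [Field Ω] [Algebra K Ω] (x : Pts f Ω) (hx : G.nsmul _ n x = G.one _) :
    ∃ T : Pts f K, G.nsmul _ n T = G.one _ ∧ pullPt (Algebra.ofId K Ω) T = x := by
  obtain ⟨y, hy⟩ : ∃ y, imgPt x = y := ⟨_, rfl⟩
  obtain ⟨ψ, hψ⟩ := exists_pullPt_resPt x hy
  have hQ : G.nsmul _ n (resPt f y) = G.one _ :=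
    pullPt_injective_of_injective ψ (by rw [pullPt_nsmul, hψ, hx, pullPt_one])
  have hP : pullPt (IsScalarTower.toAlgHom K K (ResF f y)) (G.one (specStr K K)) =
      G.nsmul _ n (resPt f y) := by rw [pullPt_one, hQ]
  have := formallyUnramified_of_nsmul G hc (resPt f y)
    (natCast_ne_zero_of_algebra hn (ResF f y)) _ hP
  have := essFiniteType_resF (f := f) y
  have : Module.Finite K (ResF f y) := Algebra.FormallyUnramified.finite_of_free K _
  have hbij := IsAlgClosed.algebraMap_bijective_of_isIntegral (k := K) (K := ResF f y)
  let e : K ≃ₐ[K] ResF f y := AlgEquiv.ofBijective (Algebra.ofId K _) hbij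
  set T := pullPt e.symm.toAlgHom (resPt f y) with hT
  refine ⟨T, by rw [hT, ← pullPt_nsmul, hQ, pullPt_one], ?_⟩
  rw [hT, pullPt_pullPt, ← hψ]
  congr 1
  refine AlgHom.ext fun a => ?_
  obtain ⟨b, rfl⟩ := hbij.2 a
  simp

end extension

section translation

/-- The structure map of the base point is the identity. -/
theorem specStr_self : specStr K K = 𝟙 _ := Spec.map_id _

/-- Translation by a rational point. -/
noncomputable def translate (T : Pts f K) : A ⟶ A :=
  (G.mul f RelativeGroupLaw.idPoint
    (schemeHomOverComp f (by rw [specStr_self, Category.comp_id]) T)).1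

theorem translate_over (T : Pts f K) : translate G T ≫ f = f :=
  (G.mul f RelativeGroupLaw.idPoint
    (schemeHomOverComp f (by rw [specStr_self, Category.comp_id]) T)).2

theorem comp_translate {S : Scheme.{u}} (t : S ⟶ Spec (CommRingCat.of K))
    (x : SchemeHomOver t f) (T : Pts f K) :
    x.1 ≫ translate G T =
      (G.mul t x (schemeHomOverComp t (by rw [specStr_self, Category.comp_id]) T)).1 := by
  refine (congrArg Subtype.val (G.mul_natural f t x.1 x.2 _ _)).trans ?_
  refine congrArg Subtype.val (congrArg₂ (G.mul t) (Subtype.ext (Category.comp_id _))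
    (Subtype.ext ?_))
  simp only [schemeHomOverComp_coe]
  rw [← Category.assoc, x.2]

theorem translate_comp_translate_inv (T : Pts f K) :
    translate G T ≫ translate G (G.inv _ T) = 𝟙 A := by
  have h := comp_translate G f ⟨translate G T, translate_over G T⟩ (G.inv _ T)
  rw [h]
  show (G.mul f (G.mul f _ _) _).1 = _
  rw [G.mul_assoc, ← G.mul_natural, G.mul_inv_cancel, G.one_natural (t' := f), G.mul_one]

/-- Translations fix the generic point. -/
theorem translate_genericPoint [IrreducibleSpace A] (T : Pts f K) :
    translate G T (genericPoint A) = genericPoint A := by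
  have hsurj : Function.Surjective (translate G (G.inv _ T)) := fun a =>
    ⟨translate G T a, by
      simpa using congrArg (fun g => g.base a) (translate_comp_translate_inv G T)⟩
  have hsurj' : Function.Surjective (translate G T) := by
    let : Group (Pts f K) := G.pointGroup _
    have hinv : G.inv _ (G.inv _ T) = T := inv_inv T
    exact fun a => ⟨translate G (G.inv _ T) a, by
      simpa [hinv] using
        congrArg (fun g => g.base a) (translate_comp_translate_inv G (G.inv _ T))⟩
  have h := (genericPoint_spec A).image (translate G T).continuous
  rw [Set.image_univ, hsurj'.range_eq, closure_univ] at h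
  exact h.eq (genericPoint_spec A)

/-- Adding a rational point is composing with its translation. -/
theorem mul_pullPt_ofId {R : Type u} [CommRing R] [Algebra K R] (x : Pts f R) (T : Pts f K) :
    (G.mul _ x (pullPt (Algebra.ofId K R) T)).1 = x.1 ≫ translate G T :=
  (comp_translate G _ x T).symm

end translation

section count

variable [IsAlgClosed K] [LocallyOfFiniteType f] [IrreducibleSpace A]

end count

end Fermat.Agent.AVTorsion
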