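import Fermat.Agent.AVTorsion.Chart
import Fermat.Agent.AVTorsion.TorsionCount
import Fermat.Agent.AVTorsion.Generic

/-!
# Generic points of an abelian variety in a big field

Points defined over subfields, the criterion for a point to be generic, and the torsion count in
terms of the function field.
-/

set_option autoImplicit false

universe u

noncomputable section

open CategoryTheory AlgebraicGeometry

namespace Fermat.Agent.AVTorsion

section trdeg

variable {k U : Type u} [Field k] [Field U] [Algebra k U]

open AlgebraicIndependent in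
/-- Elements algebraic over `M(D)` and independent over `M` are at most `trdeg D` in number. -/
theorem natCard_le_trdeg (M : IntermediateField k U) (D : Subalgebra k U) {g : ℕ}
    {y : Fin g → U} (hy : AlgebraicIndependent M y)
    (halg : ∀ i, IsAlgebraic ↥(M ⊔ IntermediateField.adjoin k (D : Set U)) (y i)) :
    (g : Cardinal.{u}) ≤ Algebra.trdeg k D := by
  obtain ⟨t, ht⟩ := (matroid M U).exists_isBasis (D : Set U)
  let R : Subalgebra M U := Algebra.adjoin M (D : Set U)
  let W : Subalgebra R U := Subalgebra.algebraicClosure R U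
  have hR : ∀ r ∈ R, IsAlgebraic R r := fun r hr => isAlgebraic_algebraMap (⟨r, hr⟩ : R)
  let W' : IntermediateField k U :=
    (W.restrictScalars k).toIntermediateField fun x hx => IsAlgebraic.inv hx
  have hW : M ⊔ IntermediateField.adjoin k (D : Set U) ≤ W' := by
    refine sup_le (fun x hx => hR x (R.algebraMap_mem ⟨x, hx⟩)) ?_
    exact IntermediateField.adjoin_le_iff.2 fun x hx => hR x (Algebra.subset_adjoin hx)
  have hcl : ∀ i, y i ∈ (matroid M U).closure (D : Set U) := by
    intro i
    rw [matroid_closure_eq]
    show IsAlgebraic R (y i)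
    let F := M ⊔ IntermediateField.adjoin k (D : Set U)
    let T : Subalgebra M U := Algebra.adjoin M (F : Set U)
    have h1 : IsAlgebraic T (y i) := by
      obtain ⟨p, hp, hpy⟩ := halg i
      let j : F →+* T := (algebraMap F U).codRestrict T.toSubring
        fun x => Algebra.subset_adjoin x.2
      refine ⟨p.map j, (Polynomial.map_ne_zero_iff fun a b h => ?_).2 hp, ?_⟩
      · exact Subtype.ext (congrArg (fun z : T => (z : U)) h)
      · rw [Polynomial.aeval_def, Polynomial.eval₂_map]
        exact hpy
    exact h1.adjoin_of_forall_isAlgebraic fun x hx => hW hx.1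
  have hy' : (matroid M U).Indep (Set.range y) := hy.to_subtype_range
  have hcard : Cardinal.mk (Set.range y) ≤ Cardinal.mk t :=
    hy'.cardinalMk_le_isBasis ht.isBasis_closure_right (Set.range_subset_iff.2 hcl)
  have hmk : Cardinal.mk (Set.range y) = g := by
    simpa using Cardinal.mk_range_eq_of_injective hy.injective
  obtain ⟨hti, htD, -⟩ := matroid_isBasis_iff.1 ht
  have hti' : AlgebraicIndependent k (Subtype.val : t → U) := by
    have : AlgebraicIndependent M (Subtype.val : t → U) := hti
    exact this.restrictScalars (algebraMap k M).injective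
  have htD' : AlgebraicIndependent k (fun x : t => (⟨x.1, htD x.2⟩ : D)) :=
    AlgebraicIndependent.of_comp D.val hti'
  exact hmk.symm.le.trans (hcard.trans htD'.cardinalMk_le_trdeg)

end trdeg

namespace AbVar

variable {k : Type u} [Field k] [IsAlgClosed k] {X : AbVar k}
variable {U : Type u} [Field U] [Algebra k U]

/-- The point is defined over the intermediate field. -/
def Pt.DefOver (S : IntermediateField k U) (x : X.Pt U) : Prop :=
  ∃ y : X.Pt S, Pt.map S.val y = x

omit [IsAlgClosed k] in
/-- A point defined over a field is defined over larger ones. -/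
theorem Pt.DefOver.mono {S T : IntermediateField k U} (h : S ≤ T) {x : X.Pt U}
    (hx : Pt.DefOver S x) : Pt.DefOver T x := by
  obtain ⟨y, rfl⟩ := hx
  exact ⟨Pt.map (IntermediateField.inclusion h) y, by rw [Pt.map_map]; rfl⟩

omit [IsAlgClosed k] in
/-- A sum of points defined over a field is defined over it. -/
theorem Pt.DefOver.add {S : IntermediateField k U} {x x' : X.Pt U} (hx : Pt.DefOver S x)
    (hx' : Pt.DefOver S x') : Pt.DefOver S (x + x') := by
  obtain ⟨y, rfl⟩ := hx
  obtain ⟨y', rfl⟩ := hx'
  exact ⟨y + y', map_add _ _ _⟩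

omit [IsAlgClosed k] in
/-- A difference of points defined over a field is defined over it. -/
theorem Pt.DefOver.sub {S : IntermediateField k U} {x x' : X.Pt U} (hx : Pt.DefOver S x)
    (hx' : Pt.DefOver S x') : Pt.DefOver S (x - x') := by
  obtain ⟨y, rfl⟩ := hx
  obtain ⟨y', rfl⟩ := hx'
  exact ⟨y - y', map_sub _ _ _⟩

omit [IsAlgClosed k] in
/-- A multiple of a point defined over a field is defined over it. -/
theorem Pt.DefOver.nsmul {S : IntermediateField k U} {x : X.Pt U} (hx : Pt.DefOver S x) (m : ℕ) :
    Pt.DefOver S (m • x) := by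
  obtain ⟨y, rfl⟩ := hx
  exact ⟨m • y, map_nsmul _ _ _⟩

/-- The point of an embedding is defined over its range. -/
theorem defOver_fieldRange (e : X.FF →ₐ[k] U) :
    Pt.DefOver e.fieldRange (Pt.map e X.η) := by
  let j : X.FF →ₐ[k] e.fieldRange :=
    e.codRestrict e.fieldRange.toSubalgebra fun u => ⟨u, rfl⟩
  exact ⟨Pt.map j X.η, by rw [Pt.map_map]; rfl⟩

/-- An embedding into any algebra is determined by its point. -/
theorem map_η_injective {S : Type u} [CommRing S] [Algebra k S] {e e' : X.FF →ₐ[k] S}
    (h : Pt.map e X.η = Pt.map e' X.η) : e = e' := by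
  have : IsPreimmersion X.η.hom := by
    show IsPreimmersion (X.carrier.fromSpecStalk (genericPoint X.carrier))
    infer_instance
  have : Mono (show Pts X.toBase X.FF from X.η).1 := inferInstanceAs (Mono X.η.hom)
  exact pullPt_injective_of_mono (x := (show Pts X.toBase X.FF from X.η)) h

/-- A point over the generic point is the point of its evaluation map. -/
theorem map_evalGen_η {R : Type u} [CommRing R] [Algebra k R] [IsLocalRing R] (x : X.Pt R)
    (hx : x.point = X.gp) : Pt.map (x.evalGen hx) X.η = x := by
  rw [← X.map_val_taut X.gp, Pt.map_map]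
  have key : ∀ (p : X.carrier) (hp : x.point = p),
      Pt.map (x.eval.comp (Subalgebra.inclusion (le_of_eq (congrArg X.localRing hp.symm))))
          (X.taut p) = x := by
    rintro _ rfl
    exact x.map_eval_taut
  refine Eq.trans (congrArg (fun χ => Pt.map χ (X.taut X.gp)) (AlgHom.ext fun u => ?_))
    (key X.gp hx)
  exact congrArg x.eval (Subtype.ext rfl)

/-- A field of definition of the point of an embedding contains its range. -/
theorem fieldRange_le_of_defOver {S : IntermediateField k U} {e : X.FF →ₐ[k] U}
    (h : Pt.DefOver S (Pt.map e X.η)) : e.fieldRange ≤ S := by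
  obtain ⟨y, hy⟩ := h
  have hloc : IsLocalHom S.val.toRingHom :=
    ⟨fun a ha => (isUnit_iff_ne_zero.2 fun h => ha.ne_zero (by simp [h]))⟩
  have hp : y.point = X.gp := by
    rw [← Pt.point_map_of_isLocalHom S.val y, hy, point_map_η]
  have he : e = S.val.comp (y.evalGen hp) := map_η_injective (by
    rw [← Pt.map_map, map_evalGen_η, hy])
  rintro _ ⟨u, rfl⟩
  rw [he]
  exact (y.evalGen hp u).2

/-- A point is defined over the field generated by its values. -/
theorem defOver_adjoin_values (x : X.Pt U) :
    Pt.DefOver (IntermediateField.adjoin k (x.eval.range : Set U)) x := by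
  let S := IntermediateField.adjoin k (x.eval.range : Set U)
  let ev' : X.localRing x.point →ₐ[k] S :=
    x.eval.codRestrict S.toSubalgebra fun u => IntermediateField.subset_adjoin k _ ⟨u, rfl⟩
  refine ⟨Pt.map ev' (X.taut x.point), ?_⟩
  rw [Pt.map_map]
  exact x.map_eval_taut

/-- Criterion for genericity: together with a subfield `M` the point recovers, up to algebraic
elements, a point generic over `M`. -/
theorem point_eq_gp_of_algebraic (x : X.Pt U) (M : IntermediateField k U) (e : X.FF →ₐ[k] U)
    {y : Fin X.dim → X.FF} (hy : AlgebraicIndependent M (e ∘ y))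
    (halg : ∀ i, IsAlgebraic ↥(M ⊔ IntermediateField.adjoin k (x.eval.range : Set U)) (e (y i))) :
    x.point = X.gp :=
  x.point_eq_gp (natCard_le_trdeg M x.eval.range hy halg)

/-- Criterion for genericity: a point generic over `M` is defined over `M` and the point's values. -/
theorem point_eq_gp_of_defOver (x : X.Pt U) (M : IntermediateField k U) (e : X.FF →ₐ[k] U)
    {y : Fin X.dim → X.FF} (hy : AlgebraicIndependent M (e ∘ y))
    (h : Pt.DefOver (M ⊔ IntermediateField.adjoin k (x.eval.range : Set U)) (Pt.map e X.η)) :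
    x.point = X.gp :=
  point_eq_gp_of_algebraic x M e hy fun i => isAlgebraic_algebraMap
    (⟨e (y i), fieldRange_le_of_defOver h ⟨y i, rfl⟩⟩ :
      ↥(M ⊔ IntermediateField.adjoin k (x.eval.range : Set U)))

variable (X)

/-- The function field has a transcendence basis of `dim X` elements. -/
theorem exists_transcendenceBasis_FF :
    ∃ y : Fin X.dim → X.FF, IsTranscendenceBasis k y := by
  obtain ⟨s, hs⟩ := exists_isTranscendenceBasis k X.FF
  have hcard : Cardinal.mk s = (X.dim : Cardinal.{u}) := hs.cardinalMk_eq_trdeg.trans X.trdeg_FF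
  have : Finite s := Cardinal.mk_lt_aleph0_iff.1 (hcard ▸ Cardinal.natCast_lt_aleph0)
  have h : Nat.card s = X.dim := by rw [Nat.card, hcard, Cardinal.toNat_natCast]
  exact ⟨_, hs.comp_equiv ((Finite.equivFinOfCardEq h).symm)⟩

/-- The function field is essentially of finite type. -/
theorem essFiniteType_FF : Algebra.EssFiniteType k X.FF := by
  rw [← RingHom.essFiniteType_algebraMap]
  let y := genericPoint X.carrier
  have e : Spec.preimage (X.carrier.fromSpecStalk y ≫ X.toBase) =
      StructureSheaf.toStalk k (X.toBase y) ≫ X.toBase.stalkMap y := by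
    apply Spec.map_injective
    rw [Spec.map_preimage, ← Scheme.SpecMap_stalkMap_fromSpecStalk, Spec.fromSpecStalk_eq]
    exact (Spec.map_comp _ _).symm
  have h1 : (StructureSheaf.toStalk k (X.toBase y)).hom.EssFiniteType := by
    let p : PrimeSpectrum k := X.toBase y
    show (algebraMap k ((Spec.structureSheaf k).presheaf.stalk p)).EssFiniteType
    rw [RingHom.essFiniteType_algebraMap]
    exact .of_isLocalization _ p.asIdeal.primeCompl
  have h2 := h1.comp (LocallyOfFiniteType.stalkMap X.toBase y)
  show (Spec.preimage (X.carrier.fromSpecStalk y ≫ X.toBase)).hom.EssFiniteType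
  rw [e]
  exact h2

variable {X}

/-- A subfield over which a nonzero multiple of the generic point is defined. -/
theorem finite_separable_of_defOver {n : ℕ} (hn : (n : k) ≠ 0) {κ : IntermediateField k X.FF}
    (h : Pt.DefOver κ (n • X.η)) :
    Module.Finite κ X.FF ∧ Algebra.IsSeparable κ X.FF := by
  obtain ⟨P, hP⟩ := h
  have : IsPreimmersion X.η.hom := by
    show IsPreimmersion (X.carrier.fromSpecStalk (genericPoint X.carrier))
    infer_instance
  have : Mono (show Pts X.toBase X.FF from X.η).1 := inferInstanceAs (Mono X.η.hom)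
  have := formallyUnramified_of_nsmul X.law X.comm (show Pts X.toBase X.FF from X.η)
    (natCast_ne_zero_of_algebra hn X.FF) (κ := κ) P hP
  have := X.essFiniteType_FF
  have : Algebra.EssFiniteType κ X.FF := Algebra.EssFiniteType.of_comp k _ _
  exact ⟨Algebra.FormallyUnramified.finite_of_free _ _,
    Algebra.FormallyUnramified.isSeparable _ _⟩

/-- Multiples of the generic point are generic. -/
theorem point_nsmul_η {n : ℕ} (hn : (n : k) ≠ 0) : (n • X.η).point = X.gp := by
  obtain ⟨y, hy⟩ := X.exists_transcendenceBasis_FF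
  have hfin := (finite_separable_of_defOver hn (defOver_adjoin_values (n • X.η))).1
  have : FiniteDimensional k (⊥ : IntermediateField k X.FF) := inferInstance
  refine point_eq_gp_of_algebraic (n • X.η) ⊥ (AlgHom.id k X.FF)
    (AlgebraicIndependent.extendScalars (S := (⊥ : IntermediateField k X.FF)) hy.1) fun i => ?_
  rw [bot_sup_eq]
  exact Algebra.IsAlgebraic.isAlgebraic _

/-- Translation by a rational point fixes the generic point. -/
theorem point_add_ofId {F : Type u} [Field F] [Algebra k F] (x : X.Pt F) (hx : x.point = X.gp)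
    (T : X.Pt k) : (x + Pt.map (Algebra.ofId k F) T).point = X.gp := by
  show (X.law.mul _ x (pullPt (Algebra.ofId k F) T)).1 (IsLocalRing.closedPoint F) = _
  refine (congrArg (fun m : Spec (CommRingCat.of F) ⟶ X.carrier => m (IsLocalRing.closedPoint F))
    (mul_pullPt_ofId X.law (show Pts X.toBase F from x) T)).trans ?_
  show translate X.law T x.point = _
  rw [hx]
  exact translate_genericPoint X.law T

/-- `#A[n]` is the degree of the function field over the pullback by `n`. -/
theorem natCard_torsion_eq_finrank {n : ℕ} (hn : (n : k) ≠ 0) (ν : X.FF →ₐ[k] X.FF)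
    (hν : Pt.map ν X.η = n • X.η) :
    Module.Finite ν.fieldRange X.FF ∧ Algebra.IsSeparable ν.fieldRange X.FF ∧
      Nat.card {T : X.Pt k // n • T = 0} = Module.finrank ν.fieldRange X.FF := by
  obtain ⟨hfin, hsep⟩ := finite_separable_of_defOver (κ := ν.fieldRange) hn
    (hν ▸ defOver_fieldRange ν)
  refine ⟨hfin, hsep, ?_⟩
  let Ω := AlgebraicClosure X.FF
  let ι : X.FF →ₐ[k] Ω := IsScalarTower.toAlgHom k X.FF Ω
  rw [← Field.finSepDegree_eq_finrank_of_isSeparable ν.fieldRange X.FF,
    Field.finSepDegree_eq_of_isAlgClosed ν.fieldRange X.FF Ω]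
  set q : X.Pt Ω := Pt.map ι X.η with hq
  have hσ : ∀ σ : X.FF →ₐ[ν.fieldRange] Ω,
      n • Pt.map (σ.restrictScalars k) X.η = n • q := by
    intro σ
    rw [hq, ← map_nsmul, ← map_nsmul, ← hν, Pt.map_map, Pt.map_map]
    refine congrArg (fun χ => Pt.map χ X.η) (AlgHom.ext fun a => ?_)
    exact σ.commutes ⟨ν a, a, rfl⟩
  have hlift : ∀ D : X.Pt Ω, n • D = 0 →
      ∃ T : X.Pt k, n • T = 0 ∧ Pt.map (Algebra.ofId k Ω) T = D := fun D hD =>
    exists_pullPt_ofId_of_torsion X.law X.comm hn D hD
  have hinj : Function.Injective (Pt.map (X := X) (Algebra.ofId k Ω)) := Pt.map_injective _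
  symm
  choose g hg hg' using fun σ : X.FF →ₐ[ν.fieldRange] Ω =>
    hlift (Pt.map (σ.restrictScalars k) X.η - q) (by rw [nsmul_sub, hσ σ, sub_self])
  refine Nat.card_congr (Equiv.ofBijective (fun σ => (⟨g σ, hg σ⟩ : {T : X.Pt k // n • T = 0}))
    ⟨fun σ σ' h => ?_, fun T => ?_⟩)
  · have h2 := congrArg (fun T : {T : X.Pt k // n • T = 0} => Pt.map (Algebra.ofId k Ω) T.1) h
    simp only [hg', sub_left_inj] at h2
    exact AlgHom.restrictScalars_injective k (map_η_injective h2)
  · set z := q + Pt.map (Algebra.ofId k Ω) T.1 with hz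
    have hzp : z.point = X.gp := point_add_ofId q (point_map_η ι) T.1
    have hzn : n • z = n • q := by
      rw [hz, nsmul_add, ← map_nsmul (Pt.map (Algebra.ofId k Ω)), T.2, map_zero, add_zero]
    have hres : (z.evalGen hzp).comp ν = ι.comp ν := by
      apply map_η_injective (X := X)
      rw [← Pt.map_map, ← Pt.map_map, hν, map_nsmul, map_nsmul, map_evalGen_η, hzn]
    let σ : X.FF →ₐ[ν.fieldRange] Ω :=
      { (z.evalGen hzp).toRingHom with
        commutes' := by
          rintro ⟨_, a, rfl⟩
          exact DFunLike.congr_fun hres a }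
    refine ⟨σ, Subtype.ext (hinj ?_)⟩
    show Pt.map (Algebra.ofId k Ω) (g σ) = _
    rw [hg']
    show Pt.map (z.evalGen hzp) X.η - q = _
    rw [map_evalGen_η, hz, add_sub_cancel_left]

omit [IsAlgClosed k] in
/-- The torsion subtype of the statement. -/
theorem natCard_isTorsionPoint (n : ℕ) :
    Nat.card {x : NeronModelInfra.SchemeHomOver (𝟙 (Spec (CommRingCat.of k))) X.toBase //
        X.law.IsTorsionPoint (𝟙 (Spec (CommRingCat.of k))) n x} =
      Nat.card {T : X.Pt k // n • T = 0} := by
  have h : ∀ (t : Spec (CommRingCat.of k) ⟶ Spec (CommRingCat.of k)),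
      t = specStr k k →
      Nat.card {x : NeronModelInfra.SchemeHomOver t X.toBase // X.law.IsTorsionPoint t n x} =
      Nat.card {T : X.Pt k // n • T = 0} := by
    rintro t rfl
    rfl
  exact h _ specStr_self.symm

end AbVar

end Fermat.Agent.AVTorsion
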