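import Fermat.Agent.AVTorsion.Rigidity
import Fermat.Agent.AVTorsion.Involution
import Fermat.Agent.ConstReduction.Exists

set_option autoImplicit false

/-!
# The parallelogram law for heights

The height of an even function along points with values in a function field of one variable
satisfies the parallelogram law, by rigidity of the divisor class of a pullback; hence it is
quadratic on multiples.
-/

universe u

noncomputable section

open CategoryTheory AlgebraicGeometry AlgebraicCurve Fermat.Agent.ConstReduction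
open Fermat.Agent.FunctionField

namespace Fermat.Agent.ConstReduction

namespace RatVal

variable {k E : Type*} [Field k] [Field E] [Algebra k E] {A : RatVal k E}

/-- An integral power of an element with nonzero value. -/
theorem HasValue.zpow {x : E} {c : k} (h : A.HasValue x c) (hc : c ≠ 0) (n : ℤ) :
    A.HasValue (x ^ n) (c ^ n) := by
  obtain ⟨m, rfl | rfl⟩ := Int.eq_nat_or_neg n
  · simpa using h.pow m
  · simpa using (h.pow m).inv (pow_ne_zero _ hc)

/-- Values are multiplicative on finite products. -/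
theorem HasValue.prod {ι : Type*} (s : Finset ι) {x : ι → E} {c : ι → k}
    (h : ∀ i ∈ s, A.HasValue (x i) (c i)) : A.HasValue (∏ i ∈ s, x i) (∏ i ∈ s, c i) := by
  classical
  induction s using Finset.induction_on with
  | empty => simpa using A.hasValue_one
  | @insert a s ha ih =>
    rw [Finset.prod_insert ha, Finset.prod_insert ha]
    exact (h a (Finset.mem_insert_self a s)).mul (ih fun i hi => h i (Finset.mem_insert_of_mem hi))

/-- A product of elements with nonzero values has a nonzero value. -/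
theorem exists_hasValue_multiset_prod {M : Multiset E}
    (h : ∀ x ∈ M, ∃ c, c ≠ 0 ∧ A.HasValue x c) : ∃ c, c ≠ 0 ∧ A.HasValue M.prod c := by
  induction M using Multiset.induction_on with
  | empty => exact ⟨1, one_ne_zero, by simpa using A.hasValue_one⟩
  | cons x M ih =>
    obtain ⟨c, hc, h1⟩ := ih fun y hy => h y (Multiset.mem_cons_of_mem hy)
    obtain ⟨d, hd, h2⟩ := h x (Multiset.mem_cons_self x M)
    exact ⟨d * c, mul_ne_zero hd hc, Multiset.prod_cons x M ▸ h2.mul h1⟩

/-- Transport along an automorphism over the base. -/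
def comapEquiv (A : RatVal k E) (σ : E ≃ₐ[k] E) : RatVal k E where
  ring := A.ring.comap (σ : E →+* E)
  red := A.red.comp (((σ : E →+* E).comp (A.ring.comap (σ : E →+* E)).subtype).codRestrict
    A.ring.toSubring fun x => x.2)
  algebraMap_mem a := by
    show σ (algebraMap k E a) ∈ A.ring
    rw [AlgEquiv.commutes]; exact A.algebraMap_mem a
  red_algebraMap a := by
    refine Eq.trans (congrArg A.red (Subtype.ext ?_)) (A.red_algebraMap a)
    exact σ.commutes a

theorem hasValue_comapEquiv {σ : E ≃ₐ[k] E} {x : E} {c : k} :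
    (A.comapEquiv σ).HasValue x c ↔ A.HasValue (σ x) c :=
  ⟨fun ⟨h, e⟩ => ⟨h, e⟩, fun ⟨h, e⟩ => ⟨h, e⟩⟩

end RatVal

theorem ord_prod_zpow {K L : Type*} [Field K] [Field L] [Algebra K L] (v : Place K L) {ι : Type*}
    (s : Finset ι) (x : ι → L) (e : ι → ℤ) (h : ∀ i ∈ s, x i ≠ 0) :
    v.ord (∏ i ∈ s, x i ^ e i) = ∑ i ∈ s, e i * v.ord (x i) := by
  classical
  induction s using Finset.induction_on with
  | empty => simp
  | @insert a s ha ih =>
    have h' : ∀ i ∈ s, x i ≠ 0 := fun i hi => h i (Finset.mem_insert_of_mem hi)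
    rw [Finset.prod_insert ha, Finset.sum_insert ha, v.ord_mul
      (zpow_ne_zero _ (h a (Finset.mem_insert_self a s)))
      (Finset.prod_ne_zero_iff.mpr fun i hi => zpow_ne_zero _ (h' i hi)), v.ord_zpow, ih h']

theorem prod_zpow_ne_zero {L : Type*} [Field L] {ι : Type*} (s : Finset ι) (x : ι → L) (e : ι → ℤ)
    (h : ∀ i ∈ s, x i ≠ 0) : ∏ i ∈ s, x i ^ e i ≠ 0 :=
  Finset.prod_ne_zero_iff.mpr fun i hi => zpow_ne_zero _ (h i hi)

end Fermat.Agent.ConstReduction

namespace Fermat.Agent.AVTorsion.AbVar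

variable {k : Type u} [Field k] [IsAlgClosed k] {X : AbVar k}

omit [IsAlgClosed k] in
/-- A map of fields is local. -/
theorem isLocalHom_algHom {F L : Type u} [Field F] [Field L] [Algebra k F] [Algebra k L]
    (i : F →ₐ[k] L) : IsLocalHom i.toRingHom :=
  ⟨fun x hx => isUnit_iff_ne_zero.mpr fun h0 => hx.ne_zero (by simp [h0])⟩

omit [IsAlgClosed k] in
theorem Pt.point_map_field {F L : Type u} [Field F] [Field L] [Algebra k F] [Algebra k L]
    (i : F →ₐ[k] L) (x : X.Pt F) : (Pt.map i x).point = x.point := by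
  have := isLocalHom_algHom i
  exact Pt.point_map_of_isLocalHom i x

theorem Pt.val_map {F L : Type u} [Field F] [Field L] [Algebra k F] [Algebra k L]
    (i : F →ₐ[k] L) (x : X.Pt F) {v : X.FF} (hv : v ∈ X.localRing x.point) :
    (Pt.map i x).val v = i (x.val v) :=
  ((x.hasValue_val hv).map i).val_eq

/-- The value of a function at the specialisation of a point. -/
theorem Pt.hasValue_val_reduce {Ω F : Type u} [Field Ω] [Field F] [Algebra k Ω] [Algebra k F]
    [Algebra Ω F] [IsScalarTower k Ω F] (B : RatVal Ω F) (x : X.Pt F) {v : X.FF}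
    (hv : v ∈ X.localRing (Pt.reduce B x).point) :
    B.HasValue (x.val v) ((Pt.reduce B x).val v) := by
  obtain ⟨r, hr, hB⟩ := Pt.hasValue_of_reduce ((Pt.reduce B x).hasValue_val hv)
  rwa [hr.val_eq]

omit [IsAlgClosed k] in
/-- Reduction of a point whose coordinates take values in the residue field. -/
theorem Pt.reduce_map_of_hasValue {Ω F K : Type u} [Field Ω] [Field F] [Field K] [Algebra k Ω]
    [Algebra k F] [Algebra k K] [Algebra Ω F] [IsScalarTower k Ω F] {B : RatVal Ω F}
    (j : K →ₐ[k] F) (g : K →ₐ[k] Ω) (h : ∀ x, B.HasValue (j x) (g x)) (x : X.Pt K) :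
    Pt.reduce B (Pt.map j x) = Pt.map g x := by
  let j' : K →ₐ[k] B.ring :=
    { j.toRingHom.codRestrict B.ring.toSubring (fun x => (h x).mem) with
      commutes' := fun c => Subtype.ext (by
        show j (algebraMap k K c) = ratValIncl (k := k) B (algebraMap k B.ring c)
        rw [AlgHom.commutes, AlgHom.commutes]) }
  have h1 : (ratValIncl B).comp j' = j := AlgHom.ext fun _ => rfl
  have h2 : (ratValRed B).comp j' = g := AlgHom.ext fun x => by
    obtain ⟨_, hx⟩ := h x
    exact hx
  rw [Pt.reduce_eq (y := Pt.map j' x) (by rw [Pt.map_map, h1]), Pt.map_map, h2]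

/-- The order at a place of the local equations of a combination of pullbacks. -/
theorem ord_prod_val_den_div {Ω K : Type u} [Field Ω] [Field K] [Algebra Ω K] [Algebra k Ω]
    [Algebra k K] [IsScalarTower k Ω K] [IsAlgClosed Ω] [IsFunctionField Ω K] (u : X.FF)
    {ι : Type} [Fintype ι] (χ : ι → X.Pt K) (e : ι → ℤ) (q : Place Ω K) :
    q.ord (∏ s, (χ s).val (den u (χ s).point / den u (valPt (χ s) q).point) ^ e s) =
      -(∑ s, e s • pull Ω u (χ s) : Divisor Ω K) q := by
  classical
  rw [ord_prod_zpow q _ _ _ (fun s _ => (isDen_den u _).val_div_ne_zero _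
      (isDen_den u _).of_valPt), Finsupp.finsetSum_apply, ← Finset.sum_neg_distrib]
  refine Finset.sum_congr rfl fun s _ => ?_
  have h1 := (χ s).val_div_mul_div (isDen_den u (χ s).point)
    (isDen_den u (valPt (χ s) q).point).of_valPt (isDen_den u (χ s).point)
  rw [div_self (isDen_den u _).ne_zero, Pt.val_one] at h1
  rw [Finsupp.smul_apply, pull_apply, pullFun, smul_eq_mul, eq_inv_of_mul_eq_one_left h1.symm,
    q.ord_inv, mul_neg]

/-- Divided by local equations at a place, a trivialisation of a combination of pullbacks has a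
nonzero value there. -/
theorem exists_value_trivialisation {F L : Type u} [Field F] [Field L] [Algebra F L] [Algebra k F]
    [Algebra k L] [IsScalarTower k F L] [IsAlgClosed F] [IsFunctionField F L] (u : X.FF)
    {ι : Type} [Fintype ι] (T : ι → X.Pt L) (e : ι → ℤ) {R : L} (hR0 : R ≠ 0)
    (hR : divFun F R = ∑ s, e s • pull F u (T s)) (P : Place F L) :
    ∃ r : F, r ≠ 0 ∧ (valueAt P).HasValue
      (R / ∏ s, (T s).val (den u (valPt (T s) P).point / den u (T s).point) ^ e s) r := by
  classical
  have hne : ∀ s, (T s).val (den u (valPt (T s) P).point / den u (T s).point) ≠ 0 := fun s =>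
    (isDen_den u _).of_valPt.val_div_ne_zero _ (isDen_den u _)
  have hf0 := div_ne_zero hR0 (prod_zpow_ne_zero Finset.univ _ e fun s _ => hne s)
  set f := R / ∏ s, (T s).val (den u (valPt (T s) P).point / den u (T s).point) ^ e s
  have hord : P.ord f = 0 := by
    have h1 := DFunLike.congr_fun hR.symm P
    rw [divFun_apply, Finsupp.finsetSum_apply] at h1
    simp only [f]
    rw [div_eq_mul_inv R, P.ord_mul hR0 (inv_ne_zero (prod_zpow_ne_zero _ _ _ fun s _ => hne s)),
      P.ord_inv, ord_prod_zpow P _ _ _ (fun s _ => hne s), ← h1, ← sub_eq_add_neg, sub_eq_zero]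
    exact Finset.sum_congr rfl fun s _ => rfl
  obtain ⟨r, hr⟩ := (valueAt P).exists_hasValue (x := f) ((mem_iff_adicValuation_le_one P).mpr
    (by rw [P.adicValuation_eq_exp_neg_ord hf0, hord]; simp))
  refine ⟨r, fun hr0 => ?_, hr⟩
  have := (valueAt_hasValue_zero_iff P hf0).mp (hr0 ▸ hr)
  omega

section Local

variable {Ω K F L : Type u} [Field Ω] [Field K] [Field F] [Field L] [Algebra Ω K] [Algebra Ω F]
  [Algebra Ω L] [Algebra F L] [Algebra K L] [IsScalarTower Ω F L] [IsScalarTower Ω K L]
  [Algebra k Ω] [Algebra k K] [Algebra k F] [Algebra k L] [IsScalarTower k Ω K]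
  [IsScalarTower k Ω F] [IsScalarTower k F L] [IsScalarTower k K L] [IsScalarTower k Ω L]
  [IsAlgClosed Ω] [IsAlgClosed F] [IsFunctionField Ω K] [IsFunctionField F L]
  [IsConstExt Ω K F L]

/-- The values at constant-slope sections of a trivialisation of a combination of pullbacks reduce
to units, up to one constant. -/
theorem exists_const_forall_place (B : RatVal Ω F) (u : X.FF) (φ : X.Pt K) {ι : Type}
    [Fintype ι] (a : ι → X.Pt F) (e : ι → ℤ) {R : L} (hR0 : R ≠ 0)
    (hR : divFun F R = ∑ s, e s • pull F u (Pt.map (IsScalarTower.toAlgHom k K L) φ +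
      Pt.map (IsScalarTower.toAlgHom k F L) (a s))) :
    ∃ γ : F, ∀ P : Place F L, ∀ T : ι → X.Pt L,
      T = (fun s => Pt.map (IsScalarTower.toAlgHom k K L) φ +
        Pt.map (IsScalarTower.toAlgHom k F L) (a s)) →
      ∀ r : F, (valueAt P).HasValue
          (R / ∏ s, (T s).val (den u (valPt (T s) P).point / den u (T s).point) ^ e s) r →
        ∃ c : Ω, c ≠ 0 ∧ B.HasValue (γ * (r * ∏ s, (valPt (T s) P).val
          (den u (valPt (T s) P).point / den u (Pt.reduce B (valPt (T s) P)).point) ^ e s)) c := by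
  classical
  set T := fun s => Pt.map (IsScalarTower.toAlgHom k K L) φ +
    Pt.map (IsScalarTower.toAlgHom k F L) (a s) with hTdef
  set S := fun s => Pt.reduce (gauss (K := K) (L := L) B) (T s) with hSdef
  have hTS : ∀ s, (T s).point ⤳ (S s).point := fun s => Pt.point_specializes_reduce _ _
  have hz' : ∀ s, IsDen u (T s).point (den u (S s).point) :=
    fun s => (isDen_den u _).mono (hTS s)
  set R'' := R / ∏ s, (T s).val (den u (S s).point / den u (T s).point) ^ e s with hR''
  have hR''0 : R'' ≠ 0 := div_ne_zero hR0 (prod_zpow_ne_zero _ _ _ fun s _ =>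
    (hz' s).val_div_ne_zero _ (isDen_den u _))
  obtain ⟨γ, hγ, g, hg, hγg⟩ := exists_const_mul_hasValue (K := K) B hR''0
  refine ⟨γ, fun P T' hT' r hr => ?_⟩
  subst hT'
  set q' : Place Ω K := redPlace B P with hq'
  set x := fun s => valPt (T s) P with hxdef
  set w := fun s => den u (Pt.reduce B (x s)).point with hwdef
  -- the reduced value
  have hy : ∀ (P' : Place F L), redPlace B P' = q' → ∀ s,
      Pt.reduce B (valPt (T s) P') = valPt (S s) q' := fun P' hP' s => by
    simp only [hSdef, hTdef, valPt]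
    rw [Pt.reduce_valueAt_add B P' φ (a s), hP', Pt.reduce_gauss_add B φ (a s)]
  have hwy : ∀ s, IsDen u (valPt (S s) q').point (w s) := fun s =>
    hy P rfl s ▸ isDen_den u _
  have hwP : ∀ (P' : Place F L), redPlace B P' = q' → ∀ s,
      IsDen u (valPt (T s) P').point (w s) := fun P' hP' s => by
    refine IsDen.mono ?_ (Pt.point_specializes_reduce B (valPt (T s) P'))
    rw [hy P' hP' s]
    exact hwy s
  have hwS : ∀ s, IsDen u (S s).point (w s) := fun s => (hwy s).of_valPt
  have hwT : ∀ s, IsDen u (T s).point (w s) := fun s => (hwS s).mono (hTS s)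
  -- the local trivialisation over `q'`
  set G := algebraMap F L γ * R'' *
    ∏ s, (T s).val (den u (S s).point / w s) ^ e s with hGdef
  set g₁ := g * ∏ s, (S s).val (den u (S s).point / w s) ^ e s
  have hg₁ : g₁ ≠ 0 := mul_ne_zero hg (prod_zpow_ne_zero _ _ _ fun s _ =>
    (isDen_den u _).val_div_ne_zero _ (hwS s))
  have hG : (gauss B).HasValue G g₁ := hγg.mul (RatVal.HasValue.prod _ fun s _ =>
    (Pt.hasValue_val_reduce _ (T s) ((hwS s).div_mem (isDen_den u _))).zpow
      ((isDen_den u _).val_div_ne_zero _ (hwS s)) _)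
  have hGeq : ∀ z : ι → X.FF, (∀ s, IsDen u (T s).point (z s)) →
      G = algebraMap F L γ * (R / ∏ s, (T s).val (z s / den u (T s).point) ^ e s) *
        ∏ s, (T s).val (z s / w s) ^ e s := by
    intro z hz
    rw [hGdef, hR'', mul_assoc, mul_assoc, div_mul_eq_mul_div₀, div_mul_eq_mul_div₀,
      mul_div_assoc, mul_div_assoc]
    congr 2
    rw [← Finset.prod_div_distrib, ← Finset.prod_div_distrib]
    refine Finset.prod_congr rfl fun s _ => ?_
    have key : ∀ y, IsDen u (T s).point y →
        (T s).val (y / w s) ^ e s / (T s).val (y / den u (T s).point) ^ e s =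
          ((T s).val (w s / den u (T s).point) ^ e s)⁻¹ := fun y hy' => by
      rw [(T s).val_div_mul_div hy' (hwT s) (isDen_den u _), mul_zpow,
        div_mul_cancel_left₀ (zpow_ne_zero _ (hy'.val_div_ne_zero _ (hwT s)))]
    rw [key _ (hz' s), key _ (hz s)]
  have hG0 : G ≠ 0 := hG.ne_zero hg₁
  have hord : ∀ P' : Place F L, redPlace B P' = q' → P'.ord G = 0 := by
    intro P' hP'
    have h1 := DFunLike.congr_fun hR P'
    rw [divFun_apply, Finsupp.finsetSum_apply] at h1
    have hne : ∀ s, (T s).val (w s / den u (T s).point) ≠ 0 := fun s =>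
      (hwT s).val_div_ne_zero _ (isDen_den u _)
    rw [hGeq w hwT]
    have hone : ∏ s, (T s).val (w s / w s) ^ e s = 1 := Finset.prod_eq_one fun s _ => by
      rw [div_self (hwT s).ne_zero, Pt.val_one, one_zpow]
    rw [hone, mul_one, div_eq_mul_inv,
      P'.ord_mul (by simpa using hγ) (mul_ne_zero hR0 (inv_ne_zero
        (prod_zpow_ne_zero _ _ _ fun s _ => hne s))),
      P'.ord_mul hR0 (inv_ne_zero (prod_zpow_ne_zero _ _ _ fun s _ => hne s)), P'.ord_inv,
      ord_prod_zpow P' _ _ _ (fun s _ => hne s), ord_algebraMap, h1, zero_add]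
    simp only [Finsupp.smul_apply, smul_eq_mul, ← sub_eq_add_neg, ← Finset.sum_sub_distrib]
    refine Finset.sum_eq_zero fun s _ => ?_
    rw [pull_apply, ← pullFun_eq (T s) P' (hwP P' hP' s), hTdef, sub_self]
  have hreg : ∀ f : L, f ≠ 0 → (∀ P', redPlace B P' = q' → P'.ord f = 0) →
      ∀ P', redPlace B P' = q' → f ∈ P'.toValuationSubring := fun f hf h P' hP' =>
    (mem_iff_adicValuation_le_one P').mpr (by
      rw [P'.adicValuation_eq_exp_neg_ord hf, h P' hP']; simp)
  obtain ⟨c, hc, hcP⟩ := exists_value_of_regular B hG (hreg G hG0 hord)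
  obtain ⟨c', hc', -⟩ := exists_value_of_regular B (hG.inv hg₁)
    (hreg G⁻¹ (inv_ne_zero hG0) fun P' hP' => by rw [P'.ord_inv, hord P' hP', neg_zero])
  have hc0 : c ≠ 0 := by
    rintro rfl
    have := hc.mul hc'
    rw [mul_inv_cancel₀ hg₁, zero_mul] at this
    exact one_ne_zero ((valueAt q').hasValue_one.unique this)
  obtain ⟨d, hd, hdc⟩ := hcP P rfl
  refine ⟨c, hc0, ?_⟩
  -- the value of `G` at `P`
  have hzP : ∀ s, IsDen u (T s).point (den u (x s).point) := fun s => (isDen_den u _).of_valPt
  have hval : (valueAt P).HasValue G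
      (γ * r * ∏ s, (x s).val (den u (x s).point / w s) ^ e s) := by
    rw [hGeq _ hzP]
    refine (((valueAt P).hasValue_algebraMap γ).mul hr).mul (RatVal.HasValue.prod _ fun s _ => ?_)
    exact (Pt.hasValue_val_reduce (valueAt P) (T s)
      ((hwP P rfl s).div_mem (isDen_den u _))).zpow
        ((isDen_den u _).val_div_ne_zero _ (hwP P rfl s)) _
  rw [← mul_assoc]
  rwa [hd.unique hval] at hdc

/-- The ratio of the values of a trivialisation at two places where the translates take
`K`-rational values is, over every place of `K`, a unit up to a quotient of local equations. -/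
theorem exists_correction_ratio [Algebra K F] [IsScalarTower k K F] (u : X.FF) (φ : X.Pt K)
    {ι : Type} [Fintype ι] (a : ι → X.Pt K) (e : ι → ℤ) {R : L} (hR0 : R ≠ 0)
    (hR : divFun F R = ∑ s, e s • pull F u (Pt.map (IsScalarTower.toAlgHom k K L) φ +
      Pt.map (IsScalarTower.toAlgHom k F L) (Pt.map (IsScalarTower.toAlgHom k K F) (a s))))
    {T : ι → X.Pt L} (hT : T = fun s => Pt.map (IsScalarTower.toAlgHom k K L) φ +
      Pt.map (IsScalarTower.toAlgHom k F L) (Pt.map (IsScalarTower.toAlgHom k K F) (a s)))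
    {P₁ P₂ : Place F L} {χ₁ χ₂ : ι → X.Pt K}
    (hχ₁ : ∀ s, valPt (T s) P₁ = Pt.map (IsScalarTower.toAlgHom k K F) (χ₁ s))
    (hχ₂ : ∀ s, valPt (T s) P₂ = Pt.map (IsScalarTower.toAlgHom k K F) (χ₂ s))
    {r₁ r₂ : F} (hr₁ : (valueAt P₁).HasValue
      (R / ∏ s, (T s).val (den u (valPt (T s) P₁).point / den u (T s).point) ^ e s) r₁)
    (hr₂ : (valueAt P₂).HasValue
      (R / ∏ s, (T s).val (den u (valPt (T s) P₂).point / den u (T s).point) ^ e s) r₂)
    (q : Place Ω K) :
    ∃ δ : K, δ ≠ 0 ∧
      q.ord δ = (∑ s, e s • pull Ω u (χ₂ s)) q - (∑ s, e s • pull Ω u (χ₁ s)) q ∧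
      ∀ B : RatVal Ω F, (∀ t c, (valueAt q).HasValue t c → B.HasValue (algebraMap K F t) c) →
        ∃ c : Ω, c ≠ 0 ∧ B.HasValue (r₁ / r₂ * algebraMap K F δ) c := by
  classical
  let i := IsScalarTower.toAlgHom k K F
  let dl := fun χ : ι → X.Pt K =>
    ∏ s, (χ s).val (den u (χ s).point / den u (valPt (χ s) q).point) ^ e s
  have hdl : ∀ χ : ι → X.Pt K, dl χ ≠ 0 := fun χ => prod_zpow_ne_zero _ _ _ fun s _ =>
    (isDen_den u _).val_div_ne_zero _ (isDen_den u _).of_valPt
  refine ⟨dl χ₁ / dl χ₂, div_ne_zero (hdl _) (hdl _), ?_, fun B hB => ?_⟩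
  · rw [div_eq_mul_inv, q.ord_mul (hdl _) (inv_ne_zero (hdl _)), q.ord_inv,
      ord_prod_val_den_div u χ₁ e q, ord_prod_val_den_div u χ₂ e q]
    ring
  have hredi : ∀ χ : X.Pt K, Pt.reduce B (Pt.map i χ) = valPt χ q := fun χ => by
    rw [Pt.reduce_natural (valueAt q) B i (AlgHom.id k Ω) hB, Pt.map_id]
  obtain ⟨γ, hγ⟩ := exists_const_forall_place (K := K) (L := L) B u φ
    (fun s => Pt.map i (a s)) e hR0 hR
  have key : ∀ (P : Place F L) (χ : ι → X.Pt K) (r : F),
      (∀ s, valPt (T s) P = Pt.map i (χ s)) →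
      (valueAt P).HasValue
        (R / ∏ s, (T s).val (den u (valPt (T s) P).point / den u (T s).point) ^ e s) r →
      ∃ c : Ω, c ≠ 0 ∧ B.HasValue (γ * (r * i (dl χ))) c := by
    intro P χ r hχ hr
    obtain ⟨c, hc, hc'⟩ := hγ P T hT r hr
    refine ⟨c, hc, ?_⟩
    convert hc' using 3
    simp only [dl, map_prod, map_zpow₀]
    refine Finset.prod_congr rfl fun s _ => congrArg (· ^ e s) ?_
    rw [hχ s, hredi, Pt.point_map_field, Pt.val_map i]
    exact (isDen_den u _).of_valPt.div_mem (isDen_den u _)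
  obtain ⟨c₁, hc₁, h₁⟩ := key P₁ _ r₁ hχ₁ hr₁
  obtain ⟨c₂, hc₂, h₂⟩ := key P₂ _ r₂ hχ₂ hr₂
  refine ⟨c₁ * c₂⁻¹, mul_ne_zero hc₁ (inv_ne_zero hc₂), ?_⟩
  convert h₁.mul (h₂.inv hc₂) using 1
  have hγ0 : γ ≠ 0 := fun h0 => hc₁ (h₁.unique (by rw [h0, zero_mul]; exact B.hasValue_zero))
  show r₁ / r₂ * i (dl χ₁ / dl χ₂) = _
  rw [map_div₀, div_mul_div_comm, ← div_eq_mul_inv, mul_div_mul_left _ _ hγ0]

end Local

variable {Ω K : Type u} [Field Ω] [Field K] [Algebra Ω K] [Algebra k Ω] [Algebra k K]
  [IsScalarTower k Ω K] [IsAlgClosed Ω] [IsFunctionField Ω K]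

/-- A valuation ring of an extension of `K` over a place. -/
theorem exists_ratVal_over_place {F : Type u} [Field F] [Algebra Ω F] [Algebra K F]
    [IsScalarTower Ω K F] (q : Place Ω K) :
    ∃ B : RatVal Ω F, ∀ t c, (valueAt q).HasValue t c → B.HasValue (algebraMap K F t) c := by
  let Φ : (valueAt q).ring →ₐ[Ω] F :=
    (IsScalarTower.toAlgHom Ω K F).comp (IsScalarTower.toAlgHom Ω (valueAt q).ring K)
  have hΦ : Function.Injective Φ := fun x y h => Subtype.ext ((algebraMap K F).injective h)
  let e := AlgEquiv.ofInjective Φ hΦ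
  obtain ⟨B, hB⟩ := exists_ratVal_extend Φ.range ((valueAt q).redAlg.comp e.symm.toAlgHom)
  refine ⟨B, fun t c ⟨h, hc⟩ => ?_⟩
  have h2 := hB (e ⟨t, h⟩)
  change B.HasValue (algebraMap K F t) ((valueAt q).red (e.symm (e ⟨t, h⟩))) at h2
  rw [e.symm_apply_apply, hc] at h2
  exact h2

omit [IsFunctionField Ω K] in
/-- The diagonal place of the constant extension of `K` to an extension of `K`. -/
theorem exists_diagonal_place {F : Type u} [Field F] [Algebra Ω F] [Algebra K F]
    [IsScalarTower Ω K F] [IsAlgClosed F] [IsFunctionField F (ConstExtField Ω F K)] :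
    ∃ Q : Place F (ConstExtField Ω F K), ∀ t : K,
      (valueAt Q).HasValue (algebraMap K (ConstExtField Ω F K) t) (algebraMap K F t) := by
  let L := ConstExtField Ω F K
  let Φ : TensorProduct Ω F K →ₐ[F] L :=
    { algebraMap (TensorProduct Ω F K) L with commutes' := fun c => rfl }
  let e := AlgEquiv.ofInjective Φ (IsFractionRing.injective (TensorProduct Ω F K) L)
  let m : TensorProduct Ω F K →ₐ[F] F :=
    Algebra.TensorProduct.lift (AlgHom.id F F) (IsScalarTower.toAlgHom Ω K F) fun _ _ =>
      Commute.all _ _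
  obtain ⟨B, hB⟩ := exists_ratVal_extend Φ.range (m.comp e.symm.toAlgHom)
  let Q := placeOfValuationSubring B.ring B.algebraMap_mem
    (RatVal.ring_ne_top B IsFunctionField.exists_transcendental)
  refine ⟨Q, fun t => RatVal.HasValue.congr_ring (A := B) (A' := valueAt Q) rfl ?_⟩
  have h2 := hB (e (1 ⊗ₜ t))
  change B.HasValue (algebraMap K L t) (m (e.symm (e (1 ⊗ₜ t)))) at h2
  rw [e.symm_apply_apply] at h2
  simpa [m] using h2

omit [IsAlgClosed k] [Algebra k Ω] [Algebra k K] [IsScalarTower k Ω K] in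
/-- A divisor is of degree zero if, at every place `q`, it is minus the divisor of some element
making a fixed algebraic element a unit at all extensions of `q`: a multiple of it is then the
divisor of the norm. -/
theorem degree_eq_zero_of_forall_correction {ρ : AlgebraicClosure K} (hρ0 : ρ ≠ 0)
    (D : Divisor Ω K) (h : ∀ q : Place Ω K, ∃ δ : K, δ ≠ 0 ∧ q.ord δ = -D q ∧
      ∀ B : RatVal Ω (AlgebraicClosure K),
        (∀ t c, (valueAt q).HasValue t c → B.HasValue (algebraMap K (AlgebraicClosure K) t) c) →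
        ∃ c : Ω, c ≠ 0 ∧ B.HasValue (ρ * algebraMap K (AlgebraicClosure K) δ) c) :
    D.degree = 0 := by
  let F := AlgebraicClosure K
  let i := algebraMap K F
  have hρ : IsIntegral K ρ := Algebra.IsIntegral.isIntegral ρ
  set P := minpoly K ρ
  set N : K := (-1) ^ P.natDegree * P.coeff 0 with hN
  have hN0 : N ≠ 0 :=
    mul_ne_zero (pow_ne_zero _ (neg_ne_zero.mpr one_ne_zero)) (minpoly.coeff_zero_ne_zero hρ hρ0)
  have hdiv : divFun Ω N = P.natDegree • D := by
    ext q
    obtain ⟨δ, hδ0, hδ, hB⟩ := h q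
    obtain ⟨B, hBq⟩ := exists_ratVal_over_place (F := F) q
    have hiN : i N = (P.map i).roots.prod := by
      have hs := (IsAlgClosed.splits (P.map i)).coeff_zero_eq_prod_roots_of_monic
        ((minpoly.monic hρ).map _)
      rw [Polynomial.coeff_map, (minpoly.monic hρ).natDegree_map] at hs
      rw [hN, map_mul, map_pow, map_neg, map_one, hs, ← mul_assoc, ← mul_pow, neg_one_mul,
        neg_neg, one_pow, one_mul]
    have hcard : (P.map i).roots.card = P.natDegree := by
      rw [IsAlgClosed.card_roots_eq_natDegree, (minpoly.monic hρ).natDegree_map]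
    have hroot : ∀ x ∈ (P.map i).roots.map (· * i δ), ∃ c : Ω, c ≠ 0 ∧ B.HasValue x c := by
      intro y hy
      obtain ⟨x, hx, rfl⟩ := Multiset.mem_map.mp hy
      obtain ⟨σ, hσ⟩ := minpoly.exists_algEquiv_of_root' (Algebra.IsAlgebraic.isAlgebraic ρ)
        (show Polynomial.aeval x (minpoly K ρ) = 0 from
          (Polynomial.mem_aroots.mp hx).2)
      obtain ⟨c, hc, h'⟩ := hB (B.comapEquiv (σ.restrictScalars Ω)) fun t c htc => by
        rw [RatVal.hasValue_comapEquiv]
        convert hBq t c htc using 1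
        exact σ.commutes t
      refine ⟨c, hc, ?_⟩
      rw [RatVal.hasValue_comapEquiv, map_mul] at h'
      convert h' using 2
      · exact hσ.symm
      · exact (σ.commutes δ).symm
    obtain ⟨c, hc, hc'⟩ := RatVal.exists_hasValue_multiset_prod hroot
    rw [Multiset.prod_map_mul, Multiset.map_id', Multiset.map_const', Multiset.prod_replicate,
      ← hiN, hcard, ← map_pow, ← map_mul] at hc'
    have hord : q.ord (N * δ ^ P.natDegree) = 0 := by
      by_contra hne'
      have hzero : ∀ t : K, 0 < q.ord t → B.HasValue (i t) 0 := fun t ht =>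
        hBq t 0 ((valueAt_hasValue_zero_iff q fun h0 => by simp [h0] at ht).mpr ht)
      rcases lt_or_gt_of_ne hne' with hlt | hgt
      · have h0 := hc'.inv hc
        rw [← map_inv₀] at h0
        exact inv_ne_zero hc (h0.unique (hzero _ (by rw [q.ord_inv]; omega)))
      · exact hc (hc'.unique (hzero _ hgt))
    rw [q.ord_mul hN0 (pow_ne_zero _ hδ0), ord_pow, hδ] at hord
    rw [divFun_apply, Finsupp.smul_apply, nsmul_eq_mul]
    linear_combination hord
  have hdeg := congrArg Divisor.degree hdiv
  rw [degree_divFun, map_nsmul, nsmul_eq_mul, eq_comm, mul_eq_zero,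
    or_iff_right (by exact_mod_cast (minpoly.natDegree_pos hρ).ne')] at hdeg
  exact hdeg

/-- If a combination of pullbacks along translates is principal on the generic fibre, the
combinations of degrees along the diagonal and along a constant section agree. -/
theorem height_sum_eq (u : X.FF) (φ : X.Pt K) {ι : Type} [Fintype ι] (a : ι → X.Pt K) (e : ι → ℤ)
    (h : ∑ s, e s • cls (AlgebraicClosure K) u
      (Pt.map (IsScalarTower.toAlgHom k K (ConstExtField Ω (AlgebraicClosure K) K)) φ +
        Pt.map (IsScalarTower.toAlgHom k (AlgebraicClosure K)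
          (ConstExtField Ω (AlgebraicClosure K) K))
          (Pt.map (IsScalarTower.toAlgHom k K (AlgebraicClosure K)) (a s))) = 0) :
    ∑ s, e s * height Ω u (φ + a s) = ∑ s, e s * height Ω u (a s) := by
  classical
  let F := AlgebraicClosure K
  let L := ConstExtField Ω F K
  let i := IsScalarTower.toAlgHom k K F
  set T := fun s => Pt.map (IsScalarTower.toAlgHom k K L) φ +
    Pt.map (IsScalarTower.toAlgHom k F L) (Pt.map i (a s)) with hTdef
  -- a trivialisation
  have hp : (∑ s, e s • pull F u (T s) : Divisor F L) ∈ Divisor.principal (K := F) (F := L) := by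
    rw [← QuotientAddGroup.eq_zero_iff]
    refine Eq.trans ?_ h
    rw [← QuotientAddGroup.mk'_apply, map_sum]
    simp only [map_zsmul]
    rfl
  obtain ⟨R, hR0, hR⟩ := exists_eq_divFun_of_mem_principal hp
  -- the two sections
  obtain ⟨Q, hQ⟩ := exists_diagonal_place (Ω := Ω) (K := K) (F := F)
  obtain ⟨p₀⟩ := nonempty_place Ω K
  set x₀ : Place F L := constPlace p₀
  set c₀ : X.Pt K := Pt.map (IsScalarTower.toAlgHom k Ω K) (Pt.reduce (valueAt p₀) φ) with hc₀
  have hTQ : ∀ s, valPt (T s) Q = Pt.map i (φ + a s) := fun s => by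
    rw [valPt, hTdef, map_add, Pt.reduce_map, map_add,
      Pt.reduce_map_of_hasValue (IsScalarTower.toAlgHom k K L) i (fun t => hQ t)]
  have hTx : ∀ s, valPt (T s) x₀ = Pt.map i (c₀ + a s) := fun s => by
    rw [valPt, hTdef, map_add, Pt.reduce_map, map_add,
      Pt.reduce_natural (valueAt p₀) (valueAt x₀) (IsScalarTower.toAlgHom k K L)
        (IsScalarTower.toAlgHom k Ω F) (fun r c hrc => valueAt_constPlace hrc) φ,
      hc₀, Pt.map_map]
    congr 2
  -- values of the trivialisation at the two sections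
  obtain ⟨rQ, hrQ0, hrQ⟩ := exists_value_trivialisation u T e hR0 hR.symm Q
  obtain ⟨rx, hrx0, hrx⟩ := exists_value_trivialisation u T e hR0 hR.symm x₀
  have hdeg := degree_eq_zero_of_forall_correction (div_ne_zero hrQ0 hrx0)
    ((∑ s, e s • pull Ω u (φ + a s)) - ∑ s, e s • pull Ω u (c₀ + a s) : Divisor Ω K) fun q => by
      rw [Finsupp.sub_apply, neg_sub]
      exact exists_correction_ratio u φ a e hR0 hR.symm hTdef hTQ hTx hrQ hrx q
  rw [map_sub, sub_eq_zero, map_sum, map_sum] at hdeg
  simp only [map_zsmul, smul_eq_mul] at hdeg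
  refine hdeg.trans (Finset.sum_congr rfl fun s _ => ?_)
  show e s * height Ω u (c₀ + a s) = _
  rw [add_comm c₀, hc₀, height_add_const]

theorem height_zero (u : X.FF) : height Ω u (0 : X.Pt K) = 0 := by
  have h := height_map_const (X := X) (F := Ω) (L := K) u (0 : X.Pt Ω)
  rwa [map_zero] at h

/-- The parallelogram law. -/
theorem height_parallelogram (u : X.FF) (φ ψ : X.Pt K) :
    height Ω u (φ + ψ) + height Ω u (φ - ψ) =
      2 * height Ω u φ + height Ω u ψ + height Ω u (-ψ) := by
  let F := AlgebraicClosure K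
  let L := ConstExtField Ω F K
  let i := IsScalarTower.toAlgHom k K F
  have hr := cls_add_add (Ω := F) (K := L) u (Pt.map (IsScalarTower.toAlgHom k K L) φ)
    (Pt.map i ψ) (Pt.map i (-ψ))
  rw [add_assoc (Pt.map (IsScalarTower.toAlgHom k K L) φ), ← map_add, ← map_add, add_neg_cancel,
    map_zero, map_zero, add_zero] at hr
  have h := height_sum_eq u φ (ι := Fin 3) ![ψ, -ψ, 0] ![1, 1, -2] (by
    simp only [Fin.sum_univ_three, Matrix.cons_val_zero, Matrix.cons_val_one,
      Matrix.cons_val_two, Matrix.tail_cons, Matrix.head_cons, map_zero, add_zero, one_smul]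
    rw [← hr]
    show cls F u _ + cls F u _ + (-2 : ℤ) • cls F u _ = 0
    rw [neg_smul, two_zsmul]
    exact add_neg_cancel _)
  simp only [Fin.sum_univ_three, Matrix.cons_val_zero, Matrix.cons_val_one, Matrix.cons_val_two,
    Matrix.tail_cons, Matrix.head_cons, add_zero, ← sub_eq_add_neg] at h
  have h0 : height Ω u (0 : X.Pt K) = 0 := height_zero u
  rw [h0] at h
  linarith

/-- The degree is quadratic on multiples. -/
theorem height_nsmul {u : X.FF} (hu : X.IsEven u) (φ : X.Pt K) (n : ℕ) :
    height Ω u (n • φ) = (n : ℤ) ^ 2 * height Ω u φ := by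
  induction n using Nat.strong_induction_on with
  | _ n ih =>
    match n with
    | 0 =>
      have h0 : height Ω u (0 : X.Pt K) = 0 := height_zero u
      simpa using h0
    | 1 => simp
    | m + 2 =>
      have h := height_parallelogram (Ω := Ω) u ((m + 1) • φ) φ
      rw [← succ_nsmul, show (m + 1) • φ - φ = m • φ by rw [succ_nsmul, add_sub_cancel_right],
        ih (m + 1) (by omega), ih m (by omega), height_neg hu] at h
      push_cast at h ⊢
      linarith

end Fermat.Agent.AVTorsion.AbVar
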