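import Fermat.Agent.AVTorsion.Link
import Fermat.Agent.AVTorsion.Parallelogram

set_option autoImplicit false

/-!
# Heights of multiples translated by a generic point

For an even function `u`, composing with `n` times a point of a curve, translated by a generic
point, multiplies the degree of `u` on the curve by `n ^ 2`.
-/

universe u

noncomputable section

open CategoryTheory AlgebraicGeometry AlgebraicCurve Fermat.Agent.ConstReduction
open Fermat.Agent.FunctionField

namespace Fermat.Agent.AVTorsion.AbVar

variable {k : Type u} [Field k] [IsAlgClosed k] {X : AbVar k} {Ω K F L : Type u} [Field Ω]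
  [Field K] [Field F] [Field L] [IsAlgClosed Ω] [IsAlgClosed F] [Algebra k Ω] [Algebra k K]
  [Algebra k F] [Algebra k L] [Algebra Ω K] [Algebra Ω F] [Algebra Ω L] [Algebra F L]
  [Algebra K L] [IsScalarTower k Ω K] [IsScalarTower k Ω F] [IsScalarTower k Ω L]
  [IsScalarTower k K L] [IsScalarTower k F L] [IsScalarTower Ω K L] [IsScalarTower Ω F L]
  [IsFunctionField Ω K] [IsConstExt Ω K F L]

/-- The degree of an even function composed with a translated multiple scales by the square. -/
theorem degFun_smul (φ : X.Pt K) {a : X.Pt F} (ha : IsGenericOver Ω a) {u : X.FF}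
    (hu : X.IsEven u) {n : ℕ} (hn : 0 < n) (e1 en : X.FF →ₐ[k] L)
    (h1 : Pt.map e1 X.η = Pt.map (IsScalarTower.toAlgHom k K L) φ +
      Pt.map (IsScalarTower.toAlgHom k F L) a)
    (hen : Pt.map en X.η = n • Pt.map (IsScalarTower.toAlgHom k K L) φ +
      Pt.map (IsScalarTower.toAlgHom k F L) a)
    (htr : Transcendental F (e1 u)) :
    Transcendental F (en u) ∧ degFun F (en u) = n ^ 2 * degFun F (e1 u) := by
  obtain ⟨B⟩ := nonempty_ratVal (Ω := Ω) (F := F)
  have : IsFunctionField F L := isFunctionField (K := K) B
  have hh : ∀ (ψ : X.Pt K) (e : X.FF →ₐ[k] L), Pt.map e X.η =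
      Pt.map (IsScalarTower.toAlgHom k K L) ψ + Pt.map (IsScalarTower.toAlgHom k F L) a →
      Divisor.degree (poleDiv F (e u)) = height Ω u ψ := fun ψ e he => by
    rw [← height_eq_degree_poleDiv u ψ ha e he, he, height_reduce u B, height_add_const]
  have e1' := hh φ e1 h1
  have en' := hh (n • φ) en (by rw [hen, map_nsmul])
  rw [height_nsmul hu, ← e1', degree_poleDiv htr] at en'
  have htn : Transcendental F (en u) := by
    intro halg
    have hzero : poleDiv F (en u) = 0 := Finsupp.ext fun P => by
      simp [poleDiv, Finsupp.sup_apply, ord_eq_zero_of_isAlgebraic P halg]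
    rw [hzero, map_zero] at en'
    have h2 : 0 < n ^ 2 * degFun F (e1 u) :=
      Nat.mul_pos (pow_pos hn 2) (degFun_pos htr)
    zify at h2
    omega
  refine ⟨htn, ?_⟩
  rw [degree_poleDiv htn] at en'
  exact_mod_cast en'

end Fermat.Agent.AVTorsion.AbVar
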