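import Mathlib.FieldTheory.IsAlgClosed.Basic
import Mathlib.RingTheory.Valuation.LocalSubring

set_option autoImplicit false

/-!
# Extension of places

A homomorphism from a subalgebra of a field to the algebraically closed base field extends to a
valuation subring whose residue field is the base field.
-/

universe u v

namespace Fermat.Agent.AVTorsion

variable {Ω : Type u} [Field Ω] {F : Type v} [Field F] [Algebra Ω F]

/-- Graphs of partial specialisations. -/
private def IsGraph (G : Subalgebra Ω (F × Ω)) : Prop :=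
  ∀ c : Ω, ((0 : F), c) ∈ G → c = 0

private theorem IsGraph.unique {G : Subalgebra Ω (F × Ω)} (hG : IsGraph G) {x : F} {a b : Ω}
    (ha : (x, a) ∈ G) (hb : (x, b) ∈ G) : a = b := by
  have := hG (a - b) (by simpa using sub_mem ha hb)
  exact sub_eq_zero.mp this

/-- Every graph is contained in a maximal one. -/
private theorem exists_maximal_isGraph {G₀ : Subalgebra Ω (F × Ω)} (hG₀ : IsGraph G₀) :
    ∃ G, G₀ ≤ G ∧ Maximal IsGraph G := by
  obtain ⟨G, hle, hmax⟩ := zorn_le_nonempty₀ {G : Subalgebra Ω (F × Ω) | IsGraph G}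
    (fun c hc hchain y hy => by
      have : Nonempty c := ⟨⟨y, hy⟩⟩
      refine ⟨⨆ G : c, (G : Subalgebra Ω (F × Ω)), fun a ha => ?_,
        fun z hz => le_iSup (fun G : c => (G : Subalgebra Ω (F × Ω))) ⟨z, hz⟩⟩
      have hd : Directed (· ≤ ·) fun G : c => (G : Subalgebra Ω (F × Ω)) :=
        directedOn_iff_directed.mp hchain.directedOn
      rw [← SetLike.mem_coe, Subalgebra.coe_iSup_of_directed hd, Set.mem_iUnion] at ha
      obtain ⟨G, hG⟩ := ha
      exact hc G.2 a hG) G₀ hG₀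
  exact ⟨G, hle, hmax⟩

/-- An element of `G` with `p` adjoined is the value at `p` of a polynomial over `G`. -/
private theorem exists_eval₂_of_mem_sup (G : Subalgebra Ω (F × Ω)) {p z : F × Ω}
    (h : z ∈ G ⊔ Algebra.adjoin Ω {p}) :
    ∃ P : Polynomial G, z = P.eval₂ G.val.toRingHom p := by
  let B : Subalgebra Ω (F × Ω) := (Algebra.adjoin G {p}).restrictScalars Ω
  have hle' : G ⊔ Algebra.adjoin Ω {p} ≤ B := by
    refine sup_le (fun z hz => ?_) (Algebra.adjoin_le ?_)
    · exact (Algebra.adjoin G {p}).algebraMap_mem ⟨z, hz⟩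
    · exact Algebra.subset_adjoin
  have hpB : z ∈ Algebra.adjoin G {p} := hle' h
  rw [Algebra.adjoin_singleton_eq_range_aeval] at hpB
  obtain ⟨P, hP⟩ := hpB
  exact ⟨P, hP.symm⟩

/-- A pair lies in a maximal graph once adjoining it leaves a graph. -/
private theorem mem_of_maximal {G : Subalgebra Ω (F × Ω)} (hG : Maximal IsGraph G) {p : F × Ω}
    (h : ∀ (P : Polynomial G) (c : Ω), P.eval₂ G.val.toRingHom p = (0, c) → c = 0) : p ∈ G := by
  refine hG.2 (y := G ⊔ Algebra.adjoin Ω {p}) (fun c hc => ?_) le_sup_left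
    (le_sup_right (a := G) (Algebra.subset_adjoin rfl))
  obtain ⟨P, hP⟩ := exists_eval₂_of_mem_sup G hc
  exact h P c hP.symm

/-- A maximal graph is closed under inverses. -/
private theorem inv_mem_of_maximal {G : Subalgebra Ω (F × Ω)} (hG : Maximal IsGraph G) {x : F}
    {a : Ω} (hx : (x, a) ∈ G) (ha : a ≠ 0) : (x⁻¹, a⁻¹) ∈ G := by
  have hx0 : x ≠ 0 := fun h => ha (hG.1 a (h ▸ hx))
  refine mem_of_maximal hG fun P c hP => ?_
  -- multiply by a power of `(x, a)`
  have key : P.eval₂ G.val.toRingHom (x⁻¹, a⁻¹) * (x, a) ^ P.natDegree ∈ G := by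
    rw [Polynomial.eval₂_eq_sum_range, Finset.sum_mul]
    refine sum_mem fun i hi => ?_
    rw [Finset.mem_range] at hi
    rw [mul_assoc, ← Nat.sub_add_cancel (Nat.le_of_lt_succ hi), pow_add,
      mul_comm ((x, a) ^ _) ((x, a) ^ i), ← mul_assoc ((x⁻¹, a⁻¹) ^ i), ← mul_pow]
    have h1 : ((x⁻¹, a⁻¹) : F × Ω) * (x, a) = 1 := by
      simp [hx0, ha]
    rw [h1, one_pow, one_mul]
    exact mul_mem (P.coeff i).2 (pow_mem hx _)
  rw [hP] at key
  have h2 : ((0 : F), c * a ^ P.natDegree) ∈ G := by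
    simpa [Prod.pow_def] using key
  simpa [ha] using hG.1 _ h2

/-- Some point of an algebraically closed field satisfies all equations of an element of a field
extension. -/
private theorem exists_forall_eval_eq_zero [IsAlgClosed Ω] {κ : Type*} [Field κ] [Algebra Ω κ]
    (y : κ) : ∃ b : Ω, ∀ P : Polynomial Ω, Polynomial.aeval y P = 0 → P.eval b = 0 := by
  by_cases hal : IsAlgebraic Ω y
  · obtain ⟨b, hb⟩ := minpoly.mem_range_of_degree_eq_one Ω y
      (IsAlgClosed.degree_eq_one_of_irreducible _ (minpoly.irreducible hal.isIntegral))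
    refine ⟨b, fun P hP => ?_⟩
    rw [← hb, Polynomial.aeval_algebraMap_apply] at hP
    exact (map_eq_zero _).mp hP
  · exact ⟨0, fun P hP => by
      by_contra hne
      exact hal ⟨P, fun h => hne (by rw [h, Polynomial.eval_zero]), hP⟩⟩

/-- A valuation subring dominating the domain of a maximal graph is contained in it. -/
private theorem exists_mem_of_mem_valuationSubring [IsAlgClosed Ω] {G : Subalgebra Ω (F × Ω)}
    (hG : Maximal IsGraph G) {V : ValuationSubring F} (hV : ∀ z ∈ G, z.1 ∈ V)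
    (hdom : ∀ x (h : (x, 0) ∈ G), ¬ IsUnit (⟨x, hV _ h⟩ : V)) {y : F} (hy : y ∈ V) :
    ∃ b : Ω, (y, b) ∈ G := by
  let κ := IsLocalRing.ResidueField V
  let res : V →+* κ := IsLocalRing.residue V
  let ι : G →+* V :=
    (((AlgHom.fst Ω F Ω).comp G.val).toRingHom).codRestrict V.toSubring fun z => hV _ z.2
  let cst : Ω →+* κ := res.comp (ι.comp (algebraMap Ω G))
  have hcst : ∀ z : G, res (ι z) = cst (z : F × Ω).2 := fun z => by
    have h0 : (z - algebraMap Ω G (z : F × Ω).2 : G).1.2 = 0 := by simp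
    have h1 : res (ι (z - algebraMap Ω G (z : F × Ω).2)) = 0 := by
      rw [IsLocalRing.residue_eq_zero_iff, IsLocalRing.mem_maximalIdeal]
      exact hdom _ (by
        have := (z - algebraMap Ω G (z : F × Ω).2 : G).2
        rwa [← Prod.mk.eta (p := (z - algebraMap Ω G (z : F × Ω).2 : G).1), h0] at this)
    simpa [cst, sub_eq_zero] using h1
  let _ : Algebra Ω κ := cst.toAlgebra
  -- a value for `y`
  obtain ⟨b, hb⟩ := exists_forall_eval_eq_zero (Ω := Ω) (res ⟨y, hy⟩)
  refine ⟨b, mem_of_maximal hG fun P c hP => ?_⟩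
  let P' : Polynomial Ω := P.map ((AlgHom.snd Ω F Ω).toRingHom.comp G.val.toRingHom)
  have hfst : P.eval₂ ι ⟨y, hy⟩ = 0 := by
    apply Subtype.ext
    have h2 : V.subtype (P.eval₂ ι ⟨y, hy⟩) =
        (RingHom.fst F Ω) (P.eval₂ G.val.toRingHom (y, b)) := by
      rw [Polynomial.hom_eval₂, Polynomial.hom_eval₂]
      rfl
    exact h2.trans (congrArg Prod.fst hP)
  have h0 : Polynomial.aeval (res ⟨y, hy⟩) P' = 0 := by
    have := congrArg res hfst
    rw [Polynomial.hom_eval₂, map_zero] at this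
    rw [Polynomial.aeval_def, Polynomial.eval₂_map]
    convert this using 2
    exact RingHom.ext fun z => (hcst z).symm
  have h1 := congrArg Prod.snd hP
  rw [show (P.eval₂ G.val.toRingHom (y, b)).2 = P'.eval b by
    rw [Polynomial.eval_map]
    exact Polynomial.hom_eval₂ P G.val.toRingHom (RingHom.snd F Ω) (y, b)] at h1
  exact h1.symm.trans (hb P' h0)

/-- The extension theorem for places over an algebraically closed field. -/
theorem exists_place_extend [IsAlgClosed Ω] (R : Subalgebra Ω F) (π₀ : R →ₐ[Ω] Ω) :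
    ∃ (V : ValuationSubring F) (hV : ∀ c : Ω, algebraMap Ω F c ∈ V) (π : V →+* Ω),
      IsLocalHom π ∧ (∀ c : Ω, π ⟨algebraMap Ω F c, hV c⟩ = c) ∧
      ∀ r : R, ∃ h : (r : F) ∈ V, π ⟨r, h⟩ = π₀ r := by
  let G₀ : Subalgebra Ω (F × Ω) := (R.val.prod π₀).range
  have hG₀ : IsGraph G₀ := by
    rintro c ⟨r, hr⟩
    simp only [AlgHom.toRingHom_eq_coe, RingHom.coe_coe, AlgHom.prod_apply, Prod.mk.injEq] at hr
    have : r = 0 := Subtype.ext hr.1
    rw [← hr.2, this, map_zero]
  obtain ⟨G, hle, hmax⟩ := exists_maximal_isGraph hG₀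
  have hGg : IsGraph G := hmax.1
  let fst' := AlgHom.fst Ω F Ω
  let S : Subalgebra Ω F := G.map fst'
  have hS : ∀ x, x ∈ S ↔ ∃ a, (x, a) ∈ G := fun x => by simp [S, fst']
  have hinv : ∀ x a, (x, a) ∈ G → a ≠ 0 → (x⁻¹, a⁻¹) ∈ G := fun _ _ =>
    inv_mem_of_maximal hmax
  -- the value map
  have hex : ∀ x : S, ∃ a, ((x : F), a) ∈ G := fun x => (hS x).mp x.2
  choose val hval using hex
  have hvaleq : ∀ (x : S) a, ((x : F), a) ∈ G → val x = a := fun x a h => hGg.unique (hval x) h
  let π : S →+* Ω :=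
    { toFun := val
      map_one' := hvaleq _ _ (one_mem G)
      map_mul' := fun x y => hvaleq _ _ (mul_mem (hval x) (hval y))
      map_zero' := hvaleq _ _ (zero_mem G)
      map_add' := fun x y => hvaleq _ _ (add_mem (hval x) (hval y)) }
  have hloc : IsLocalRing S := by
    refine IsLocalRing.of_isUnit_or_isUnit_one_sub_self fun x => ?_
    have hu : ∀ y : S, val y ≠ 0 → IsUnit y := fun y hy => by
      have hy0 : (y : F) ≠ 0 := fun h => hy (hGg _ (h ▸ hval y))
      exact isUnit_iff_exists_inv.mpr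
        ⟨⟨(y : F)⁻¹, (hS _).mpr ⟨_, hinv _ _ (hval y) hy⟩⟩, Subtype.ext (mul_inv_cancel₀ hy0)⟩
    by_cases h : val x = 0
    · refine Or.inr (hu _ ?_)
      show π (1 - x) ≠ 0
      rw [map_sub, map_one, show π x = 0 from h, sub_zero]
      exact one_ne_zero
    · exact Or.inl (hu x h)
  let R' : LocalSubring F := @LocalSubring.mk _ _ S.toSubring hloc
  obtain ⟨V, hVle⟩ := R'.exists_le_valuationSubring
  let ι : S →+* V := Subring.inclusion hVle.1
  have hιloc : IsLocalHom ι := hVle.2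
  -- `V` is no bigger than `S`
  have hVS : ∀ y ∈ V, y ∈ S := fun y hy => (hS y).mpr <|
    exists_mem_of_mem_valuationSubring hmax (fun z hz => hVle.1 ⟨z, hz, rfl⟩)
      (fun x hx hu => (IsUnit.map π (IsUnit.of_map ι ⟨x, (hS x).mpr ⟨0, hx⟩⟩ hu)).ne_zero
        (hvaleq _ _ hx)) hy
  let toS : V →+* S := V.subtype.codRestrict S.toSubring fun x => hVS x x.2
  refine ⟨V, fun c => hVle.1 (S.algebraMap_mem c), π.comp toS, ⟨fun x hx => ?_⟩, fun c => ?_,
    fun r => ?_⟩
  · have hne : val (toS x) ≠ 0 := hx.ne_zero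
    have hx0 : (x : F) ≠ 0 := fun h => hne (hGg _ (h ▸ hval (toS x)))
    exact isUnit_iff_exists_inv.mpr
      ⟨⟨(x : F)⁻¹, hVle.1 ((hS _).mpr ⟨_, hinv _ _ (hval (toS x)) hne⟩)⟩,
        Subtype.ext (mul_inv_cancel₀ hx0)⟩
  · exact hvaleq _ _ (G.algebraMap_mem c)
  · have hr : ((r : F), π₀ r) ∈ G := hle ⟨r, rfl⟩
    exact ⟨hVle.1 ((hS _).mpr ⟨_, hr⟩), hvaleq _ _ hr⟩

end Fermat.Agent.AVTorsion
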