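import Fermat.Agent.AVTorsion.Chart
import Fermat.Agent.AVTorsion.PlaceExtend
import Fermat.Agent.ConstReduction.RatVal

set_option autoImplicit false

/-!
# Reduction of points

By properness a point with values in the fraction field of a valuation ring reduces to a point of
the residue field; homomorphisms on sections of an affine chart are points.
-/

universe u

noncomputable section

open CategoryTheory AlgebraicGeometry Fermat.Agent.ConstReduction

namespace Fermat.Agent.AVTorsion

variable {k : Type u} [Field k] {Ω F : Type u} [Field Ω] [Field F] [Algebra k Ω] [Algebra k F]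
  [Algebra Ω F] [IsScalarTower k Ω F]

/-- The valuation ring of a `RatVal` as a `k`-algebra. -/
instance ratValAlgebra (B : RatVal Ω F) : Algebra k B.ring :=
  ((algebraMap Ω B.ring).comp (algebraMap k Ω)).toAlgebra

/-- Inclusion of the valuation ring. -/
def ratValIncl (B : RatVal Ω F) : B.ring →ₐ[k] F where
  __ := B.ring.subtype
  commutes' c := (IsScalarTower.algebraMap_apply k Ω F c).symm

/-- The residue map as a `k`-algebra map. -/
def ratValRed (B : RatVal Ω F) : B.ring →ₐ[k] Ω where
  __ := B.red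
  commutes' c := B.red_algebraMap (algebraMap k Ω c)

instance isLocalHom_ratValRed (B : RatVal Ω F) :
    IsLocalHom (ratValRed (k := k) B).toRingHom := ⟨fun x hx => by
  have hx' : B.red x ≠ 0 := hx.ne_zero
  have h : B.HasValue (x : F) (B.red x) := B.red_eq
  exact isUnit_iff_exists_inv.mpr ⟨⟨(x : F)⁻¹, (h.inv hx').mem⟩,
    Subtype.ext (mul_inv_cancel₀ (h.ne_zero hx'))⟩⟩

/-- The extension theorem for places, as a `RatVal`. -/
theorem exists_ratVal [IsAlgClosed Ω] (R : Subalgebra Ω F) (π₀ : R →ₐ[Ω] Ω) :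
    ∃ B : RatVal Ω F, ∀ r : R, B.HasValue (r : F) (π₀ r) := by
  obtain ⟨V, hV, π, -, hπ, hR⟩ := exists_place_extend R π₀
  exact ⟨⟨V, π, hV, hπ⟩, hR⟩

namespace AbVar

variable {X : AbVar k}

/-- A field-valued point extends uniquely over a valuation ring. -/
theorem exists_lift (B : RatVal Ω F) (x : X.Pt F) :
    ∃! y : X.Pt B.ring, Pt.map (ratValIncl B) y = x := by
  have hproper : IsProper X.toBase := inferInstance
  rw [IsProper.eq_valuativeCriterion] at hproper
  obtain ⟨⟨⟨hv, -⟩, -⟩, -⟩ := hproper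
  have hsq : x.hom ≫ X.toBase =
      Spec.map (CommRingCat.ofHom (algebraMap B.ring F)) ≫ specStr k B.ring := by
    rw [x.hom_comp, ← Spec.map_comp, ← CommRingCat.ofHom_comp]
    refine congrArg (fun χ => Spec.map (CommRingCat.ofHom χ)) (RingHom.ext fun c => ?_)
    exact IsScalarTower.algebraMap_apply k Ω F c
  let S : ValuativeCommSq X.toBase :=
    { R := B.ring, K := F, i₁ := x.hom, i₂ := specStr k B.ring, commSq := ⟨hsq⟩ }
  obtain ⟨⟨l⟩, huniq⟩ := (unique_iff_subsingleton_and_nonempty _).mp (hv S) |>.symm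
  refine ⟨Pt.mk l.l l.fac_right, Pt.ext l.fac_left, fun y hy => Pt.ext ?_⟩
  have := huniq
  exact congrArg CommSq.LiftStruct.l
    (Subsingleton.elim (⟨y.hom, congrArg Pt.hom hy, y.hom_comp⟩ : S.commSq.LiftStruct) l)

/-- The integral model of a point. -/
def Pt.lift (B : RatVal Ω F) (x : X.Pt F) : X.Pt B.ring := (exists_lift B x).choose

/-- The lift restricts to the point. -/
theorem Pt.map_lift (B : RatVal Ω F) (x : X.Pt F) : Pt.map (ratValIncl B) (Pt.lift B x) = x :=
  (exists_lift B x).choose_spec.1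

/-- The lift is the only extension of the point. -/
theorem Pt.lift_unique {B : RatVal Ω F} {x : X.Pt F} {y : X.Pt B.ring}
    (h : Pt.map (ratValIncl B) y = x) : Pt.lift B x = y :=
  ((exists_lift B x).choose_spec.2 y h).symm

/-- Reduction of points. -/
def Pt.reduce (B : RatVal Ω F) : X.Pt F →+ X.Pt Ω where
  toFun x := Pt.map (ratValRed B) (Pt.lift B x)
  map_zero' := by rw [Pt.lift_unique (map_zero (Pt.map (ratValIncl B))), map_zero]
  map_add' x y := by
    rw [Pt.lift_unique (x := x + y) (y := Pt.lift B x + Pt.lift B y)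
      (by rw [map_add, Pt.map_lift, Pt.map_lift]), map_add]

/-- Reduction is computed by any extension over the valuation ring. -/
theorem Pt.reduce_eq {B : RatVal Ω F} {x : X.Pt F} {y : X.Pt B.ring}
    (h : Pt.map (ratValIncl B) y = x) : Pt.reduce B x = Pt.map (ratValRed B) y := by
  show Pt.map (ratValRed B) (Pt.lift B x) = _
  rw [Pt.lift_unique h]

/-- Constant points reduce to themselves. -/
theorem Pt.reduce_map (B : RatVal Ω F) (y : X.Pt Ω) :
    Pt.reduce B (Pt.map (IsScalarTower.toAlgHom k Ω F) y) = y := by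
  let j : Ω →ₐ[k] B.ring := { (algebraMap Ω B.ring) with commutes' := fun c => rfl }
  have h1 : (ratValIncl B).comp j = IsScalarTower.toAlgHom k Ω F := AlgHom.ext fun _ => rfl
  have h2 : (ratValRed B).comp j = AlgHom.id k Ω := AlgHom.ext fun a => B.red_algebraMap a
  rw [Pt.reduce_eq (y := Pt.map j y) (by rw [Pt.map_map, h1]), Pt.map_map, h2, Pt.map_id]

variable [IsAlgClosed k]

omit [IsAlgClosed k] in
/-- A point specialises to its reduction. -/
theorem Pt.point_specializes_reduce (B : RatVal Ω F) (x : X.Pt F) :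
    x.point ⤳ (Pt.reduce B x).point := by
  conv_lhs => rw [← Pt.map_lift B x]
  refine (Pt.point_map_specializes (ratValIncl B) (Pt.lift B x)).trans (specializes_of_eq ?_)
  exact (Pt.point_map_of_isLocalHom (ratValRed B) (Pt.lift B x)).symm

/-- Functions regular at the reduction are regular at the point, with compatible values. -/
theorem Pt.hasValue_of_reduce {B : RatVal Ω F} {x : X.Pt F} {u : X.FF} {c : Ω}
    (h : (Pt.reduce B x).HasValue u c) : ∃ r, x.HasValue u r ∧ B.HasValue r c := by
  obtain ⟨hu, rfl⟩ := h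
  have hu' : u ∈ X.localRing (Pt.lift B x).point := by
    rwa [← Pt.point_map_of_isLocalHom (ratValRed B) (Pt.lift B x)]
  have h1 : (Pt.lift B x).HasValue u ((Pt.lift B x).eval ⟨u, hu'⟩) := ⟨hu', rfl⟩
  refine ⟨((Pt.lift B x).eval ⟨u, hu'⟩ : B.ring), ?_, ?_⟩
  · have := h1.map (ratValIncl B)
    rwa [Pt.map_lift] at this
  · have h2 : (Pt.reduce B x).HasValue u (ratValRed B ((Pt.lift B x).eval ⟨u, hu'⟩)) :=
      h1.map (ratValRed B)
    rw [(show (Pt.reduce B x).HasValue u _ from ⟨hu, rfl⟩).unique h2]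
    exact ⟨Subtype.coe_prop _, rfl⟩

omit [IsAlgClosed k] in
/-- The reduction is natural in maps of valued fields. -/
theorem Pt.reduce_natural {Ω' F' : Type u} [Field Ω'] [Field F'] [Algebra k Ω'] [Algebra k F']
    [Algebra Ω' F'] [IsScalarTower k Ω' F'] (B : RatVal Ω F) (B' : RatVal Ω' F')
    (i : F →ₐ[k] F') (j : Ω →ₐ[k] Ω')
    (h : ∀ r c, B.HasValue r c → B'.HasValue (i r) (j c)) (x : X.Pt F) :
    Pt.reduce B' (Pt.map i x) = Pt.map j (Pt.reduce B x) := by
  let i' : B.ring →ₐ[k] B'.ring :=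
    { ((i.toRingHom.comp B.ring.subtype).codRestrict B'.ring.toSubring
        fun r => (h _ _ B.red_eq).mem) with
      commutes' := fun c => Subtype.ext (by
        show i (ratValIncl (k := k) B (algebraMap k B.ring c)) = ratValIncl (k := k) B' (algebraMap k B'.ring c)
        rw [AlgHom.commutes, AlgHom.commutes, AlgHom.commutes]) }
  have h1 : (ratValIncl B').comp i' = i.comp (ratValIncl B) := AlgHom.ext fun _ => rfl
  have h2 : (ratValRed B').comp i' = j.comp (ratValRed B) := AlgHom.ext fun r => by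
    obtain ⟨_, hc⟩ := h _ _ (B.red_eq (x := r))
    exact hc
  rw [Pt.reduce_eq (y := Pt.map i' (Pt.lift B x))
    (by rw [Pt.map_map, h1, ← Pt.map_map, Pt.map_lift]), Pt.map_map, h2, ← Pt.map_map]
  rfl

omit [IsAlgClosed k] in
/-- A homomorphism on sections of an affine chart is a point. -/
theorem exists_point_of_sections {R : Type u} [CommRing R] [Algebra k R] [IsLocalRing R]
    {L : Type u} [Field L] [Algebra k L] (i : R →ₐ[k] L) {V : X.carrier.Opens}
    (hV : IsAffineOpen V) (x : X.Pt L) (hx : x.point ∈ V) (φ : Γ(X.carrier, V) →ₐ[k] R)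
    (hφ : ∀ s, i (φ s) = x.stalkEval (X.germAlg V x.point hx s)) :
    ∃ y : X.Pt R, Pt.map i y = x ∧ y.point ∈ V := by
  let m : Spec (CommRingCat.of R) ⟶ X.carrier :=
    Spec.map (CommRingCat.ofHom φ.toRingHom) ≫ hV.fromSpec
  have hm : m ≫ X.toBase = specStr k R := by
    have h1 : hV.fromSpec ≫ X.toBase = Spec.map (CommRingCat.ofHom (X.sectionHom V)) := by
      rw [← IsAffineOpen.SpecMap_appLE_fromSpec X.toBase (isAffineOpen_top _) hV le_top,
        IsAffineOpen.fromSpec_top, Scheme.isoSpec_Spec_inv, ← Spec.map_comp]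
      rfl
    rw [Category.assoc, h1, ← Spec.map_comp, ← CommRingCat.ofHom_comp]
    exact congrArg (fun χ => Spec.map (CommRingCat.ofHom χ)) φ.comp_algebraMap
  refine ⟨Pt.mk m hm, Pt.ext ?_, ?_⟩
  · rw [Pt.hom_map, Pt.hom_mk, ← Category.assoc, ← Spec.map_comp]
    conv_rhs => rw [← x.hom_eq, ← hV.fromSpecStalk_eq_fromSpecStalk hx]
    show _ = Spec.map _ ≫ (Spec.map _ ≫ hV.fromSpec)
    rw [← Category.assoc, ← Spec.map_comp]
    congr 2
    ext s
    exact hφ s
  · show m (IsLocalRing.closedPoint R) ∈ (V : Set X.carrier)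
    rw [← hV.range_fromSpec]
    exact ⟨_, rfl⟩

end AbVar

end Fermat.Agent.AVTorsion
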