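import Fermat.Agent.AVTorsion.GenericPoints
import Fermat.Agent.AVTorsion.JoinFields
import Fermat.Agent.AVTorsion.Reduce
import Fermat.Agent.ConstReduction.Gauss

/-!
# Generic translates keep functions independent

If `f_j` are algebraically independent functions and `a_j`, `η` independent generic points then
the values `f_j(η + a_j)` are algebraically independent over the field generated by the `a_j`.
The proof specialises all `a_j` to the origin.
-/

set_option autoImplicit false

universe u

noncomputable section

open CategoryTheory AlgebraicGeometry IntermediateField Fermat.Agent.ConstReduction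

namespace Fermat.Agent.AVTorsion.AbVar

variable {k : Type u} [Field k] [IsAlgClosed k] (X : AbVar k)
variable (U : Type u) [Field U] [Algebra k U]

/-- Independent generic points: the coordinates `η` and `a j`. -/
structure Copies where
  /-- the generic point -/
  eη : X.FF →ₐ[k] U
  /-- the translations -/
  ea : Fin X.dim → (X.FF →ₐ[k] U)
  indep : IndepFamily (fun o : Option (Fin X.dim) =>
    o.elim eη.fieldRange fun j => (ea j).fieldRange)

variable {X U}

namespace Copies

variable (c : Copies X U)

/-- The field generated by all translations. -/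
def A : IntermediateField k U := ⨆ j, (c.ea j).fieldRange

/-- The field generated by the other translations. -/
def others (i : Fin X.dim) : IntermediateField k U := ⨆ j ∈ {j | j ≠ i}, (c.ea j).fieldRange

/-- The translations are independent of the generic point. -/
theorem A_disjoint : c.A.LinearDisjoint c.eη.fieldRange := by
  refine (c.indep none).of_le_left (iSup_le fun j => ?_)
  exact le_iSup₂_of_le (some j) (Option.some_ne_none j) le_rfl

/-- Each translation is independent of the others and the generic point. -/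
theorem others_disjoint (i : Fin X.dim) :
    (c.others i ⊔ c.eη.fieldRange).LinearDisjoint (c.ea i).fieldRange := by
  refine (c.indep (some i)).of_le_left (sup_le (iSup₂_le fun j hj => ?_) ?_)
  · exact le_iSup₂_of_le (some j) (fun h => hj (Option.some_injective _ h)) le_rfl
  · exact le_iSup₂_of_le none (Option.some_ne_none i).symm le_rfl

/-- The field of the generic point is among the other coordinates. -/
theorem eη_le_others (i : Fin X.dim) : c.eη.fieldRange ≤ c.others i ⊔ c.eη.fieldRange :=
  le_sup_right

/-- The other translations and one translation generate all of them. -/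
theorem others_sup (i : Fin X.dim) : c.others i ⊔ (c.ea i).fieldRange = c.A := by
  refine le_antisymm (sup_le (iSup₂_le fun j _ => le_iSup (fun j => (c.ea j).fieldRange) j)
    (le_iSup (fun j => (c.ea j).fieldRange) i)) (iSup_le fun j => ?_)
  by_cases h : j = i
  · exact h ▸ le_sup_right
  · exact le_sup_of_le_left (le_iSup₂_of_le j h le_rfl)

/-- The generic point as a point. -/
def pη : X.Pt U := Pt.map c.eη X.η

/-- The translations as points. -/
def pa (j : Fin X.dim) : X.Pt U := Pt.map (c.ea j) X.η

/-- The point `m η + a_j`. -/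
def moved (m : ℕ) (j : Fin X.dim) : X.Pt U := m • c.pη + c.pa j

theorem independent_ea {y : Fin X.dim → X.FF} (hy : AlgebraicIndependent k y) (j : Fin X.dim) :
    AlgebraicIndependent c.eη.fieldRange (c.ea j ∘ y) :=
  algebraicIndependent_of_linearDisjoint
    ((c.others_disjoint j).of_le_left (c.eη_le_others j))
    (fun i => ⟨y i, rfl⟩) (hy.map' (c.ea j).injective)

/-- `m η + a_j` lies over the generic point. -/
theorem point_moved (m : ℕ) (j : Fin X.dim) : (c.moved m j).point = X.gp := by
  obtain ⟨y, hy⟩ := X.exists_transcendenceBasis_FF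
  refine point_eq_gp_of_defOver (c.moved m j) c.eη.fieldRange (c.ea j)
    (c.independent_ea hy.1 j) ?_
  have h : c.pa j = c.moved m j - m • c.pη := by rw [moved, add_sub_cancel_left]
  show Pt.DefOver _ (c.pa j)
  rw [h]
  exact ((defOver_adjoin_values _).mono le_sup_right).sub
    (((defOver_fieldRange c.eη).nsmul m).mono le_sup_left)

/-- Evaluation at `m η + a_j`. -/
def ev (m : ℕ) (j : Fin X.dim) : X.FF →ₐ[k] U := (c.moved m j).evalGen (c.point_moved m j)

/-- The point of `ev m j` is `m η + a_j`. -/
theorem map_ev (m : ℕ) (j : Fin X.dim) : Pt.map (c.ev m j) X.η = m • c.pη + c.pa j :=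
  map_evalGen_η _ _

/-- The values at `m η + a_j` lie in the field of `η` and `a_j`. -/
theorem ev_mem (m : ℕ) (j : Fin X.dim) :
    (c.ev m j).fieldRange ≤ c.eη.fieldRange ⊔ (c.ea j).fieldRange :=
  fieldRange_le_of_defOver (c.map_ev m j ▸
    (((defOver_fieldRange c.eη).nsmul m).mono le_sup_left).add
      ((defOver_fieldRange (c.ea j)).mono le_sup_right))

/-- A specialisation of the translations to the origin, on their local rings. -/
theorem exists_hom_origin (J : Finset (Fin X.dim)) :
    ∃ (R : Subalgebra k U) (π : R →ₐ[k] k),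
      R ≤ (⨆ j ∈ J, (c.ea j).fieldRange).toSubalgebra ∧
      ∀ j ∈ J, ∀ u : X.localRing (0 : X.Pt k).point,
        ∃ h : c.ea j u ∈ R, π ⟨_, h⟩ = (0 : X.Pt k).eval u := by
  classical
  induction J using Finset.induction_on with
  | empty =>
    exact ⟨⊥, (Algebra.botEquiv k U).toAlgHom, bot_le,
      fun j hj => absurd hj (Finset.notMem_empty j)⟩
  | @insert i J hi ih =>
    obtain ⟨R, π, hR, hπ⟩ := ih
    let g : X.localRing (0 : X.Pt k).point →ₐ[k] U := (c.ea i).comp (Subalgebra.val _)
    have hg : Function.Injective g := (c.ea i).injective.comp Subtype.val_injective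
    let e := AlgEquiv.ofInjective g hg
    have hle : (⨆ j ∈ J, (c.ea j).fieldRange) ≤ c.others i := by
      refine iSup₂_le fun j hj => ?_
      have hji : j ∈ {j | j ≠ i} := by
        intro h
        exact hi (h ▸ hj)
      exact le_iSup₂ (f := fun j (_ : j ∈ {j | j ≠ i}) => (c.ea j).fieldRange) j hji
    have hdis : (⨆ j ∈ J, (c.ea j).fieldRange).LinearDisjoint (c.ea i).fieldRange :=
      (c.others_disjoint i).of_le_left (hle.trans le_sup_left)
    have hS : g.range ≤ (c.ea i).fieldRange.toSubalgebra := by
      rintro _ ⟨u, rfl⟩; exact ⟨(u : X.FF), rfl⟩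
    obtain ⟨π', h1, h2⟩ := exists_hom_sup hdis hR hS π ((0 : X.Pt k).eval.comp e.symm.toAlgHom)
    refine ⟨R ⊔ g.range, π', ?_, fun j hj u => ?_⟩
    · refine sup_le (fun x hx => ?_) (fun x hx => ?_)
      · exact (iSup₂_le fun j hj => le_iSup₂_of_le j (Finset.mem_insert_of_mem hj) le_rfl :
          (⨆ j ∈ J, (c.ea j).fieldRange) ≤ ⨆ j ∈ insert i J, (c.ea j).fieldRange) (hR hx)
      · exact (le_iSup₂_of_le i (Finset.mem_insert_self i J) le_rfl :
          (c.ea i).fieldRange ≤ ⨆ j ∈ insert i J, (c.ea j).fieldRange) (hS hx)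
    · rcases Finset.mem_insert.1 hj with rfl | hj
      · refine ⟨(le_sup_right : g.range ≤ R ⊔ g.range) ⟨u, rfl⟩, ?_⟩
        refine (h2 ⟨g u, u, rfl⟩ _).trans ?_
        show (0 : X.Pt k).eval (e.symm (e u)) = _
        rw [AlgEquiv.symm_apply_apply]
      · obtain ⟨h, hh⟩ := hπ j hj u
        exact ⟨(le_sup_left : R ≤ R ⊔ g.range) h, (h1 ⟨_, h⟩ _).trans hh⟩

variable [IsAlgClosed U]

/-- A valuation of `U` over the algebraic closure `M` of the field of the generic point, restricting
to a `k`-valued one on the algebraic closure of the field of translations, at which all translations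
specialise to the origin. -/
theorem exists_specialisation :
    ∃ (B₁ : RatVal k (algClos c.A)) (B : RatVal (algClos c.eη.fieldRange) U),
      (∀ z : B₁.ring, B.HasValue ((algClos c.A).val z)
        (algebraMap k (algClos c.eη.fieldRange) (B₁.red z))) ∧
      ∀ j, Pt.reduce B (c.pa j) = 0 := by
  classical
  let M := algClos c.eη.fieldRange
  let As := algClos c.A
  have hdis : As.LinearDisjoint M := linearDisjoint_algClos c.A_disjoint
  -- first stage: specialise the translations over `k`
  obtain ⟨R, π, hR, hπ⟩ := c.exists_hom_origin Finset.univ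
  have hRA : R ≤ As.toSubalgebra := fun x hx => le_algClos c.A
    ((iSup₂_le fun j _ => le_iSup (fun j => (c.ea j).fieldRange) j :
      (⨆ j ∈ Finset.univ, (c.ea j).fieldRange) ≤ c.A) (hR hx))
  let R' : Subalgebra k As := R.comap As.val
  let π' : R' →ₐ[k] k := π.comp ((As.val.comp R'.val).codRestrict R fun z => z.2)
  obtain ⟨B₁, hB₁⟩ := exists_ratVal R' π'
  -- second stage: extend over the algebraic closure of the field of the generic point
  let i₁ : B₁.ring →+* U := As.val.toRingHom.comp B₁.ring.subtype
  let O₁ : Subalgebra k U :=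
    { i₁.range with
      algebraMap_mem' := fun a => ⟨⟨_, B₁.algebraMap_mem a⟩, rfl⟩ }
  have hO₁ : O₁ ≤ As.toSubalgebra := by
    rintro _ ⟨x, rfl⟩; exact (x : As).2
  have hO₁m : ∀ z : O₁, (⟨(z : U), hO₁ z.2⟩ : As) ∈ B₁.ring := by
    rintro ⟨_, x, rfl⟩; exact x.2
  let toB : O₁ →+* B₁.ring :=
    { toFun := fun z => ⟨⟨(z : U), hO₁ z.2⟩, hO₁m z⟩
      map_one' := rfl
      map_mul' := fun _ _ => rfl
      map_zero' := rfl
      map_add' := fun _ _ => rfl }
  let π₁ : O₁ →ₐ[k] M :=
    { (algebraMap k M).comp (B₁.red.comp toB) with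
      commutes' := fun a => congrArg (algebraMap k M) (B₁.red_algebraMap a) }
  obtain ⟨π₂, h1, h2⟩ := exists_hom_sup hdis hO₁ (le_refl M.toSubalgebra) π₁ (AlgHom.id k M)
  let R₂ : Subalgebra M U :=
    { (O₁ ⊔ M.toSubalgebra).toSubsemiring with
      algebraMap_mem' := fun a => (le_sup_right : M.toSubalgebra ≤ O₁ ⊔ M.toSubalgebra) a.2 }
  let π₂' : R₂ →ₐ[M] M :=
    { toFun := fun z => π₂ ⟨z.1, z.2⟩
      map_one' := map_one π₂
      map_mul' := fun x y => map_mul π₂ ⟨x.1, x.2⟩ ⟨y.1, y.2⟩
      map_zero' := map_zero π₂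
      map_add' := fun x y => map_add π₂ ⟨x.1, x.2⟩ ⟨y.1, y.2⟩
      commutes' := fun a => h2 a ((le_sup_right : M.toSubalgebra ≤ O₁ ⊔ M.toSubalgebra) a.2) }
  obtain ⟨B, hB⟩ := exists_ratVal R₂ π₂'
  have hBO : ∀ z : B₁.ring, B.HasValue (As.val z) (algebraMap k M (B₁.red z)) := by
    intro z
    have hz : As.val z ∈ O₁ := ⟨z, rfl⟩
    have := hB ⟨As.val z, (le_sup_left : O₁ ≤ O₁ ⊔ M.toSubalgebra) hz⟩
    convert this using 1
    exact (h1 ⟨_, hz⟩ _).symm
  -- the translations reduce to the origin
  refine ⟨B₁, B, hBO, fun j => ?_⟩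
  let p₀ := (0 : X.Pt k).point
  have hval : ∀ u : X.localRing p₀,
      B.HasValue (c.ea j u) (algebraMap k M ((0 : X.Pt k).eval u)) := by
    intro u
    obtain ⟨hu, hu'⟩ := hπ j (Finset.mem_univ j) u
    obtain ⟨hm, hr⟩ := hB₁ ⟨⟨c.ea j u, hRA hu⟩, hu⟩
    have := hBO ⟨_, hm⟩
    rw [hr] at this
    rw [← hu']
    exact this
  let q : X.localRing p₀ →ₐ[k] B.ring :=
    { ((c.ea j).comp (Subalgebra.val _)).toRingHom.codRestrict B.ring.toSubring
        (fun u => (hval u).mem) with
      commutes' := fun a => Subtype.ext ((c.ea j).commutes a) }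
  have hq : Pt.map (ratValIncl B) (Pt.map q (X.taut p₀)) = c.pa j := by
    rw [Pt.map_map, show (ratValIncl B).comp q = (c.ea j).comp (X.localRing p₀).val from
      AlgHom.ext fun _ => rfl, ← Pt.map_map, map_val_taut]
    rfl
  rw [Pt.reduce_eq hq, Pt.map_map]
  have hq' : (ratValRed B).comp q = (Algebra.ofId k M).comp (0 : X.Pt k).eval :=
    AlgHom.ext fun u => (hval u).choose_spec
  rw [hq', ← Pt.map_map, Pt.map_eval_taut, map_zero]

omit [IsAlgClosed U] in
/-- Where all translations specialise to the origin, the values at the translates of the generic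
point specialise to the values at the generic point. -/
theorem hasValue_ev_of_reduce {M : IntermediateField k U} [IsAlgClosed M]
    (hM : c.eη.fieldRange ≤ M) {B : RatVal M U} (hred : ∀ j, Pt.reduce B (c.pa j) = 0)
    (j : Fin X.dim) (v : X.FF) :
    B.HasValue (c.ev 1 j v) (c.eη.codRestrict M.toSubalgebra (fun u => hM ⟨u, rfl⟩) v) := by
  let eM : X.FF →ₐ[k] M := c.eη.codRestrict M.toSubalgebra fun u => hM ⟨u, rfl⟩
  have hη : Pt.map (IsScalarTower.toAlgHom k M U) (Pt.map eM X.η) = c.pη := by
    rw [Pt.map_map]
    rfl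
  have hr : Pt.reduce B (c.moved 1 j) = Pt.map eM X.η := by
    rw [moved, one_smul, map_add, hred, add_zero, ← hη, Pt.reduce_map]
  have hv : (Pt.reduce B (c.moved 1 j)).HasValue v (eM v) := by
    have hp : (Pt.map eM X.η).point = X.gp := point_map_η eM
    have he : (Pt.map eM X.η).evalGen hp = eM := map_η_injective (map_evalGen_η _ hp)
    have := Pt.hasValue_evalGen _ hp v
    rw [he] at this
    rwa [hr]
  obtain ⟨r, hr1, hr2⟩ := Pt.hasValue_of_reduce hv
  show B.HasValue ((c.moved 1 j).evalGen (c.point_moved 1 j) v) _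
  rwa [(Pt.hasValue_evalGen (c.moved 1 j) (c.point_moved 1 j) v).unique hr1]

omit [IsAlgClosed k] [IsAlgClosed U] in
/-- Elements whose values are independent over `k` are independent over a field on which the
valuation has values in `k`: a relation, normalised to unit content, would reduce to a relation. -/
theorem algebraicIndependent_of_specialisation {ι : Type*} [Fintype ι] {A M : IntermediateField k U}
    {B₁ : RatVal k (algClos A)} {B : RatVal M U}
    (hBO : ∀ z : B₁.ring, B.HasValue ((algClos A).val z) (algebraMap k M (B₁.red z)))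
    {v : ι → U} {w : ι → M} (hvw : ∀ j, B.HasValue (v j) (w j))
    (hw : AlgebraicIndependent k w) : AlgebraicIndependent A v := by
  classical
  let As := algClos A
  -- a relation would reduce to a relation between the functions
  rw [algebraicIndependent_iff]
  intro P hP
  by_contra hP0
  obtain ⟨d, hd⟩ := MvPolynomial.ne_zero_iff.1 hP0
  let a : (ι →₀ ℕ) → As := fun e =>
    ⟨((P.coeff e : A) : U), le_algClos A (P.coeff e : A).2⟩
  obtain ⟨d₀, hd₀, ha₀, hmax⟩ := exists_max_ne_zero B₁ P.support a
    (MvPolynomial.mem_support_iff.2 hd)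
    (fun h => hd (Subtype.ext (congrArg (fun z : As => (z : U)) h)))
  let b : P.support → B₁.ring := fun e => ⟨a e / a d₀, hmax e e.2⟩
  have hmon : ∀ e : P.support, B.HasValue
      (As.val (b e) * ∏ j, v j ^ (e : ι →₀ ℕ) j)
      (algebraMap k M (B₁.red (b e)) * ∏ j, w j ^ (e : ι →₀ ℕ) j) := by
    intro e
    refine (hBO (b e)).mul ?_
    have : ∀ s : Finset (ι), B.HasValue (∏ j ∈ s, v j ^ (e : ι →₀ ℕ) j)
        (∏ j ∈ s, w j ^ (e : ι →₀ ℕ) j) := by
      intro s
      induction s using Finset.induction_on with
      | empty => simpa using B.hasValue_one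
      | @insert j s hj ih =>
        rw [Finset.prod_insert hj, Finset.prod_insert hj]
        exact ((hvw j).pow _).mul ih
    exact this Finset.univ
  have hsum : ∑ e : P.support,
      As.val (b e) * ∏ j, v j ^ (e : ι →₀ ℕ) j = 0 := by
    rw [MvPolynomial.aeval_def, MvPolynomial.eval₂_eq'] at hP
    have h0 := congrArg (fun z : U => ((a d₀)⁻¹ : As) * z) hP
    simp only [mul_zero, Finset.mul_sum] at h0
    rw [← Finset.sum_coe_sort] at h0
    rw [← h0]
    refine Finset.sum_congr rfl fun e _ => ?_
    rw [← mul_assoc]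
    refine congrArg (· * _) ?_
    show ((a e / a d₀ : As) : U) = _
    rw [div_eq_inv_mul, IntermediateField.coe_mul]
    rfl
  have h0 : ∑ e : P.support,
      algebraMap k M (B₁.red (b e)) * ∏ j, w j ^ (e : ι →₀ ℕ) j = 0 :=
    (RatVal.HasValue.sum Finset.univ fun e _ => hmon e).unique (hsum ▸ B.hasValue_zero)
  let Q : MvPolynomial ι k :=
    ∑ e : P.support, MvPolynomial.monomial (e : ι →₀ ℕ) (B₁.red (b e))
  have hQ : Q = 0 := by
    refine (algebraicIndependent_iff.1 hw) Q ?_
    rw [map_sum, ← h0]
    refine Finset.sum_congr rfl fun e _ => ?_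
    rw [MvPolynomial.aeval_monomial, Finsupp.prod_fintype _ _ (fun j => pow_zero _)]
  have hone : Q.coeff d₀ = 1 := by
    rw [MvPolynomial.coeff_sum, Finset.sum_eq_single ⟨d₀, hd₀⟩]
    · rw [MvPolynomial.coeff_monomial, if_pos rfl,
        show b ⟨d₀, hd₀⟩ = 1 from Subtype.ext (div_self ha₀), map_one]
    · intro e _ hne
      rw [MvPolynomial.coeff_monomial, if_neg fun h => hne (Subtype.ext h)]
    · exact fun h => absurd (Finset.mem_univ _) h
  rw [hQ, MvPolynomial.coeff_zero] at hone
  exact zero_ne_one hone

/-- Independence of the translated functions over the field of translations. -/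
theorem algebraicIndependent_values {f : Fin X.dim → X.FF} (hf : AlgebraicIndependent k f) :
    AlgebraicIndependent c.A (fun j => c.ev 1 j (f j)) := by
  obtain ⟨B₁, B, hBO, hred⟩ := c.exists_specialisation
  exact algebraicIndependent_of_specialisation hBO
    (fun j => c.hasValue_ev_of_reduce (le_algClos _) hred j (f j))
    (hf.map' (c.eη.codRestrict (algClos c.eη.fieldRange).toSubalgebra
      fun u => le_algClos _ ⟨u, rfl⟩).injective)

end Copies

/-- Independent generic points exist. -/
theorem exists_copies (X : AbVar k) :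
    ∃ (U : Type u) (_ : Field U) (_ : Algebra k U) (_ : IsAlgClosed U), Nonempty (Copies X U) := by
  obtain ⟨U, _, _, _, ψ, hψ⟩ := exists_indepFamily_copies k X.FF (X.dim + 1)
  let s : Option (Fin X.dim) ≃ Fin (X.dim + 1) := (finSuccEquiv X.dim).symm
  have hfam : IndepFamily (fun o => (ψ (s o)).fieldRange) := fun o => by
    refine (hψ (s o)).of_le_left (iSup₂_le fun o' ho' => ?_)
    exact le_iSup₂_of_le (s o') (fun h => ho' (s.injective h)) le_rfl
  refine ⟨U, inferInstance, inferInstance, inferInstance,
    ⟨⟨ψ (s none), fun j => ψ (s (some j)), ?_⟩⟩⟩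
  rw [show (fun o : Option (Fin X.dim) =>
    o.elim (ψ (s none)).fieldRange fun j => (ψ (s (some j))).fieldRange) =
      fun o => (ψ (s o)).fieldRange from funext fun o => by cases o <;> rfl]
  exact hfam

end Fermat.Agent.AVTorsion.AbVar
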