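import Mathlib.Algebra.MvPolynomial.Funext
import Mathlib.RingTheory.AlgebraicIndependent.TranscendenceBasis
import Mathlib.RingTheory.MvPolynomial.Ideal
import Mathlib.RingTheory.MvPolynomial.Homogeneous
import Mathlib.RingTheory.IntegralClosure.IsIntegralClosure.Basic
import Mathlib.LinearAlgebra.FreeModule.Finite.Basic

set_option autoImplicit false

/-!
# Generic linear projections

For a hypersurface `a = 0` and a rational point of an affine domain of transcendence degree at most
`g`, finitely many linear projections give `g` coordinates, finite on the hypersurface, with a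
single point over the origin, and spanning the cotangent space.
-/

universe u

namespace Fermat.Agent.AVTorsion

open MvPolynomial

variable {k : Type u} [Field k] {S : Type u} [CommRing S] [Algebra k S]

theorem aeval_smul_of_isHomogeneous {σ : Type*} {D : Type*} [CommRing D] [Algebra k D]
    {F : MvPolynomial σ k} {d : ℕ} (hF : F.IsHomogeneous d) (c : D) (z : σ → D) :
    aeval (fun i => c * z i) F = c ^ d * aeval z F := by
  have key : ∀ e ∈ F.support, aeval (fun i => c * z i) (monomial e (F.coeff e)) =
      c ^ d * aeval z (monomial e (F.coeff e)) := by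
    intro e he
    rw [aeval_monomial, aeval_monomial]
    have hd : e.degree = d := by
      rw [Finsupp.degree_eq_weight_one]
      exact hF (mem_support_iff.mp he)
    rw [Finsupp.prod, Finsupp.prod]
    simp only [mul_pow, Finset.prod_mul_distrib, Finset.prod_pow_eq_pow_sum]
    rw [show ∑ i ∈ e.support, e i = d from hd]
    ring
  conv_lhs => rw [F.as_sum, map_sum]
  conv_rhs => rw [F.as_sum, map_sum, Finset.mul_sum]
  exact Finset.sum_congr rfl key

/-- The linear substitution in one variable: degree and leading coefficient. -/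
theorem coeff_linearSubst {σ : Type*} {R : Type*} [CommRing R] [Algebra k R]
    {F : MvPolynomial σ k} {d : ℕ} (hF : F.IsHomogeneous d) (a : σ → R) (b : σ → k) :
    let Q := aeval (fun i => Polynomial.C (a i) +
      Polynomial.C (algebraMap k R (b i)) * Polynomial.X) F
    Q.natDegree ≤ d ∧ Q.coeff d = algebraMap k R (eval b F) := by
  classical
  intro Q
  let φ : MvPolynomial σ k →ₐ[k] Polynomial R := aeval (fun i => Polynomial.C (a i) +
      Polynomial.C (algebraMap k R (b i)) * Polynomial.X)
  have key : ∀ e : σ →₀ ℕ, (φ (monomial e 1)).natDegree ≤ e.degree ∧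
      (φ (monomial e 1)).coeff e.degree = algebraMap k R (eval b (monomial e 1)) := by
    intro e
    induction e using Finsupp.induction with
    | zero => simp
    | single_add i m f hi hm ih =>
      have hmono : monomial (Finsupp.single i m + f) (1 : k) = X i ^ m * monomial f 1 := by
        rw [X_pow_eq_monomial, monomial_mul, mul_one]
      have h1 : (Polynomial.C (a i) +
          Polynomial.C (algebraMap k R (b i)) * Polynomial.X).natDegree ≤ 1 :=
        (Polynomial.natDegree_add_le _ _).trans <| max_le
          (by simp) ((Polynomial.natDegree_C_mul_le _ _).trans Polynomial.natDegree_X_le)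
      have h2 : ((Polynomial.C (a i) +
          Polynomial.C (algebraMap k R (b i)) * Polynomial.X) ^ m).natDegree ≤ m := by
        simpa using Polynomial.natDegree_pow_le_of_le m h1
      have hdeg : (Finsupp.single i m + f).degree = m + f.degree := by
        rw [map_add, Finsupp.degree_single]
      rw [hdeg, hmono, map_mul, map_pow, map_mul, map_pow, eval_X]
      simp only [φ, aeval_X] at *
      refine ⟨Polynomial.natDegree_mul_le.trans (add_le_add h2 ih.1), ?_⟩
      rw [Polynomial.coeff_mul_add_eq_of_natDegree_le h2 ih.1, ih.2]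
      have := Polynomial.coeff_pow_of_natDegree_le (m := m) h1
      rw [mul_one] at this
      rw [this, map_mul, map_pow]
      simp
  have hQ : Q = ∑ e ∈ F.support, Polynomial.C (algebraMap k R (F.coeff e)) *
      φ (monomial e 1) := by
    show φ F = _
    conv_lhs => rw [F.as_sum, map_sum]
    refine Finset.sum_congr rfl fun e _ => ?_
    rw [show monomial e (F.coeff e) = C (F.coeff e) * monomial e 1 by
      rw [C_mul_monomial, mul_one], map_mul, ← algebraMap_eq, AlgHom.commutes,
      Polynomial.algebraMap_apply]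
  have hd : ∀ e ∈ F.support, e.degree = d := fun e he => by
    rw [Finsupp.degree_eq_weight_one]; exact hF (mem_support_iff.mp he)
  constructor
  · rw [hQ]
    refine Polynomial.natDegree_sum_le_of_forall_le _ _ fun e he => ?_
    exact (Polynomial.natDegree_C_mul_le _ _).trans (hd e he ▸ (key e).1)
  · rw [hQ, Polynomial.finsetSum_coeff]
    conv_rhs => rw [F.as_sum, map_sum, map_sum]
    refine Finset.sum_congr rfl fun e he => ?_
    rw [Polynomial.coeff_C_mul, ← hd e he, (key e).2, ← map_mul]
    congr 1
    simp [eval_monomial]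

variable [IsDomain S]

/-- Homogeneous relation modulo a nonzero element among more than `g` elements. -/
theorem exists_homogeneous_relation {g : ℕ} (htr : Algebra.trdeg k S ≤ g) {a : S} (ha : a ≠ 0)
    {N : ℕ} (hN : g ≤ N) (z : Fin (N + 1) → S) :
    ∃ (d : ℕ) (F : MvPolynomial (Fin (N + 1)) k), F ≠ 0 ∧ F.IsHomogeneous d ∧ a ∣ aeval z F := by
  classical
  let w : Fin (N + 2) → Polynomial S :=
    Fin.cons (Polynomial.C a) fun i => Polynomial.X * Polynomial.C (z i)
  have hndep : ¬ AlgebraicIndependent k w := by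
    intro hw
    have h1 := hw.lift_cardinalMk_le_trdeg
    rw [← trdeg_add_eq k S, Polynomial.trdeg_of_isDomain] at h1
    simp only [Cardinal.mk_fin, Cardinal.lift_natCast, Cardinal.lift_uzero] at h1
    have h2 : ((N + 2 : ℕ) : Cardinal.{u}) ≤ (g : Cardinal.{u}) + 1 :=
      h1.trans (by gcongr)
    have h3 : (N + 2 : ℕ) ≤ g + 1 := by exact_mod_cast h2
    omega
  rw [algebraicIndependent_iff] at hndep
  push Not at hndep
  obtain ⟨G, hG, hG0⟩ := hndep
  let P := finSuccEquiv k (N + 1) G
  have hP : P ≠ 0 := by simpa [P] using hG0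
  obtain ⟨P₁, hP₁, hc⟩ := P.exists_eq_pow_rootMultiplicity_mul_and_not_dvd hP 0
  set e := P.rootMultiplicity 0
  rw [map_zero, sub_zero] at hP₁ hc
  have hG0' : P₁.coeff 0 ≠ 0 := fun h => hc (Polynomial.X_dvd_iff.mpr h)
  let zs : Fin (N + 1) → Polynomial S := fun i => Polynomial.X * Polynomial.C (z i)
  let ev : Polynomial (MvPolynomial (Fin (N + 1)) k) →ₐ[k] Polynomial S :=
    { Polynomial.eval₂RingHom (aeval zs).toRingHom (Polynomial.C a) with
      commutes' := fun r => by simp [Polynomial.algebraMap_apply] }
  have hev : ∀ H : MvPolynomial (Fin (N + 2)) k, aeval w H = ev (finSuccEquiv k (N + 1) H) := by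
    intro H
    have : aeval w = ev.comp (finSuccEquiv k (N + 1)).toAlgHom := by
      refine MvPolynomial.algHom_ext fun i => ?_
      refine Fin.cases ?_ ?_ i
      · simp [w, ev, finSuccEquiv_X_zero]
      · intro j; simp [w, ev, zs, finSuccEquiv_X_succ]
    exact AlgHom.congr_fun this H
  have hPz : ev P₁ = 0 := by
    have h1 : ev P = 0 := (hev G).symm.trans hG
    rw [hP₁, map_mul, map_pow] at h1
    have hX : ev Polynomial.X = Polynomial.C a := by simp [ev]
    rw [hX] at h1
    exact (mul_eq_zero.mp h1).resolve_left (pow_ne_zero _ (by simpa using ha))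
  let G₀ := P₁.coeff 0
  have hdiv : Polynomial.C a ∣ aeval zs G₀ := by
    obtain ⟨R', hR'⟩ : Polynomial.X ∣ P₁ - Polynomial.C G₀ := by
      rw [Polynomial.X_dvd_iff]; simp [G₀]
    refine ⟨-ev R', ?_⟩
    have hX : ev Polynomial.X = Polynomial.C a := by simp [ev]
    have h2 := congrArg ev hR'
    rw [map_sub, map_mul, hPz, hX] at h2
    have h3 : ev (Polynomial.C G₀) = aeval zs G₀ := by simp [ev]
    rw [h3] at h2
    linear_combination -h2
  obtain ⟨d, hd⟩ : ∃ d, homogeneousComponent d G₀ ≠ 0 := by
    by_contra h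
    push Not at h
    exact hG0' ((sum_homogeneousComponent G₀).symm.trans (Finset.sum_eq_zero fun i _ => h i))
  refine ⟨d, homogeneousComponent d G₀, hd, homogeneousComponent_isHomogeneous _ _, ?_⟩
  rw [Polynomial.C_dvd_iff_dvd_coeff] at hdiv
  have hc' : (aeval zs G₀).coeff d = aeval z (homogeneousComponent d G₀) := by
    conv_lhs => rw [← sum_homogeneousComponent G₀, map_sum, Polynomial.finsetSum_coeff]
    have hj : ∀ j, (aeval zs (homogeneousComponent j G₀)).coeff d =
        if d = j then aeval z (homogeneousComponent j G₀) else 0 := by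
      intro j
      rw [show zs = fun i => Polynomial.X * Polynomial.C (z i) from rfl,
        aeval_smul_of_isHomogeneous (homogeneousComponent_isHomogeneous _ _)]
      have : aeval (fun i => Polynomial.C (z i)) (homogeneousComponent j G₀) =
          Polynomial.C (aeval z (homogeneousComponent j G₀)) := by
        simp [aeval_def, eval₂_comp_left (Polynomial.C : S →+* Polynomial S),
          Function.comp_def]
        congr 1
      rw [this, ← Polynomial.monomial_one_right_eq_X_pow, Polynomial.monomial_mul_C,
        Polynomial.coeff_monomial, one_mul]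
      simp [eq_comm]
    simp only [hj, Finset.sum_ite_eq]
    split
    · rfl
    · next h =>
      rw [Finset.mem_range] at h
      rw [homogeneousComponent_eq_zero _ _ (by omega), map_zero]
  exact hc' ▸ hdiv d

/-- Coordinates adapted to the hypersurface `a = 0` and the point `x`. -/
structure GoodProj (a : S) (x : S →ₐ[k] k) {N : ℕ} (z : Fin N → S) : Prop where
  zero : ∀ i, x (z i) = 0
  span : RingHom.ker x ≤ Ideal.span (Set.range z) ⊔ RingHom.ker x ^ 2
  int : (aeval (R := k) fun i => Ideal.Quotient.mk (Ideal.span {a}) (z i)).toRingHom.IsIntegral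
  uniq : ∀ w : S →ₐ[k] k, w a = 0 → (∀ i, w (z i) = 0) → w = x

omit [IsDomain S] in
/-- Reduction of an element of the span of a family vanishing at `x`, modulo the square. -/
theorem exists_linear_mod_sq (x : S →ₐ[k] k) {n : ℕ} {y : Fin n → S} (hy : ∀ i, x (y i) = 0)
    {s : S} (hs : s ∈ Ideal.span (Set.range y) ⊔ RingHom.ker x ^ 2) :
    ∃ c : Fin n → k, s - ∑ i, algebraMap k S (c i) * y i ∈ RingHom.ker x ^ 2 := by
  obtain ⟨p, hp, q, hq, rfl⟩ := Submodule.mem_sup.mp hs
  obtain ⟨f, rfl⟩ := Ideal.mem_span_range_iff_exists_fun.mp hp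
  refine ⟨fun i => x (f i), ?_⟩
  have : ∑ i, f i * y i + q - ∑ i, algebraMap k S (x (f i)) * y i =
      (∑ i, (f i - algebraMap k S (x (f i))) * y i) + q := by
    simp only [sub_mul, Finset.sum_sub_distrib]; ring
  rw [this, pow_two]
  refine add_mem (Ideal.sum_mem _ fun i _ => Ideal.mul_mem_mul ?_ (hy i)) (by rwa [← pow_two])
  simp

omit [IsDomain S] in
/-- More than `g` elements of the kernel satisfy a linear relation modulo its square, if `g`
elements span it modulo the square. -/
theorem exists_linear_relation_mod_sq {g N : ℕ} (hN : g ≤ N) {x : S →ₐ[k] k} {y : Fin g → S}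
    (hy : ∀ i, x (y i) = 0)
    (hyspan : RingHom.ker x ≤ Ideal.span (Set.range y) ⊔ RingHom.ker x ^ 2)
    {z : Fin (N + 1) → S} (hz : ∀ i, x (z i) = 0) :
    ∃ l : Fin (N + 1) → k, l ≠ 0 ∧ ∑ i, algebraMap k S (l i) * z i ∈ RingHom.ker x ^ 2 := by
  choose c hc using fun i => exists_linear_mod_sq x hy (hyspan (show z i ∈ _ from hz i))
  have hld : ¬ LinearIndependent k c := by
    intro h
    have := h.fintype_card_le_finrank
    simp at this
    omega
  obtain ⟨l, hl, j₀, hj₀⟩ := Fintype.not_linearIndependent_iff.mp hld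
  refine ⟨l, fun h => hj₀ (congr_fun h j₀), ?_⟩
  have : ∑ i, algebraMap k S (l i) * z i =
      ∑ i, algebraMap k S (l i) * (z i - ∑ m, algebraMap k S (c i m) * y m) := by
    simp only [mul_sub, Finset.sum_sub_distrib, Finset.mul_sum, ← mul_assoc, ← map_mul]
    rw [Finset.sum_comm (γ := Fin (N + 1))]
    simp only [← Finset.sum_mul, ← map_sum]
    have h0 : ∀ m, ∑ i, l i * c i m = 0 := fun m => by simpa using congr_fun hl m
    simp [h0]
  rw [this]
  exact Ideal.sum_mem _ fun i _ => Ideal.mul_mem_left _ _ (hc i)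

/-- A direction off a hypersurface and a hyperplane, normalised at one coordinate. -/
theorem exists_direction [Infinite k] {N d : ℕ} {F : MvPolynomial (Fin (N + 1)) k}
    (hF : F.IsHomogeneous d) (hF0 : F ≠ 0) {l : Fin (N + 1) → k} (hl : l ≠ 0) :
    ∃ (j : Fin (N + 1)) (r : Fin (N + 1) → k),
      r j = 1 ∧ eval r F ≠ 0 ∧ ∑ i, l i * r i ≠ 0 := by
  classical
  let L : MvPolynomial (Fin (N + 1)) k := ∑ i, C (l i) * X i
  have hL : L ≠ 0 := by
    intro h
    refine hl (funext fun j₀ => ?_)
    have := congrArg (eval (Pi.single j₀ (1 : k))) h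
    simpa [L, Pi.single_apply] using this
  obtain ⟨v, hv⟩ : ∃ v, eval v (F * L) ≠ 0 := by
    by_contra h
    push Not at h
    exact mul_ne_zero hF0 hL (MvPolynomial.funext fun v => by simpa using h v)
  rw [map_mul, mul_ne_zero_iff] at hv
  obtain ⟨hFv, hLv⟩ := hv
  obtain ⟨j, hj⟩ : ∃ j, v j ≠ 0 := by
    by_contra h
    push Not at h
    exact hLv (by simp [L, h])
  refine ⟨j, fun i => v i / v j, div_self hj, fun h0 => hFv ?_, fun h0 => hLv ?_⟩
  · have h := aeval_smul_of_isHomogeneous (D := k) hF (v j) fun i => v i / v j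
    have hv' : (fun i => v j * (v i / v j)) = v := funext fun i => mul_div_cancel₀ _ hj
    rw [hv', aeval_eq_eval, aeval_eq_eval] at h
    rw [h, h0, mul_zero]
  · have : ∑ i, l i * v i = v j * ∑ i, l i * (v i / v j) := by
      rw [Finset.mul_sum]; exact Finset.sum_congr rfl fun i _ => by field_simp
    simpa [L, this] using Or.inr h0

omit [IsDomain S] in
/-- Projecting along a direction off a linear relation modulo the square keeps the spanning
property. -/
theorem ker_le_span_project {N : ℕ} {x : S →ₐ[k] k} {z : Fin (N + 1) → S}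
    (hz : RingHom.ker x ≤ Ideal.span (Set.range z) ⊔ RingHom.ker x ^ 2) {j : Fin (N + 1)}
    {r : Fin (N + 1) → k} (hrj : r j = 1) {l : Fin (N + 1) → k} (hlr : ∑ i, l i * r i ≠ 0)
    (hlz : ∑ i, algebraMap k S (l i) * z i ∈ RingHom.ker x ^ 2) :
    RingHom.ker x ≤ Ideal.span (Set.range fun i =>
      z (j.succAbove i) - algebraMap k S (r (j.succAbove i)) * z j) ⊔ RingHom.ker x ^ 2 := by
  let w : Fin (N + 1) → S := fun i => z i - algebraMap k S (r i) * z j
  set J := Ideal.span (Set.range fun i => w (j.succAbove i)) ⊔ RingHom.ker x ^ 2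
  have hw : ∀ i, w i ∈ J := fun i => by
    rcases Fin.eq_self_or_eq_succAbove j i with rfl | ⟨i, rfl⟩
    · simp [w, hrj]
    · exact Submodule.mem_sup_left (Ideal.subset_span ⟨i, rfl⟩)
  have hzj : z j ∈ J := by
    have h1 : algebraMap k S (∑ i, l i * r i) * z j ∈ J := by
      have : algebraMap k S (∑ i, l i * r i) * z j =
          (∑ i, algebraMap k S (l i) * z i) - ∑ i, algebraMap k S (l i) * w i := by
        rw [map_sum, Finset.sum_mul, ← Finset.sum_sub_distrib]
        exact Finset.sum_congr rfl fun i _ => by simp [w, map_mul]; ring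
      rw [this]
      exact sub_mem (Submodule.mem_sup_right hlz)
        (Ideal.sum_mem _ fun i _ => Ideal.mul_mem_left _ _ (hw i))
    exact (Ideal.unit_mul_mem_iff_mem _ ((IsUnit.mk0 _ hlr).map _)).mp h1
  refine hz.trans (sup_le ?_ le_sup_right)
  rw [Ideal.span_le]
  rintro _ ⟨i, rfl⟩
  have : z i = w i + algebraMap k S (r i) * z j := by simp [w]
  rw [this]
  exact add_mem (hw i) (Ideal.mul_mem_left _ _ hzj)

omit [IsDomain S] in
/-- Projecting along a direction off a homogeneous relation modulo `a` keeps integrality modulo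
`a`: the relation becomes an equation with unit leading coefficient for the dropped coordinate. -/
theorem isIntegral_project {N d : ℕ} {a : S} {z : Fin (N + 1) → S}
    (hz : (aeval (R := k) fun i =>
      Ideal.Quotient.mk (Ideal.span {a}) (z i)).toRingHom.IsIntegral)
    {F : MvPolynomial (Fin (N + 1)) k} (hF : F.IsHomogeneous d) (hdiv : a ∣ aeval z F)
    {j : Fin (N + 1)} {r : Fin (N + 1) → k} (hrj : r j = 1) (hFr : eval r F ≠ 0) :
    (aeval (R := k) fun i => Ideal.Quotient.mk (Ideal.span {a})
      (z (j.succAbove i) - algebraMap k S (r (j.succAbove i)) * z j)).toRingHom.IsIntegral := by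
  let π := Ideal.Quotient.mk (Ideal.span {a})
  let w : Fin (N + 1) → S := fun i => z i - algebraMap k S (r i) * z j
  let f' : MvPolynomial (Fin N) k →ₐ[k] S ⧸ Ideal.span {a} :=
    aeval fun i => π (w (j.succAbove i))
  algebraize [f'.toRingHom]
  have : IsScalarTower k (MvPolynomial (Fin N) k) (S ⧸ Ideal.span {a}) :=
    .of_algHom f'
  let a' : Fin (N + 1) → MvPolynomial (Fin N) k := Fin.insertNth j 0 X
  have hwa : ∀ i, π (w i) = f' (a' i) := fun i => by
    rcases Fin.eq_self_or_eq_succAbove j i with rfl | ⟨i, rfl⟩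
    · simp [a', w, hrj, π]
    · simp [a', f']
  obtain ⟨hdeg, hcoeff⟩ := coeff_linearSubst hF a' r
  set Q := aeval (fun i => Polynomial.C (a' i) +
    Polynomial.C (algebraMap k (MvPolynomial (Fin N) k) (r i)) * Polynomial.X) F
  have hu : IsUnit (algebraMap k (MvPolynomial (Fin N) k) (eval r F)) :=
    (IsUnit.mk0 _ hFr).map _
  have hQd : Q.natDegree = d :=
    le_antisymm hdeg (Polynomial.le_natDegree_of_ne_zero (hcoeff ▸ hu.ne_zero))
  have hQroot : Q.eval₂ f'.toRingHom (π (z j)) = 0 := by
    let e : Polynomial (MvPolynomial (Fin N) k) →ₐ[k] S ⧸ Ideal.span {a} :=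
      (Polynomial.aeval (π (z j))).restrictScalars k
    have : e Q = 0 := by
      show e (aeval _ F) = 0
      rw [comp_aeval_apply]
      have hfun : (fun i => e (Polynomial.C (a' i) +
          Polynomial.C (algebraMap k (MvPolynomial (Fin N) k) (r i)) * Polynomial.X)) =
          fun i => π (z i) := funext fun i => by
        have : z i = w i + algebraMap k S (r i) * z j := by simp [w]
        rw [this, RingHom.map_add π, RingHom.map_mul π, hwa i]
        simp only [e, AlgHom.restrictScalars_apply, map_add, map_mul, Polynomial.aeval_C,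
          Polynomial.aeval_X]
        congr 2
        rw [← IsScalarTower.algebraMap_apply]
        rfl
      rw [hfun]
      obtain ⟨q, hq⟩ := hdiv
      have h1 : π (aeval z F) = 0 := by
        rw [hq]; exact Ideal.Quotient.eq_zero_iff_mem.mpr
          (Ideal.mul_mem_right _ _ (Ideal.mem_span_singleton_self a))
      rw [← h1]
      exact (MvPolynomial.comp_aeval_apply _ (Ideal.Quotient.mkₐ k (Ideal.span {a})) F).symm
    exact this
  have hint : IsIntegral (MvPolynomial (Fin N) k) (π (z j)) := by
    obtain ⟨u, hu'⟩ := hu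
    refine ⟨Polynomial.C (↑u⁻¹ : MvPolynomial (Fin N) k) * Q, ?_, ?_⟩
    · refine Polynomial.monic_C_mul_of_mul_leadingCoeff_eq_one ?_
      rw [Polynomial.leadingCoeff, hQd, hcoeff, ← hu', Units.inv_mul]
    · rw [Polynomial.eval₂_mul]
      change _ * Q.eval₂ f'.toRingHom (π (z j)) = 0
      rw [hQroot, mul_zero]
  let B := integralClosure (MvPolynomial (Fin N) k) (S ⧸ Ideal.span {a})
  have hB : ∀ m : MvPolynomial (Fin (N + 1)) k, aeval (fun i => π (z i)) m ∈ B := by
    intro m
    induction m using MvPolynomial.induction_on with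
    | C b =>
      rw [aeval_C, IsScalarTower.algebraMap_apply k (MvPolynomial (Fin N) k)]
      exact isIntegral_algebraMap
    | add p q hp hq => rw [map_add]; exact add_mem hp hq
    | mul_X p i hp =>
      rw [map_mul, aeval_X]
      refine mul_mem hp ?_
      have : z i = w i + algebraMap k S (r i) * z j := by simp [w]
      rw [this, map_add, map_mul, hwa i]
      refine add_mem isIntegral_algebraMap (mul_mem ?_ hint)
      rw [show π (algebraMap k S (r i)) = algebraMap k (S ⧸ Ideal.span {a}) (r i) from rfl,
        IsScalarTower.algebraMap_apply k (MvPolynomial (Fin N) k)]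
      exact isIntegral_algebraMap
  intro b
  obtain ⟨p, hp, hpb⟩ := hz b
  let h : MvPolynomial (Fin (N + 1)) k →+* B :=
    (aeval (R := k) fun i => π (z i)).toRingHom.codRestrict B.toSubring hB
  have : IsIntegral B b :=
    ⟨p.map h, hp.map h, by rw [Polynomial.eval₂_map]; exact hpb⟩
  exact isIntegral_trans b this

/-- One step of the projection: more than `g` adapted coordinates can be reduced by one. -/
theorem GoodProj.step [Infinite k] {g : ℕ} (htr : Algebra.trdeg k S ≤ g) {a : S} (ha : a ≠ 0)
    {x : S →ₐ[k] k} (hxa : x a = 0) {y : Fin g → S} (hy : ∀ i, x (y i) = 0)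
    (hyspan : RingHom.ker x ≤ Ideal.span (Set.range y) ⊔ RingHom.ker x ^ 2)
    {N : ℕ} (hN : g ≤ N) {z : Fin (N + 1) → S} (hz : GoodProj a x z) :
    ∃ z' : Fin N → S, GoodProj a x z' := by
  classical
  obtain ⟨d, F, hF0, hF, hdiv⟩ := exists_homogeneous_relation htr ha hN z
  obtain ⟨l, hl, hlz⟩ := exists_linear_relation_mod_sq hN hy hyspan hz.zero
  obtain ⟨j, r, hrj, hFr, hlr⟩ := exists_direction hF hF0 hl
  have hd : d ≠ 0 := by
    rintro rfl
    obtain ⟨q, hq⟩ := hdiv
    have h1 : x (aeval z F) = 0 := by rw [hq, map_mul, hxa, zero_mul]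
    rw [comp_aeval_apply] at h1
    have h2 : aeval (fun i => x (z i)) F = F.coeff 0 := by
      simp [hz.zero, constantCoeff_eq]
    have h3 : F = C (F.coeff 0) := by
      conv_lhs => rw [← homogeneousComponent_eq_self hF, homogeneousComponent_zero]
    rw [h1] at h2
    exact hF0 (by rw [h3, ← h2, map_zero])
  let w : Fin (N + 1) → S := fun i => z i - algebraMap k S (r i) * z j
  have hwj : w j = 0 := by simp [w, hrj]
  refine ⟨fun i => w (j.succAbove i), fun i => by simp [w, hz.zero],
    ker_le_span_project hz.span hrj hlr hlz, isIntegral_project hz.int hF hdiv hrj hFr, ?_⟩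
  intro u hua huz
  apply hz.uniq u hua
  have hw : ∀ i, u (w i) = 0 := fun i => by
    rcases Fin.eq_self_or_eq_succAbove j i with rfl | ⟨i, rfl⟩
    · simp [hwj]
    · exact huz i
  have hz' : ∀ i, u (z i) = u (z j) * r i := fun i => by
    have : z i = w i + algebraMap k S (r i) * z j := by simp [w]
    rw [this, map_add, map_mul, hw, AlgHom.commutes, zero_add, mul_comm]; rfl
  obtain ⟨q, hq⟩ := hdiv
  have h1 : aeval (fun i => u (z j) * r i) F = 0 := by
    rw [← funext hz', ← comp_aeval_apply, hq, map_mul, hua, zero_mul]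
  rw [aeval_smul_of_isHomogeneous hF, aeval_eq_eval, mul_eq_zero] at h1
  have := h1.resolve_right hFr
  intro i
  rw [hz' i, pow_eq_zero_iff hd |>.mp this, zero_mul]

omit [IsDomain S] in
theorem GoodProj.pad {a : S} {x : S →ₐ[k] k} {N g : ℕ} (h : N ≤ g) {z : Fin N → S}
    (hz : GoodProj a x z) : ∃ z : Fin g → S, GoodProj a x z := by
  let z' : Fin g → S := fun i => if hi : (i : ℕ) < N then z ⟨i, hi⟩ else 0
  have hcast : ∀ i : Fin N, z' (Fin.castLE h i) = z i := fun i => by simp [z']
  refine ⟨z', fun i => ?_, ?_, ?_, ?_⟩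
  · simp only [z']; split <;> simp [hz.zero]
  · refine hz.span.trans (sup_le ?_ le_sup_right)
    refine (Ideal.span_mono ?_).trans le_sup_left
    rintro _ ⟨i, rfl⟩
    exact ⟨_, hcast i⟩
  · refine RingHom.IsIntegral.tower_top (rename (Fin.castLE h)).toRingHom _ ?_
    have heq : ((aeval (R := k) fun i => Ideal.Quotient.mk (Ideal.span {a}) (z' i)).toRingHom).comp
        (rename (Fin.castLE h)).toRingHom =
        (aeval (R := k) fun i => Ideal.Quotient.mk (Ideal.span {a}) (z i)).toRingHom := by
      refine RingHom.ext fun p => ?_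
      simp [aeval_rename, Function.comp_def, hcast]
    rw [heq]; exact hz.int
  · intro w hwa hw
    exact hz.uniq w hwa fun i => hcast i ▸ hw _

/-- Coordinates adapted to a hypersurface through a rational point exist. -/
theorem exists_goodProj [Infinite k] [Algebra.FiniteType k S] {g : ℕ}
    (htr : Algebra.trdeg k S ≤ g) {a : S} (ha : a ≠ 0) {x : S →ₐ[k] k} (hxa : x a = 0)
    {y : Fin g → S} (hy : ∀ i, x (y i) = 0)
    (hyspan : RingHom.ker x ≤ Ideal.span (Set.range y) ⊔ RingHom.ker x ^ 2) :
    ∃ z : Fin g → S, GoodProj a x z := by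
  obtain ⟨n, f, hf⟩ := Algebra.FiniteType.iff_quotient_mvPolynomial''.mp ‹Algebra.FiniteType k S›
  let z₀ : Fin n → S := fun i => f (X i) - algebraMap k S (x (f (X i)))
  have hgen : ∀ s : S, ∃ p, aeval z₀ p = s := fun s => by
    obtain ⟨q, rfl⟩ := hf s
    refine ⟨aeval (fun i => X i + C (x (f (X i)))) q, ?_⟩
    rw [comp_aeval_apply]
    conv_rhs => rw [aeval_unique f]
    congr 1
    ext i
    simp [z₀]
  have h₀ : GoodProj a x z₀ := by
    refine ⟨fun i => by simp [z₀], fun s hs => Submodule.mem_sup_left ?_, ?_, ?_⟩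
    · obtain ⟨p, rfl⟩ := hgen s
      have h1 : x (aeval z₀ p) = p.coeff 0 := by
        rw [comp_aeval_apply]; simp [z₀, constantCoeff_eq]
      rw [RingHom.mem_ker, h1] at hs
      have h2 : p ∈ idealOfVars (Fin n) k ^ 1 := by
        rw [mem_pow_idealOfVars_iff']
        intro e he
        rw [Nat.lt_one_iff, Finsupp.degree_eq_zero_iff] at he
        rw [he]; exact hs
      rw [pow_one] at h2
      have := Ideal.mem_map_of_mem (aeval (R := k) z₀) h2
      rwa [idealOfVars, Ideal.map_span, ← Set.range_comp,
        show (aeval (R := k) z₀) ∘ X = z₀ from funext fun i => by simp] at this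
    · refine RingHom.isIntegral_of_surjective _ fun b => ?_
      obtain ⟨s, rfl⟩ := Ideal.Quotient.mk_surjective b
      obtain ⟨p, rfl⟩ := hgen s
      exact ⟨p, (MvPolynomial.comp_aeval_apply _ (Ideal.Quotient.mkₐ k (Ideal.span {a})) p).symm⟩
    · intro w _ hw
      ext s
      obtain ⟨p, rfl⟩ := hgen s
      rw [comp_aeval_apply, comp_aeval_apply, funext hw]
      simp [z₀]
  have key : ∀ N, ∀ z : Fin N → S, GoodProj a x z → ∃ z : Fin g → S, GoodProj a x z := by
    intro N
    induction N with
    | zero =>
      intro z hz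
      exact hz.pad (Nat.zero_le g)
    | succ N ih =>
      intro z hz
      by_cases hg : g ≤ N
      · obtain ⟨z', hz'⟩ := hz.step htr ha hxa hy hyspan hg
        exact ih z' hz'
      · have hle : N + 1 ≤ g := by omega
        exact hz.pad hle
  exact key n z₀ h₀

end Fermat.Agent.AVTorsion
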