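import Fermat.Agent.AVTorsion.RegSys
import Fermat.Agent.AVTorsion.Projection
import Mathlib.FieldTheory.IsAlgClosed.Basic
import Mathlib.RingTheory.Etale.Basic
import Mathlib.RingTheory.Smooth.Flat
import Mathlib.RingTheory.Unramified.Finite
import Mathlib.RingTheory.UniqueFactorizationDomain.Kaplansky

set_option autoImplicit false

/-!
# Local rings of smooth algebras are factorial

Over an algebraically closed field, the local ring at a rational point of an algebra étale over
affine space is a regular domain and, for domains, a unique factorization domain. The proof is by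
generic projection: every hypersurface germ at a rational point is cut out by a polynomial in a
suitable regular system of parameters.
-/

universe u

namespace Fermat.Agent.AVTorsion

open MvPolynomial IsLocalRing

variable {k : Type u} [Field k] {S : Type u} [CommRing S] [Algebra k S] {g : ℕ}

instance ker_point_isPrime (x : S →ₐ[k] k) : (RingHom.ker x).IsPrime :=
  RingHom.ker_isPrime x

instance ker_point_isMaximal (x : S →ₐ[k] k) : (RingHom.ker x).IsMaximal :=
  RingHom.ker_isMaximal_of_surjective x fun c => ⟨algebraMap k S c, x.commutes c⟩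

/-- The local ring at a rational point. -/
abbrev PointRing (x : S →ₐ[k] k) : Type u := Localization.AtPrime (RingHom.ker x)

theorem pointRing_ratResidue (x : S →ₐ[k] k) : RatResidue k (PointRing x) := by
  intro o
  obtain ⟨s, t, rfl⟩ := IsLocalization.exists_mk'_eq (RingHom.ker x).primeCompl o
  refine ⟨x s / x t, ?_⟩
  have ht : x t ≠ 0 := t.2
  have : IsLocalization.mk' (PointRing x) s t - algebraMap k (PointRing x) (x s / x t) =
      IsLocalization.mk' (PointRing x) (s - algebraMap k S (x s / x t) * t) t := by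
    rw [IsLocalization.eq_mk'_iff_mul_eq, sub_mul, IsLocalization.mk'_spec, map_sub, map_mul,
      ← IsScalarTower.algebraMap_apply]
  rw [this, IsLocalization.AtPrime.mk'_mem_maximal_iff (PointRing x) (RingHom.ker x)]
  simp [ht]

theorem span_eq_maximalIdeal [IsNoetherianRing S] {x : S →ₐ[k] k} {y : Fin g → S}
    (hy : ∀ i, x (y i) = 0)
    (hspan : RingHom.ker x ≤ Ideal.span (Set.range y) ⊔ RingHom.ker x ^ 2) :
    Ideal.span (Set.range fun i => algebraMap S (PointRing x) (y i)) =
      maximalIdeal (PointRing x) := by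
  apply le_antisymm
  · rw [Ideal.span_le]
    rintro _ ⟨i, rfl⟩
    exact (IsLocalization.AtPrime.to_map_mem_maximal_iff _ (RingHom.ker x) (y i)).mpr (hy i)
  · have h := Ideal.map_mono (f := algebraMap S (PointRing x)) hspan
    rw [Ideal.map_sup, Ideal.map_pow, Localization.AtPrime.map_eq_maximalIdeal, Ideal.map_span,
      ← Set.range_comp] at h
    refine Submodule.le_of_le_smul_of_le_jacobson_bot (I := maximalIdeal (PointRing x))
      (IsNoetherian.noetherian _) (IsLocalRing.maximalIdeal_le_jacobson _) ?_
    rw [smul_eq_mul, ← pow_two]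
    exact h

/-- An algebra étale over affine space has regular parameters at a rational point. -/
theorem exists_regSys [Algebra (MvPolynomial (Fin g) k) S]
    [IsScalarTower k (MvPolynomial (Fin g) k) S] [Algebra.Etale (MvPolynomial (Fin g) k) S]
    [IsNoetherianRing S] (x : S →ₐ[k] k) :
    ∃ y : Fin g → S, (∀ i, x (y i) = 0) ∧
      RingHom.ker x ≤ Ideal.span (Set.range y) ⊔ RingHom.ker x ^ 2 ∧
      IsRegSys k fun i => algebraMap S (PointRing x) (y i) := by
  let c : Fin g → k := fun i => x (algebraMap (MvPolynomial (Fin g) k) S (X i))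
  let y : Fin g → S := fun i =>
    algebraMap (MvPolynomial (Fin g) k) S (X i) - algebraMap k S (c i)
  have hy : ∀ i, x (y i) = 0 := fun i => by simp [y, c]
  have hspan : RingHom.ker x ≤ Ideal.span (Set.range y) ⊔ RingHom.ker x ^ 2 := by
    set J := Ideal.span (Set.range y) ⊔ RingHom.ker x ^ 2
    let g₁ : S →ₐ[MvPolynomial (Fin g) k] S ⧸ J := Ideal.Quotient.mkₐ _ J
    let g₂' : S →ₐ[k] S ⧸ J := (Algebra.ofId k (S ⧸ J)).comp x
    have hc : ∀ p, g₂' (algebraMap (MvPolynomial (Fin g) k) S p) =
        algebraMap (MvPolynomial (Fin g) k) (S ⧸ J) p := by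
      intro p
      have : g₂'.comp (IsScalarTower.toAlgHom k (MvPolynomial (Fin g) k) S) =
          IsScalarTower.toAlgHom k (MvPolynomial (Fin g) k) (S ⧸ J) := by
        refine MvPolynomial.algHom_ext fun i => ?_
        show Ideal.Quotient.mk J (algebraMap k S (c i)) =
          Ideal.Quotient.mk J (algebraMap (MvPolynomial (Fin g) k) S (X i))
        rw [eq_comm, Ideal.Quotient.eq]
        exact Submodule.mem_sup_left (Ideal.subset_span ⟨i, rfl⟩)
      exact AlgHom.congr_fun this p
    let g₂ : S →ₐ[MvPolynomial (Fin g) k] S ⧸ J := { g₂' with commutes' := hc }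
    have hnil : IsNilpotent ((RingHom.ker x).map (Ideal.Quotient.mk J)) := ⟨2, by
      rw [← Ideal.map_pow]
      exact eq_bot_mono (Ideal.map_mono le_sup_right) (Ideal.map_quotient_self J)⟩
    have heq : g₁ = g₂ := Algebra.FormallyUnramified.ext _ hnil fun s => by
      rw [Ideal.Quotient.eq]
      show Ideal.Quotient.mk J s - Ideal.Quotient.mk J (algebraMap k S (x s)) ∈ _
      rw [← map_sub]
      exact Ideal.mem_map_of_mem _ (by simp)
    intro s hs
    have := AlgHom.congr_fun heq s
    change Ideal.Quotient.mk J s = Ideal.Quotient.mk J (algebraMap k S (x s)) at this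
    rw [RingHom.mem_ker] at hs
    rw [hs, map_zero, map_zero] at this
    exact Ideal.Quotient.eq_zero_iff_mem.mp this
  refine ⟨y, hy, hspan, span_eq_maximalIdeal hy hspan, fun n f hf => ?_⟩
  rcases Nat.eq_zero_or_pos n with rfl | hn
  · simp
  have hfn : aeval y f ∈ RingHom.ker x ^ n := by
    rw [← IsLocalization.AtPrime.under_maximalIdeal_pow (RingHom.ker x) (PointRing x) n,
      Ideal.mem_under]
    rwa [show algebraMap S (PointRing x) (aeval y f) =
      aeval (fun i => algebraMap S (PointRing x) (y i)) f from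
        comp_aeval_apply _ (IsScalarTower.toAlgHom k S (PointRing x)) f]
  let I : Ideal (MvPolynomial (Fin g) k) := Ideal.span (Set.range fun i => X i - C (c i))
  let Q := MvPolynomial (Fin g) k ⧸ I ^ n
  let J : Ideal Q := I.map (Ideal.Quotient.mk (I ^ n))
  have hJ : IsNilpotent J := ⟨n, by rw [← Ideal.map_pow]; exact Ideal.map_quotient_self _⟩
  let x' : S →ₐ[MvPolynomial (Fin g) k] Q ⧸ J :=
    { (Algebra.ofId k (Q ⧸ J)).comp x with
      commutes' := fun p => by
        have : ((Algebra.ofId k (Q ⧸ J)).comp x).comp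
            (IsScalarTower.toAlgHom k (MvPolynomial (Fin g) k) S) =
            (Ideal.Quotient.mkₐ k J).comp (Ideal.Quotient.mkₐ k (I ^ n)) := by
          refine MvPolynomial.algHom_ext fun i => ?_
          show Ideal.Quotient.mk J (Ideal.Quotient.mk (I ^ n) (C (c i))) =
            Ideal.Quotient.mk J (Ideal.Quotient.mk (I ^ n) (X i))
          rw [eq_comm, Ideal.Quotient.eq, ← map_sub]
          exact Ideal.mem_map_of_mem _ (Ideal.subset_span ⟨i, rfl⟩)
        exact AlgHom.congr_fun this p }
  let h := Algebra.FormallySmooth.lift J hJ x'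
  have hker : RingHom.ker x ≤ J.comap h := fun s hs => by
    rw [Ideal.mem_comap, ← Ideal.Quotient.eq_zero_iff_mem,
      show Ideal.Quotient.mk J (h s) = x' s from Algebra.FormallySmooth.mk_lift J hJ x' s]
    show algebraMap k (Q ⧸ J) (x s) = 0
    rw [RingHom.mem_ker] at hs
    rw [hs, map_zero]
  have h0 : h (aeval y f) = 0 := by
    have : (RingHom.ker x ^ n).map h ≤ ⊥ := by
      rw [Ideal.map_pow]
      refine (Ideal.pow_right_mono (Ideal.map_le_iff_le_comap.mpr hker) n).trans ?_
      rw [← Ideal.map_pow]
      exact (Ideal.map_quotient_self _).le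
    exact Submodule.mem_bot _ |>.mp (this (Ideal.mem_map_of_mem h hfn))
  let τ : MvPolynomial (Fin g) k →ₐ[k] MvPolynomial (Fin g) k := aeval fun i => X i + C (c i)
  let p := aeval (fun i => X i - C (c i)) f
  have hp : aeval y f = algebraMap (MvPolynomial (Fin g) k) S p := by
    rw [show algebraMap (MvPolynomial (Fin g) k) S p =
      aeval (fun i => algebraMap (MvPolynomial (Fin g) k) S (X i - C (c i))) f from
        comp_aeval_apply _ (IsScalarTower.toAlgHom k (MvPolynomial (Fin g) k) S) f]
    refine congrArg (fun w => aeval w f) (funext fun i => ?_)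
    simp [y, IsScalarTower.algebraMap_apply k (MvPolynomial (Fin g) k) S]
  rw [hp, h.commutes] at h0
  have hpI : p ∈ I ^ n := Ideal.Quotient.eq_zero_iff_mem.mp h0
  have hτp : τ p = f := by
    rw [comp_aeval_apply]
    simp [τ]
  rw [← hτp]
  have hle : (I ^ n).map τ ≤ idealOfVars (Fin g) k ^ n := by
    rw [Ideal.map_pow]
    refine Ideal.pow_right_mono ?_ n
    rw [Ideal.map_span, Ideal.span_le]
    rintro _ ⟨_, ⟨i, rfl⟩, rfl⟩
    have : τ (X i - C (c i)) = X i := by simp [τ]
    rw [this]
    exact Ideal.subset_span ⟨i, rfl⟩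
  exact hle (Ideal.mem_map_of_mem τ hpI)

/-- Local rings of étale algebras over affine space at rational points are domains. -/
theorem isDomain_pointRing [Algebra (MvPolynomial (Fin g) k) S]
    [IsScalarTower k (MvPolynomial (Fin g) k) S] [Algebra.Etale (MvPolynomial (Fin g) k) S]
    [IsNoetherianRing S] (x : S →ₐ[k] k) : IsDomain (PointRing x) := by
  obtain ⟨y, -, -, hy⟩ := exists_regSys (g := g) x
  exact hy.isDomain (pointRing_ratResidue x)

variable [IsDomain S]

omit [IsDomain S] in
theorem isAlgebraic_of_etale (R : Type u) [CommRing R] [IsDomain R] [Algebra R S]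
    [FaithfulSMul R S] [Algebra.Etale R S] : Algebra.IsAlgebraic R S := by
  let K := FractionRing R
  let ι : S →ₐ[R] TensorProduct R K S := Algebra.TensorProduct.includeRight
  have hι : Function.Injective ι :=
    Algebra.TensorProduct.includeRight_injective (IsFractionRing.injective R K)
  have : Module.Finite K (TensorProduct R K S) := Algebra.FormallyUnramified.finite_of_free _ _
  refine ⟨fun s => ?_⟩
  rw [← isAlgebraic_algHom_iff ι hι, IsFractionRing.isAlgebraic_iff R K (TensorProduct R K S)]
  exact (Algebra.IsIntegral.isIntegral _).isAlgebraic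

/-- An algebra étale over affine `g`-space has transcendence degree `g`. -/
theorem trdeg_eq_of_etale [Algebra (MvPolynomial (Fin g) k) S]
    [IsScalarTower k (MvPolynomial (Fin g) k) S] [Algebra.Etale (MvPolynomial (Fin g) k) S]
    [FaithfulSMul (MvPolynomial (Fin g) k) S] : Algebra.trdeg k S = g := by
  have := isAlgebraic_of_etale (S := S) (MvPolynomial (Fin g) k)
  rw [← trdeg_add_eq k (MvPolynomial (Fin g) k) (A := S), trdeg_eq_zero_iff.mpr this,
    MvPolynomial.trdeg_of_isDomain]
  simp

variable [IsAlgClosed k] [Algebra.FiniteType k S]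

omit [IsDomain S] in
/-- Maximal ideals are rational points. -/
theorem exists_point_of_isMaximal (N : Ideal S) [N.IsMaximal] :
    ∃ w : S →ₐ[k] k, RingHom.ker w = N := by
  let := Ideal.Quotient.field N
  have : Module.Finite k (S ⧸ N) := finite_of_finite_type_of_isJacobsonRing k (S ⧸ N)
  have hb := IsAlgClosed.algebraMap_bijective_of_isIntegral (k := k) (K := S ⧸ N)
  let e := (AlgEquiv.ofBijective (Algebra.ofId k (S ⧸ N)) hb).symm
  refine ⟨e.toAlgHom.comp (Ideal.Quotient.mkₐ k N), ?_⟩
  ext s
  simp [Ideal.Quotient.eq_zero_iff_mem]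

omit [IsDomain S] in
/-- Adapted coordinates generate the maximal ideal modulo `a`. -/
theorem GoodProj.ker_le {a : S} {x : S →ₐ[k] k} {z : Fin g → S}
    (hz : GoodProj a x z) :
    RingHom.ker x ≤ Ideal.span {a} ⊔ Ideal.span (Set.range z) := by
  set J := Ideal.span {a} ⊔ Ideal.span (Set.range z)
  have : IsJacobsonRing S := isJacobsonRing_of_finiteType (A := k) (B := S)
  have : IsNoetherianRing S := Algebra.FiniteType.isNoetherianRing k S
  have hrad : RingHom.ker x ≤ J.radical := by
    rw [Ideal.radical_eq_jacobson, Ideal.jacobson]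
    refine le_sInf fun N ⟨hJN, hN⟩ => ?_
    have := hN
    obtain ⟨w, rfl⟩ := exists_point_of_isMaximal (k := k) N
    have : w = x := hz.uniq w
      (hJN (Submodule.mem_sup_left (Ideal.mem_span_singleton_self a)))
      (fun i => hJN (Submodule.mem_sup_right (Ideal.subset_span ⟨i, rfl⟩)))
    rw [this]
  obtain ⟨n, hn⟩ := Ideal.exists_radical_pow_le_of_fg J (IsNoetherian.noetherian _)
  have hpow : RingHom.ker x ^ n ≤ J := (Ideal.pow_right_mono hrad n).trans hn
  have hstep : ∀ m, RingHom.ker x ≤ J ⊔ RingHom.ker x ^ (m + 1) := by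
    intro m
    induction m with
    | zero => rw [pow_one]; exact le_sup_right
    | succ m ih =>
      refine ih.trans (sup_le le_sup_left ?_)
      have h2 : RingHom.ker x ≤ J ⊔ RingHom.ker x ^ 2 :=
        hz.span.trans (sup_le_sup_right le_sup_right _)
      calc RingHom.ker x ^ (m + 1) = RingHom.ker x ^ m * RingHom.ker x := pow_succ _ m
        _ ≤ RingHom.ker x ^ m * (J ⊔ RingHom.ker x ^ 2) := Ideal.mul_mono_right h2
        _ = RingHom.ker x ^ m * J ⊔ RingHom.ker x ^ (m + 2) := by rw [Ideal.mul_sup, pow_add]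
        _ ≤ J ⊔ RingHom.ker x ^ (m + 1 + 1) :=
          sup_le_sup Ideal.mul_le_right le_rfl
  refine (hstep n).trans (sup_le le_rfl ?_)
  rw [pow_succ]
  exact Ideal.mul_le_left.trans hpow

omit [IsDomain S] in
theorem GoodProj.exists_eq_mod {a : S} {x : S →ₐ[k] k} {z : Fin g → S}
    (hz : GoodProj a x z) (s : S) :
    ∃ u f : MvPolynomial (Fin g) k,
      constantCoeff u ≠ 0 ∧ a ∣ aeval z u * s - aeval z f := by
  let D := S ⧸ Ideal.span {a}
  let φ : MvPolynomial (Fin g) k →ₐ[k] D := aeval fun i => Ideal.Quotient.mk (Ideal.span {a}) (z i)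
  algebraize [φ.toRingHom]
  have : IsScalarTower k (MvPolynomial (Fin g) k) D := .of_algHom φ
  have : Algebra.FiniteType (MvPolynomial (Fin g) k) D := Algebra.FiniteType.of_restrictScalars_finiteType k _ _
  have : Algebra.IsIntegral (MvPolynomial (Fin g) k) D := ⟨hz.int⟩
  have : Module.Finite (MvPolynomial (Fin g) k) D := Algebra.IsIntegral.finite
  let I := idealOfVars (Fin g) k
  let T := LinearMap.range (Algebra.linearMap (MvPolynomial (Fin g) k) D)
  have hle : (⊤ : Submodule (MvPolynomial (Fin g) k) (D ⧸ T)) ≤ I • ⊤ := by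
    intro q _
    obtain ⟨d, rfl⟩ := Submodule.Quotient.mk_surjective T q
    obtain ⟨t, rfl⟩ := Ideal.Quotient.mk_surjective d
    have h1 := Submodule.mem_sup.mp
      (hz.ker_le (show t - algebraMap k S (x t) ∈ RingHom.ker x by simp))
    obtain ⟨p, hp, r, hr, hpr⟩ := h1
    have h2 : Ideal.Quotient.mk (Ideal.span {a}) r ∈
        (I • ⊤ : Submodule (MvPolynomial (Fin g) k) D) := by
      rw [Ideal.smul_top_eq_map, Submodule.restrictScalars_mem]
      refine (?_ : (Ideal.span (Set.range z)).map (Ideal.Quotient.mk (Ideal.span {a})) ≤ _)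
        (Ideal.mem_map_of_mem _ hr)
      rw [Ideal.map_span, Ideal.span_le]
      rintro _ ⟨_, ⟨i, rfl⟩, rfl⟩
      have := Ideal.mem_map_of_mem (algebraMap (MvPolynomial (Fin g) k) D)
        (show X i ∈ I from Ideal.subset_span ⟨i, rfl⟩)
      rwa [show algebraMap (MvPolynomial (Fin g) k) D (X i) =
        Ideal.Quotient.mk (Ideal.span {a}) (z i) from aeval_X _ i] at this
    have h3 : Submodule.Quotient.mk (p := T) (Ideal.Quotient.mk (Ideal.span {a}) t) =
        T.mkQ (Ideal.Quotient.mk (Ideal.span {a}) r) := by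
      rw [Submodule.mkQ_apply, Submodule.Quotient.eq]
      refine ⟨C (x t), ?_⟩
      rw [Algebra.linearMap_apply]
      show φ (C (x t)) = _
      have ht : Ideal.Quotient.mk (Ideal.span {a}) t =
          Ideal.Quotient.mk (Ideal.span {a}) (algebraMap k S (x t)) +
            Ideal.Quotient.mk (Ideal.span {a}) r := by
        rw [← RingHom.map_add, Ideal.Quotient.eq,
          show t - (algebraMap k S (x t) + r) = p by linear_combination -hpr]
        exact hp
      rw [ht, add_sub_cancel_right]
      exact aeval_C _ _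
    rw [h3]
    have := Submodule.mem_map_of_mem (f := T.mkQ) h2
    rw [Submodule.map_smul''] at this
    exact Submodule.smul_mono le_rfl le_top this
  obtain ⟨u, hu, hu'⟩ := Submodule.exists_sub_one_mem_and_smul_eq_zero_of_fg_of_le_smul I ⊤
    Module.Finite.fg_top hle
  have huT : u • Ideal.Quotient.mk (Ideal.span {a}) s ∈ T := by
    rw [← Submodule.Quotient.mk_eq_zero, Submodule.Quotient.mk_smul]
    exact hu' _ trivial
  obtain ⟨f, hf⟩ := huT
  refine ⟨u, f, ?_, ?_⟩
  · rw [← pow_one I, mem_pow_idealOfVars_iff'] at hu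
    have := hu 0 (by simp)
    rw [coeff_sub, coeff_zero_one, sub_eq_zero] at this
    rw [constantCoeff_eq]
    simp [this]
  · rw [← Ideal.mem_span_singleton, ← Ideal.Quotient.eq_zero_iff_mem, map_sub, map_mul]
    have e : ∀ p, Ideal.Quotient.mk (Ideal.span {a}) (aeval z p) = φ p := fun p =>
      comp_aeval_apply _ (Ideal.Quotient.mkₐ k (Ideal.span {a})) p
    rw [e, e]
    have hf' : φ f = φ u * Ideal.Quotient.mk (Ideal.span {a}) s := hf
    rw [hf', sub_self]

/-- The local ring at a rational point of a domain étale over affine space is factorial. -/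
theorem uniqueFactorizationMonoid_pointRing [Algebra (MvPolynomial (Fin g) k) S]
    [IsScalarTower k (MvPolynomial (Fin g) k) S] [Algebra.Etale (MvPolynomial (Fin g) k) S]
    [FaithfulSMul (MvPolynomial (Fin g) k) S] (x : S →ₐ[k] k) :
    UniqueFactorizationMonoid (PointRing x) := by
  have : IsNoetherianRing S := Algebra.FiniteType.isNoetherianRing k S
  have hres := pointRing_ratResidue x
  obtain ⟨y, hy, hyspan, hyreg⟩ := exists_regSys (g := g) x
  have : IsDomain (PointRing x) := hyreg.isDomain hres
  suffices hprime : ∀ q : PointRing x, Irreducible q → Prime q from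
    { irreducible_iff_prime := fun {q} => ⟨hprime q, Prime.irreducible⟩ }
  intro q hq
  obtain ⟨a, t, rfl⟩ := IsLocalization.exists_mk'_eq (RingHom.ker x).primeCompl q
  have hassoc : Associated (IsLocalization.mk' (PointRing x) a t)
      (algebraMap S (PointRing x) a) :=
    ⟨(IsLocalization.map_units (PointRing x) t).unit, by
      rw [IsUnit.unit_spec, IsLocalization.mk'_spec]⟩
  rw [hassoc.irreducible_iff] at hq
  rw [hassoc.prime_iff]
  have ha : a ≠ 0 := fun h => hq.ne_zero (by rw [h, map_zero])
  have hxa : x a = 0 := by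
    by_contra h
    exact hq.not_isUnit (IsLocalization.map_units (PointRing x) (⟨a, h⟩ : (RingHom.ker x).primeCompl))
  obtain ⟨z, hz⟩ := exists_goodProj (trdeg_eq_of_etale (S := S) (k := k) (g := g)).le ha hxa hy
    hyspan
  set zO := fun i => algebraMap S (PointRing x) (z i)
  have hzspan := span_eq_maximalIdeal hz.zero hz.span
  have hzreg : IsRegSys k zO := hyreg.of_span hres hzspan
  set ev := aeval (R := k) zO
  set α := algebraMap S (PointRing x) a
  have hev : ∀ p, algebraMap S (PointRing x) (aeval z p) = ev p := fun p =>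
    comp_aeval_apply _ (IsScalarTower.toAlgHom k S (PointRing x)) p
  have hmem : ∀ p, constantCoeff p = 0 ↔ ev p ∈ maximalIdeal (PointRing x) := by
    intro p
    rw [← hev, IsLocalization.AtPrime.to_map_mem_maximal_iff _ (RingHom.ker x), RingHom.mem_ker,
      comp_aeval_apply, funext hz.zero]
    simp
  have hunit : ∀ p, constantCoeff p ≠ 0 → IsUnit (ev p) := fun p hp => by
    rw [← IsLocalRing.notMem_maximalIdeal]; exact fun h => hp ((hmem p).mpr h)
  have hsurj : ∀ o : PointRing x, ∃ u f, constantCoeff u ≠ 0 ∧ α ∣ ev u * o - ev f := by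
    intro o
    obtain ⟨s, t, rfl⟩ := IsLocalization.exists_mk'_eq (RingHom.ker x).primeCompl o
    obtain ⟨u, f, hu, hd⟩ := hz.exists_eq_mod s
    obtain ⟨u', f', hu', hd'⟩ := hz.exists_eq_mod (t : S)
    have hd₁ := map_dvd (algebraMap S (PointRing x)) hd
    have hd₂ := map_dvd (algebraMap S (PointRing x)) hd'
    simp only [map_sub, map_mul, hev] at hd₁ hd₂
    have hspec := IsLocalization.mk'_spec (PointRing x) s t
    set o := IsLocalization.mk' (PointRing x) s t
    refine ⟨u * f', u' * f, ?_, ?_⟩
    · refine (map_mul constantCoeff u f').trans_ne (mul_ne_zero hu fun h0 => ?_)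
      have h1 := (hmem f').mp h0
      have h2 : α ∈ maximalIdeal (PointRing x) :=
        (IsLocalization.AtPrime.to_map_mem_maximal_iff _ (RingHom.ker x) a).mpr hxa
      have h3 : ev u' * algebraMap S (PointRing x) t ∈ maximalIdeal (PointRing x) := by
        obtain ⟨w, hw⟩ := hd₂
        rw [show ev u' * algebraMap S (PointRing x) t = ev f' + α * w by linear_combination hw]
        exact add_mem h1 (Ideal.mul_mem_right _ _ h2)
      exact (IsLocalRing.notMem_maximalIdeal.mpr
        ((hunit u' hu').mul (IsLocalization.map_units (PointRing x) t))) h3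
    · have : ev (u * f') * o - ev (u' * f) =
          ev u' * (ev u * algebraMap S (PointRing x) s - ev f) -
          (ev u' * algebraMap S (PointRing x) t - ev f') * (ev u * o) := by
        rw [map_mul, map_mul]; linear_combination (ev u * ev u') * hspec
      rw [this]
      exact dvd_sub (hd₁.mul_left _) (hd₂.mul_right _)
  -- the equation `h` of the hypersurface in the new coordinates
  obtain ⟨h, hh⟩ : ∃ h, Associated α (ev h) := by
    have hα : α ∈ Ideal.span (Set.range zO) := by
      rw [hzspan]; exact (IsLocalization.AtPrime.to_map_mem_maximal_iff _ (RingHom.ker x) a).mpr hxa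
    obtain ⟨o, ho⟩ := Ideal.mem_span_range_iff_exists_fun.mp hα
    choose u f hu e he using fun i => hsurj (o i)
    classical
    let U' : Fin g → MvPolynomial (Fin g) k := fun i => ∏ j ∈ Finset.univ.erase i, u j
    have hU : ∀ i, U' i * u i = ∏ j, u j := fun i =>
      Finset.prod_erase_mul _ _ (Finset.mem_univ i)
    refine ⟨∑ i, X i * (U' i * f i), ?_⟩
    have hUunit : IsUnit (ev (∏ j, u j) - ∑ i, zO i * (ev (U' i) * e i)) := by
      rw [← IsLocalRing.notMem_maximalIdeal]
      intro hmem'
      have h1 : ∑ i, zO i * (ev (U' i) * e i) ∈ maximalIdeal (PointRing x) :=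
        Ideal.sum_mem _ fun i _ => Ideal.mul_mem_right _ _ (hzspan ▸ Ideal.subset_span ⟨i, rfl⟩)
      have h2 := add_mem hmem' h1
      rw [sub_add_cancel] at h2
      exact IsLocalRing.notMem_maximalIdeal.mpr (hunit _ (by
        rw [map_prod]; exact Finset.prod_ne_zero_iff.mpr fun i _ => hu i)) h2
    refine ⟨hUunit.unit, ?_⟩
    have h1 : α * ev (∏ j, u j) = ev (∑ i, X i * (U' i * f i)) +
        α * ∑ i, zO i * (ev (U' i) * e i) := by
      rw [map_sum, Finset.mul_sum, ← Finset.sum_add_distrib]
      conv_lhs => rw [← ho]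
      rw [Finset.sum_mul]
      refine Finset.sum_congr rfl fun i _ => ?_
      rw [map_mul, map_mul, aeval_X, ← hU i, map_mul]
      linear_combination (zO i * ev (U' i)) * he i
    rw [IsUnit.unit_spec]
    linear_combination h1
  have key : ∀ h, Irreducible (ev h) → ∃ p, Prime p ∧ p ∣ h ∧ Associated (ev p) (ev h) := by
    intro h
    induction h using UniqueFactorizationMonoid.induction_on_prime with
    | h₁ => intro hi; exact absurd (map_zero ev) hi.ne_zero
    | h₂ w hw => intro hi; exact absurd (hw.map ev) hi.not_isUnit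
    | h₃ w p hw hp ih =>
      intro hi
      rw [map_mul] at hi ⊢
      rcases hi.isUnit_or_isUnit rfl with h1 | h1
      · have hi' : Irreducible (ev w) := (irreducible_isUnit_mul h1).mp hi
        obtain ⟨p', hp', hdvd, hass⟩ := ih hi'
        exact ⟨p', hp', hdvd.mul_left p, hass.trans (associated_unit_mul_right _ _ h1)⟩
      · exact ⟨p, hp, dvd_mul_right p w, associated_mul_unit_right _ _ h1⟩
  obtain ⟨p, hp, -, hass⟩ := key h (hh.irreducible_iff.mp hq)
  have hαp : Associated α (ev p) := hh.trans hass.symm
  have hp0 : p ∈ idealOfVars (Fin g) k := by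
    rw [← pow_one (idealOfVars (Fin g) k), mem_pow_idealOfVars_iff']
    intro e he
    rw [Nat.lt_one_iff, Finsupp.degree_eq_zero_iff] at he
    rw [he, ← constantCoeff_eq, hmem]
    exact (IsLocalRing.mem_maximalIdeal _).mpr fun h1 =>
      hq.not_isUnit (hαp.symm.isUnit h1)
  refine ⟨hq.ne_zero, hq.not_isUnit, fun b c hbc => ?_⟩
  obtain ⟨u, f, hu, hb⟩ := hsurj b
  obtain ⟨u', f', hu', hc⟩ := hsurj c
  have hff : α ∣ ev f * ev f' := by
    have : ev f * ev f' = ev u * ev u' * (b * c) -
        ((ev u * b - ev f) * (ev u' * c) + ev f * (ev u' * c - ev f')) := by ring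
    rw [this]
    exact dvd_sub (hbc.mul_left _) (dvd_add (hb.mul_right _) (hc.mul_left _))
  rw [← map_mul] at hff
  have hpf : p ∣ f * f' := hzreg.dvd_of_aeval_dvd hres hp hp0 (hαp.symm.dvd.trans hff)
  have back : ∀ (u f : MvPolynomial (Fin g) k) (b : PointRing x), constantCoeff u ≠ 0 →
      α ∣ ev u * b - ev f → p ∣ f → α ∣ b := by
    intro u f b hu hb hf
    have := dvd_add hb (hαp.dvd.trans (map_dvd ev hf))
    rwa [sub_add_cancel, (hunit u hu).dvd_mul_left] at this
  exact (hp.dvd_or_dvd hpf).imp (back u f b hu hb) (back u' f' c hu' hc)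

/-- A localization of a unique factorization domain at a prime is one. -/
theorem uniqueFactorizationMonoid_of_isLocalization {R : Type*} [CommRing R] [IsDomain R]
    [UniqueFactorizationMonoid R] (M : Submonoid R) (hM : M ≤ nonZeroDivisors R) (T : Type*)
    [CommRing T] [Algebra R T] [IsLocalization M T] : UniqueFactorizationMonoid T := by
  have := IsLocalization.isDomain_of_le_nonZeroDivisors (R := R) (M := M) (S := T) hM
  rw [UniqueFactorizationMonoid.iff_exists_prime_mem_of_isPrime]
  intro P hP hPp
  obtain ⟨hprime, hdisj⟩ := (IsLocalization.isPrime_iff_isPrime_disjoint M T P).mp hPp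
  have hne : P.comap (algebraMap R T) ≠ ⊥ := fun h => hP (by
    rw [← IsLocalization.map_under M T P, Ideal.under_def, h, Ideal.map_bot])
  obtain ⟨p, hp, hpp⟩ := hprime.exists_mem_prime_of_ne_bot hne
  refine ⟨algebraMap R T p, hp, ?_⟩
  have h1 : (Ideal.span {p}).IsPrime := (Ideal.span_singleton_prime hpp.ne_zero).mpr hpp
  have h2 : Disjoint (M : Set R) (Ideal.span {p} : Ideal R) :=
    Disjoint.mono_right (SetLike.coe_subset_coe.mpr
      ((Ideal.span_singleton_le_iff_mem (I := P.comap (algebraMap R T))).mpr hp)) hdisj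
  have h3 := IsLocalization.isPrime_of_isPrime_disjoint M T (Ideal.span {p}) h1 h2
  rw [Ideal.map_span, Set.image_singleton] at h3
  refine (Ideal.span_singleton_prime ?_).mp h3
  exact fun h => hpp.ne_zero ((IsLocalization.injective T hM) (by rw [h, map_zero]))

end Fermat.Agent.AVTorsion
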