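import Fermat.Agent.AVTorsion.Basic
import Fermat.Agent.AVTorsion.SmoothUFD

set_option autoImplicit false

/-!
# Étale affine charts and integrality

Every point of an abelian variety over an algebraically closed field has an affine neighbourhood
étale over affine space; the local rings are domains and the underlying space is noetherian.
-/

universe u

noncomputable section

open CategoryTheory AlgebraicGeometry TopologicalSpace

namespace Fermat.Agent.AVTorsion

namespace AbVar

variable {k : Type u} [Field k] (X : AbVar k)

/-- The `k`-algebra structure on sections. -/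
def sectionHom (V : X.carrier.Opens) : k →+* Γ(X.carrier, V) :=
  ((Scheme.ΓSpecIso (CommRingCat.of k)).inv ≫ X.toBase.appLE ⊤ V le_top).hom

instance sectionAlgebra (V : X.carrier.Opens) : Algebra k Γ(X.carrier, V) :=
  (X.sectionHom V).toAlgebra

theorem eq_top_of_mem_spec {U : (Spec (CommRingCat.of k)).Opens} {q : Spec (CommRingCat.of k)}
    (hq : q ∈ U) : U = ⊤ := by
  ext y
  simp only [Opens.coe_top, Set.mem_univ, iff_true, SetLike.mem_coe]
  convert hq
  exact Subsingleton.elim (α := PrimeSpectrum k) _ _

/-- Every point has an affine neighbourhood whose ring is étale over a polynomial ring. -/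
theorem exists_chart (p : X.carrier) :
    ∃ (V : X.carrier.Opens) (_ : IsAffineOpen V) (_ : p ∈ V)
      (_ : Algebra (MvPolynomial (Fin X.dim) k) Γ(X.carrier, V)),
      IsScalarTower k (MvPolynomial (Fin X.dim) k) Γ(X.carrier, V) ∧
        Algebra.Etale (MvPolynomial (Fin X.dim) k) Γ(X.carrier, V) := by
  obtain ⟨U, -, V, hV, hp, e, h⟩ :=
    SmoothOfRelativeDimension.exists_isStandardSmoothOfRelativeDimension (n := X.dim)
      (f := X.toBase) p
  obtain rfl : U = ⊤ := eq_top_of_mem_spec (e hp)
  have h' : (X.sectionHom V).IsStandardSmoothOfRelativeDimension X.dim := by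
    rw [sectionHom, CommRingCat.hom_comp]
    exact RingHom.isStandardSmoothOfRelativeDimension_respectsIso.2 _
      (Scheme.ΓSpecIso (CommRingCat.of k)).symm.commRingCatIsoToRingEquiv h
  obtain ⟨ψ, hψ, hψe⟩ := h'.exists_etale_mvPolynomial
  let := ψ.toAlgebra
  refine ⟨V, hV, hp, ψ.toAlgebra, IsScalarTower.of_algebraMap_eq fun c => ?_,
    RingHom.etale_algebraMap.mp hψe⟩
  exact (RingHom.congr_fun hψ c).symm

variable [IsAlgClosed k]

omit [IsAlgClosed k] in
/-- A chart étale over affine space is of finite type. -/
theorem finiteType_chart {V : X.carrier.Opens} [Algebra (MvPolynomial (Fin X.dim) k) Γ(X.carrier, V)]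
    [IsScalarTower k (MvPolynomial (Fin X.dim) k) Γ(X.carrier, V)]
    [Algebra.Etale (MvPolynomial (Fin X.dim) k) Γ(X.carrier, V)] :
    Algebra.FiniteType k Γ(X.carrier, V) :=
  Algebra.FiniteType.trans (S := MvPolynomial (Fin X.dim) k) inferInstance inferInstance

/-- Local rings are domains. -/
theorem isDomain_stalk (p : X.carrier) : IsDomain (X.carrier.presheaf.stalk p) := by
  obtain ⟨V, hV, hp, _, _, _⟩ := X.exists_chart p
  have := X.finiteType_chart (V := V)
  let S := Γ(X.carrier, V)
  have : IsNoetherianRing S := Algebra.FiniteType.isNoetherianRing k S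
  let P := (hV.primeIdealOf ⟨p, hp⟩).asIdeal
  obtain ⟨M, hM, hPM⟩ := Ideal.exists_le_maximal P (Ideal.IsPrime.ne_top inferInstance)
  obtain ⟨x, rfl⟩ := exists_point_of_isMaximal (k := k) M
  have := isDomain_pointRing (g := X.dim) x
  have h₁ : IsDomain (Localization.AtPrime P) := by
    have hle : (RingHom.ker x).primeCompl ≤ P.primeCompl := fun s hs hs' => hs (hPM hs')
    let alg : Algebra (PointRing x) (Localization.AtPrime P) :=
      IsLocalization.localizationAlgebraOfSubmonoidLe (PointRing x) (Localization.AtPrime P)
        (RingHom.ker x).primeCompl P.primeCompl hle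
    have := IsLocalization.localization_isScalarTower_of_submonoid_le (PointRing x)
      (Localization.AtPrime P) (RingHom.ker x).primeCompl P.primeCompl hle
    have := IsLocalization.isLocalization_of_submonoid_le (PointRing x) (Localization.AtPrime P)
      (RingHom.ker x).primeCompl P.primeCompl hle
    refine IsLocalization.isDomain_of_le_nonZeroDivisors (R := PointRing x)
      (M := P.primeCompl.map (algebraMap S (PointRing x))) (S := Localization.AtPrime P) ?_
    rintro _ ⟨s, hs, rfl⟩
    refine mem_nonZeroDivisors_of_ne_zero fun h0 => ?_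
    obtain ⟨t, ht⟩ := (IsLocalization.map_eq_zero_iff (RingHom.ker x).primeCompl _ _).mp h0
    rcases (Ideal.IsPrime.mem_or_mem inferInstance (ht ▸ P.zero_mem : (t : S) * s ∈ P)) with h | h
    · exact t.2 (hPM h)
    · exact hs h
  let _ : Algebra Γ(X.carrier, V) (X.carrier.presheaf.stalk p) :=
    X.carrier.presheaf.algebra_section_stalk ⟨p, hp⟩
  have := hV.isLocalization_stalk ⟨p, hp⟩
  let e := (IsLocalization.algEquiv P.primeCompl (Localization.AtPrime P)
    (X.carrier.presheaf.stalk p)).toRingEquiv.symm
  exact Function.Injective.isDomain e.toRingHom e.injective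

instance isReduced_carrier : IsReduced X.carrier := by
  have : ∀ p, _root_.IsReduced (X.carrier.presheaf.stalk p) := fun p => by
    have := X.isDomain_stalk p
    infer_instance
  exact isReduced_of_isReduced_stalk _

omit [IsAlgClosed k] in
theorem isNoetherian_carrier : IsNoetherian X.carrier := by
  have : IsLocallyNoetherian X.carrier := LocallyOfFiniteType.isLocallyNoetherian X.toBase
  have : CompactSpace X.carrier := QuasiCompact.compactSpace_of_compactSpace X.toBase
  exact ⟨⟩

instance irreducibleSpace_carrier : IrreducibleSpace X.carrier := by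
  have := X.isNoetherian_carrier
  obtain ⟨s⟩ : Nonempty (Spec (CommRingCat.of k)) :=
    ⟨(IsLocalRing.closedPoint k : PrimeSpectrum k)⟩
  have hconn := X.bundle.connectedFibres s
  have huniv : X.toBase.base ⁻¹' {s} = Set.univ :=
    Set.eq_univ_of_forall fun y => Subsingleton.elim (α := PrimeSpectrum k) _ _
  rw [huniv] at hconn
  have hfin : (irreducibleComponents X.carrier).Finite :=
    NoetherianSpace.finite_irreducibleComponents
  -- at most one component through each point
  have huniq : ∀ (p : X.carrier) (Z Z' : Set X.carrier), Z ∈ irreducibleComponents X.carrier →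
      Z' ∈ irreducibleComponents X.carrier → p ∈ Z → p ∈ Z' → Z = Z' := by
    intro p Z Z' hZ hZ' hp hp'
    have := X.isDomain_stalk p
    let ζ := X.carrier.fromSpecStalk p (⊥ : PrimeSpectrum (X.carrier.presheaf.stalk p))
    have key : ∀ W ∈ irreducibleComponents X.carrier, p ∈ W → W = closure {ζ} := by
      intro W hW hpW
      have hWc : IsClosed W := isClosed_of_mem_irreducibleComponents W hW
      have hgen : IsGenericPoint hW.1.genericPoint W :=
        hW.1.isGenericPoint_genericPoint hWc
      obtain ⟨q, hq⟩ : hW.1.genericPoint ∈ Set.range (X.carrier.fromSpecStalk p) := by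
        rw [Scheme.range_fromSpecStalk]; exact hgen.specializes hpW
      have hs : ζ ⤳ hW.1.genericPoint := hq ▸
        ((PrimeSpectrum.le_iff_specializes _ q).mp bot_le).map
          (X.carrier.fromSpecStalk p).continuous
      have hsub : W ⊆ closure {ζ} := fun w hw =>
        specializes_iff_mem_closure.mp (hs.trans (hgen.specializes hw))
      exact hsub.antisymm (hW.2 isIrreducible_singleton.closure hsub)
    rw [key Z hZ hp, key Z' hZ' hp']
  obtain ⟨p₀, -⟩ := hconn.1
  let Z := irreducibleComponent p₀
  have hZ : Z ∈ irreducibleComponents X.carrier := irreducibleComponent_mem_irreducibleComponents p₀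
  have hcompl : Zᶜ = ⋃ W ∈ irreducibleComponents X.carrier \ {Z}, W := by
    ext q
    simp only [Set.mem_compl_iff, Set.mem_iUnion, Set.mem_sdiff, Set.mem_singleton_iff, exists_prop]
    constructor
    · exact fun hq => ⟨irreducibleComponent q,
        ⟨irreducibleComponent_mem_irreducibleComponents q,
          fun h => hq (h ▸ mem_irreducibleComponent)⟩, mem_irreducibleComponent⟩
    · rintro ⟨W, ⟨hW, hne⟩, hqW⟩ hqZ
      exact hne (huniq q W Z hW hZ hqW hqZ)
  have hopen : IsOpen Z := by
    rw [← isClosed_compl_iff, hcompl]
    exact hfin.sdiff.isClosed_biUnion fun W hW => isClosed_of_mem_irreducibleComponents W hW.1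
  have hpre : PreconnectedSpace X.carrier := ⟨hconn.2⟩
  have hall : Z = Set.univ :=
    IsClopen.eq_univ ⟨isClosed_irreducibleComponent, hopen⟩ ⟨p₀, mem_irreducibleComponent⟩
  refine (irreducibleSpace_def _).mpr ?_
  have := hZ.1
  rwa [hall] at this

instance isIntegral_carrier : IsIntegral X.carrier :=
  isIntegral_of_irreducibleSpace_of_isReduced _

end AbVar

end Fermat.Agent.AVTorsion
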