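import Fermat.Agent.AVTorsion.Pullback

set_option autoImplicit false

/-!
# Heights along translates by generic points

Along a translate by a generic point the pullback of the poles of a function is the pole divisor of
the composed function, so the height is the degree of that function.
-/

universe u

noncomputable section

open CategoryTheory AlgebraicGeometry AlgebraicCurve Fermat.Agent.ConstReduction
open Fermat.Agent.FunctionField

namespace Fermat.Agent.AVTorsion

/-- The images of algebraic elements are algebraic over a field containing the images of the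
coefficients. -/
theorem isAlgebraic_image {R₀ R F : Type u} [CommRing R₀] [CommRing R] [Algebra R₀ R] [Field F]
    {E : Type u} [Field E] [Algebra E F] (σ : R →+* F) (hσ : Function.Injective σ) (s : Set R)
    (hs : ∀ x ∈ s, σ x ∈ (algebraMap E F).range)
    (hbase : ∀ c, σ (algebraMap R₀ R c) ∈ (algebraMap E F).range) {x : R}
    (hx : IsAlgebraic (Algebra.adjoin R₀ s) x) : IsAlgebraic E (σ x) := by
  have hmem : ∀ a : Algebra.adjoin R₀ s, σ a ∈ (algebraMap E F).range := by
    rintro ⟨a, ha⟩
    induction ha using Algebra.adjoin_induction with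
    | mem a ha => exact hs a ha
    | algebraMap c => exact hbase c
    | add a b _ _ ha hb => rw [map_add]; exact add_mem ha hb
    | mul a b _ _ ha hb => rw [map_mul]; exact mul_mem ha hb
  let f : Algebra.adjoin R₀ s →+* E :=
    (RingEquiv.ofLeftInverse (Function.leftInverse_invFun (algebraMap E F).injective)).symm.toRingHom.comp
      ((σ.comp (Algebra.adjoin R₀ s).val.toRingHom).codRestrict _ hmem)
  have hf : ∀ a, algebraMap E F (f a) = σ a := fun a => Function.invFun_eq (hmem a)
  refine hx.ringHom_of_comp_eq f σ (fun a b h => Subtype.ext (hσ ?_)) (RingHom.ext hf)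
  rw [← hf, ← hf, h]

/-- Elements algebraic over the union of images of transcendence bases have small transcendence
degree. -/
theorem algebraicIndependent_card_le {k Ω M R F ι : Type u} [Field k] [Field Ω] [Field M]
    [CommRing R] [IsDomain R] [Field F] [Algebra k Ω] [Algebra k F] [Algebra Ω F]
    [IsScalarTower k Ω F] [Algebra Ω M] [Algebra k R] (σ : M →ₐ[Ω] F) (τ : R →ₐ[k] F)
    (hτ : Function.Injective τ) {z : ι → F} (hz : AlgebraicIndependent Ω z)
    (hzmem : ∀ (E : IntermediateField Ω F), (∀ m, σ m ∈ E) → (∀ r, τ r ∈ E) → ∀ i, z i ∈ E) :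
    Cardinal.mk ι ≤ Algebra.trdeg Ω M + Algebra.trdeg k R := by
  obtain ⟨s, hs⟩ := exists_isTranscendenceBasis Ω M
  obtain ⟨t, ht⟩ := exists_isTranscendenceBasis k R
  set S : Set F := σ '' s ∪ τ '' t
  set E₀ := IntermediateField.adjoin Ω S
  set C := (algebraicClosure E₀ F).restrictScalars Ω
  have hC : ∀ x : F, IsAlgebraic E₀ x → x ∈ C := fun x hx =>
    mem_algebraicClosure_iff.mpr hx
  have hrange : ∀ x, x ∈ E₀ → x ∈ (algebraMap E₀ F).range := fun x hx => ⟨⟨x, hx⟩, rfl⟩
  have hM : ∀ m, σ m ∈ C := fun m => hC _ (isAlgebraic_image σ.toRingHom σ.toRingHom.injective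
    (Set.range ((↑) : s → M))
    (by rintro _ ⟨i, rfl⟩
        exact hrange _ (IntermediateField.subset_adjoin Ω S (Or.inl ⟨_, i.2, rfl⟩)))
    (fun c => hrange _ (by
      show σ (algebraMap Ω M c) ∈ E₀
      rw [σ.commutes]; exact E₀.algebraMap_mem c))
    (hs.isAlgebraic.isAlgebraic m))
  have hR : ∀ r, τ r ∈ C := fun r => hC _ (isAlgebraic_image τ.toRingHom hτ
    (Set.range ((↑) : t → R))
    (by rintro _ ⟨i, rfl⟩
        exact hrange _ (IntermediateField.subset_adjoin Ω S (Or.inr ⟨_, i.2, rfl⟩)))
    (fun c => hrange _ (by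
      show τ (algebraMap k R c) ∈ E₀
      rw [τ.commutes, IsScalarTower.algebraMap_apply k Ω F]; exact E₀.algebraMap_mem _))
    (ht.isAlgebraic.isAlgebraic r))
  have hzC : AlgebraicIndependent Ω fun i => (⟨z i, hzmem C hM hR i⟩ : C) :=
    AlgebraicIndependent.of_comp C.val hz
  refine hzC.cardinalMk_le_trdeg.trans ?_
  have h1 : Algebra.trdeg Ω E₀ ≤ Cardinal.mk S := by
    have h2 := trdeg_eq_of_fractions (k := Ω) (L := F) (D := Algebra.adjoin Ω S)
      (E := E₀.toSubalgebra) (IntermediateField.algebra_adjoin_le_adjoin Ω S) (by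
        intro e he
        obtain ⟨r, hr, s', hs', rfl⟩ := IntermediateField.mem_adjoin_iff_div.mp he
        rcases eq_or_ne s' 0 with rfl | hs0
        · exact ⟨1, one_mem _, one_ne_zero, by simp⟩
        · exact ⟨s', hs', hs0, by rwa [div_mul_cancel₀ _ hs0]⟩)
    refine (le_of_eq h2).trans ?_
    let π : MvPolynomial S Ω →ₐ[Ω] Algebra.adjoin Ω S :=
      MvPolynomial.aeval fun i => (⟨i.1, Algebra.subset_adjoin i.2⟩ : Algebra.adjoin Ω S)
    have hπ : Function.Surjective π := by
      rintro ⟨x, hx⟩
      rw [Algebra.adjoin_eq_range] at hx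
      obtain ⟨p, rfl⟩ := hx
      refine ⟨p, Subtype.ext ?_⟩
      show (Algebra.adjoin Ω S).val (π p) = _
      exact DFunLike.congr_fun (MvPolynomial.algHom_ext (f := (Algebra.adjoin Ω S).val.comp π)
        (g := MvPolynomial.aeval ((↑) : S → F)) fun i => by simp [π]) p
    refine (trdeg_le_of_surjective π hπ).trans (le_of_eq ?_)
    rw [MvPolynomial.trdeg_of_isDomain, Cardinal.lift_id]
  have h3 : Algebra.trdeg Ω C = Algebra.trdeg Ω E₀ := by
    have : IsScalarTower Ω E₀ (algebraicClosure E₀ F) := IntermediateField.isScalarTower _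
    have : FaithfulSMul E₀ (algebraicClosure E₀ F) :=
      (faithfulSMul_iff_algebraMap_injective _ _).mpr (algebraMap E₀ _).injective
    show Algebra.trdeg Ω (algebraicClosure E₀ F) = _
    rw [← trdeg_add_eq Ω E₀ (A := algebraicClosure E₀ F),
      trdeg_eq_zero_iff.mpr (algebraicClosure.isAlgebraic E₀ F), add_zero]
  rw [h3]
  refine h1.trans ((Cardinal.mk_union_le _ _).trans (add_le_add ?_ ?_))
  · exact Cardinal.mk_image_le.trans (le_of_eq hs.cardinalMk_eq_trdeg)
  · exact Cardinal.mk_image_le.trans (le_of_eq ht.cardinalMk_eq_trdeg)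

namespace AbVar

variable {k : Type u} [Field k] [IsAlgClosed k] {X : AbVar k} {Ω K F L : Type u} [Field Ω]
  [Field K] [Field F] [Field L] [Algebra Ω K] [Algebra Ω F] [Algebra Ω L] [Algebra F L]
  [Algebra K L] [IsScalarTower Ω F L] [IsScalarTower Ω K L] [Algebra k Ω] [Algebra k K]
  [Algebra k F] [Algebra k L] [IsScalarTower k Ω K] [IsScalarTower k Ω F] [IsScalarTower k F L]
  [IsScalarTower k K L] [IsScalarTower k Ω L] [IsAlgClosed Ω] [IsAlgClosed F]
  [IsFunctionField Ω K] [IsFunctionField F L]

omit [IsScalarTower k Ω L] [IsAlgClosed k] in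
/-- The value of a point of `K` at a place of `L` is defined over a field of transcendence degree
at most one over `Ω`. -/
theorem exists_valPt_factor (φ : X.Pt K) (P : Place F L) :
    ∃ (M : Type u) (_ : Field M) (_ : Algebra Ω M) (_ : Algebra k M) (_ : IsScalarTower k Ω M)
      (σ : M →ₐ[Ω] F) (ψ : X.Pt M), Algebra.trdeg Ω M ≤ 1 ∧
      Pt.map (σ.restrictScalars k) ψ =
        valPt (Pt.map (IsScalarTower.toAlgHom k K L) φ) P := by
  by_cases hall : ∀ t : K, algebraMap K L t ∈ (valueAt P).ring
  · let χ : K →ₐ[Ω] (valueAt P).ring :=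
      { (algebraMap K L).codRestrict (valueAt P).ring.toSubring hall with
        commutes' := fun c => Subtype.ext (by
          show algebraMap K L (algebraMap Ω K c) = _
          rw [← IsScalarTower.algebraMap_apply, IsScalarTower.algebraMap_apply Ω F L]
          rfl) }
    let σ : K →ₐ[Ω] F :=
      { (valueAt P).red.comp χ.toRingHom with
        commutes' := fun c => by
          have hc : ((χ (algebraMap Ω K c) : (valueAt P).ring) : L) =
              algebraMap F L (algebraMap Ω F c) := by
            show algebraMap K L (algebraMap Ω K c) = _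
            rw [← IsScalarTower.algebraMap_apply, IsScalarTower.algebraMap_apply Ω F L]
          exact RatVal.HasValue.unique (A := valueAt P)
            (hc ▸ (valueAt P).red_eq (x := χ (algebraMap Ω K c)))
            ((valueAt P).hasValue_algebraMap _) }
    refine ⟨K, inferInstance, inferInstance, inferInstance, inferInstance, σ, φ,
      le_of_eq trdeg_eq_one, ?_⟩
    let χ' : K →ₐ[k] (valueAt P).ring :=
      { χ.toRingHom with
        commutes' := fun c => Subtype.ext (by
          show algebraMap K L (algebraMap k K c) =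
            ratValIncl (k := k) (valueAt P) (algebraMap k _ c)
          rw [AlgHom.commutes, ← IsScalarTower.algebraMap_apply]) }
    rw [valPt, Pt.reduce_eq (y := Pt.map χ' φ) (by rw [Pt.map_map]; rfl), Pt.map_map]
    rfl
  · push Not at hall
    obtain ⟨t₀, ht₀⟩ := hall
    let q : Place Ω K := placeOfValuationSubring ((valueAt P).ring.comap (algebraMap K L))
      (fun c => by
        rw [ValuationSubring.mem_comap, ← IsScalarTower.algebraMap_apply,
          IsScalarTower.algebraMap_apply Ω F L]
        exact P.algebraMap_mem' _)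
      (fun h => ht₀ (ValuationSubring.mem_comap.mp (h ▸ ValuationSubring.mem_top t₀)))
    refine ⟨Ω, inferInstance, inferInstance, inferInstance, inferInstance,
      Algebra.ofId Ω F, Pt.reduce (valueAt q) φ, le_of_eq_of_le (trdeg_eq_zero (R := Ω) (A := Ω)) zero_le_one, ?_⟩
    rw [valPt, Pt.reduce_natural (valueAt q) (valueAt P) (IsScalarTower.toAlgHom k K L)
      ((Algebra.ofId Ω F).restrictScalars k) (fun r c h => ?_) φ]
    have h0 : (valueAt q).HasValue (r - algebraMap Ω K c) 0 := by
      simpa using h.sub ((valueAt q).hasValue_algebraMap c)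
    suffices hz : (valueAt P).HasValue (algebraMap K L (r - algebraMap Ω K c)) 0 by
      have := hz.add ((valueAt P).hasValue_algebraMap (algebraMap Ω F c))
      simpa [← IsScalarTower.algebraMap_apply] using this
    rcases eq_or_ne (r - algebraMap Ω K c) 0 with h1 | h1
    · rw [h1, map_zero]; exact (valueAt P).hasValue_zero
    · rw [RatVal.hasValue_zero_iff h1] at h0
      rw [RatVal.hasValue_zero_iff ((map_ne_zero _).mpr h1), ← map_inv₀]
      exact h0

omit [IsScalarTower k Ω L] in
/-- The value at any place of a translate by a generic point has transcendence degree at least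
`g - 1`. -/
theorem dim_le_trdeg_valPt (φ : X.Pt K) {a : X.Pt F} (ha : IsGenericOver Ω a) (P : Place F L) :
    (X.dim : Cardinal) ≤ Algebra.trdeg k (valPt (Pt.map (IsScalarTower.toAlgHom k K L) φ +
      Pt.map (IsScalarTower.toAlgHom k F L) a) P).eval.range + 1 := by
  set T := Pt.map (IsScalarTower.toAlgHom k K L) φ + Pt.map (IsScalarTower.toAlgHom k F L) a
  set x := valPt T P with hx
  obtain ⟨M, _, _, _, _, σ, ψ, hM, hψ⟩ := exists_valPt_factor (Ω := Ω) φ P
  obtain ⟨e, he, y, hy⟩ := ha
  have hax : a = x - Pt.map (σ.restrictScalars k) ψ := by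
    rw [hψ, hx, valPt, valPt, map_add, Pt.reduce_map]; abel
  let τ : x.eval.range →ₐ[k] F := x.eval.range.val
  have hcard : Cardinal.mk (ULift.{u} (Fin X.dim)) ≤
      Algebra.trdeg Ω M + Algebra.trdeg k x.eval.range := by
    refine algebraicIndependent_card_le σ τ Subtype.val_injective
      (z := fun i => e (y i.down)) (hy.comp ULift.down.{u} ULift.down_injective)
      fun E hσE hτE i => ?_
    let σ' : M →ₐ[k] E.restrictScalars k :=
      (σ.restrictScalars k).codRestrict (E.restrictScalars k).toSubalgebra hσE
    let τ' : X.localRing x.point →ₐ[k] E.restrictScalars k :=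
      x.eval.codRestrict (E.restrictScalars k).toSubalgebra fun v => hτE ⟨_, v, rfl⟩
    have hσ' : (E.restrictScalars k).val.comp σ' = σ.restrictScalars k := AlgHom.ext fun _ => rfl
    have hτ' : (E.restrictScalars k).val.comp τ' = x.eval := AlgHom.ext fun _ => rfl
    set a' := Pt.map τ' (X.taut x.point) - Pt.map σ' ψ
    have ha' : Pt.map (E.restrictScalars k).val a' = a := by
      rw [map_sub, Pt.map_map, Pt.map_map, hσ', hτ', Pt.map_eval_taut, hax]
    have hval : a.HasValue (y i.down) (e (y i.down)) := he ▸ hasValue_map_η e (y i.down)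
    have : IsLocalHom (E.restrictScalars k).val.toRingHom :=
      ⟨fun v hv => isUnit_iff_ne_zero.mpr fun h0 => hv.ne_zero (by simp [h0])⟩
    have hmem : y i.down ∈ X.localRing a'.point := by
      have := hval.1
      rwa [← ha', Pt.point_map_of_isLocalHom] at this
    have h := (a'.hasValue_val hmem).map (E.restrictScalars k).val
    rw [ha'] at h
    rw [hval.unique h]
    exact (a'.val (y i.down)).2
  rw [Cardinal.mk_uLift, Cardinal.mk_fin, Cardinal.lift_natCast] at hcard
  exact hcard.trans (by rw [add_comm]; gcongr)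

omit [IsScalarTower k Ω L] in
/-- The pullback along a translate by a generic point has the degree of the composed function. -/
theorem height_eq_degree_poleDiv (u : X.FF) (φ : X.Pt K) {a : X.Pt F} (ha : IsGenericOver Ω a)
    (e : X.FF →ₐ[k] L)
    (he : Pt.map e X.η = Pt.map (IsScalarTower.toAlgHom k K L) φ +
      Pt.map (IsScalarTower.toAlgHom k F L) a) :
    height F u (Pt.map e X.η) = Divisor.degree (poleDiv F (e u)) := by
  set T := Pt.map e X.η with hT
  have hz : IsDen u T.point 1 := by rw [hT, point_map_η]; exact isDen_one u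
  suffices h : pull F u T + divFun F (T.val (den u T.point / 1)) = poleDiv F (e u) by
    rw [← h, map_add, degree_divFun, add_zero]; rfl
  ext P
  set y := valPt T P
  set w := den u y.point
  have hw : IsDen u y.point w := isDen_den u _
  rw [exists_pull_eq_of_den T hz P w hw, div_one, hT, Pt.val_map_η, poleDiv, Finsupp.sup_apply,
    Finsupp.neg_apply, divFun_apply, Finsupp.zero_apply]
  have hint : ∀ v, v ∈ X.localRing y.point →
      (valueAt P).HasValue (e v) (y.val v) := by
    intro v hv
    obtain ⟨r, hr, hrP⟩ := Pt.hasValue_of_reduce (y.hasValue_val hv)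
    rwa [hr.unique (hasValue_map_η e v)] at hrP
  have hew := hint w hw.mem
  have heuw := hint (u * w) hw.mem_mul
  rw [map_mul] at heuw
  have hew0 : e w ≠ 0 := (map_ne_zero _).mpr hw.ne_zero
  have h1 := ord_nonneg_of_mem P hew.mem
  by_cases hw0 : y.val w = 0
  · have huw0 : y.val (u * w) ≠ 0 := by
      intro h
      have hA : y.eval ⟨w, hw.mem⟩ = 0 := ((y.hasValue_val hw.mem).2).trans hw0
      have hB : y.eval ⟨u * w, hw.mem_mul⟩ = 0 := ((y.hasValue_val hw.mem_mul).2).trans h
      have h2 := y.trdeg_range_add_two_le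
        (fun h0 => hw.ne_zero (congrArg Subtype.val h0)) hA hB hw.isRelPrime
      have h3 : (X.dim : Cardinal) ≤ Algebra.trdeg k y.eval.range + 1 := by
        have := dim_le_trdeg_valPt φ ha P
        rwa [← he] at this
      obtain ⟨n, hn⟩ := Cardinal.lt_aleph0.mp
        (lt_of_le_of_lt (le_self_add.trans h2) (Cardinal.natCast_lt_aleph0))
      rw [hn] at h2 h3
      norm_cast at h2 h3
      omega
    have heu0 : e u ≠ 0 := fun h0 => huw0
      (heuw.unique (by rw [h0, zero_mul]; exact (valueAt P).hasValue_zero))
    have h4 := ord_eq_zero_of_hasValue heuw huw0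
    rw [P.ord_mul heu0 hew0] at h4
    omega
  · rw [ord_eq_zero_of_hasValue hew hw0]
    rcases eq_or_ne (e u) 0 with h0 | h0
    · simp [h0]
    · have h4 := ord_nonneg_of_mem P heuw.mem
      rw [P.ord_mul h0 hew0, ord_eq_zero_of_hasValue hew hw0] at h4
      omega

end AbVar

end Fermat.Agent.AVTorsion
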