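import Fermat.Agent.AVTorsion.Integral

set_option autoImplicit false

/-!
# The function field and its local rings

Local rings inside the function field, evaluation of germs at points, and the relation "`u` is
regular at `x` with value `r`".
-/

universe u

noncomputable section

open CategoryTheory AlgebraicGeometry IsLocalRing

namespace Fermat.Agent.AVTorsion

namespace AbVar

variable {k : Type u} [Field k] [IsAlgClosed k] (X : AbVar k)

/-- The generic point. -/
def gp : X.carrier := genericPoint X.carrier

/-- The function field. -/
abbrev FF : Type u := X.carrier.functionField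

/-- The structure map of the stalk over `k`. -/
def stalkK (p : X.carrier) : CommRingCat.of k ⟶ X.carrier.presheaf.stalk p :=
  Spec.preimage (X.carrier.fromSpecStalk p ≫ X.toBase)

instance algebraStalk (p : X.carrier) : Algebra k (X.carrier.presheaf.stalk p) :=
  (X.stalkK p).hom.toAlgebra

omit [IsAlgClosed k] in
theorem specStr_stalk (p : X.carrier) :
    specStr k (X.carrier.presheaf.stalk p) = X.carrier.fromSpecStalk p ≫ X.toBase :=
  Spec.map_preimage _

instance algebraFF : Algebra k X.FF :=
  (Spec.preimage (X.carrier.fromSpecStalk (genericPoint X.carrier) ≫ X.toBase)).hom.toAlgebra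

omit [IsAlgClosed k] in
theorem algebraMap_stalk_comp {p q : X.carrier} (h : q ⤳ p) :
    X.stalkK p ≫ X.carrier.presheaf.stalkSpecializes h = X.stalkK q := by
  apply Spec.map_injective
  rw [Spec.map_comp, stalkK, stalkK, Spec.map_preimage, Spec.map_preimage,
    Scheme.SpecMap_stalkSpecializes_fromSpecStalk_assoc]

/-- The generic point specialises to every point. -/
theorem specializes_gp (p : X.carrier) : genericPoint X.carrier ⤳ p :=
  (genericPoint_spec X.carrier).specializes trivial

/-- A local ring as a subalgebra of the function field. -/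
def stalkToFF (p : X.carrier) : X.carrier.presheaf.stalk p →ₐ[k] X.FF where
  __ := (X.carrier.presheaf.stalkSpecializes (X.specializes_gp p)).hom
  commutes' c := congrArg (fun φ : CommRingCat.of k ⟶ _ => φ.hom c)
    (X.algebraMap_stalk_comp (X.specializes_gp p))

/-- Stalks inject into the function field. -/
theorem stalkToFF_injective (p : X.carrier) : Function.Injective (X.stalkToFF p) :=
  IsFractionRing.injective (X.carrier.presheaf.stalk p) X.carrier.functionField

/-- The local ring at a point, inside the function field. -/
def localRing (p : X.carrier) : Subalgebra k X.FF := (X.stalkToFF p).range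

/-- The identification of the stalk with the local ring. -/
def stalkEquiv (p : X.carrier) : X.carrier.presheaf.stalk p ≃ₐ[k] X.localRing p :=
  AlgEquiv.ofInjective (X.stalkToFF p) (X.stalkToFF_injective p)

instance (p : X.carrier) : IsLocalRing (X.localRing p) :=
  (X.stalkEquiv p).toRingEquiv.isLocalRing

/-- The function field is the fraction field of each local ring. -/
theorem isFractionRing_localRing (p : X.carrier) : IsFractionRing (X.localRing p) X.FF := by
  have h := IsLocalization.isLocalization_of_base_ringEquiv
    (nonZeroDivisors (X.carrier.presheaf.stalk p)) X.FF (X.stalkEquiv p).toRingEquiv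
  rw [MulEquivClass.map_nonZeroDivisors] at h
  convert h using 1
  refine Algebra.algebra_ext _ _ fun u => ?_
  obtain ⟨s, rfl⟩ := (X.stalkEquiv p).surjective u
  show X.stalkToFF p s = algebraMap (X.carrier.presheaf.stalk p) X.carrier.functionField
    ((X.stalkEquiv p).toRingEquiv.symm ((X.stalkEquiv p).toRingEquiv s))
  rw [RingEquiv.symm_apply_apply]
  rfl

/-- The maps to the function field commute with specialisation. -/
theorem stalkToFF_comp {p q : X.carrier} (h : q ⤳ p) (s : X.carrier.presheaf.stalk p) :
    X.stalkToFF q ((X.carrier.presheaf.stalkSpecializes h).hom s) = X.stalkToFF p s := by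
  show ((X.carrier.presheaf.stalkSpecializes h) ≫
    (X.carrier.presheaf.stalkSpecializes (X.specializes_gp q))).hom s = _
  rw [TopCat.Presheaf.stalkSpecializes_comp]
  rfl

/-- Local rings grow under generisation. -/
theorem localRing_mono {p q : X.carrier} (h : q ⤳ p) : X.localRing p ≤ X.localRing q := by
  rintro _ ⟨s, rfl⟩
  exact ⟨_, X.stalkToFF_comp h s⟩

/-- The local ring of the generic point is the function field. -/
theorem localRing_gp : X.localRing X.gp = ⊤ := by
  refine eq_top_iff.mpr fun u _ => ⟨u, ?_⟩
  show (X.carrier.presheaf.stalkSpecializes (specializes_refl (genericPoint X.carrier))).hom u = u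
  rw [TopCat.Presheaf.stalkSpecializes_refl]
  rfl

variable {X} {R S : Type u} [CommRing R] [CommRing S] [Algebra k R] [Algebra k S]
variable [IsLocalRing R] [IsLocalRing S]

/-- The image of the closed point. -/
def Pt.point (x : X.Pt R) : X.carrier := x.hom (closedPoint R)

omit [IsAlgClosed k] in
theorem Pt.algebraMap_comp_stalkMap (x : X.Pt R) :
    X.stalkK (x.hom (closedPoint R)) ≫ Scheme.stalkClosedPointTo x.hom =
      CommRingCat.ofHom (algebraMap k R) := by
  apply Spec.map_injective
  rw [Spec.map_comp, stalkK, Spec.map_preimage]
  change _ = specStr k R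
  rw [← x.hom_comp]
  exact Scheme.Spec_stalkClosedPointTo_fromSpecStalk_assoc x.hom X.toBase

/-- The value of germs at a point. -/
def Pt.stalkEval (x : X.Pt R) : X.carrier.presheaf.stalk x.point →ₐ[k] R where
  __ := (Scheme.stalkClosedPointTo x.hom).hom
  commutes' c := congrArg (fun φ : CommRingCat.of k ⟶ _ => φ.hom c) x.algebraMap_comp_stalkMap

instance (x : X.Pt R) : IsLocalHom x.stalkEval :=
  ⟨(Scheme.isLocalHom_stalkClosedPointTo' x.hom).1⟩

set_option backward.isDefEq.respectTransparency false in
omit [IsAlgClosed k] in
/-- A point is recovered from its evaluation on the stalk. -/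
theorem Pt.hom_eq (x : X.Pt R) :
    Spec.map (CommRingCat.ofHom x.stalkEval.toRingHom) ≫ X.carrier.fromSpecStalk x.point = x.hom :=
  Scheme.Spec_stalkClosedPointTo_fromSpecStalk x.hom

/-- The value of a regular function at a point. -/
def Pt.eval (x : X.Pt R) : X.localRing x.point →ₐ[k] R :=
  x.stalkEval.comp (X.stalkEquiv x.point).symm.toAlgHom

/-- Evaluation on the local ring agrees with evaluation on the stalk. -/
theorem Pt.eval_stalkEquiv (x : X.Pt R) (s : X.carrier.presheaf.stalk x.point) :
    x.eval (X.stalkEquiv x.point s) = x.stalkEval s := by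
  simp [Pt.eval]

/-- A regular function is a unit iff its value is. -/
theorem Pt.isUnit_eval_iff (x : X.Pt R) (u : X.localRing x.point) :
    IsUnit (x.eval u) ↔ IsUnit u := by
  refine ⟨fun h => ?_, fun h => h.map x.eval⟩
  have h1 : IsUnit ((X.stalkEquiv x.point).symm u) := IsUnit.of_map x.stalkEval _ h
  simpa using h1.map (X.stalkEquiv x.point)

set_option backward.isDefEq.respectTransparency false in
/-- The germ-to-point construction. -/
def ptOfStalk (p : X.carrier) (φ : X.carrier.presheaf.stalk p →ₐ[k] R) : X.Pt R :=
  Pt.mk (Spec.map (CommRingCat.ofHom φ.toRingHom) ≫ X.carrier.fromSpecStalk p) (by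
    rw [Category.assoc, ← specStr_stalk]
    show Spec.map _ ≫ Spec.map _ = Spec.map _
    rw [← Spec.map_comp, ← CommRingCat.ofHom_comp]
    exact congrArg (fun χ => Spec.map (CommRingCat.ofHom χ)) φ.comp_algebraMap)

set_option backward.isDefEq.respectTransparency false in
omit [IsAlgClosed k] in
/-- The point of a local map out of a stalk lies over that point. -/
theorem point_ptOfStalk (p : X.carrier) (φ : X.carrier.presheaf.stalk p →ₐ[k] R)
    [IsLocalHom φ.toRingHom] : (ptOfStalk p φ).point = p := by
  show (Spec.map (CommRingCat.ofHom φ.toRingHom) ≫ X.carrier.fromSpecStalk p) (closedPoint R) = p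
  rw [Scheme.Hom.comp_apply]
  exact (congrArg _ (comap_closedPoint φ.toRingHom)).trans Scheme.fromSpecStalk_closedPoint

set_option backward.isDefEq.respectTransparency false in
omit [IsAlgClosed k] in
/-- A point with values in a local ring is determined by a homomorphism out of a local ring at a
specialisation of its image. -/
theorem Pt.eval_unique (x : X.Pt R) {q : X.carrier} (h : x.point ⤳ q)
    (φ : X.carrier.presheaf.stalk q →ₐ[k] R) (hx : x = ptOfStalk q φ)
    (s : X.carrier.presheaf.stalk q) :
    x.stalkEval ((X.carrier.presheaf.stalkSpecializes h).hom s) = φ s := by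
  have h1 : Spec.map (X.carrier.presheaf.stalkSpecializes h ≫
      CommRingCat.ofHom x.stalkEval.toRingHom) ≫ X.carrier.fromSpecStalk q =
      Spec.map (CommRingCat.ofHom φ.toRingHom) ≫ X.carrier.fromSpecStalk q := by
    rw [Spec.map_comp, Category.assoc, Scheme.SpecMap_stalkSpecializes_fromSpecStalk, x.hom_eq]
    exact congrArg Pt.hom hx
  rw [cancel_mono] at h1
  exact congrArg (fun χ : X.carrier.presheaf.stalk q ⟶ CommRingCat.of R => χ.hom s)
    (Spec.map_injective h1)

set_option backward.isDefEq.respectTransparency false in
omit [IsAlgClosed k] [IsLocalRing S] in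
theorem Pt.map_eq_ptOfStalk (φ : R →ₐ[k] S) (x : X.Pt R) :
    Pt.map φ x = ptOfStalk x.point (φ.comp x.stalkEval) := by
  apply Pt.ext
  rw [Pt.hom_map]
  conv_lhs => rw [← x.hom_eq]
  rw [← Category.assoc, ← Spec.map_comp]
  rfl

omit [IsAlgClosed k] in
/-- Pushing a point along an algebra map generises its image. -/
theorem Pt.point_map_specializes (φ : R →ₐ[k] S) (x : X.Pt R) :
    (Pt.map φ x).point ⤳ x.point := by
  show x.hom _ ⤳ x.hom _
  exact (IsLocalRing.specializes_closedPoint _).map x.hom.continuous

omit [IsAlgClosed k] in
/-- Pushing a point along a local map keeps its image. -/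
theorem Pt.point_map_of_isLocalHom (φ : R →ₐ[k] S) [IsLocalHom φ.toRingHom] (x : X.Pt R) :
    (Pt.map φ x).point = x.point := by
  show x.hom _ = x.hom _
  exact congrArg _ (comap_closedPoint φ.toRingHom)

theorem Pt.localRing_le_map (φ : R →ₐ[k] S) (x : X.Pt R) :
    X.localRing x.point ≤ X.localRing (Pt.map φ x).point :=
  X.localRing_mono (Pt.point_map_specializes φ x)

/-- Evaluation commutes with pushing points along algebra maps. -/
theorem Pt.eval_map (φ : R →ₐ[k] S) (x : X.Pt R) (u : X.localRing x.point) :
    (Pt.map φ x).eval (Subalgebra.inclusion (Pt.localRing_le_map φ x) u) = φ (x.eval u) := by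
  obtain ⟨s, rfl⟩ := (X.stalkEquiv x.point).surjective u
  rw [x.eval_stalkEquiv]
  have : Subalgebra.inclusion (Pt.localRing_le_map φ x) (X.stalkEquiv x.point s) =
      X.stalkEquiv _ ((X.carrier.presheaf.stalkSpecializes
        (Pt.point_map_specializes φ x)).hom s) :=
    Subtype.ext (X.stalkToFF_comp _ s).symm
  rw [this, Pt.eval_stalkEquiv]
  exact Pt.eval_unique _ _ _ (Pt.map_eq_ptOfStalk φ x) s

/-- The relation "the function `u` is regular at `x` with value `r`". -/
def Pt.HasValue (x : X.Pt R) (u : X.FF) (r : R) : Prop :=
  ∃ h : u ∈ X.localRing x.point, x.eval ⟨u, h⟩ = r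

/-- Values are transported along algebra maps. -/
theorem Pt.HasValue.map {x : X.Pt R} {u : X.FF} {r : R} (h : x.HasValue u r) (φ : R →ₐ[k] S) :
    (Pt.map φ x).HasValue u (φ r) := by
  obtain ⟨h, rfl⟩ := h
  exact ⟨Pt.localRing_le_map φ x h, Pt.eval_map φ x ⟨u, h⟩⟩

/-- The value of a function at a point is unique. -/
theorem Pt.HasValue.unique {x : X.Pt R} {u : X.FF} {r r' : R} (h : x.HasValue u r)
    (h' : x.HasValue u r') : r = r' := by
  obtain ⟨h, rfl⟩ := h
  obtain ⟨h', rfl⟩ := h'
  rfl

variable (X)

/-- The generic point, as a point over the function field. -/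
def η : X.Pt X.FF :=
  Pt.mk (X.carrier.fromSpecStalk (genericPoint X.carrier)) (Spec.map_preimage _).symm

/-- The generic point lies over the generic point of the scheme. -/
theorem point_η : X.η.point = X.gp := Scheme.fromSpecStalk_closedPoint

/-- The tautological point over a local ring. -/
def taut (p : X.carrier) : X.Pt (X.localRing p) :=
  ptOfStalk p (X.stalkEquiv p).toAlgHom

set_option backward.isDefEq.respectTransparency false in
/-- The tautological point becomes the generic point over the function field. -/
theorem map_val_taut (p : X.carrier) : Pt.map (X.localRing p).val (X.taut p) = X.η := by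
  apply Pt.ext
  rw [Pt.hom_map, taut, ptOfStalk, Pt.hom_mk, ← Category.assoc, ← Spec.map_comp]
  exact X.carrier.SpecMap_stalkSpecializes_fromSpecStalk (X.specializes_gp p)

variable {X}

set_option backward.isDefEq.respectTransparency false in
/-- Every point is the image of the tautological point by evaluation. -/
theorem Pt.map_eval_taut (x : X.Pt R) : Pt.map x.eval (X.taut x.point) = x := by
  apply Pt.ext
  rw [Pt.hom_map, taut, ptOfStalk, Pt.hom_mk, ← Category.assoc, ← Spec.map_comp]
  conv_rhs => rw [← x.hom_eq]
  congr 2
  ext s
  exact x.eval_stalkEquiv s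

/-- A point is determined by its image and its values. -/
theorem Pt.eq_of_eval {x y : X.Pt R} (h : x.point = y.point)
    (he : ∀ u r, x.HasValue u r → y.HasValue u r) : x = y := by
  rw [← x.map_eval_taut, ← y.map_eval_taut]
  have key : ∀ (p : X.carrier) (hp : y.point = p),
      Pt.map y.eval (X.taut y.point) =
        Pt.map (y.eval.comp (Subalgebra.inclusion (le_of_eq (congrArg X.localRing hp.symm))))
          (X.taut p) := by
    rintro _ rfl; rfl
  rw [key x.point h.symm]
  refine congrArg (fun χ => Pt.map χ (X.taut x.point)) (AlgHom.ext fun u => ?_)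
  obtain ⟨_, hu⟩ := he u (x.eval u) ⟨u.2, rfl⟩
  exact hu.symm

/-- For a generic point, evaluation is an embedding of the function field. -/
def Pt.evalGen (x : X.Pt R) (hx : x.point = X.gp) : X.FF →ₐ[k] R :=
  x.eval.comp ((Subalgebra.inclusion (le_of_eq ((congrArg X.localRing hx).trans X.localRing_gp).symm)).comp
    Subalgebra.topEquiv.symm.toAlgHom)

/-- Every function has a value at a point over the generic point. -/
theorem Pt.hasValue_evalGen (x : X.Pt R) (hx : x.point = X.gp) (u : X.FF) :
    x.HasValue u (x.evalGen hx u) :=
  ⟨by rw [hx, X.localRing_gp]; trivial, rfl⟩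

end AbVar

end Fermat.Agent.AVTorsion
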