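import Fermat.Agent.AVTorsion.Reduce
import Fermat.Agent.ConstReduction.Regular

set_option autoImplicit false

/-!
# Reduction of points on constant extensions of curves

Reduction along composite valuations, at Gauss valuations and at reduced places.
-/

universe u

noncomputable section

open CategoryTheory AlgebraicGeometry Fermat.Agent.ConstReduction AlgebraicCurve
open Fermat.Agent.FunctionField

namespace Fermat.Agent.AVTorsion.AbVar

variable {k : Type u} [Field k] [IsAlgClosed k] {X : AbVar k}

omit [IsAlgClosed k] in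
/-- Reduction along a composite valuation is reduction in two steps. -/
theorem Pt.reduce_comp {Ω F L : Type u} [Field Ω] [Field F] [Field L] [Algebra k Ω] [Algebra k F]
    [Algebra k L] [Algebra Ω F] [Algebra F L] [Algebra Ω L] [IsScalarTower Ω F L]
    [IsScalarTower k Ω F] [IsScalarTower k F L] [IsScalarTower k Ω L]
    (A : RatVal F L) (B : RatVal Ω F) (x : X.Pt L) :
    Pt.reduce (A.comp B) x = Pt.reduce B (Pt.reduce A x) := by
  have hA : ∀ r : (A.comp B).ring, ∃ c, A.HasValue (r : L) c ∧ B.HasValue c ((A.comp B).red r) :=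
    fun r => RatVal.hasValue_comp.mp (A.comp B).red_eq
  have hmem : ∀ r : (A.comp B).ring, (r : L) ∈ A.ring := fun r => (hA r).choose_spec.1.mem
  let incl : (A.comp B).ring →ₐ[k] A.ring :=
    { (A.comp B).ring.subtype.codRestrict A.ring.toSubring hmem with
      commutes' := fun c => Subtype.ext (by
        show ratValIncl (k := k) (A.comp B) (algebraMap k _ c) =
          ratValIncl (k := k) A (algebraMap k _ c)
        rw [AlgHom.commutes, AlgHom.commutes]) }
  have hmemB : ∀ r, ratValRed (k := k) A (incl r) ∈ B.ring := fun r => by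
    obtain ⟨c, hc, hc'⟩ := hA r
    have h0 : A.HasValue (r : L) (ratValRed (k := k) A (incl r)) := ⟨hmem r, rfl⟩
    exact h0.unique hc ▸ hc'.mem
  let ρ : (A.comp B).ring →ₐ[k] B.ring :=
    { ((ratValRed A).comp incl).toRingHom.codRestrict B.ring.toSubring hmemB with
      commutes' := fun c => Subtype.ext (by
        show ratValRed (k := k) A (incl (algebraMap k _ c)) =
          ratValIncl (k := k) B (algebraMap k _ c)
        rw [AlgHom.commutes, AlgHom.commutes, AlgHom.commutes]) }
  have h1 : (ratValIncl A).comp incl = ratValIncl (k := k) (A.comp B) := AlgHom.ext fun _ => rfl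
  have h2 : (ratValIncl B).comp ρ = (ratValRed A).comp incl := AlgHom.ext fun _ => rfl
  have h3 : (ratValRed B).comp ρ = ratValRed (k := k) (A.comp B) := AlgHom.ext fun r => by
    obtain ⟨c, hc, hc'⟩ := hA r
    have h0 : A.HasValue (r : L) (ratValRed (k := k) A (incl r)) := ⟨hmem r, rfl⟩
    refine RatVal.HasValue.unique (A := B) (x := c) ?_ hc'
    rw [← h0.unique hc]
    exact B.red_eq (x := ρ r)
  have hy := Pt.map_lift (A.comp B) x
  rw [← h1, ← Pt.map_map] at hy
  rw [Pt.reduce_eq hy, Pt.map_map,
    Pt.reduce_eq (y := Pt.map ρ (Pt.lift (A.comp B) x)) (by rw [Pt.map_map, h2]), Pt.map_map, h3]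
  rfl

variable {Ω K F L : Type u} [Field Ω] [Field K] [Field F] [Field L] [Algebra Ω K] [Algebra Ω F]
  [Algebra Ω L] [Algebra F L] [Algebra K L] [IsScalarTower Ω F L] [IsScalarTower Ω K L]
  [Algebra k Ω] [Algebra k K] [Algebra k F] [Algebra k L] [IsScalarTower k Ω K]
  [IsScalarTower k Ω F] [IsScalarTower k F L] [IsScalarTower k K L] [IsScalarTower k Ω L]
  [IsAlgClosed Ω] [IsAlgClosed F] [IsFunctionField Ω K] [IsFunctionField F L]

omit [IsAlgClosed k] in
/-- Reduction of a point of `K` at the reduced place. -/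
theorem Pt.reduce_redPlace (B : RatVal Ω F) (P : Place F L) (φ : X.Pt K) :
    Pt.reduce (valueAt (redPlace B P : Place Ω K)) φ =
      Pt.reduce B (Pt.reduce (valueAt P) (Pt.map (IsScalarTower.toAlgHom k K L) φ)) := by
  rw [← Pt.reduce_comp (valueAt P) B,
    Pt.reduce_natural (valueAt (redPlace B P : Place Ω K)) ((valueAt P).comp B)
      (IsScalarTower.toAlgHom k K L) (AlgHom.id k Ω)
      (fun r c h => RatVal.hasValue_comp.mpr ((valueAt_redPlace_hasValue_iff B P).mp h)) φ,
    Pt.map_id]

variable [IsConstExt Ω K F L]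

omit [IsScalarTower k Ω L] [IsAlgClosed Ω] [IsAlgClosed F] [IsFunctionField Ω K]
  [IsFunctionField F L] [IsAlgClosed k] in
/-- The Gauss reduction of a constant point. -/
theorem Pt.reduce_gauss_const (B : RatVal Ω F) (a : X.Pt F) :
    Pt.reduce (gauss (K := K) (L := L) B) (Pt.map (IsScalarTower.toAlgHom k F L) a) =
      Pt.map (IsScalarTower.toAlgHom k Ω K) (Pt.reduce B a) :=
  Pt.reduce_natural B (gauss B) (IsScalarTower.toAlgHom k F L) (IsScalarTower.toAlgHom k Ω K)
    (fun _ _ h => gauss_hasValue_algebraMap B h) a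

omit [IsScalarTower k Ω L] [IsAlgClosed Ω] [IsAlgClosed F] [IsFunctionField Ω K]
  [IsFunctionField F L] [IsAlgClosed k] in
/-- The Gauss reduction of a translate. -/
theorem Pt.reduce_gauss_add (B : RatVal Ω F) (φ : X.Pt K) (a : X.Pt F) :
    Pt.reduce (gauss (K := K) (L := L) B) (Pt.map (IsScalarTower.toAlgHom k K L) φ +
      Pt.map (IsScalarTower.toAlgHom k F L) a) =
      φ + Pt.map (IsScalarTower.toAlgHom k Ω K) (Pt.reduce B a) := by
  rw [map_add, Pt.reduce_gauss_const, Pt.reduce_map]

omit [IsConstExt Ω K F L] [IsAlgClosed k] in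
/-- The value of a translate at a place, reduced, is the value of the reduced translate at the
reduced place. -/
theorem Pt.reduce_valueAt_add (B : RatVal Ω F) (P : Place F L) (φ : X.Pt K) (a : X.Pt F) :
    Pt.reduce B (Pt.reduce (valueAt P) (Pt.map (IsScalarTower.toAlgHom k K L) φ +
      Pt.map (IsScalarTower.toAlgHom k F L) a)) =
      Pt.reduce (valueAt (redPlace B P : Place Ω K))
        (φ + Pt.map (IsScalarTower.toAlgHom k Ω K) (Pt.reduce B a)) := by
  rw [map_add, map_add, Pt.reduce_map, map_add, Pt.reduce_map, Pt.reduce_redPlace B P]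

end Fermat.Agent.AVTorsion.AbVar
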