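import Fermat.Agent.AVTorsion.Den
import Fermat.Agent.AVTorsion.ReduceCurve
import Fermat.Agent.ConstReduction.Constants

set_option autoImplicit false

/-!
# Pullbacks of pole divisors

The pullback of the pole divisor of a function along a point with values in a function field of
one variable, its class and its degree (the height), and their behaviour under reduction of
constants.
-/

universe u

noncomputable section

open CategoryTheory AlgebraicGeometry AlgebraicCurve Fermat.Agent.ConstReduction
open Fermat.Agent.FunctionField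

namespace Fermat.Agent.AVTorsion.AbVar

/-- A function with nonzero value at a place has order `0` there. -/
theorem ord_eq_zero_of_hasValue {F L : Type u} [Field F] [Field L] [Algebra F L] [IsAlgClosed F]
    [IsFunctionField F L] {P : Place F L} {x : L} {c : F} (h : (valueAt P).HasValue x c)
    (hc : c ≠ 0) : P.ord x = 0 := by
  refine le_antisymm ?_ (ord_nonneg_of_mem P h.mem)
  by_contra hlt
  exact hc (h.unique ((valueAt_hasValue_zero_iff P (h.ne_zero hc)).mpr (not_le.mp hlt)))

variable {k : Type u} [Field k] [IsAlgClosed k] {X : AbVar k} {F L : Type u} [Field F] [Field L]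
  [Algebra k F] [Algebra k L] [Algebra F L] [IsScalarTower k F L] [IsAlgClosed F]
  [IsFunctionField F L]

/-- The value of a point at a place. -/
abbrev valPt (T : X.Pt L) (P : Place F L) : X.Pt F := Pt.reduce (valueAt P) T

/-- A denominator at the value of a point at a place is one at the point. -/
theorem IsDen.of_valPt {u w : X.FF} {T : X.Pt L} {P : Place F L}
    (hw : IsDen u (valPt T P).point w) : IsDen u T.point w :=
  hw.mono (Pt.point_specializes_reduce (valueAt P) T)

/-- The multiplicity at `P` of the pullback of the poles of `u` along `T`. -/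
def pullFun (u : X.FF) (T : X.Pt L) (P : Place F L) : ℤ :=
  P.ord (T.val (den u (valPt T P).point / den u T.point))

theorem ord_val_div {u w z : X.FF} (T : X.Pt L) (P : Place F L)
    (hw : IsDen u (valPt T P).point w) (hz : IsDen u T.point z) :
    P.ord (T.val (w / z)) = pullFun u T P + P.ord (T.val (den u T.point / z)) := by
  have hy := isDen_den u (valPt T P).point
  have hT := isDen_den u T.point
  obtain ⟨r, hr, hrP⟩ := Pt.hasValue_of_reduce
    ((valPt T P).hasValue_val (hy.div_mem hw))
  have h0 : P.ord (T.val (w / den u (valPt T P).point)) = 0 := by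
    rw [hr.val_eq]
    exact ord_eq_zero_of_hasValue hrP (hw.val_div_ne_zero _ hy)
  rw [T.val_div_mul_div hw.of_valPt hy.of_valPt hz,
    P.ord_mul (hw.of_valPt.val_div_ne_zero _ hy.of_valPt) (hy.of_valPt.val_div_ne_zero _ hz), h0,
    zero_add, T.val_div_mul_div hy.of_valPt hT hz,
    P.ord_mul (hy.of_valPt.val_div_ne_zero _ hT) (hT.val_div_ne_zero _ hz)]
  rfl

/-- Any denominator at the value computes the pullback at that place. -/
theorem pullFun_eq {u w : X.FF} (T : X.Pt L) (P : Place F L)
    (hw : IsDen u (valPt T P).point w) :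
    pullFun u T P = P.ord (T.val (w / den u T.point)) := by
  rw [ord_val_div T P hw (isDen_den u T.point), div_self (isDen_den u T.point).ne_zero,
    Pt.val_one, Place.ord_one, add_zero]

/-- Finitely many places see the specialisation of the denominator. -/
theorem finite_not_isDen (u : X.FF) (T : X.Pt L) :
    {P : Place F L | ¬ IsDen u (valPt T P).point (den u T.point)}.Finite := by
  classical
  obtain ⟨V, hV, hp, _, _, _⟩ := X.exists_chart T.point
  have := X.finiteType_chart (V := V)
  have : IsNoetherianRing Γ(X.carrier, V) := Algebra.FiniteType.isNoetherianRing k _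
  set S := Γ(X.carrier, V)
  set w := den u T.point
  have hw : IsDen u T.point w := isDen_den u T.point
  let ι := X.secFF V T.point hp
  have hι : ∀ s, ι s ∈ X.localRing T.point := fun s => ⟨_, rfl⟩
  -- the ideal of denominators on the chart
  let I : Ideal S :=
    { carrier := {s | u * ι s ∈ ι.range}
      add_mem' := fun {a b} ha hb => by
        show u * ι (a + b) ∈ ι.range
        rw [map_add, mul_add]; exact add_mem ha hb
      zero_mem' := by
        show u * ι 0 ∈ ι.range
        rw [map_zero, mul_zero]; exact zero_mem _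
      smul_mem' := fun c a ha => by
        show u * ι (c • a) ∈ ι.range
        rw [smul_eq_mul, map_mul, mul_left_comm]; exact mul_mem ⟨c, rfl⟩ ha }
  obtain ⟨G, hG⟩ := IsNoetherian.noetherian I
  -- elements regular at `T.point` are fractions of sections
  have hfrac : ∀ x ∈ X.localRing T.point, ∃ a b, (ι b)⁻¹ ∈ X.localRing T.point ∧ ι b ≠ 0 ∧
      x * ι b = ι a := by
    rintro _ ⟨o, rfl⟩
    obtain ⟨a, b, hb, hab⟩ := X.exists_germ_mul hV T.point hp o
    obtain ⟨c, hc⟩ := hb.exists_right_inv
    refine ⟨a, b, ⟨c, (inv_eq_of_mul_eq_one_right ?_).symm⟩, (hb.map (X.stalkToFF T.point)).ne_zero, ?_⟩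
    · show X.stalkToFF T.point (X.germAlg V T.point hp b) * X.stalkToFF T.point c = 1
      rw [← map_mul, hc, map_one]
    · show X.stalkToFF T.point o * X.stalkToFF T.point _ = X.stalkToFF T.point _
      rw [← map_mul]; exact congrArg _ hab
  let good : Finset X.FF := insert w (insert (u * w) (G.image fun g => ι g / w))
  have hgood : ∀ x ∈ good, x ∈ X.localRing T.point := by
    intro x hx
    simp only [good, Finset.mem_insert, Finset.mem_image] at hx
    rcases hx with rfl | rfl | ⟨g, hg, rfl⟩
    · exact hw.mem
    · exact hw.mem_mul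
    · have : g ∈ I := hG ▸ Submodule.subset_span hg
      obtain ⟨s, hs⟩ := this
      exact hw.dvd _ (hι g) (hs ▸ hι s)
  choose! a b hb hb0 hab using fun x hx => hfrac x (hgood x hx)
  obtain ⟨t, ht⟩ := (Algebra.FiniteType.out : (⊤ : Subalgebra k S).FG)
  let ev : S →ₐ[k] L := T.stalkEval.comp (X.germAlg V T.point hp)
  let bad : Set (Place F L) := (⋃ s ∈ t, {P | P.ord (ev s) ≠ 0}) ∪
    ⋃ x ∈ good, {P | P.ord (ev (b x)) ≠ 0}
  have hbad : bad.Finite := (t.finite_toSet.biUnion fun s _ => finite_ord_ne_zero (ev s)).union
    (good.finite_toSet.biUnion fun x _ => finite_ord_ne_zero (ev (b x)))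
  refine hbad.subset fun P hP => by_contra fun hPbad => hP ?_
  simp only [bad, Set.mem_union, Set.mem_iUnion, Set.mem_ofPred_eq, not_or, not_exists,
    not_not] at hPbad
  obtain ⟨hPt, hPb⟩ := hPbad
  -- the point at `P` lies in the chart
  let O : Subalgebra k L :=
    { (valueAt P).ring.toSubring with
      algebraMap_mem' := fun c => by
        rw [IsScalarTower.algebraMap_apply k F L]
        exact P.algebraMap_mem' _ }
  have hev : ∀ s, ev s ∈ (valueAt P).ring := by
    intro s
    suffices h : (⊤ : Subalgebra k S) ≤ O.comap ev from h (Algebra.mem_top (x := s))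
    rw [← ht, Algebra.adjoin_le_iff]
    intro s hs
    show ev s ∈ (valueAt P).ring
    rcases eq_or_ne (ev s) 0 with h0 | h0
    · rw [h0]; exact zero_mem _
    · refine (mem_iff_adicValuation_le_one P).mpr ?_
      rw [P.adicValuation_eq_exp_neg_ord h0, hPt s hs]
      simp
  let φ : S →ₐ[k] (valueAt P).ring :=
    { ev.toRingHom.codRestrict (valueAt P).ring.toSubring hev with
      commutes' := fun c => Subtype.ext (by
        show ev (algebraMap k S c) = ratValIncl (k := k) (valueAt P) (algebraMap k _ c)
        rw [AlgHom.commutes, AlgHom.commutes]) }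
  obtain ⟨y, hy, hyV⟩ := exists_point_of_sections (ratValIncl (valueAt P)) hV T hp φ fun _ => rfl
  have hpt : (valPt T P).point = y.point := by
    rw [valPt, Pt.reduce_eq hy, Pt.point_map_of_isLocalHom]
  set p' := (valPt T P).point
  have hp' : p' ∈ V := hpt ▸ hyV
  have hι' : ∀ s, ι s ∈ X.localRing p' := fun s =>
    secFF_eq_secFF hp' hp s ▸ ⟨_, rfl⟩
  have hreg : ∀ x ∈ good, x ∈ X.localRing p' := by
    intro x hx
    have hv : (valPt T P).val (ι (b x)) ≠ 0 := by
      intro h0
      obtain ⟨r, hr, hrP⟩ := Pt.hasValue_of_reduce ((valPt T P).hasValue_val (hι' (b x)))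
      have he : T.val (ι (b x)) = ev (b x) := by
        rw [Pt.val, dif_pos (hι (b x))]
        exact T.eval_stalkEquiv _
      rw [hr.val_eq] at he
      have hne : ev (b x) ≠ 0 := by
        rw [← he, ← hr.val_eq]
        exact T.val_ne_zero (hb0 x hx) (hι _) (hb x hx)
      rw [h0, he, valueAt_hasValue_zero_iff P hne] at hrP
      exact hrP.ne' (hPb x hx)
    have hinv := (valPt T P).inv_mem_of_val_ne_zero (hι' _) hv
    have := mul_mem (hι' (a x)) hinv
    rwa [← hab x hx, mul_inv_cancel_right₀ (hb0 x hx)] at this
  refine ⟨hreg w (by simp [good]), hreg _ (by simp [good]), hw.ne_zero, fun d hd hud => ?_⟩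
  obtain ⟨o, rfl⟩ := hd
  obtain ⟨o', ho'⟩ := hud
  replace ho' : X.stalkToFF p' o' = u * X.stalkToFF p' o := ho'
  obtain ⟨a₁, b₁, hb₁, h₁⟩ := X.exists_germ_mul hV p' hp' o
  obtain ⟨a₂, b₂, hb₂, h₂⟩ := X.exists_germ_mul hV p' hp' o'
  have e : ∀ s, ι s = X.stalkToFF p' (X.germAlg V p' hp' s) := fun s =>
    secFF_eq_secFF hp hp' s
  have e₁ : X.stalkToFF p' o * ι b₁ = ι a₁ := by rw [e, e, ← map_mul]; exact congrArg _ h₁
  have e₂ : u * X.stalkToFF p' o * ι b₂ = ι a₂ := by
    rw [← ho', e, e]
    exact (map_mul (X.stalkToFF p') _ _).symm.trans (congrArg _ h₂)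
  have hI : a₁ * b₂ ∈ I := ⟨a₂ * b₁, by
    show ι (a₂ * b₁) = u * ι (a₁ * b₂)
    rw [map_mul, map_mul, ← e₁, ← e₂]; ring⟩
  rw [← hG] at hI
  have key : ι (a₁ * b₂) / w ∈ X.localRing p' := by
    refine Submodule.span_induction (p := fun s _ => ι s / w ∈ X.localRing p') ?_ ?_ ?_ ?_ hI
    · intro g hg
      exact hreg _ (by simp only [good, Finset.mem_insert, Finset.mem_image]; exact Or.inr (Or.inr ⟨g, hg, rfl⟩))
    · simp
    · intro x y _ _ hx hy
      rw [map_add, add_div]; exact add_mem hx hy
    · intro c x _ hx
      rw [smul_eq_mul, map_mul, mul_div_assoc]; exact mul_mem (hι' c) hx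
  obtain ⟨c₁, hc₁⟩ := (hb₁.mul hb₂).exists_right_inv
  have hc : ι (b₁ * b₂) * X.stalkToFF p' c₁ = 1 := by
    rw [e, map_mul (X.germAlg V p' hp'), ← map_mul]
    exact (congrArg _ hc₁).trans (map_one _)
  have := mul_mem key (show X.stalkToFF p' c₁ ∈ X.localRing p' from ⟨_, rfl⟩)
  convert this using 1
  rw [map_mul, ← e₁]
  calc X.stalkToFF p' o / w
      = X.stalkToFF p' o / w * (ι (b₁ * b₂) * X.stalkToFF p' c₁) := by rw [hc, mul_one]
    _ = _ := by rw [map_mul]; ring

theorem finite_support_pullFun (u : X.FF) (T : X.Pt L) :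
    (Function.support fun P : Place F L => pullFun u T P).Finite := by
  refine (finite_not_isDen u T).subset fun P hP => fun h => hP ?_
  show pullFun u T P = 0
  rw [pullFun_eq T P h, div_self (isDen_den u T.point).ne_zero, Pt.val_one, Place.ord_one]

/-- The pullback of the pole divisor of `u` along `T`. -/
def pull (F : Type u) {L : Type u} [Field F] [Field L] [Algebra k F] [Algebra k L] [Algebra F L]
    [IsScalarTower k F L] [IsAlgClosed F] [IsFunctionField F L] (u : X.FF) (T : X.Pt L) :
    Divisor F L :=
  Finsupp.ofSupportFinite _ (finite_support_pullFun u T)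

/-- The pullback divisor is given place by place by `pullFun`. -/
theorem pull_apply (u : X.FF) (T : X.Pt L) (P : Place F L) : pull F u T P = pullFun u T P := rfl

/-- The class of the pullback. -/
def cls (F : Type u) {L : Type u} [Field F] [Field L] [Algebra k F] [Algebra k L] [Algebra F L]
    [IsScalarTower k F L] [IsAlgClosed F] [IsFunctionField F L] (u : X.FF) (T : X.Pt L) :
    Pic F L := QuotientAddGroup.mk (pull F u T)

/-- The degree of the pullback. -/
def height (F : Type u) {L : Type u} [Field F] [Field L] [Algebra k F] [Algebra k L] [Algebra F L]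
    [IsScalarTower k F L] [IsAlgClosed F] [IsFunctionField F L] (u : X.FF) (T : X.Pt L) : ℤ :=
  Divisor.degree (pull F u T : Divisor F L)

omit [IsAlgClosed F] in
/-- The divisor of a nonzero function is principal. -/
theorem divFun_mem_principal {f : L} (hf : f ≠ 0) :
    divFun F f ∈ Divisor.principal (K := F) (F := L) := ⟨f, hf, fun v => divFun_apply f v⟩

omit [IsAlgClosed F] in
/-- A principal divisor is the divisor of a function. -/
theorem exists_eq_divFun_of_mem_principal {D : Divisor F L}
    (hD : D ∈ Divisor.principal (K := F) (F := L)) : ∃ f : L, f ≠ 0 ∧ D = divFun F f := by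
  obtain ⟨f, hf, h⟩ := hD
  exact ⟨f, hf, Finsupp.ext fun v => (h v).trans (divFun_apply f v).symm⟩

omit [IsAlgClosed F] in
theorem degree_eq_of_mk_eq {D E : Divisor F L}
    (h : (QuotientAddGroup.mk D : Pic F L) = QuotientAddGroup.mk E) :
    Divisor.degree D = Divisor.degree E := by
  obtain ⟨f, -, hf⟩ := exists_eq_divFun_of_mem_principal (QuotientAddGroup.eq.mp h)
  have := congrArg Divisor.degree hf
  rw [degree_divFun, map_add, map_neg] at this
  omega

/-- A change of normalisation. -/
theorem exists_pull_eq_of_den {u z : X.FF} (T : X.Pt L) (hz : IsDen u T.point z) :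
    ∀ P : Place F L, ∀ w, IsDen u (valPt T P).point w →
      (pull F u T + divFun F (T.val (den u T.point / z)) : Divisor F L) P = P.ord (T.val (w / z)) := by
  intro P w hw
  rw [Finsupp.add_apply, pull_apply, divFun_apply, ord_val_div T P hw hz]

/-- Constant points have trivial pullback. -/
theorem pull_map_const (u : X.FF) (c : X.Pt F) :
    pull F u (Pt.map (IsScalarTower.toAlgHom k F L) c) = (0 : Divisor F L) := by
  ext P
  have : IsLocalHom (IsScalarTower.toAlgHom k F L).toRingHom :=
    ⟨fun x hx => isUnit_iff_ne_zero.mpr fun h0 => hx.ne_zero (by simp [h0])⟩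
  rw [pull_apply, pullFun, valPt, Pt.reduce_map, Pt.point_map_of_isLocalHom,
    div_self (isDen_den u _).ne_zero, Pt.val_one, Place.ord_one]
  rfl

section Reduction

variable {Ω K : Type u} [Field Ω] [Field K] [Algebra Ω K] [Algebra Ω F] [Algebra Ω L] [Algebra K L]
  [IsScalarTower Ω F L] [IsScalarTower Ω K L] [Algebra k Ω] [Algebra k K] [IsScalarTower k Ω K]
  [IsScalarTower k Ω F] [IsScalarTower k K L] [IsScalarTower k Ω L] [IsAlgClosed Ω]
  [IsFunctionField Ω K] [IsConstExt Ω K F L]

variable (K L) in
/-- Reduction of divisor classes. -/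
def redPic (B : RatVal Ω F) : Pic F L →+ Pic Ω K :=
  QuotientAddGroup.map _ _ (redDiv B) fun D hD => by
    obtain ⟨f, hf, rfl⟩ := exists_eq_divFun_of_mem_principal hD
    obtain ⟨g, hg, h⟩ := exists_redDiv_divFun_eq (K := K) B hf
    show redDiv B (divFun F f) ∈ Divisor.principal
    rw [h]
    exact divFun_mem_principal hg

/-- Reduction of a divisor class is reduction of the divisor. -/
theorem redPic_mk (B : RatVal Ω F) (D : Divisor F L) :
    redPic L K B (QuotientAddGroup.mk D) = QuotientAddGroup.mk (redDiv B D) := rfl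

/-- The class of the pullback along a translate reduces to the class along the reduced
translate. -/
theorem redPic_cls (u : X.FF) (B : RatVal Ω F) (φ : X.Pt K) (a : X.Pt F) :
    redPic L K B (cls F u (Pt.map (IsScalarTower.toAlgHom k K L) φ +
      Pt.map (IsScalarTower.toAlgHom k F L) a)) =
      cls Ω u (φ + Pt.map (IsScalarTower.toAlgHom k Ω K) (Pt.reduce B a)) := by
  classical
  set T := Pt.map (IsScalarTower.toAlgHom k K L) φ + Pt.map (IsScalarTower.toAlgHom k F L) a
    with hTdef
  set T₀ := φ + Pt.map (IsScalarTower.toAlgHom k Ω K) (Pt.reduce B a) with hT₀def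
  have hTT₀ : Pt.reduce (gauss (K := K) (L := L) B) T = T₀ := Pt.reduce_gauss_add B φ a
  set z := den u T₀.point
  have hz₀ : IsDen u T₀.point z := isDen_den u _
  have hz : IsDen u T.point z := hz₀.mono (hTT₀ ▸ Pt.point_specializes_reduce (gauss B) T)
  set f := T.val (den u T.point / z)
  have hf : f ≠ 0 := (isDen_den u T.point).val_div_ne_zero _ hz
  have key : redDiv B (pull F u T + divFun F f) = (pull Ω u T₀ : Divisor Ω K) := by
    ext q
    set w := den u (valPt T₀ q).point
    have hw : IsDen u (valPt T₀ q).point w := isDen_den u _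
    have hval : (gauss B).HasValue (T.val (w / z)) (T₀.val (w / z)) := by
      obtain ⟨r, hr, hrB⟩ := Pt.hasValue_of_reduce (B := gauss (K := K) (L := L) B) (x := T)
        (u := w / z) (c := T₀.val (w / z))
        (by rw [hTT₀]; exact T₀.hasValue_val (hz₀.div_mem hw.of_valPt))
      rw [hr.val_eq]
      exact hrB
    have hne : T₀.val (w / z) ≠ 0 := hw.of_valPt.val_div_ne_zero _ hz₀
    have hfib : ∀ P, redPlace B P = q →
        (pull F u T + divFun F f) P = divFun F (T.val (w / z)) P := by
      intro P hP
      rw [divFun_apply]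
      refine exists_pull_eq_of_den T hz P w (hw.mono ?_)
      have := Pt.point_specializes_reduce B (valPt T P)
      rwa [valPt, hTdef, Pt.reduce_valueAt_add B P φ a, hP, ← hT₀def] at this
    have h1 : redDiv B (pull F u T + divFun F f) q = redDiv B (divFun F (T.val (w / z))) q := by
      have h2 := redDiv_apply_nonneg B (q := q)
        (D := pull F u T + divFun F f - divFun F (T.val (w / z)))
        fun P hP => by rw [Finsupp.sub_apply, hfib P hP, sub_self]
      have h3 := redDiv_apply_nonneg B (q := q)
        (D := divFun F (T.val (w / z)) - (pull F u T + divFun F f))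
        fun P hP => by rw [Finsupp.sub_apply, hfib P hP, sub_self]
      rw [map_sub, Finsupp.sub_apply] at h2 h3
      omega
    rw [h1, redDiv_divFun B hval hne, divFun_apply, pull_apply]
    rfl
  obtain ⟨g, hg, hfg⟩ := exists_redDiv_divFun_eq (K := K) B hf
  rw [map_add, hfg] at key
  show (QuotientAddGroup.mk (redDiv B (pull F u T)) : Pic Ω K) = QuotientAddGroup.mk (pull Ω u T₀)
  rw [QuotientAddGroup.eq, ← key, ← add_assoc, neg_add_cancel, zero_add]
  exact divFun_mem_principal hg

theorem redPic_degree {D : Divisor F L} {E : Divisor Ω K} {B : RatVal Ω F}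
    (h : redPic L K B (QuotientAddGroup.mk D) = QuotientAddGroup.mk E) :
    Divisor.degree D = Divisor.degree E := by
  rw [redPic_mk] at h
  rw [← degree_eq_of_mk_eq h, degree_redDiv]

/-- The degree is invariant under reduction. -/
theorem height_reduce (u : X.FF) (B : RatVal Ω F) (φ : X.Pt K) (a : X.Pt F) :
    height F u (Pt.map (IsScalarTower.toAlgHom k K L) φ +
      Pt.map (IsScalarTower.toAlgHom k F L) a) =
      height Ω u (φ + Pt.map (IsScalarTower.toAlgHom k Ω K) (Pt.reduce B a)) :=
  redPic_degree (redPic_cls u B φ a)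

end Reduction

/-- A constant point has height `0`. -/
theorem height_map_const (u : X.FF) (c : X.Pt F) :
    height F u (Pt.map (IsScalarTower.toAlgHom k F L) c) = 0 := by
  rw [height, pull_map_const, map_zero]

end Fermat.Agent.AVTorsion.AbVar
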