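import Fermat.Agent.FunctionField.RiemannRoch
import Fermat.Agent.ConstReduction.Constants

set_option autoImplicit false

/-!
# A reference divisor

Every function field of genus `g` has an effective divisor of degree `g` which is alone in its
class.
-/

noncomputable section

open AlgebraicCurve Fermat.Agent.ConstReduction Fermat.Agent.FunctionField

namespace Fermat.Agent.AVTorsion

variable {Ω K : Type*} [Field Ω] [Field K] [Algebra Ω K] [IsAlgClosed Ω] [IsFunctionField Ω K]

theorem exists_place_notMem (S : Finset (Place Ω K)) : ∃ q, q ∉ S := by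
  by_contra! hall
  obtain ⟨x, hx⟩ := IsFunctionField.exists_transcendental (K := Ω) (F := K)
  choose v hv using fun c : Ω => exists_place_ord_pos (transcendental_sub_const hx c)
  have hval : ∀ c, (valueAt (v c)).HasValue x c := fun c =>
    (valueAt_hasValue_iff (v c) hx c).mpr ((mem_zerosAt c).mpr (hv c))
  have hinj : Function.Injective v := fun c d h => (hval c).unique (h ▸ hval d)
  have hinf : (Set.univ : Set Ω).Infinite := Set.infinite_univ
  exact hinf (Set.Finite.of_finite_image
    (S.finite_toSet.subset (by rintro _ ⟨c, -, rfl⟩; exact hall _)) hinj.injOn)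

theorem exists_ell_sub_single {D : Divisor Ω K} (h : 0 < ell D) :
    ∃ q, ell (D - Finsupp.single q 1) + 1 = ell D := by
  classical
  obtain ⟨f, hf, hf0⟩ := exists_ne_zero_mem_of_ell_pos h
  obtain ⟨q, hq⟩ := exists_place_notMem (D.support ∪ (divFun Ω f).support)
  simp only [Finset.mem_union, not_or, Finsupp.notMem_support_iff, divFun_apply] at hq
  refine ⟨q, ?_⟩
  have hle : D - Finsupp.single q 1 ≤ D := sub_le_self _ (Finsupp.single_nonneg.mpr zero_le_one)
  obtain ⟨a, ha, hdeg⟩ := relDim_riemannRochSpace hle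
  have hl : ell (D - Finsupp.single q 1) + a = ell D :=
    ((RelDim.finite_of_bot
      ((RelDim.of_bot (K := Ω) (M := K)
        (B := riemannRochSpace (D - Finsupp.single q 1))).trans ha)).2).symm
  rw [map_sub, Divisor.degree_single, deg_eq_one] at hdeg
  rcases Nat.eq_zero_or_pos a with rfl | ha'
  · have := (mem_riemannRochSpace_iff.mp (ha.le_of_zero hf) q).resolve_left hf0
    simp [hq.1, hq.2] at this
  · omega

theorem exists_sub_ell_eq_one : ∀ (m : ℕ) (D : Divisor Ω K), ell D = m + 1 →
    ∃ D' : Divisor Ω K, Divisor.degree D' + m = Divisor.degree D ∧ ell D' = 1 := by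
  intro m
  induction m with
  | zero => exact fun D h => ⟨D, by simp, h⟩
  | succ m ih =>
    intro D h
    obtain ⟨q, hq⟩ := exists_ell_sub_single (D := D) (by omega)
    obtain ⟨D', hD', hl⟩ := ih (D - Finsupp.single q 1) (by omega)
    refine ⟨D', ?_, hl⟩
    rw [map_sub, Divisor.degree_single, deg_eq_one] at hD'
    push_cast at hD' ⊢
    omega

variable (Ω K) in
/-- An effective divisor of degree `g` with `l = 1`. -/
theorem exists_refDivisor : ∃ P₀ : Divisor Ω K,
    0 ≤ P₀ ∧ Divisor.degree P₀ = genusFF Ω K ∧ ell P₀ = 1 := by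
  obtain ⟨c, hc⟩ := exists_index_eq_zero (K := Ω) (F := K)
  obtain ⟨q₀⟩ := nonempty_place Ω K
  set d : ℤ := max c (genusFF Ω K)
  set D := Finsupp.single q₀ d
  have hd : Divisor.degree D = d := by
    rw [Divisor.degree_single, deg_eq_one, Nat.cast_one, mul_one]
  have h1 := riemann_roch D
  rw [hc D (hd ▸ le_max_left _ _), hd] at h1
  have hge : (genusFF Ω K : ℤ) ≤ d := le_max_right _ _
  obtain ⟨D', hD', hl⟩ := exists_sub_ell_eq_one (ell D - 1) D (by omega)
  obtain ⟨f, hf, hf0⟩ := exists_ne_zero_mem_of_ell_pos (D := D') (by omega)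
  refine ⟨D' + divFun Ω f, Finsupp.le_def.mpr fun v => ?_, ?_, ?_⟩
  · have := (mem_riemannRochSpace_iff.mp hf v).resolve_left hf0
    simp only [Finsupp.add_apply, divFun_apply, Finsupp.zero_apply]
    omega
  · rw [map_add, degree_divFun, add_zero]
    omega
  · rw [show D' + divFun Ω f = D' - divFun Ω f⁻¹ by rw [divFun_inv, sub_neg_eq_add],
      ell_sub_divFun D' (inv_ne_zero hf0), hl]

omit [IsAlgClosed Ω] [IsFunctionField Ω K] in
/-- The reference divisor is alone in its class. -/
theorem eq_refDivisor {P₀ E : Divisor Ω K} (hP₀ : 0 ≤ P₀) (hl : ell P₀ = 1) (hE : 0 ≤ E)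
    (h : (QuotientAddGroup.mk E : Pic Ω K) = QuotientAddGroup.mk P₀) : E = P₀ := by
  obtain ⟨f, hf0, hfD⟩ := QuotientAddGroup.eq.mp h.symm
  have hf : f ∈ riemannRochSpace P₀ := by
    refine mem_riemannRochSpace_iff.mpr fun v => Or.inr ?_
    have h1 := hfD v
    have h2 : 0 ≤ E v := Finsupp.le_def.mp hE v
    simp only [Finsupp.add_apply, Finsupp.neg_apply] at h1
    omega
  have h1 : (1 : K) ∈ riemannRochSpace P₀ := mem_riemannRochSpace_iff.mpr fun v => Or.inr (by
    have : 0 ≤ P₀ v := Finsupp.le_def.mp hP₀ v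
    simpa using this)
  obtain ⟨c, hc⟩ := (finrank_eq_one_iff_of_nonzero' (⟨1, h1⟩ : riemannRochSpace P₀)
    (fun h0 => one_ne_zero (congrArg Subtype.val h0))).mp hl ⟨f, hf⟩
  have hfc : f = algebraMap Ω K c := by
    rw [← mul_one (algebraMap Ω K c), ← Algebra.smul_def]
    exact (congrArg Subtype.val hc).symm
  ext v
  have h1 := hfD v
  simp only [Finsupp.add_apply, Finsupp.neg_apply, hfc, ord_algebraMap] at h1
  omega

end Fermat.Agent.AVTorsion
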