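import Mathlib.RingTheory.MvPolynomial.Ideal
import Mathlib.RingTheory.MvPowerSeries.NoZeroDivisors
import Mathlib.RingTheory.RegularLocalRing.Defs

set_option autoImplicit false

/-!
# Regular systems of parameters

Regular systems of parameters of local algebras with rational residue field, expressed through
polynomial approximation; such algebras are domains, and divisibility between polynomials in the
parameters can be tested on the polynomials.
-/

universe u v

namespace Fermat.Agent.AVTorsion

open IsLocalRing MvPolynomial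

variable {k : Type u} [Field k] {O : Type u} [CommRing O] [IsLocalRing O] [Algebra k O]
variable {σ : Type v}

/-- Every element is congruent to a constant. -/
def RatResidue (k O : Type u) [Field k] [CommRing O] [IsLocalRing O] [Algebra k O] : Prop :=
  ∀ o : O, ∃ c : k, o - algebraMap k O c ∈ maximalIdeal O

/-- A regular system of parameters. -/
structure IsRegSys (k : Type u) [Field k] {O : Type u} [CommRing O] [IsLocalRing O] [Algebra k O]
    {σ : Type v} (y : σ → O) : Prop where
  span : Ideal.span (Set.range y) = maximalIdeal O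
  inj : ∀ (n : ℕ) (f : MvPolynomial σ k),
    aeval y f ∈ maximalIdeal O ^ n → f ∈ idealOfVars σ k ^ n

omit [IsLocalRing O] in
theorem map_idealOfVars (y : σ → O) :
    (idealOfVars σ k).map (aeval y) = Ideal.span (Set.range y) := by
  rw [idealOfVars, Ideal.map_span, ← Set.range_comp]
  congr 2
  funext i
  simp

/-- Elements are polynomials in generators modulo any power of the maximal ideal. -/
theorem exists_approx (hres : RatResidue k O) {y : σ → O}
    (hy : Ideal.span (Set.range y) = maximalIdeal O) (n : ℕ) (o : O) :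
    ∃ f : MvPolynomial σ k, o - aeval y f ∈ maximalIdeal O ^ n := by
  induction n with
  | zero => exact ⟨0, by simp⟩
  | succ n ih =>
    obtain ⟨f, hf⟩ := ih
    suffices ∀ e ∈ maximalIdeal O ^ n, ∃ g : MvPolynomial σ k,
        e - aeval y g ∈ maximalIdeal O ^ (n + 1) by
      obtain ⟨g, hg⟩ := this _ hf
      exact ⟨f + g, by rw [map_add, ← sub_sub]; exact hg⟩
    intro e he
    have he' : e ∈ Ideal.span ((aeval y) '' ((idealOfVars σ k ^ n : Ideal (MvPolynomial σ k)) : Set (MvPolynomial σ k))) := by
      have : e ∈ (idealOfVars σ k ^ n).map (aeval y) := by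
        rw [Ideal.map_pow, map_idealOfVars, hy]; exact he
      exact this
    induction he' using Submodule.span_induction with
    | mem x hx =>
      obtain ⟨g, -, rfl⟩ := hx
      exact ⟨g, by simp⟩
    | zero => exact ⟨0, by simp⟩
    | add a b ha hb iha ihb =>
      have key : ∀ z, z ∈ Ideal.span
          ((aeval y) '' ((idealOfVars σ k ^ n : Ideal (MvPolynomial σ k)) : Set (MvPolynomial σ k))) →
          z ∈ maximalIdeal O ^ n := fun z hz => by
        have : z ∈ (idealOfVars σ k ^ n).map (aeval y) := hz
        rwa [Ideal.map_pow, map_idealOfVars, hy] at this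
      obtain ⟨g, hg⟩ := iha (key a ha)
      obtain ⟨g', hg'⟩ := ihb (key b hb)
      refine ⟨g + g', ?_⟩
      rw [map_add, add_sub_add_comm]
      exact add_mem hg hg'
    | smul r a ha iha =>
      have hmem : a ∈ maximalIdeal O ^ n := by
        have : a ∈ (idealOfVars σ k ^ n).map (aeval y) := ha
        rwa [Ideal.map_pow, map_idealOfVars, hy] at this
      obtain ⟨g, hg⟩ := iha hmem
      obtain ⟨c, hc⟩ := hres r
      refine ⟨C c * g, ?_⟩
      have h1 : (r - algebraMap k O c) * a ∈ maximalIdeal O ^ (n + 1) := by
        rw [pow_succ']; exact Ideal.mul_mem_mul hc hmem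
      have h2 := Ideal.mul_mem_left _ (algebraMap k O c) hg
      convert add_mem h1 h2 using 1
      simp only [map_mul, aeval_C, smul_eq_mul]
      ring

/-- A surjective endomorphism of a noetherian ring is injective. -/
theorem ringEndo_injective_of_surjective {R : Type*} [CommRing R] [IsNoetherianRing R]
    (f : R →+* R) (hf : Function.Surjective f) : Function.Injective f := by
  let F : ℕ → (R →+* R) := fun n => Nat.rec (RingHom.id R) (fun _ g => f.comp g) n
  have hF : ∀ n, Function.Surjective (F n) := by
    intro n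
    induction n with
    | zero => exact Function.surjective_id
    | succ n ih => exact hf.comp ih
  have hmono : Monotone fun n => RingHom.ker (F n) :=
    monotone_nat_of_le_succ fun n x hx => by
      simp only [RingHom.mem_ker] at hx ⊢
      show f (F n x) = 0
      rw [hx, map_zero]
  obtain ⟨n, hn⟩ :=
    monotone_stabilizes_iff_noetherian.mpr ‹IsNoetherianRing R› ⟨_, hmono⟩
  rw [injective_iff_map_eq_zero]
  intro x hx
  obtain ⟨z, rfl⟩ := hF n x
  have hz : z ∈ RingHom.ker (F (n + 1)) := hx
  have := hn (n + 1) (Nat.le_succ n)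
  change RingHom.ker (F n) = RingHom.ker (F (n + 1)) at this
  rw [← this] at hz
  exact hz

/-- Any generators of the right number of the maximal ideal form a regular system. -/
theorem IsRegSys.of_span (hres : RatResidue k O) [Finite σ] {y y' : σ → O}
    (hy : IsRegSys k y) (hy' : Ideal.span (Set.range y') = maximalIdeal O) :
    IsRegSys k y' := by
  refine ⟨hy', fun n f hf => ?_⟩
  have step : ∀ {w : σ → O}, Ideal.span (Set.range w) = maximalIdeal O →
      ∀ g ∈ idealOfVars σ k ^ n, aeval w g ∈ maximalIdeal O ^ n := by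
    intro w hw g hg
    have := Ideal.mem_map_of_mem (aeval w) hg
    rwa [Ideal.map_pow, map_idealOfVars, hw] at this
  let φ : (MvPolynomial σ k ⧸ idealOfVars σ k ^ n) →+* O ⧸ maximalIdeal O ^ n :=
    Ideal.quotientMap _ (aeval y).toRingHom fun g hg => step hy.span g hg
  let φ' : (MvPolynomial σ k ⧸ idealOfVars σ k ^ n) →+* O ⧸ maximalIdeal O ^ n :=
    Ideal.quotientMap _ (aeval y').toRingHom fun g hg => step hy' g hg
  have hsurj : ∀ {w : σ → O} (_ : Ideal.span (Set.range w) = maximalIdeal O)
      (h : idealOfVars σ k ^ n ≤ (maximalIdeal O ^ n).comap (aeval (R := k) w).toRingHom),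
      Function.Surjective (Ideal.quotientMap (maximalIdeal O ^ n) (aeval (R := k) w).toRingHom h) := by
    intro w hw h b
    obtain ⟨o, rfl⟩ := Ideal.Quotient.mk_surjective b
    obtain ⟨g, hg⟩ := exists_approx hres hw n o
    refine ⟨Ideal.Quotient.mk _ g, ?_⟩
    rw [Ideal.quotientMap_mk, Ideal.Quotient.eq]
    have hneg := neg_mem hg
    rwa [neg_sub] at hneg
  have hφinj : Function.Injective φ := by
    rw [injective_iff_map_eq_zero]
    intro a ha
    obtain ⟨g, rfl⟩ := Ideal.Quotient.mk_surjective a
    change Ideal.Quotient.mk (maximalIdeal O ^ n) (aeval y g) = 0 at ha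
    rw [Ideal.Quotient.eq_zero_iff_mem] at ha
    exact Ideal.Quotient.eq_zero_iff_mem.mpr (hy.inj n g ha)
  let e := RingEquiv.ofBijective φ ⟨hφinj, hsurj hy.span _⟩
  let ψ := e.symm.toRingHom.comp φ'
  have hψ : Function.Injective ψ :=
    ringEndo_injective_of_surjective ψ (e.symm.surjective.comp (hsurj hy' _))
  have : ψ (Ideal.Quotient.mk _ f) = 0 := by
    show e.symm (φ' _) = 0
    rw [map_eq_zero_iff _ e.symm.injective]
    show Ideal.Quotient.mk (maximalIdeal O ^ n) (aeval y' f) = 0
    rw [Ideal.Quotient.eq_zero_iff_mem]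
    exact hf
  exact Ideal.Quotient.eq_zero_iff_mem.mp ((map_eq_zero_iff _ hψ).mp this)

theorem mem_pow_idealOfVars_iff_le_order (n : ℕ) (f : MvPolynomial σ k) :
    f ∈ idealOfVars σ k ^ n ↔ (n : ℕ∞) ≤ MvPowerSeries.order (f : MvPowerSeries σ k) := by
  rw [mem_pow_idealOfVars_iff']
  constructor
  · intro h
    exact MvPowerSeries.nat_le_order fun d hd => by
      rw [MvPolynomial.coeff_coe]; exact h d hd
  · intro h d hd
    by_contra hne
    have h1 : MvPowerSeries.order (f : MvPowerSeries σ k) ≤ (Finsupp.degree d : ℕ) :=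
      MvPowerSeries.order_le (by rw [MvPolynomial.coeff_coe]; exact hne)
    have := h.trans h1
    rw [Nat.cast_le] at this
    omega

theorem mul_notMem_pow_idealOfVars {f g : MvPolynomial σ k} {n : ℕ}
    (hf : f ∉ idealOfVars σ k ^ n) (hg : g ∉ idealOfVars σ k ^ n) :
    f * g ∉ idealOfVars σ k ^ (n + n) := by
  rw [mem_pow_idealOfVars_iff_le_order] at *
  rw [MvPolynomial.coe_mul, MvPowerSeries.order_mul, Nat.cast_add]
  rw [not_le] at *
  exact ENat.add_lt_add hf hg

/-- A local ring with a regular system of parameters is a domain. -/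
theorem IsRegSys.isDomain (hres : RatResidue k O) [IsNoetherianRing O] {y : σ → O}
    (hy : IsRegSys k y) : IsDomain O := by
  have : NoZeroDivisors O := ⟨fun {a b} hab => by
    by_contra hne
    rw [not_or] at hne
    have key : ∀ c : O, c ≠ 0 → ∃ n, c ∉ maximalIdeal O ^ n := by
      intro c hc
      by_contra h
      push Not at h
      refine hc ?_
      have : c ∈ ⨅ n, maximalIdeal O ^ n := by simpa [Submodule.mem_iInf] using h
      rwa [Ideal.iInf_pow_eq_bot_of_isLocalRing _ (maximalIdeal.isMaximal O).ne_top,
        Submodule.mem_bot] at this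
    obtain ⟨i, hi⟩ := key a hne.1
    obtain ⟨j, hj⟩ := key b hne.2
    have hi' : a ∉ maximalIdeal O ^ (i + j) :=
      fun h => hi (Ideal.pow_le_pow_right (Nat.le_add_right _ _) h)
    have hj' : b ∉ maximalIdeal O ^ (i + j) :=
      fun h => hj (Ideal.pow_le_pow_right (Nat.le_add_left _ _) h)
    set n := i + j
    obtain ⟨F, hF⟩ := exists_approx hres hy.span (n + n) a
    obtain ⟨G, hG⟩ := exists_approx hres hy.span (n + n) b
    have step : ∀ g ∈ idealOfVars σ k ^ n, aeval y g ∈ maximalIdeal O ^ n := by
      intro g hg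
      have := Ideal.mem_map_of_mem (aeval y) hg
      rwa [Ideal.map_pow, map_idealOfVars, hy.span] at this
    have hFn : F ∉ idealOfVars σ k ^ n := fun h => hi' <| by
      have := add_mem (Ideal.pow_le_pow_right (Nat.le_add_right n n) hF) (step F h)
      simpa using this
    have hGn : G ∉ idealOfVars σ k ^ n := fun h => hj' <| by
      have := add_mem (Ideal.pow_le_pow_right (Nat.le_add_right n n) hG) (step G h)
      simpa using this
    refine mul_notMem_pow_idealOfVars hFn hGn (hy.inj (n + n) (F * G) ?_)
    have h2 := add_mem (Ideal.mul_mem_right b _ hF)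
      (Ideal.mul_mem_left _ (aeval y F) hG)
    have h3 : (a - aeval y F) * b + aeval y F * (b - aeval y G) = -(aeval y (F * G)) := by
      rw [map_mul]; linear_combination hab
    rw [h3] at h2
    exact neg_mem_iff.mp h2⟩
  exact NoZeroDivisors.to_isDomain O

/-- Krull intersection: divisibility in `O` by a prime polynomial through the origin is divisibility
of polynomials. -/
theorem IsRegSys.dvd_of_aeval_dvd (hres : RatResidue k O) [Finite σ] {y : σ → O}
    (hy : IsRegSys k y) {p r : MvPolynomial σ k} (hp : Prime p) (hp0 : p ∈ idealOfVars σ k)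
    (h : aeval y p ∣ aeval y r) : p ∣ r := by
  obtain ⟨o, ho⟩ := h
  have key : ∀ n, r ∈ Ideal.span {p} ⊔ idealOfVars σ k ^ n := by
    intro n
    obtain ⟨f, hf⟩ := exists_approx hres hy.span n o
    have : r - p * f ∈ idealOfVars σ k ^ n := hy.inj n _ <| by
      rw [map_sub, map_mul, ho, ← mul_sub]
      exact Ideal.mul_mem_left _ _ hf
    have hr := add_mem (Submodule.mem_sup_left (Ideal.mul_mem_right f _
      (Ideal.mem_span_singleton_self p))) (Submodule.mem_sup_right this (S := Ideal.span {p}))
    rwa [add_sub_cancel] at hr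
  have : (Ideal.span {p}).IsPrime := (Ideal.span_singleton_prime hp.ne_zero).mpr hp
  let π := Ideal.Quotient.mk (Ideal.span {p})
  have hI : (idealOfVars σ k).map π ≠ ⊤ := by
    intro htop
    have h1 := congrArg (Ideal.comap π) htop
    rw [Ideal.comap_map_of_surjective _ Ideal.Quotient.mk_surjective, Ideal.comap_top,
      ← RingHom.ker_eq_comap_bot, Ideal.mk_ker] at h1
    have hle : idealOfVars σ k ⊔ Ideal.span {p} ≤ idealOfVars σ k ^ 1 := by
      rw [pow_one]; exact sup_le le_rfl (by simpa [Ideal.span_le] using hp0)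
    have : (1 : MvPolynomial σ k) ∈ idealOfVars σ k ^ 1 := hle (by rw [h1]; trivial)
    rw [← C_1, C_mem_pow_idealOfVars_iff] at this
    simp at this
  have hr : π r ∈ ⨅ n, (idealOfVars σ k).map π ^ n := by
    simp only [Submodule.mem_iInf]
    intro n
    have := Ideal.mem_map_of_mem π (key n)
    rwa [Ideal.map_sup, Ideal.map_quotient_self, bot_sup_eq, Ideal.map_pow] at this
  rw [Ideal.iInf_pow_eq_bot_of_isDomain _ hI, Submodule.mem_bot] at hr
  exact Ideal.mem_span_singleton.mp (Ideal.Quotient.eq_zero_iff_mem.mp hr)

end Fermat.Agent.AVTorsion
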