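import Fermat.Agent.AVTorsion.Translate
import Fermat.Agent.AVTorsion.RefDivisor

set_option autoImplicit false

/-!
# Rigidity of the divisor class of a pullback

The class of the pullback along translates is additive in the translation.
-/

universe u

noncomputable section

open CategoryTheory AlgebraicGeometry AlgebraicCurve Fermat.Agent.ConstReduction
open Fermat.Agent.FunctionField

namespace Fermat.Agent.AVTorsion.AbVar

theorem exists_algebraMap_eq_of_isAlgebraic {F E : Type u} [Field F] [Field E] [Algebra F E]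
    [IsAlgClosed F] {x : E} (hx : IsAlgebraic F x) : ∃ c : F, algebraMap F E c = x :=
  minpoly.mem_range_of_degree_eq_one F x
    (IsAlgClosed.degree_eq_one_of_irreducible F (minpoly.irreducible hx.isIntegral))

variable {k : Type u} [Field k] [IsAlgClosed k] {X : AbVar k} {Ω K : Type u} [Field Ω] [Field K]
  [Algebra k Ω] [Algebra k K] [Algebra Ω K] [IsScalarTower k Ω K] [IsAlgClosed Ω]
  [IsFunctionField Ω K]

/-- The second difference of the classes of the translates. -/
def clsDiff (u : X.FF) (φ : X.Pt K) (a b : X.Pt Ω) : Pic Ω K :=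
  cls Ω u (φ + Pt.map (IsScalarTower.toAlgHom k Ω K) (a + b)) + cls Ω u φ -
    cls Ω u (φ + Pt.map (IsScalarTower.toAlgHom k Ω K) a) -
    cls Ω u (φ + Pt.map (IsScalarTower.toAlgHom k Ω K) b)

theorem clsDiff_zero_left (u : X.FF) (φ : X.Pt K) (b : X.Pt Ω) : clsDiff u φ 0 b = 0 := by
  rw [clsDiff, zero_add, map_zero, add_zero]; abel

theorem clsDiff_zero_right (u : X.FF) (φ : X.Pt K) (a : X.Pt Ω) : clsDiff u φ a 0 = 0 := by
  rw [clsDiff, add_zero, map_zero, add_zero]; abel

theorem redPic_clsDiff {F L : Type u} [Field F] [Field L] [Algebra k F] [Algebra k L] [Algebra Ω F]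
    [Algebra Ω L] [Algebra F L] [Algebra K L] [IsScalarTower Ω F L] [IsScalarTower Ω K L]
    [IsScalarTower k F L] [IsScalarTower k K L] [IsScalarTower k Ω F] [IsScalarTower k Ω L]
    [IsAlgClosed F] [IsFunctionField F L] [IsConstExt Ω K F L] (u : X.FF) (B : RatVal Ω F)
    (φ : X.Pt K) (a b : X.Pt F) :
    redPic L K B (clsDiff u (Pt.map (IsScalarTower.toAlgHom k K L) φ) a b) =
      clsDiff u φ (Pt.reduce B a) (Pt.reduce B b) := by
  have h0 := redPic_cls (L := L) u B φ (0 : X.Pt F)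
  simp only [map_zero, add_zero] at h0
  rw [clsDiff, clsDiff, map_sub, map_sub, map_add, redPic_cls u B, redPic_cls u B,
    redPic_cls u B, h0, map_add (Pt.reduce B)]

section Generic

variable {F₁ F₂ : Type u} [Field F₁] [Field F₂] [Algebra k F₁] [Algebra k F₂] [Algebra Ω F₁]
  [Algebra Ω F₂] [Algebra F₁ F₂] [IsScalarTower Ω F₁ F₂] [IsScalarTower k Ω F₁]
  [IsScalarTower k Ω F₂] [IsScalarTower k F₁ F₂] [IsAlgClosed F₁] [IsAlgClosed F₂]

/-- Rigidity: the generic second difference vanishes. -/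
theorem clsDiff_generic_eq_zero (u : X.FF) (φ : X.Pt K) (a : X.Pt F₂) (b : X.Pt F₁)
    (hb : ∀ b₀ : X.Pt Ω, ∃ B : RatVal Ω F₁, Pt.reduce B b = b₀)
    (ha : ∀ a₀ : X.Pt F₁, ∃ A : RatVal F₁ F₂, Pt.reduce A a = a₀) :
    clsDiff u (Pt.map (IsScalarTower.toAlgHom k K (ConstExtField Ω F₂ K)) φ) a
      (Pt.map (IsScalarTower.toAlgHom k F₁ F₂) b) = 0 := by
  classical
  set L := ConstExtField Ω F₂ K
  set b' := Pt.map (IsScalarTower.toAlgHom k F₁ F₂) b
  set φ' := Pt.map (IsScalarTower.toAlgHom k K L) φ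
  have hredb : ∀ (A : RatVal F₁ F₂) (B : RatVal Ω F₁),
      Pt.reduce (A.comp B) b' = Pt.reduce B b := fun A B => by
    rw [Pt.reduce_comp, Pt.reduce_map]
  obtain ⟨B₁, hB₁⟩ := hb 0
  obtain ⟨A₁, hA₁⟩ := ha 0
  obtain ⟨P₀, hP₀, hdeg, hl⟩ := exists_refDivisor Ω K
  -- a representative of degree zero
  set D : Divisor F₂ L :=
    pull F₂ u (φ' + Pt.map (IsScalarTower.toAlgHom k F₂ L) (a + b')) + pull F₂ u φ' -
      pull F₂ u (φ' + Pt.map (IsScalarTower.toAlgHom k F₂ L) a) -
      pull F₂ u (φ' + Pt.map (IsScalarTower.toAlgHom k F₂ L) b')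
  have hD : (QuotientAddGroup.mk D : Pic F₂ L) = clsDiff u φ' a b' := rfl
  have hD0 : Divisor.degree D = 0 := by
    have hh : ∀ c : X.Pt F₂, height F₂ u (φ' + Pt.map (IsScalarTower.toAlgHom k F₂ L) c) =
        height Ω u φ := fun c => by
      rw [height_reduce u (A₁.comp B₁), height_add_const]
    have h0 := hh 0
    rw [map_zero, add_zero] at h0
    simp only [height] at hh h0
    simp only [D, map_sub, map_add Divisor.degree, hh, h0]
    ring
  obtain ⟨G, hG, hGE⟩ : ∃ G : Divisor F₂ L, 0 ≤ G ∧ (QuotientAddGroup.mk G : Pic F₂ L) =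
      clsDiff u φ' a b' + QuotientAddGroup.mk (constDiv P₀) := by
    have h1 := riemann_roch (D + constDiv P₀)
    rw [map_add, hD0, zero_add, degree_constDiv, hdeg, genusFF_eq Ω K F₂ L] at h1
    obtain ⟨f, hf, hf0⟩ := exists_ne_zero_mem_of_ell_pos (D := D + constDiv P₀) (by omega)
    refine ⟨D + constDiv P₀ + divFun F₂ f, Finsupp.le_def.mpr fun v => ?_, ?_⟩
    · have := (mem_riemannRochSpace_iff.mp hf v).resolve_left hf0
      simp only [Finsupp.add_apply, divFun_apply, Finsupp.zero_apply] at this ⊢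
      omega
    · rw [QuotientAddGroup.mk_add, QuotientAddGroup.mk_add, hD,
        (QuotientAddGroup.eq_zero_iff _).mpr (divFun_mem_principal hf0), add_zero]
  -- specialisations killing one of the points
  have hred : ∀ B : RatVal Ω F₂, Pt.reduce B a = 0 ∨ Pt.reduce B b' = 0 → redDiv B G = P₀ := by
    intro B hB
    refine eq_refDivisor hP₀ hl (redDiv_nonneg B hG) ?_
    rw [← redPic_mk, hGE, map_add, redPic_clsDiff, redPic_mk, redDiv_constDiv]
    rcases hB with h | h <;> rw [h]
    · rw [clsDiff_zero_left, zero_add]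
    · rw [clsDiff_zero_right, zero_add]
  set B₀ := A₁.comp B₁
  have hB₀ : Pt.reduce B₀ a = 0 := by rw [Pt.reduce_comp, hA₁, map_zero]
  have hconst : ∀ P ∈ G.support, constPlace (redPlace B₀ P : Place Ω K) = P := by
    intro P hP
    have hmem : ∀ B : RatVal Ω F₂, Pt.reduce B a = 0 ∨ Pt.reduce B b' = 0 →
        redPlace B P ∈ P₀.support := by
      intro B hB
      rw [Finsupp.mem_support_iff, ← hred B hB]
      have h1 := le_redDiv_apply B (K := K) (q := redPlace B P)
        (fun Q _ => Finsupp.le_def.mp hG Q) (P := P) rfl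
      have h2 : 0 ≤ G P := Finsupp.le_def.mp hG P
      have h3 := Finsupp.mem_support_iff.mp hP
      omega
    set p := (redPlace B₀ P : Place Ω K)
    -- functions regular on the reference divisor take their constant values at `P`
    have hval : ∀ h : K, (∀ q ∈ P₀.support, h ∈ q.toValuationSubring) → ∃ c₀ : Ω,
        (valueAt P).HasValue (algebraMap K L h) (algebraMap Ω F₂ c₀) ∧
          (valueAt p).HasValue h c₀ := by
      intro h hh
      obtain ⟨c, hc, -⟩ := (redPlace_mem_iff B₀ P).mp (hh _ (hmem B₀ (Or.inl hB₀)))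
      have hint : ∀ B : RatVal Ω F₂, Pt.reduce B a = 0 ∨ Pt.reduce B b' = 0 →
          c ∈ B.ring := fun B hB => by
        obtain ⟨c', hc', hc''⟩ := (redPlace_mem_iff B P).mp (hh _ (hmem B hB))
        rwa [hc.unique hc']
      have h1 : ¬ Transcendental F₁ c := fun htr => by
        obtain ⟨A, hA⟩ := exists_ratVal_transcendental (transcendental_inv htr) 0
        have h0 : (A.comp B₁).HasValue c⁻¹ 0 :=
          RatVal.hasValue_comp.mpr ⟨0, hA, B₁.hasValue_zero⟩
        have hcB := hint (A.comp B₁) (Or.inr (by rw [hredb, hB₁]))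
        exact (RatVal.hasValue_zero_iff (inv_ne_zero (transcendental_ne_zero htr))).mp h0
          (by rwa [inv_inv])
      obtain ⟨c₁, rfl⟩ := exists_algebraMap_eq_of_isAlgebraic (F := F₁)
        (not_not.mp h1)
      have h2 : ¬ Transcendental Ω c₁ := fun htr => by
        obtain ⟨B, hB⟩ := exists_ratVal_transcendental (transcendental_inv htr) 0
        have h0 : (A₁.comp B).HasValue (algebraMap F₁ F₂ c₁)⁻¹ 0 :=
          RatVal.hasValue_comp.mpr ⟨c₁⁻¹, by rw [← map_inv₀]; exact A₁.hasValue_algebraMap _, hB⟩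
        have hcB := hint (A₁.comp B) (Or.inl (by rw [Pt.reduce_comp, hA₁, map_zero]))
        exact (RatVal.hasValue_zero_iff (inv_ne_zero ((map_ne_zero _).mpr
          (transcendental_ne_zero htr)))).mp h0 (by rwa [inv_inv])
      obtain ⟨c₀, rfl⟩ := exists_algebraMap_eq_of_isAlgebraic (F := Ω)
        (not_not.mp h2)
      rw [← IsScalarTower.algebraMap_apply] at hc
      exact ⟨c₀, hc, (valueAt_redPlace_hasValue_iff B₀ P).mpr
        ⟨_, hc, B₀.hasValue_algebraMap c₀⟩⟩
    have hreg : ∀ t : K, t ∈ p.toValuationSubring → ∃ c₀ : Ω,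
        (valueAt P).HasValue (algebraMap K L t) (algebraMap Ω F₂ c₀) ∧
          (valueAt p).HasValue t c₀ := by
      intro t ht
      rcases eq_or_ne t 0 with rfl | ht0
      · exact hval 0 fun q _ => zero_mem _
      obtain ⟨h₂, h₂0, h₂o⟩ := exists_ord_eq_of_finset P₀.support (fun v => max 0 (-v.ord t))
        ⟨p, hmem B₀ (Or.inl hB₀)⟩
      have hregular : ∀ (x : K), x ≠ 0 → ∀ v : Place Ω K, 0 ≤ v.ord x →
          x ∈ v.toValuationSubring := fun x hx v hv =>
        (mem_iff_adicValuation_le_one v).mpr (by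
          rw [v.adicValuation_eq_exp_neg_ord hx, ← WithZero.exp_zero, WithZero.exp_le_exp]; omega)
      obtain ⟨c₂, hc₂P, hc₂⟩ := hval h₂ fun v hv =>
        hregular h₂ h₂0 v (by rw [h₂o v hv]; exact le_max_left _ _)
      obtain ⟨c₁, hc₁P, hc₁⟩ := hval (t * h₂) fun v hv =>
        hregular _ (mul_ne_zero ht0 h₂0) v (by
          rw [v.ord_mul ht0 h₂0, h₂o v hv]
          have := le_max_right 0 (-v.ord t)
          omega)
      have hc₂0 : c₂ ≠ 0 := by
        rintro rfl
        rw [valueAt_hasValue_zero_iff p h₂0, h₂o p (hmem B₀ (Or.inl hB₀))] at hc₂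
        have := ord_nonneg_of_mem p ht
        omega
      refine ⟨c₁ * c₂⁻¹, ?_, ?_⟩
      · have := hc₁P.mul (hc₂P.inv ((map_ne_zero _).mpr hc₂0))
        rwa [map_mul, mul_inv_cancel_right₀ ((map_ne_zero _).mpr h₂0), ← map_inv₀, ← map_mul]
          at this
      · have := hc₁.mul (hc₂.inv hc₂0)
        rwa [mul_inv_cancel_right₀ h₂0] at this
    refine ((?_ : IsConstPlace P p).eq_constPlace).symm
    ext t
    rw [ValuationSubring.mem_comap]
    refine ⟨fun htP => ?_, fun ht => ?_⟩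
    · by_contra ht
      obtain ⟨c₀, hP', hp'⟩ := hreg t⁻¹ ((p.toValuationSubring.mem_or_inv_mem t).resolve_left ht)
      have ht0 : t ≠ 0 := fun h => ht (h ▸ zero_mem _)
      rw [hp'.unique (RatVal.hasValue_inv_zero (A := valueAt p) ht), map_zero, map_inv₀] at hP'
      exact (RatVal.hasValue_zero_iff (inv_ne_zero ((map_ne_zero _).mpr ht0))).mp hP'
        (by rwa [inv_inv])
    · obtain ⟨c₀, hc₀, -⟩ := hreg t ht
      exact hc₀.mem
  have hGc : G = constDiv P₀ := by
    rw [← hred B₀ (Or.inl hB₀), redDiv_apply, constDiv_apply, ← Finsupp.mapDomain_comp]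
    exact Finsupp.mapDomain_id.symm.trans
      (Finsupp.mapDomain_congr fun P hP => (hconst P hP).symm)
  rw [hGc] at hGE
  exact add_right_cancel (hGE.symm.trans (zero_add _).symm)

/-- Rigidity, specialised. -/
theorem clsDiff_eq_zero_of_generic (u : X.FF) (φ : X.Pt K) (a : X.Pt F₂) (b : X.Pt F₁)
    (hb : ∀ b₀ : X.Pt Ω, ∃ B : RatVal Ω F₁, Pt.reduce B b = b₀)
    (ha : ∀ a₀ : X.Pt F₁, ∃ A : RatVal F₁ F₂, Pt.reduce A a = a₀) (a₀ b₀ : X.Pt Ω) :
    clsDiff u φ a₀ b₀ = 0 := by
  obtain ⟨A, hA⟩ := ha (Pt.map (IsScalarTower.toAlgHom k Ω F₁) a₀)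
  obtain ⟨B, hB⟩ := hb b₀
  have h' := congrArg (redPic (ConstExtField Ω F₂ K) K (A.comp B))
    (clsDiff_generic_eq_zero u φ a b hb ha)
  rwa [redPic_clsDiff, Pt.reduce_comp, Pt.reduce_comp, hA, Pt.reduce_map, Pt.reduce_map, hB,
    map_zero] at h'

end Generic

/-- Rigidity: the class of the translates is additive in the translation. -/
theorem clsDiff_eq_zero (u : X.FF) (φ : X.Pt K) (a b : X.Pt Ω) : clsDiff u φ a b = 0 :=
  clsDiff_eq_zero_of_generic (F₁ := X.GenField Ω) (F₂ := X.GenField (X.GenField Ω)) u φ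
    (X.genPt (X.GenField Ω)) (X.genPt Ω) (X.exists_ratVal_genPt Ω)
    (X.exists_ratVal_genPt (X.GenField Ω)) a b

/-- The class of the pullback along translates is additive in the translation. -/
theorem cls_add_add (u : X.FF) (φ : X.Pt K) (a b : X.Pt Ω) :
    cls Ω u (φ + Pt.map (IsScalarTower.toAlgHom k Ω K) a +
        Pt.map (IsScalarTower.toAlgHom k Ω K) b) + cls Ω u φ =
      cls Ω u (φ + Pt.map (IsScalarTower.toAlgHom k Ω K) a) +
        cls Ω u (φ + Pt.map (IsScalarTower.toAlgHom k Ω K) b) := by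
  have h := clsDiff_eq_zero u φ a b
  rw [clsDiff, map_add, ← add_assoc, sub_sub, sub_eq_zero] at h
  exact h

end Fermat.Agent.AVTorsion.AbVar
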