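import Fermat.Agent.AVTorsion.Pullback
import Fermat.Agent.ConstReduction.Exists

set_option autoImplicit false

/-!
# Invariance of heights under constant translations

Constant extensions as algebras over the base field, and invariance of the degree of the pullback
under translation by a constant point.
-/

universe u

noncomputable section

open CategoryTheory AlgebraicGeometry AlgebraicCurve Fermat.Agent.ConstReduction
open Fermat.Agent.FunctionField

namespace Fermat.Agent.AVTorsion.AbVar

variable {k Ω K F : Type u} [Field k] [Field Ω] [Field K] [Field F] [Algebra k Ω] [Algebra k K]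
  [Algebra k F] [Algebra Ω K] [Algebra Ω F] [IsScalarTower k Ω K] [IsScalarTower k Ω F]
  [IsAlgClosed Ω]

instance constExtAlgebra : Algebra k (ConstExtField Ω F K) :=
  ((algebraMap Ω (ConstExtField Ω F K)).comp (algebraMap k Ω)).toAlgebra

instance constExt_isScalarTower_base : IsScalarTower k Ω (ConstExtField Ω F K) :=
  IsScalarTower.of_algebraMap_eq fun _ => rfl

instance constExt_isScalarTower_left : IsScalarTower k F (ConstExtField Ω F K) :=
  IsScalarTower.of_algebraMap_eq fun c => by
    rw [IsScalarTower.algebraMap_apply k Ω (ConstExtField Ω F K),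
      IsScalarTower.algebraMap_apply Ω F (ConstExtField Ω F K),
      ← IsScalarTower.algebraMap_apply k Ω F]

instance constExt_isScalarTower_right : IsScalarTower k K (ConstExtField Ω F K) :=
  IsScalarTower.of_algebraMap_eq fun c => by
    rw [IsScalarTower.algebraMap_apply k Ω (ConstExtField Ω F K),
      IsScalarTower.algebraMap_apply Ω K (ConstExtField Ω F K),
      ← IsScalarTower.algebraMap_apply k Ω K]

instance constExt_isFunctionField [IsAlgClosed F] [IsFunctionField Ω K] :
    IsFunctionField F (ConstExtField Ω F K) := by
  obtain ⟨B⟩ := nonempty_ratVal (Ω := Ω) (F := F)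
  exact isFunctionField (K := K) B

variable [IsAlgClosed k] {X : AbVar k} [IsFunctionField Ω K]

/-- The degree is invariant under constant translations. -/
theorem height_add_const (u : X.FF) (φ : X.Pt K) (a : X.Pt Ω) :
    height Ω u (φ + Pt.map (IsScalarTower.toAlgHom k Ω K) a) = height Ω u φ := by
  let F := X.GenField Ω
  let L := ConstExtField Ω F K
  have key : ∀ a₀ : X.Pt Ω, height Ω u (φ + Pt.map (IsScalarTower.toAlgHom k Ω K) a₀) =
      height F u (Pt.map (IsScalarTower.toAlgHom k K L) φ +
        Pt.map (IsScalarTower.toAlgHom k F L) (X.genPt Ω)) := fun a₀ => by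
    obtain ⟨B, hB⟩ := X.exists_ratVal_genPt Ω a₀
    rw [height_reduce u B, hB]
  have h := (key a).trans (key 0).symm
  rwa [map_zero, add_zero] at h

end Fermat.Agent.AVTorsion.AbVar
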